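import Mathlib

set_option autoImplicit false
set_option linter.style.haveILetI false

/-!
# Hilbert 90 for locally constant cocycles on arbitrary subgroups of a Galois group
-/

namespace Fermat.Agent.H12

variable {K L : Type*} [Field K] [Field L] [Algebra K L]

/-- Hilbert 90 (Poincaré series). `c` is a cocycle on a subgroup `H` of `Gal(L/K)` with values in
`Lˣ`, trivial on the elements of `H` fixing a finite extension `E`. -/
theorem hilbert90 (H : Subgroup (L ≃ₐ[K] L)) (c : (L ≃ₐ[K] L) → L)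
    (hc0 : ∀ σ ∈ H, c σ ≠ 0) (hc : ∀ σ ∈ H, ∀ τ ∈ H, c (σ * τ) = c σ * σ (c τ))
    (E : IntermediateField K L) [FiniteDimensional K E]
    (hE : ∀ σ ∈ H, (∀ x ∈ E, σ x = x) → c σ = 1) :
    ∃ u : L, u ≠ 0 ∧ ∀ σ ∈ H, σ u = c σ * u := by
  classical
  -- restriction to `E`
  let res : (L ≃ₐ[K] L) → (E →ₐ[K] L) := fun σ => (σ : L →ₐ[K] L).comp E.val
  haveI : Finite (E →ₐ[K] L) := inferInstance
  letI : Fintype (E →ₐ[K] L) := Fintype.ofFinite _
  have hres_apply : ∀ (σ : L ≃ₐ[K] L) (x : E), res σ x = σ x := fun σ x => rfl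
  have hwd : ∀ σ ∈ H, ∀ τ ∈ H, res σ = res τ → c σ = c τ := by
    intro σ hσ τ hτ hστ
    have h1 : ∀ x ∈ E, (σ⁻¹ * τ) x = x := by
      intro x hx
      have : τ x = σ x := by
        have := congrArg (fun f => f ⟨x, hx⟩) hστ
        exact this.symm
      change σ⁻¹ (τ x) = x
      rw [this]
      exact σ.symm_apply_apply x
    have h2 := hE (σ⁻¹ * τ) (mul_mem (inv_mem hσ) hτ) h1
    have h3 := hc σ hσ (σ⁻¹ * τ) (mul_mem (inv_mem hσ) hτ)
    rw [mul_inv_cancel_left, h2, map_one, mul_one] at h3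
    exact h3.symm
  let S : Finset (E →ₐ[K] L) := Finset.univ.filter (fun f => ∃ σ ∈ H, res σ = f)
  have hS : ∀ f, f ∈ S ↔ ∃ σ ∈ H, res σ = f := fun f => by simp [S]
  -- choice of a representative
  let rep : (E →ₐ[K] L) → (L ≃ₐ[K] L) := fun f =>
    if h : ∃ σ ∈ H, res σ = f then h.choose else 1
  have hrep : ∀ f ∈ S, rep f ∈ H ∧ res (rep f) = f := by
    intro f hf
    rw [hS] at hf
    simp only [rep, dif_pos hf]
    exact hf.choose_spec
  have hone : (1 : L ≃ₐ[K] L) ∈ H := one_mem H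
  have h1S : res 1 ∈ S := (hS _).mpr ⟨1, hone, rfl⟩
  -- independence of characters
  obtain ⟨x, hx⟩ : ∃ x : E, ∑ f ∈ S, c (rep f) * f x ≠ 0 := by
    by_contra hcon
    push Not at hcon
    have hli : LinearIndependent L (fun f : E →ₐ[K] L => (f : E → L)) := by
      have h0 := linearIndependent_monoidHom E L
      have h1 : Function.Injective (fun f : E →ₐ[K] L => (f : E →* L)) := by
        intro f g hfg
        ext x
        exact congrArg (fun h : E →* L => h x) hfg
      exact h0.comp (fun f : E →ₐ[K] L => (f : E →* L)) h1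
    rw [linearIndependent_iff'] at hli
    have h2 := hli S (fun f => c (rep f)) (by
      ext x
      simpa [Finset.sum_apply] using hcon x) (res 1) h1S
    exact hc0 _ (hrep _ h1S).1 h2
  set b : L := ∑ f ∈ S, c (rep f) * f x with hb
  have key : ∀ τ ∈ H, c τ * τ b = b := by
    intro τ hτ
    have e1 : c τ * τ b = ∑ f ∈ S, c (τ * rep f) * (τ (f x)) := by
      rw [hb, map_sum, Finset.mul_sum]
      refine Finset.sum_congr rfl fun f hf => ?_
      rw [map_mul, hc τ hτ _ (hrep f hf).1, mul_assoc]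
    rw [e1]
    -- reindex by f ↦ τ ∘ f
    refine Finset.sum_bij' (fun f _ => (τ : L →ₐ[K] L).comp f)
      (fun f _ => ((τ⁻¹ : L ≃ₐ[K] L) : L →ₐ[K] L).comp f) ?_ ?_ ?_ ?_ ?_
    · intro f hf
      rw [hS]
      exact ⟨τ * rep f, mul_mem hτ (hrep f hf).1, by
        ext y
        have := congrArg (fun g => g y) (hrep f hf).2
        simp only [hres_apply] at this
        change τ (rep f y) = τ (f y)
        rw [this]⟩
    · intro f hf
      rw [hS]
      exact ⟨τ⁻¹ * rep f, mul_mem (inv_mem hτ) (hrep f hf).1, by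
        ext y
        have := congrArg (fun g => g y) (hrep f hf).2
        simp only [hres_apply] at this
        change τ⁻¹ (rep f y) = τ⁻¹ (f y)
        rw [this]⟩
    · intro f hf
      ext y
      exact τ.symm_apply_apply (f y)
    · intro f hf
      ext y
      exact τ.apply_symm_apply (f y)
    · intro f hf
      have hmem : (τ : L →ₐ[K] L).comp f ∈ S := by
        rw [hS]
        exact ⟨τ * rep f, mul_mem hτ (hrep f hf).1, by
          ext y
          have := congrArg (fun g => g y) (hrep f hf).2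
          simp only [hres_apply] at this
          change τ (rep f y) = τ (f y)
          rw [this]⟩
      have h3 : c (τ * rep f) = c (rep ((τ : L →ₐ[K] L).comp f)) := by
        apply hwd _ (mul_mem hτ (hrep f hf).1) _ (hrep _ hmem).1
        rw [(hrep _ hmem).2]
        ext y
        have := congrArg (fun g => g y) (hrep f hf).2
        simp only [hres_apply] at this
        change τ (rep f y) = τ (f y)
        rw [this]
      rw [h3]
      rfl
  refine ⟨b⁻¹, inv_ne_zero hx, fun τ hτ => ?_⟩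
  have hτb : τ b ≠ 0 := by
    intro h
    have := key τ hτ
    rw [h, mul_zero] at this
    exact hx this.symm
  rw [map_inv₀]
  have h4 := key τ hτ
  field_simp
  rw [mul_comm] at h4
  exact h4.symm

/-- Hilbert 90, topological form. -/
theorem hilbert90' [Algebra.IsAlgebraic K L] (H : Subgroup (L ≃ₐ[K] L)) (c : (L ≃ₐ[K] L) → L)
    (hc0 : ∀ σ ∈ H, c σ ≠ 0) (hc : ∀ σ ∈ H, ∀ τ ∈ H, c (σ * τ) = c σ * σ (c τ))
    (U : Subgroup (L ≃ₐ[K] L)) (hU : IsOpen (U : Set (L ≃ₐ[K] L)))
    (hE : ∀ σ ∈ H, σ ∈ U → c σ = 1) :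
    ∃ u : L, u ≠ 0 ∧ ∀ σ ∈ H, σ u = c σ * u := by
  have h1 : (U : Set (L ≃ₐ[K] L)) ∈ nhds (1 : L ≃ₐ[K] L) := hU.mem_nhds (one_mem U)
  obtain ⟨E, hEfin, hEU⟩ := (krullTopology_mem_nhds_one_iff K L _).mp h1
  haveI : FiniteDimensional K E := hEfin
  refine hilbert90 H c hc0 hc E fun σ hσ hfix => hE σ hσ (hEU ?_)
  rw [SetLike.mem_coe, IntermediateField.mem_fixingSubgroup_iff]
  exact hfix

end Fermat.Agent.H12
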