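import Mathlib
import Fermat.Agent.H09.Minkowski
import Fermat.Agent.H09.Inertia

set_option autoImplicit false
set_option linter.style.haveILetI false

/-!
# The inertia field is unramified: valuations of elements fixed by inertia
-/

namespace Fermat.Agent.H12

open scoped NumberField Pointwise
open Fermat.Agent.H05 Fermat.Agent.H09

/-- In the inertia field of a prime `P` over `ℓ` the prime below `P` is unramified. -/
theorem ramificationIdx_inertia (F : Type*) [Field F] [NumberField F] [IsGalois ℚ F]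
    {ℓ : ℕ} (hℓ : ℓ.Prime) (P : Ideal (𝓞 F)) [P.IsPrime] (hP : (ℓ : 𝓞 F) ∈ P)
    (E : IntermediateField ℚ F)
    (hE : E = FixedPoints.intermediateField (P.inertia Gal(F/ℚ))) :
    (P.under (𝓞 E)).ramificationIdx ℤ = 1 := by
  haveI : IsGaloisGroup (P.inertia Gal(F/ℚ)) E F :=
    IsGaloisGroup.of_fixedPoints_eq Gal(F/ℚ) ℚ F _ E hE.symm
  haveI : IsGaloisGroup (P.inertia Gal(F/ℚ)) (𝓞 E) (𝓞 F) :=
    IsGaloisGroup.of_isFractionRing (P.inertia Gal(F/ℚ)) (𝓞 E) (𝓞 F) E F
  haveI : IsGaloisGroup Gal(F/ℚ) ℤ (𝓞 F) := inferInstance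
  haveI : PerfectField (P.under ℤ).ResidueField := inferInstance
  have hP0 : P ≠ ⊥ := by
    rintro rfl
    rw [Ideal.mem_bot, Nat.cast_eq_zero] at hP
    exact hℓ.ne_zero hP
  have hQ0 : P.under (𝓞 E) ≠ ⊥ := by
    intro h
    have : (ℓ : 𝓞 E) ∈ P.under (𝓞 E) := by
      rw [Ideal.mem_comap, map_natCast]; exact hP
    rw [h, Ideal.mem_bot, Nat.cast_eq_zero] at this
    exact hℓ.ne_zero this
  haveI : (P.under (𝓞 E)).IsMaximal := Ideal.IsPrime.isMaximal inferInstance hQ0
  haveI : Finite (𝓞 E ⧸ P.under (𝓞 E)) := Ideal.finiteQuotientOfFreeOfNeBot _ hQ0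
  haveI : PerfectField (P.under (𝓞 E)).ResidueField := by
    letI := Ideal.Quotient.field (P.under (𝓞 E))
    haveI : Finite (P.under (𝓞 E)).ResidueField := by
      apply Finite.of_surjective (algebraMap (𝓞 E ⧸ P.under (𝓞 E)) (P.under (𝓞 E)).ResidueField)
      exact (Ideal.bijective_algebraMap_quotient_residueField _).surjective
    infer_instance
  have h1 := Ideal.card_inertia_eq_ramificationIdxIn (G := Gal(F/ℚ)) (P.under ℤ) P
  have h2 := Ideal.card_inertia_eq_ramificationIdxIn (G := P.inertia Gal(F/ℚ)) (P.under (𝓞 E)) P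
  rw [Ideal.ramificationIdxIn_eq_ramificationIdx (P.under ℤ) P Gal(F/ℚ)] at h1
  rw [Ideal.ramificationIdxIn_eq_ramificationIdx (P.under (𝓞 E)) P (P.inertia Gal(F/ℚ))] at h2
  have h3 : Nat.card (P.inertia (P.inertia Gal(F/ℚ))) = Nat.card (P.inertia Gal(F/ℚ)) := by
    have : P.inertia (P.inertia Gal(F/ℚ)) = ⊤ := by
      rw [Subgroup.eq_top_iff']
      intro x
      exact x.2
    rw [this]
    simp
  have h4 := Ideal.ramificationIdx_tower (R := ℤ) (P.under (𝓞 E)) P
  rw [← h1, ← h2, h3] at h4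
  have h5 : 0 < Nat.card (P.inertia Gal(F/ℚ)) := Nat.card_pos
  exact Nat.eq_of_mul_eq_mul_right h5 (by rw [one_mul]; exact h4.symm)

/-- Local structure at an unramified prime. -/
theorem exists_mul_eq_pow_mul {R : Type*} [CommRing R] [IsDedekindDomain R] (Q : Ideal R)
    [Q.IsPrime] (hQ0 : Q ≠ ⊥) (ℓ : R)
    (hℓ : (Ideal.span {ℓ}).map (algebraMap R (Localization.AtPrime Q)) =
      IsLocalRing.maximalIdeal (Localization.AtPrime Q)) (a : R) (ha : a ≠ 0) :
    ∃ n : ℕ, ∃ c d : R, c ∉ Q ∧ d ∉ Q ∧ a * c = ℓ ^ n * d := by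
  let S := Localization.AtPrime Q
  haveI : IsDomain S := IsLocalization.isDomain_localization (Ideal.primeCompl_le_nonZeroDivisors Q)
  haveI : IsDiscreteValuationRing S :=
    IsLocalization.AtPrime.isDiscreteValuationRing_of_dedekind_domain R hQ0 S
  have hinj : Function.Injective (algebraMap R S) :=
    IsLocalization.injective S (Ideal.primeCompl_le_nonZeroDivisors Q)
  have hirr : Irreducible (algebraMap R S ℓ) := by
    rw [IsDiscreteValuationRing.irreducible_iff_uniformizer, ← hℓ, Ideal.map_span,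
      Set.image_singleton]
  have ha' : algebraMap R S a ≠ 0 := by
    intro h
    exact ha (hinj (by rw [h, map_zero]))
  obtain ⟨n, hn⟩ := IsDiscreteValuationRing.associated_pow_irreducible ha' hirr
  obtain ⟨u, hu⟩ := hn
  obtain ⟨⟨x, s⟩, hxs⟩ := IsLocalization.surj Q.primeCompl (u : S)
  simp only at hxs
  have hs : (s : R) ∉ Q := s.2
  have hx : x ∉ Q := by
    intro hx
    have h1 : IsUnit (algebraMap R S x) := by
      rw [← hxs]
      exact u.isUnit.mul (IsLocalization.map_units S s)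
    rw [IsLocalization.AtPrime.isUnit_to_map_iff S Q] at h1
    exact h1 hx
  refine ⟨n, x, s, hx, hs, hinj ?_⟩
  rw [map_mul, map_mul, map_pow, ← hxs, ← mul_assoc, hu]

/-- Elements of a Galois number field fixed by the inertia group of `P ∣ ℓ` are powers of `ℓ`
times `P`-units. -/
theorem exists_zpow_of_fixed (F : Type*) [Field F] [NumberField F] [IsGalois ℚ F]
    {ℓ : ℕ} (hℓ : ℓ.Prime) (P : Ideal (𝓞 F)) [P.IsPrime] (hP : (ℓ : 𝓞 F) ∈ P)
    (z : F) (hz0 : z ≠ 0) (hz : ∀ τ ∈ P.inertia Gal(F/ℚ), τ z = z) :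
    ∃ n : ℤ, ∃ c d : 𝓞 F, c ∉ P ∧ d ∉ P ∧ z * (c : F) = (ℓ : F) ^ n * (d : F) := by
  let E : IntermediateField ℚ F := FixedPoints.intermediateField (P.inertia Gal(F/ℚ))
  have hzE : z ∈ E := fun τ => hz τ.1 τ.2
  have h1 := ramificationIdx_inertia F hℓ P hP E rfl
  set Q := P.under (𝓞 E) with hQ
  have hℓQ : (ℓ : 𝓞 E) ∈ Q := by
    rw [hQ, Ideal.mem_comap, map_natCast]; exact hP
  have hQ0 : Q ≠ ⊥ := by
    intro h
    rw [h, Ideal.mem_bot, Nat.cast_eq_zero] at hℓQ
    exact hℓ.ne_zero hℓQ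
  have hQZ : Q.under ℤ = Ideal.span {(ℓ : ℤ)} := by
    have hmax : (Ideal.span {(ℓ : ℤ)}).IsMaximal :=
      PrincipalIdealRing.isMaximal_of_irreducible (Nat.prime_iff_prime_int.mp hℓ).irreducible
    refine (hmax.eq_of_le ?_ ?_).symm
    · exact Ideal.IsPrime.ne_top inferInstance
    · rw [Ideal.span_le, Set.singleton_subset_iff, SetLike.mem_coe, Ideal.mem_comap]
      simpa using hℓQ
  rw [Ideal.ramificationIdx_def, ENat.toNat_eq_iff_eq_natCast, Nat.cast_one,
    Module.length_eq_one_iff, isSimpleModule_iff_isCoatom, ← Ideal.isMaximal_def,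
    IsLocalRing.isMaximal_iff, hQZ] at h1
  have h2 : (Ideal.span {(ℓ : 𝓞 E)}).map (algebraMap (𝓞 E) (Localization.AtPrime Q)) =
      IsLocalRing.maximalIdeal (Localization.AtPrime Q) := by
    rw [← h1, Ideal.map_span, Ideal.map_span, Set.image_singleton, Set.image_singleton]
    simp
  obtain ⟨a, b, hb, hab⟩ := IsFractionRing.div_surjective (A := 𝓞 E) (⟨z, hzE⟩ : E)
  have hb0 : b ≠ 0 := nonZeroDivisors.ne_zero hb
  have ha0 : a ≠ 0 := by
    rintro rfl
    rw [map_zero, zero_div] at hab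
    exact hz0 (congrArg Subtype.val hab.symm)
  obtain ⟨n, c, d, hc, hd, h3⟩ := exists_mul_eq_pow_mul Q hQ0 (ℓ : 𝓞 E) h2 a ha0
  obtain ⟨m, c', d', hc', hd', h4⟩ := exists_mul_eq_pow_mul Q hQ0 (ℓ : 𝓞 E) h2 b hb0
  let ι := algebraMap (𝓞 E) (𝓞 F)
  have hι : ∀ x : 𝓞 E, ((ι x : 𝓞 F) : F) = ((x : E) : F) := fun x => rfl
  have hmem : ∀ x : 𝓞 E, ι x ∈ P ↔ x ∈ Q := fun x => Iff.rfl
  refine ⟨(n : ℤ) - m, ι (c * d'), ι (c' * d), ?_, ?_, ?_⟩
  · rw [hmem]
    intro h
    exact (Ideal.IsPrime.mem_or_mem inferInstance h).elim hc hd'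
  · rw [hmem]
    intro h
    exact (Ideal.IsPrime.mem_or_mem inferInstance h).elim hc' hd
  · have hℓF : (ℓ : F) ≠ 0 := Nat.cast_ne_zero.mpr hℓ.ne_zero
    have ez : z = ((a : E) : F) / ((b : E) : F) := by
      have := congrArg Subtype.val hab
      exact this.symm
    have hbF : ((b : E) : F) ≠ 0 := by
      intro h
      apply hb0
      have : (b : E) = 0 := Subtype.ext h
      exact_mod_cast this
    have e3 : ((a : E) : F) * ((c : E) : F) = (ℓ : F) ^ n * ((d : E) : F) := by
      have := congrArg (fun x : 𝓞 E => ((x : E) : F)) h3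
      simpa using this
    have e4 : ((b : E) : F) * ((c' : E) : F) = (ℓ : F) ^ m * ((d' : E) : F) := by
      have := congrArg (fun x : 𝓞 E => ((x : E) : F)) h4
      simpa using this
    rw [ez, hι, hι, zpow_sub₀ hℓF, zpow_natCast, zpow_natCast]
    push_cast
    field_simp
    linear_combination ((ℓ : F) ^ m * ((d' : E) : F)) * e3 - ((ℓ : F) ^ n * ((d : E) : F)) * e4

/-- The value group of the inertia field is generated by the valuation of `ℓ`. -/
theorem exists_valuation_eq_zpow {L : Type*} [Field L] [CharZero L] [IsGalois ℚ L]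
    {A : ValuationSubring L} {ℓ : ℕ} (hℓ : ℓ.Prime)
    (hA : A.LiesOverPrime ℓ) (z : L) (hz0 : z ≠ 0)
    (hfix : ∀ σ ∈ A.inertiaSubgroupIn ℚ, σ z = z) :
    ∃ n : ℤ, A.valuation z = A.valuation (ℓ : L) ^ n := by
  classical
  -- a finite Galois extension containing `z`
  obtain ⟨F, hFfin, hFgal, hzF⟩ : ∃ F : IntermediateField ℚ L, FiniteDimensional ℚ F ∧
      Normal ℚ F ∧ z ∈ F := by
    haveI : FiniteDimensional ℚ (IntermediateField.adjoin ℚ {z}) :=
      IntermediateField.adjoin.finiteDimensional (Algebra.IsIntegral.isIntegral z)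
    refine ⟨IntermediateField.normalClosure ℚ (IntermediateField.adjoin ℚ {z}) L,
      inferInstance, ?_, ?_⟩
    · convert normalClosure.normal ℚ (IntermediateField.adjoin ℚ {z}) L
      exact Subsingleton.elim _ _
    exact IntermediateField.le_normalClosure _
      (IntermediateField.subset_adjoin ℚ {z} (Set.mem_singleton z))
  haveI := hFfin
  haveI hgal : IsGalois ℚ F := { }
  haveI : NumberField F := { to_charZero := inferInstance, to_finiteDimensional := hFfin }
  let H : Subgroup (L ≃ₐ[ℚ] L) := F.fixingSubgroup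
  haveI hHn : H.Normal := by
    have hgal0 : @IsGalois ℚ _ F _ (IntermediateField.algebra' F) := by
      convert hgal
      exact Subsingleton.elim _ _
    exact (InfiniteGalois.normal_iff_isGalois F).mpr hgal0
  have hcl : IsClosed (H : Set (L ≃ₐ[ℚ] L)) := InfiniteGalois.fixingSubgroup_isClosed F
  let ι : 𝓞 F →+* integralClosure ℤ L :=
    { toFun := fun x => ⟨((x : F) : L), by
        have := x.2
        rw [mem_integralClosure_iff] at this ⊢
        exact this.map (F.val.restrictScalars ℤ)⟩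
      map_one' := rfl
      map_mul' := fun _ _ => rfl
      map_zero' := rfl
      map_add' := fun _ _ => rfl }
  have hPmem : ∀ x : 𝓞 F, x ∈ (center A).comap ι ↔ ((x : F) : L) ∈ A.nonunits := by
    intro x
    rw [Ideal.mem_comap, mem_center_iff]
    exact Iff.rfl
  have hkey := exists_zpow_of_fixed F hℓ ((center A).comap ι) (by
    rw [Ideal.mem_comap, map_natCast]
    exact natCast_mem_center hA) ⟨z, hzF⟩ (by
      intro h
      exact hz0 (congrArg Subtype.val h)) (by
    intro τ hτ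
    let σ : L ≃ₐ[ℚ] L := τ.liftNormal L
    have hσF : ∀ x : F, σ (x : L) = ((τ x : F) : L) := fun x => AlgEquiv.liftNormal_commutes τ _ x
    obtain ⟨h, hhH, hh⟩ := exists_inertia_lift hℓ hA H hcl σ (by
      intro x hx
      have hxF : (x : L) ∈ F := by
        have h1 : (x : L) ∈ IntermediateField.fixedField H := by
          rw [IntermediateField.mem_fixedField_iff]
          intro g hg
          exact congrArg Subtype.val (hx g hg)
        rwa [InfiniteGalois.fixedField_fixingSubgroup] at h1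
      have hxint : IsIntegral ℤ (⟨(x : L), hxF⟩ : F) := by
        have h2 : IsIntegral ℤ (x : L) := x.2
        exact (isIntegral_algHom_iff (F.val.restrictScalars ℤ) F.val.injective).mp h2
      let x' : 𝓞 F := ⟨⟨(x : L), hxF⟩, hxint⟩
      have h3 := hτ x'
      have h3' : τ • x' - x' ∈ (center A).comap ι := h3
      rw [Ideal.mem_comap, map_sub] at h3'
      have e1 : ι x' = x := rfl
      have e2 : ι (τ • x') = σ • x := by
        apply Subtype.ext
        change ((algebraMap (𝓞 F) F (τ • x') : F) : L) = σ (x : L)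
        rw [hσF ⟨(x : L), hxF⟩]
        congr 1
      rwa [e1, e2] at h3')
    have h4 := hfix _ hh
    apply Subtype.ext
    rw [← hσF ⟨z, hzF⟩]
    have h5 : h (σ z) = σ z := by
      have h6 : σ z ∈ F := by
        rw [hσF ⟨z, hzF⟩]
        exact (τ ⟨z, hzF⟩).2
      exact (IntermediateField.mem_fixingSubgroup_iff F h).mp hhH _ h6
    change σ z = z
    rw [← h5]
    exact h4)
  obtain ⟨n, c, d, hc, hd, hcd⟩ := hkey
  have hunit : ∀ x : 𝓞 F, x ∉ (center A).comap ι → A.valuation ((x : F) : L) = 1 := by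
    intro x hx
    rw [hPmem, ValuationSubring.mem_nonunits_iff, not_lt] at hx
    have hxA : ((x : F) : L) ∈ A := mem_of_isIntegral A (ι x).2
    rw [← A.valuation_le_one_iff] at hxA
    exact le_antisymm hxA hx
  refine ⟨n, ?_⟩
  have h6 : z * ((c : F) : L) = (ℓ : L) ^ n * ((d : F) : L) := by
    have h8 := congrArg (algebraMap F L) hcd
    rw [map_mul, map_mul, map_zpow₀, map_natCast] at h8
    exact h8
  have h7 := congrArg A.valuation h6
  rw [map_mul, map_mul, hunit c hc, hunit d hd, mul_one, mul_one, map_zpow₀] at h7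
  exact h7

end Fermat.Agent.H12
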