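import Mathlib
import Fermat.Agent.H12.Hilbert90
import Fermat.Agent.H12.InertiaVal
import Fermat.Agent.H05_Cyclo

set_option autoImplicit false
set_option linter.style.haveILetI false
set_option linter.unusedSectionVars false

/-!
# Tame inertia: finite `r`-group quotients of the inertia group at `q ≠ r` are cyclic
-/

namespace Fermat.Agent.H12

open Fermat.Agent.H05 Fermat.Agent.H09

variable {L : Type*} [Field L] [CharZero L] [IsGalois ℚ L]

/-- Kummer theory over the inertia field: characters of the inertia group of order prime to `q`. -/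
theorem inertia_char_eq {A : ValuationSubring L} {q : ℕ} (hq : q.Prime) (hA : A.LiesOverPrime q)
    {m : ℕ} (hm : ¬ q ∣ m) (π : L) (hπ : π ^ m = (q : L)) (f : (L ≃ₐ[ℚ] L) → L)
    (hf1 : ∀ σ ∈ A.inertiaSubgroupIn ℚ, f σ ^ m = 1)
    (hf2 : ∀ σ ∈ A.inertiaSubgroupIn ℚ, ∀ τ ∈ A.inertiaSubgroupIn ℚ, f (σ * τ) = f σ * f τ)
    (U : Subgroup (L ≃ₐ[ℚ] L)) (hU : IsOpen (U : Set (L ≃ₐ[ℚ] L)))
    (hfU : ∀ σ ∈ A.inertiaSubgroupIn ℚ, σ ∈ U → f σ = 1) :
    ∃ n : ℤ, ∀ σ ∈ A.inertiaSubgroupIn ℚ, f σ = (σ π / π) ^ n := by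
  have hm0 : m ≠ 0 := by rintro rfl; exact hm (dvd_zero _)
  have hq0 : (q : L) ≠ 0 := Nat.cast_ne_zero.mpr hq.ne_zero
  have hπ0 : π ≠ 0 := by
    rintro rfl
    rw [zero_pow hm0] at hπ
    exact hq0 hπ.symm
  haveI : Algebra.IsAlgebraic ℚ L := inferInstance
  obtain ⟨u, hu0, hu⟩ := hilbert90' (A.inertiaSubgroupIn ℚ) f
    (fun σ hσ h0 => by
      have := hf1 σ hσ
      rw [h0, zero_pow hm0] at this
      exact zero_ne_one this)
    (fun σ hσ τ hτ => by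
      rw [hf2 σ hσ τ hτ, inertia_apply_rootOfUnity hq hA hm hσ (hf1 τ hτ)]) U hU hfU
  have hum : ∀ σ ∈ A.inertiaSubgroupIn ℚ, σ (u ^ m) = u ^ m := by
    intro σ hσ
    rw [map_pow, hu σ hσ, mul_pow, hf1 σ hσ, one_mul]
  obtain ⟨n, hn⟩ := exists_valuation_eq_zpow hq hA (u ^ m) (pow_ne_zero m hu0) hum
  set w : L := u / π ^ n with hw
  have hw0 : w ≠ 0 := div_ne_zero hu0 (zpow_ne_zero n hπ0)
  have hwm : w ^ m = u ^ m / (q : L) ^ n := by
    rw [hw, div_pow, ← hπ, ← zpow_natCast (π ^ n) m, ← zpow_mul, mul_comm n (m : ℤ), zpow_mul,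
      zpow_natCast]
  have hqv : A.valuation (q : L) ≠ 0 := (map_ne_zero _).mpr hq0
  have hvw : A.valuation w = 1 := by
    have h1 : A.valuation w ^ m = 1 := by
      rw [← map_pow, hwm, map_div₀, hn, map_zpow₀, div_self]
      exact zpow_ne_zero n hqv
    exact (pow_eq_one_iff.mp h1).resolve_right hm0
  have hwfix : ∀ σ ∈ A.inertiaSubgroupIn ℚ, σ w = w := by
    intro σ hσ
    have h1 : A.valuation (σ w - w) < 1 := val_sub_lt_one_of_inertia hσ hvw.le
    have h2 : (σ w / w) ^ m = 1 := by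
      rw [div_pow, ← map_pow, hwm, map_div₀, hum σ hσ, map_zpow₀, map_natCast, div_self]
      exact div_ne_zero (pow_ne_zero m hu0) (zpow_ne_zero n hq0)
    have h3 : σ w / w = 1 := by
      apply rootsOfUnity_eq_of_residue_eq hq hA hm h2 (one_pow m)
      rw [ValuationSubring.mem_nonunits_iff]
      have : σ w / w - 1 = (σ w - w) / w := by field_simp
      rw [this, map_div₀, hvw, div_one]
      exact h1
    exact (div_eq_one_iff_eq hw0).mp h3
  refine ⟨n, fun σ hσ => ?_⟩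
  have h1 : u = w * π ^ n := by rw [hw, div_mul_cancel₀]; exact zpow_ne_zero n hπ0
  have h2 := hu σ hσ
  rw [h1, map_mul, hwfix σ hσ, map_zpow₀] at h2
  rw [div_zpow, eq_div_iff (zpow_ne_zero n hπ0)]
  exact mul_left_cancel₀ hw0 (by rw [h2]; ring)

/-- There is a tame inertia element moving a given `r`-th root of `q`. -/
theorem exists_inertia_move {A : ValuationSubring L} {q : ℕ} (hq : q.Prime)
    (hA : A.LiesOverPrime q) {r : ℕ} (hr : 1 < r) (π : L) (hπ : π ^ r = (q : L)) :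
    ∃ τ ∈ A.inertiaSubgroupIn ℚ, τ π ≠ π := by
  by_contra hcon
  push Not at hcon
  have hq0 : (q : L) ≠ 0 := Nat.cast_ne_zero.mpr hq.ne_zero
  have hr0 : r ≠ 0 := by omega
  have hπ0 : π ≠ 0 := by
    rintro rfl
    rw [zero_pow hr0] at hπ
    exact hq0 hπ.symm
  obtain ⟨n, hn⟩ := exists_valuation_eq_zpow hq hA π hπ0 hcon
  have hlt : A.valuation (q : L) < 1 := val_natCast_lt_one hA
  have hv0 : 0 < A.valuation (q : L) := by
    rw [zero_lt_iff]; exact (map_ne_zero _).mpr hq0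
  have h1 : A.valuation (q : L) ^ ((r : ℤ) * n) = A.valuation (q : L) ^ (1 : ℤ) := by
    rw [zpow_one]
    conv_rhs => rw [← hπ, map_pow, hn]
    rw [← zpow_natCast, ← zpow_mul, mul_comm]
  have h2 : (r : ℤ) * n = 1 := (zpow_right_strictAnti₀ hv0 hlt).injective h1
  have h3 : (r : ℤ) ∣ 1 := ⟨n, h2.symm⟩
  have h4 : (r : ℤ) ≤ 1 := Int.le_of_dvd one_pos h3
  omega

section Finite

variable [IsAlgClosed L]

/-- Two facts on homomorphisms from the inertia group at `q` to finite commutative `r`-groups. -/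
theorem inertia_comm_aux {A : ValuationSubring L} {q : ℕ} (hq : q.Prime)
    (hA : A.LiesOverPrime q) {r : ℕ} (hr : r.Prime) (hrq : r ≠ q) (π₁ : L)
    (hπ₁ : π₁ ^ r = (q : L)) (τ : L ≃ₐ[ℚ] L) (hτI : τ ∈ A.inertiaSubgroupIn ℚ) (hτ : τ π₁ ≠ π₁)
    {C : Type*} [CommGroup C] [Finite C] (hC : IsPGroup r C)
    (ρ : ↥(A.inertiaSubgroupIn ℚ) →* C)
    (U : Subgroup (L ≃ₐ[ℚ] L)) (hU : IsOpen (U : Set (L ≃ₐ[ℚ] L)))
    (hρU : ∀ σ : ↥(A.inertiaSubgroupIn ℚ), (σ : L ≃ₐ[ℚ] L) ∈ U → ρ σ = 1) :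
    (ρ ⟨τ, hτI⟩ = 1 → ∀ σ, ρ σ = 1) ∧
    (∀ φ : L ≃ₐ[ℚ] L, A.IsFrobeniusAt φ q → ∀ (σ : L ≃ₐ[ℚ] L) (hσ : σ ∈ A.inertiaSubgroupIn ℚ)
      (hσ' : φ * σ * φ⁻¹ ∈ A.inertiaSubgroupIn ℚ), ρ ⟨φ * σ * φ⁻¹, hσ'⟩ = ρ ⟨σ, hσ⟩ ^ q) := by
  classical
  haveI : Fact r.Prime := ⟨hr⟩
  obtain ⟨k, hk⟩ : ∃ k : ℕ, Nat.card C = r ^ k := IsPGroup.iff_card.mp hC
  set m := r ^ k with hm
  have hm0 : m ≠ 0 := pow_ne_zero k hr.ne_zero
  have hqm : ¬ q ∣ m := by
    intro h
    exact hrq ((Nat.prime_dvd_prime_iff_eq hq hr).mp (hq.dvd_of_dvd_pow h)).symm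
  have hq0 : (q : L) ≠ 0 := Nat.cast_ne_zero.mpr hq.ne_zero
  obtain ⟨π, hπ⟩ : ∃ π : L, π ^ m = (q : L) := IsAlgClosed.exists_pow_nat_eq _ (Nat.pos_of_ne_zero hm0)
  have hπ0 : π ≠ 0 := by
    rintro rfl
    rw [zero_pow hm0] at hπ
    exact hq0 hπ.symm
  haveI : NeZero ((Monoid.exponent C : ℕ) : L) :=
    ⟨Nat.cast_ne_zero.mpr (Monoid.exponent_ne_zero_of_finite)⟩
  haveI : HasEnoughRootsOfUnity L (Monoid.exponent C) := inferInstance
  -- characters
  have hchar : ∀ χ : C →* Lˣ, ∃ n : ℤ, ∀ (σ : L ≃ₐ[ℚ] L) (hσ : σ ∈ A.inertiaSubgroupIn ℚ),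
      ((χ (ρ ⟨σ, hσ⟩) : Lˣ) : L) = (σ π / π) ^ n := by
    intro χ
    let f : (L ≃ₐ[ℚ] L) → L := fun σ =>
      if hσ : σ ∈ A.inertiaSubgroupIn ℚ then ((χ (ρ ⟨σ, hσ⟩) : Lˣ) : L) else 1
    have hf : ∀ (σ : L ≃ₐ[ℚ] L) (hσ : σ ∈ A.inertiaSubgroupIn ℚ),
        f σ = ((χ (ρ ⟨σ, hσ⟩) : Lˣ) : L) := fun σ hσ => dif_pos hσ
    obtain ⟨n, hn⟩ := inertia_char_eq hq hA hqm π hπ f
      (fun σ hσ => by
        rw [hf σ hσ, ← Units.val_pow_eq_pow_val, ← map_pow, ← hk, pow_card_eq_one', map_one,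
          Units.val_one])
      (fun σ hσ τ' hτ' => by
        rw [hf σ hσ, hf τ' hτ', hf _ (mul_mem hσ hτ'), ← Units.val_mul, ← map_mul, ← map_mul]
        rfl) U hU
      (fun σ hσ hσU => by
        rw [hf σ hσ, hρU ⟨σ, hσ⟩ hσU, map_one, Units.val_one])
    exact ⟨n, fun σ hσ => by rw [← hn σ hσ, hf σ hσ]⟩
  have hroot : ∀ σ : L ≃ₐ[ℚ] L, (σ π / π) ^ m = 1 := by
    intro σ
    rw [div_pow, ← map_pow, hπ, map_natCast, div_self hq0]
  constructor
  · intro hρτ σ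
    rw [← CommGroup.forall_apply_eq_apply_iff C (M := L)]
    intro χ
    obtain ⟨n, hn⟩ := hchar χ
    apply Units.ext
    rw [map_one, Units.val_one, hn σ.1 σ.2]
    rcases Nat.eq_zero_or_pos k with hk0 | hk0
    · have := hroot σ.1
      rw [hm, hk0, pow_zero, pow_one] at this
      rw [this, one_zpow]
    have h1 : (τ π / π) ^ n = 1 := by rw [← hn τ hτI, hρτ, map_one, Units.val_one]
    have h2 : orderOf (τ π / π) = r ^ k := by
      obtain ⟨k', rfl⟩ : ∃ k', k = k' + 1 := ⟨k - 1, by omega⟩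
      apply orderOf_eq_prime_pow
      · intro h
        rw [div_pow, ← map_pow] at h
        set π' := π ^ r ^ k' with hπ'
        have hπ'0 : π' ≠ 0 := pow_ne_zero _ hπ0
        have h3 : τ π' = π' := (div_eq_one_iff_eq hπ'0).mp h
        have h4 : (π₁ / π') ^ r = 1 := by
          rw [div_pow, hπ₁, hπ', ← pow_mul, ← pow_succ, ← hm, hπ, div_self hq0]
        have h5 : τ (π₁ / π') = π₁ / π' :=
          inertia_apply_rootOfUnity hq hA (m := r)
            (fun h => hrq ((Nat.prime_dvd_prime_iff_eq hq hr).mp h).symm) hτI h4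
        rw [map_div₀, h3] at h5
        exact hτ ((div_left_inj' hπ'0).mp h5)
      · exact hroot τ
    have h3 : (m : ℤ) ∣ n := by
      have hx0 : τ π / π ≠ 0 := by
        intro h0
        have := hroot τ
        rw [h0, zero_pow hm0] at this
        exact zero_ne_one this
      have h4 : orderOf (Units.mk0 _ hx0) = m := by
        rw [← orderOf_units, Units.val_mk0, h2]
      rw [← h4]
      apply orderOf_dvd_iff_zpow_eq_one.mpr
      apply Units.ext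
      rw [Units.val_zpow_eq_zpow_val, Units.val_mk0, h1, Units.val_one]
    obtain ⟨c, hc⟩ := h3
    rw [hc, zpow_mul, zpow_natCast, hroot, one_zpow]
  · intro φ hφ σ hσ hσ'
    rw [← CommGroup.forall_apply_eq_apply_iff C (M := L)]
    intro χ
    obtain ⟨n, hn⟩ := hchar χ
    apply Units.ext
    rw [map_pow, Units.val_pow_eq_pow_val, hn _ hσ', hn _ hσ]
    have h1 : (φ * σ * φ⁻¹) π / π = (σ π / π) ^ q := by
      set ε : L := φ⁻¹ π / π with hε
      have hεm : ε ^ m = 1 := hroot φ⁻¹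
      have e1 : φ⁻¹ π = ε * π := by rw [hε, div_mul_cancel₀ _ hπ0]
      have e2 : σ ε = ε := inertia_apply_rootOfUnity hq hA hqm hσ hεm
      set ζ : L := σ π / π with hζ
      have hζm : ζ ^ m = 1 := hroot σ
      have e3 : σ π = ζ * π := by rw [hζ, div_mul_cancel₀ _ hπ0]
      have e4 : φ ζ = ζ ^ q := Fermat.Agent.H05.IsFrobeniusAt.apply_rootOfUnity hq hA hqm hφ hζm
      have e5 : (φ * σ * φ⁻¹) π = ζ ^ q * π := by
        change φ (σ (φ⁻¹ π)) = _
        rw [e1, map_mul, e2, e3, ← mul_assoc, mul_comm ε ζ, mul_assoc, map_mul, e4, ← e1]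
        congr 1
        exact φ.apply_symm_apply π
      rw [e5, mul_div_assoc, div_self hπ0, mul_one]
    rw [h1, ← zpow_natCast, ← zpow_mul, mul_comm (q : ℤ) n, zpow_mul, zpow_natCast]

/-- The image of the inertia group at `q` under a homomorphism to a finite group whose values have
`r`-power order is generated by the image of `τ`, and Frobenius acts on it by `q`-th power. -/
theorem tame_inertia {A : ValuationSubring L} {q : ℕ} (hq : q.Prime)
    (hA : A.LiesOverPrime q) {r : ℕ} (hr : r.Prime) (hrq : r ≠ q) (π₁ : L)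
    (hπ₁ : π₁ ^ r = (q : L)) (τ : L ≃ₐ[ℚ] L) (hτI : τ ∈ A.inertiaSubgroupIn ℚ) (hτ : τ π₁ ≠ π₁)
    {P : Type*} [Group P] [Finite P]
    (ρ : ↥(A.inertiaSubgroupIn ℚ) →* P) (hP : ∀ σ, ∃ k : ℕ, ρ σ ^ r ^ k = 1)
    (U : Subgroup (L ≃ₐ[ℚ] L)) (hU : IsOpen (U : Set (L ≃ₐ[ℚ] L)))
    (hρU : ∀ σ : ↥(A.inertiaSubgroupIn ℚ), (σ : L ≃ₐ[ℚ] L) ∈ U → ρ σ = 1) :
    (∀ σ, ∃ n : ℤ, ρ σ = ρ ⟨τ, hτI⟩ ^ n) ∧
    (∀ φ : L ≃ₐ[ℚ] L, A.IsFrobeniusAt φ q → ∀ (σ : L ≃ₐ[ℚ] L) (hσ : σ ∈ A.inertiaSubgroupIn ℚ)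
      (hσ' : φ * σ * φ⁻¹ ∈ A.inertiaSubgroupIn ℚ), ρ ⟨φ * σ * φ⁻¹, hσ'⟩ = ρ ⟨σ, hσ⟩ ^ q) := by
  classical
  haveI : Fact r.Prime := ⟨hr⟩
  let Q := ρ.range
  have hQ : IsPGroup r Q := by
    rintro ⟨_, σ, rfl⟩
    obtain ⟨k, hk⟩ := hP σ
    exact ⟨k, Subtype.ext (by simpa using hk)⟩
  haveI : Group.IsNilpotent Q := hQ.isNilpotent
  let t : Q := ρ.rangeRestrict ⟨τ, hτI⟩
  have htop : Subgroup.zpowers t = ⊤ := by
    by_contra hne
    haveI : IsCoatomic (Subgroup Q) := inferInstance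
    obtain ⟨M, hM, htM⟩ := (eq_top_or_exists_le_coatom (Subgroup.zpowers t)).resolve_left hne
    haveI : M.Normal := 
      Subgroup.NormalizerCondition.normal_of_coatom M Group.normalizerCondition_of_isNilpotent hM
    obtain ⟨x, hx⟩ : ∃ x : Q, x ∉ M := by
      by_contra hcon
      push Not at hcon
      exact hM.1 (eq_top_iff.mpr fun y _ => hcon y)
    -- the quotient is cyclic
    have hcyc : IsCyclic (Q ⧸ M) := by
      refine ⟨⟨QuotientGroup.mk x, fun y => ?_⟩⟩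
      have h1 : (Subgroup.zpowers (QuotientGroup.mk x : Q ⧸ M)).comap (QuotientGroup.mk' M) = ⊤ := by
        apply hM.2
        refine lt_of_le_of_ne ?_ ?_
        · intro z hz
          rw [Subgroup.mem_comap, QuotientGroup.mk'_apply, (QuotientGroup.eq_one_iff z).mpr hz]
          exact one_mem _
        · intro h
          apply hx
          rw [h, Subgroup.mem_comap]
          exact Subgroup.mem_zpowers _
      obtain ⟨z, rfl⟩ := QuotientGroup.mk_surjective y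
      have h2 : z ∈ (Subgroup.zpowers (QuotientGroup.mk x : Q ⧸ M)).comap (QuotientGroup.mk' M) := by
        rw [h1]; trivial
      exact h2
    letI : CommGroup (Q ⧸ M) := IsCyclic.commGroup
    have hC : IsPGroup r (Q ⧸ M) := hQ.to_quotient M
    have h3 := (inertia_comm_aux hq hA hr hrq π₁ hπ₁ τ hτI hτ hC
      ((QuotientGroup.mk' M).comp ρ.rangeRestrict) U hU (by
        intro σ hσ
        have : ρ.rangeRestrict σ = 1 := Subtype.ext (hρU σ hσ)
        rw [MonoidHom.comp_apply, this, map_one])).1 (by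
        rw [MonoidHom.comp_apply, QuotientGroup.mk'_apply, QuotientGroup.eq_one_iff]
        exact htM (Subgroup.mem_zpowers t))
    obtain ⟨σ, hσ⟩ := ρ.rangeRestrict_surjective x
    have h4 := h3 σ
    rw [MonoidHom.comp_apply, QuotientGroup.mk'_apply, QuotientGroup.eq_one_iff, hσ] at h4
    exact hx h4
  have hcycQ : IsCyclic Q := ⟨⟨t, fun y => by
    have : y ∈ Subgroup.zpowers t := by rw [htop]; trivial
    exact this⟩⟩
  constructor
  · intro σ
    have : ρ.rangeRestrict σ ∈ Subgroup.zpowers t := by rw [htop]; trivial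
    obtain ⟨n, hn⟩ := Subgroup.mem_zpowers_iff.mp this
    refine ⟨n, ?_⟩
    have := congrArg Subtype.val hn
    simpa [t] using this.symm
  · intro φ hφ σ hσ hσ'
    letI : CommGroup Q := IsCyclic.commGroup
    have h3 := (inertia_comm_aux hq hA hr hrq π₁ hπ₁ τ hτI hτ hQ
      ρ.rangeRestrict U hU (by
        intro σ hσ
        exact Subtype.ext (hρU σ hσ))).2 φ hφ σ hσ hσ'
    exact congrArg Subtype.val h3

end Finite

end Fermat.Agent.H12
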