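import Mathlib
import Fermat.Agent.H09.Minkowski
import Fermat.Agent.H09.Inertia

set_option autoImplicit false
set_option linter.style.haveILetI false
set_option linter.unusedSectionVars false

namespace Fermat.Agent.H12

open Fermat.Agent.H05 Fermat.Agent.H09
open scoped Pointwise

variable {L : Type*} [Field L] [CharZero L] [IsGalois ℚ L]

theorem mem_inertia_iff {A : ValuationSubring L} {ℓ : ℕ} (hℓ : ℓ.Prime)
    (hA : A.LiesOverPrime ℓ) (σ : L ≃ₐ[ℚ] L) :
    σ ∈ A.inertiaSubgroupIn ℚ ↔ ∀ z : integralClosure ℤ L, σ • z - z ∈ center A := by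
  haveI : Algebra.IsAlgebraic ℚ L := inferInstance
  constructor
  · intro hσ z
    rw [mem_center_iff]
    have h1 := val_sub_lt_one_of_inertia hσ (z := (z : L))
      ((A.valuation_le_one_iff _).mpr (mem_of_isIntegral A z.2))
    rw [ValuationSubring.mem_nonunits_iff]
    exact h1
  · intro h
    have h1 : center (σ • A) = center A := by
      ext z
      rw [mem_center_smul_iff]
      have h2 := h (σ⁻¹ • z)
      rw [smul_inv_smul] at h2
      constructor
      · intro h3
        have := Ideal.add_mem _ h2 h3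
        rwa [sub_add_cancel] at this
      · intro h3
        have := Ideal.sub_mem _ h3 h2
        rwa [sub_sub_cancel] at this
    have h2 : σ • A = A := eq_of_center_eq hℓ ((liesOverPrime_smul_iff σ A ℓ).mpr hA) h1
    rw [mem_inertiaSubgroupIn_iff]
    refine ⟨h2, fun x => ?_⟩
    obtain ⟨z, rfl⟩ := residue_toA_surjective hℓ hA x
    have h3 := h z
    have h4 : IsLocalRing.residue A (toA A (σ • z)) = IsLocalRing.residue A (toA A z) := by
      rw [← sub_eq_zero, ← map_sub, ← map_sub, IsLocalRing.residue_eq_zero_iff]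
      exact h3
    exact h4

theorem mem_inertia_conj {A : ValuationSubring L} {ℓ : ℕ} (hℓ : ℓ.Prime)
    (hA : A.LiesOverPrime ℓ) (g σ : L ≃ₐ[ℚ] L) :
    σ ∈ (g • A).inertiaSubgroupIn ℚ ↔ g⁻¹ * σ * g ∈ A.inertiaSubgroupIn ℚ := by
  rw [mem_inertia_iff hℓ ((liesOverPrime_smul_iff g A ℓ).mpr hA), mem_inertia_iff hℓ hA]
  constructor
  · intro h z
    have h1 := h (g • z)
    rw [mem_center_smul_iff] at h1
    rw [smul_sub, inv_smul_smul] at h1
    rwa [mul_smul, mul_smul]
  · intro h z
    rw [mem_center_smul_iff]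
    have h1 := h (g⁻¹ • z)
    rw [mul_smul, mul_smul, smul_inv_smul] at h1
    rwa [smul_sub]

/-- Minkowski's theorem with one place over each prime. -/
theorem minkowski' (H : Subgroup (L ≃ₐ[ℚ] L)) [H.Normal]
    (hH : IsOpen (H : Set (L ≃ₐ[ℚ] L)))
    (hI : ∀ p : ℕ, p.Prime → ∃ A : ValuationSubring L, A.LiesOverPrime p ∧
      A.inertiaSubgroupIn ℚ ≤ H) : H = ⊤ := by
  refine minkowski H hH fun p hp A hA σ hσ => ?_
  obtain ⟨A', hA', hI'⟩ := hI p hp
  obtain ⟨g, rfl⟩ := exists_smul_eq hp hA' hA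
  rw [mem_inertia_conj hp hA'] at hσ
  have h1 := hI' hσ
  have h2 := Subgroup.Normal.conj_mem inferInstance _ h1 g
  have h3 : g * (g⁻¹ * σ * g) * g⁻¹ = σ := by group
  rwa [h3] at h2

end Fermat.Agent.H12
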