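import Mathlib
import Fermat.Agent.FF.T2
import Fermat.Agent.H05.HeckeInputs
import Fermat.Agent.Descent.FinLevel

set_option autoImplicit false
set_option linter.style.haveILetI false
set_option linter.unusedSectionVars false

/-!
# Stabilisers of places and divisor classes are open
-/

noncomputable section

namespace Fermat.Agent.H12

open ModularCurve AlgebraicCurve

local notation "Qb" => AlgebraicClosure ℚ
local notation "Γq" => AlgebraicClosure ℚ ≃ₐ[ℚ] AlgebraicClosure ℚ

variable (F₀ : IntermediateField ℚ (LaurentSeries ℚ))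

theorem exists_open_fun (f : laurentBaseChange Qb F₀) :
    ∃ U : Subgroup Γq, IsOpen (U : Set Γq) ∧ ∀ σ ∈ U, arithmeticGalois F₀ σ • f = f := by
  obtain ⟨E, hE, hE'⟩ := Fermat.Agent.H26.exists_fixing_field F₀ f f.2
  refine ⟨E.fixingSubgroup, IntermediateField.fixingSubgroup_isOpen E, fun σ hσ => ?_⟩
  rw [IntermediateField.mem_fixingSubgroup_iff] at hσ
  exact Subtype.ext (hE' σ hσ)

variable [HasPrincipalDivisors Qb (laurentBaseChange Qb F₀)]

theorem exists_open_place (v : Place Qb (laurentBaseChange Qb F₀)) :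
    ∃ U : Subgroup Γq, IsOpen (U : Set Γq) ∧ ∀ σ ∈ U, arithmeticGalois F₀ σ • v = v := by
  classical
  obtain ⟨f, hf, hfv⟩ := Fermat.Agent.FF.exists_ord_eq {v} (fun _ => (1 : ℤ))
  obtain ⟨D, hD, -⟩ := HasPrincipalDivisors.exists_divisor (K := Qb) f hf
  obtain ⟨g, hg, hgv⟩ := Fermat.Agent.FF.exists_ord_eq (insert v D.support)
    (fun w => if w = v then (1 : ℤ) else 0)
  obtain ⟨U, hU, hU'⟩ := exists_open_fun F₀ f
  obtain ⟨V, hV, hV'⟩ := exists_open_fun F₀ g
  refine ⟨U ⊓ V, hU.inter hV, fun σ hσ => ?_⟩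
  have h1 : (arithmeticGalois F₀ σ • v).ord f = 1 := by
    have h2 := SemilinearAut.ord_smul (arithmeticGalois F₀ σ) v f
    rw [hU' σ hσ.1] at h2
    rw [h2]
    exact hfv v (Finset.mem_singleton_self v)
  have h2 : (arithmeticGalois F₀ σ • v).ord g = 1 := by
    have h3 := SemilinearAut.ord_smul (arithmeticGalois F₀ σ) v g
    rw [hV' σ hσ.2] at h3
    rw [h3, hgv v (Finset.mem_insert_self v _), if_pos rfl]
  have h3 : arithmeticGalois F₀ σ • v ∈ insert v D.support := by
    apply Finset.mem_insert_of_mem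
    rw [Finsupp.mem_support_iff, hD, h1]
    exact one_ne_zero
  have h4 := hgv _ h3
  by_contra hne
  rw [if_neg hne, h2] at h4
  exact one_ne_zero h4

theorem exists_open_divisor (D : Divisor Qb (laurentBaseChange Qb F₀)) :
    ∃ U : Subgroup Γq, IsOpen (U : Set Γq) ∧ ∀ σ ∈ U, arithmeticGalois F₀ σ • D = D := by
  classical
  choose U hU hU' using exists_open_place F₀
  refine ⟨⨅ w : D.support, U w, ?_, fun σ hσ => ?_⟩
  · rw [Subgroup.coe_iInf]
    exact isOpen_iInter_of_finite fun w => hU w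
  · rw [Subgroup.mem_iInf] at hσ
    conv_rhs => rw [← Finsupp.sum_single D]
    conv_lhs => rw [← Finsupp.sum_single D]
    rw [Finsupp.sum, Finset.smul_sum]
    refine Finset.sum_congr rfl fun w hw => ?_
    rw [SemilinearAut.smul_single, hU' w σ (hσ ⟨w, hw⟩)]

theorem exists_open_pic0 (x : Pic0 Qb (laurentBaseChange Qb F₀)) :
    ∃ U : Subgroup Γq, IsOpen (U : Set Γq) ∧ ∀ σ ∈ U, σ • x = x := by
  obtain ⟨D, rfl⟩ := Pic0.mk_surjective x
  obtain ⟨U, hU, hU'⟩ := exists_open_divisor F₀ (D : Divisor Qb (laurentBaseChange Qb F₀))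
  refine ⟨U, hU, fun σ hσ => ?_⟩
  rw [galois_smul_pic0_def, SemilinearAut.pic0_smul_mk]
  congr 1
  exact Subtype.ext (hU' σ hσ)

end Fermat.Agent.H12
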