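import Mathlib
import Fermat.Agent.Q.Residue

set_option autoImplicit false
set_option linter.style.haveILetI false
set_option linter.unusedSectionVars false

/-!
# Residually independent families and reduction of norms
-/

noncomputable section

namespace Fermat.Agent.H12

open ModularCurve HahnSeries Fermat.Agent.Q

local notation "kk" => IsLocalRing.ResidueField

variable {K : Type*} [Field K] {A : ValuationSubring K}

theorem residue_eq_zero_of_inv_notMem {d : K} (hd : d⁻¹ ∉ A) :
    ∃ h : d ∈ A, IsLocalRing.residue A ⟨d, h⟩ = 0 := by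
  have hdA : d ∈ A := (A.mem_or_inv_mem d).resolve_right hd
  refine ⟨hdA, ?_⟩
  rw [IsLocalRing.residue_eq_zero_iff, ← ValuationSubring.coe_mem_nonunits_iff]
  by_contra hcon
  exact hd ((H05.not_mem_nonunits_iff A hdA).mp hcon).1

/-- Common scaling of a finite family. -/
theorem exists_scale {ι : Type*} [Fintype ι] {c : ι → LaurentSeries K}
    (hc : ∀ i, c i ≠ 0 → ∃ d : K, d ≠ 0 ∧ ∃ v : LaurentSeries (kk A), v ≠ 0 ∧
      Red A (HahnSeries.C d * c i) v)
    (hne : ∃ i, c i ≠ 0) : ∃ d : K, d ≠ 0 ∧ ∃ v : ι → LaurentSeries (kk A),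
      (∀ i, Red A (HahnSeries.C d * c i) (v i)) ∧ ∃ i, v i ≠ 0 := by
  classical
  have hex : ∀ i, ∃ d : K, d ≠ 0 ∧ (c i ≠ 0 → ∃ v : LaurentSeries (kk A), v ≠ 0 ∧
      Red A (HahnSeries.C d * c i) v) := by
    intro i
    by_cases hi : c i = 0
    · exact ⟨1, one_ne_zero, fun h => absurd hi h⟩
    · obtain ⟨d, hd, v, hv, hr⟩ := hc i hi
      exact ⟨d, hd, fun _ => ⟨v, hv, hr⟩⟩
  choose d hd hdv using hex
  set s : Finset ι := Finset.univ.filter fun i => c i ≠ 0 with hs
  have hsne : s.Nonempty := by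
    obtain ⟨i, hi⟩ := hne
    exact ⟨i, by simp [hs, hi]⟩
  obtain ⟨i₀, hi₀, hmin⟩ := Finset.exists_min_image s (fun i => A.valuation (d i)) hsne
  have hi₀' : c i₀ ≠ 0 := (Finset.mem_filter.mp hi₀).2
  have hred : ∀ i, ∃ v, Red A (HahnSeries.C (d i₀) * c i) v := by
    intro i
    by_cases hi : c i = 0
    · refine ⟨0, ?_⟩
      rw [hi, mul_zero]
      exact Red.zero
    · obtain ⟨v, hv, hr⟩ := hdv i hi
      have hmem : d i₀ / d i ∈ A := by
        rw [← A.valuation_le_one_iff, map_div₀]
        have h1 := hmin i (by simp [hs, hi])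
        exact div_le_one_of_le₀ h1 zero_le
      have h3 := (Red.C hmem).mul hr
      rw [← mul_assoc, ← map_mul, div_mul_cancel₀ _ (hd i)] at h3
      exact ⟨_, h3⟩
  choose v hv using hred
  refine ⟨d i₀, hd i₀, v, hv, i₀, ?_⟩
  obtain ⟨v', hv', hr⟩ := hdv i₀ hi₀'
  rw [(hv i₀).unique hr]
  exact hv'

section Coords

variable {ι : Type*} [Fintype ι] {y c : ι → LaurentSeries K} {b : ι → LaurentSeries (kk A)}
  {κ : Set (LaurentSeries (kk A))}

/-- A residually independent family is independent. -/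
theorem eq_zero_of_residually_independent (hy : ∀ i, Red A (y i) (b i))
    (hc : ∀ i, c i ≠ 0 → ∃ d : K, d ≠ 0 ∧ ∃ v : LaurentSeries (kk A), v ≠ 0 ∧
      Red A (HahnSeries.C d * c i) v)
    (hκ : ∀ i (d : K) v, Red A (HahnSeries.C d * c i) v → v ∈ κ)
    (hind : ∀ v : ι → LaurentSeries (kk A), (∀ i, v i ∈ κ) → ∑ i, v i * b i = 0 → ∀ i, v i = 0)
    (hsum : ∑ i, c i * y i = 0) : ∀ i, c i = 0 := by
  by_contra hcon
  push Not at hcon
  obtain ⟨d, hd, v, hv, i₀, hi₀⟩ := exists_scale hc hcon
  apply hi₀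
  refine hind v (fun i => hκ i d _ (hv i)) ?_ i₀
  have h1 : Red A (∑ i, (HahnSeries.C d * c i) * y i) (∑ i, v i * b i) :=
    Red.sum _ fun i _ => (hv i).mul (hy i)
  have h2 : ∑ i, (HahnSeries.C d * c i) * y i = 0 := by
    simp only [mul_assoc]
    rw [← Finset.mul_sum, hsum, mul_zero]
  rw [h2] at h1
  exact h1.unique Red.zero

/-- The coordinates of an element of the Gauss valuation ring in a residually independent family
belong to the Gauss valuation ring. -/
theorem red_coords (hy : ∀ i, Red A (y i) (b i))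
    (hc : ∀ i, c i ≠ 0 → ∃ d : K, d ≠ 0 ∧ ∃ v : LaurentSeries (kk A), v ≠ 0 ∧
      Red A (HahnSeries.C d * c i) v)
    (hκ : ∀ i (d : K) v, Red A (HahnSeries.C d * c i) v → v ∈ κ)
    (hind : ∀ v : ι → LaurentSeries (kk A), (∀ i, v i ∈ κ) → ∑ i, v i * b i = 0 → ∀ i, v i = 0)
    {z : LaurentSeries K} {u : LaurentSeries (kk A)} (hz : Red A z u)
    (hsum : z = ∑ i, c i * y i) : ∀ i, ∃ v, Red A (c i) v := by
  by_cases hne : ∃ i, c i ≠ 0
  swap
  · push Not at hne
    exact fun i => ⟨0, by rw [hne i]; exact Red.zero⟩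
  obtain ⟨d, hd, v, hv, i₀, hi₀⟩ := exists_scale hc hne
  by_cases hdA : d⁻¹ ∈ A
  · intro i
    have h1 := (Red.C hdA).mul (hv i)
    rw [← mul_assoc, ← map_mul, inv_mul_cancel₀ hd, map_one, one_mul] at h1
    exact ⟨_, h1⟩
  · exfalso
    obtain ⟨hdA', hres⟩ := residue_eq_zero_of_inv_notMem hdA
    apply hi₀
    refine hind v (fun i => hκ i d _ (hv i)) ?_ i₀
    have h1 : Red A (∑ i, (HahnSeries.C d * c i) * y i) (∑ i, v i * b i) :=
      Red.sum _ fun i _ => (hv i).mul (hy i)
    have h2 : ∑ i, (HahnSeries.C d * c i) * y i = HahnSeries.C d * z := by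
      rw [hsum, Finset.mul_sum]
      exact Finset.sum_congr rfl fun i _ => mul_assoc _ _ _
    rw [h2] at h1
    have h3 := (Red.C hdA').mul hz
    rw [hres, map_zero, zero_mul] at h3
    exact h1.unique h3

end Coords

theorem Red.det {n : ℕ} {m : Matrix (Fin n) (Fin n) (LaurentSeries K)}
    {v : Matrix (Fin n) (Fin n) (LaurentSeries (kk A))} (h : ∀ i j, Red A (m i j) (v i j)) :
    Red A m.det v.det := by
  rw [Matrix.det_apply, Matrix.det_apply]
  refine Red.sum _ fun σ _ => ?_
  have h1 : Red A (∏ i, m (σ i) i) (∏ i, v (σ i) i) := Red.prod _ fun i _ => h _ _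
  rcases Int.units_eq_one_or (Equiv.Perm.sign σ) with h2 | h2
  · rw [h2, one_smul, one_smul]; exact h1
  · rw [h2, Units.neg_smul, one_smul, Units.neg_smul, one_smul]; exact h1.neg

/-- **Reduction of norms.** -/
theorem red_norm {E F Eb Fb : Type*} [Field E] [Field F] [Field Eb] [Field Fb] [Algebra E F]
    [Algebra Eb Fb] (n : ℕ) (hn : 0 < n) (hF : Module.finrank E F = n)
    (hFb : Module.finrank Eb Fb = n) (f : F →+* LaurentSeries K)
    (fb : Fb →+* LaurentSeries (kk A))
    (hscale : ∀ x : E, x ≠ 0 → ∃ d : K, d ≠ 0 ∧ ∃ v : LaurentSeries (kk A), v ≠ 0 ∧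
      Red A (HahnSeries.C d * f (algebraMap E F x)) v)
    (hEb : ∀ (x : E) (d : K) v, Red A (HahnSeries.C d * f (algebraMap E F x)) v →
      ∃ w : Eb, fb (algebraMap Eb Fb w) = v)
    (hlift : ∀ v : Fb, ∃ z : F, Red A (f z) (fb v))
    {z : F} {u : Fb} (hz : Red A (f z) (fb u)) :
    Red A (f (algebraMap E F (Algebra.norm E z))) (fb (algebraMap Eb Fb (Algebra.norm Eb u))) := by
  haveI : FiniteDimensional E F := FiniteDimensional.of_finrank_pos (by omega)
  haveI : FiniteDimensional Eb Fb := FiniteDimensional.of_finrank_pos (by omega)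
  let b : Module.Basis (Fin n) Eb Fb := Module.finBasisOfFinrankEq Eb Fb hFb
  choose y hy using fun i => hlift (b i)
  let κ : Set (LaurentSeries (kk A)) := {v | ∃ w : Eb, fb (algebraMap Eb Fb w) = v}
  have hind : ∀ v : Fin n → LaurentSeries (kk A), (∀ i, v i ∈ κ) →
      ∑ i, v i * fb (b i) = 0 → ∀ i, v i = 0 := by
    intro v hv hsum i
    choose w hw using hv
    have h1 : fb (∑ i, w i • b i) = 0 := by
      rw [map_sum, ← hsum]
      refine Finset.sum_congr rfl fun i _ => ?_
      rw [Algebra.smul_def, map_mul, hw]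
    have h2 : ∑ i, w i • b i = 0 := (map_eq_zero_iff fb fb.injective).mp h1
    have h3 := Fintype.linearIndependent_iff.mp b.linearIndependent w h2 i
    rw [← hw, h3, map_zero, map_zero]
  have hscale' : ∀ x : E, f (algebraMap E F x) ≠ 0 → ∃ d : K, d ≠ 0 ∧
      ∃ v : LaurentSeries (kk A), v ≠ 0 ∧ Red A (HahnSeries.C d * f (algebraMap E F x)) v := by
    intro x hx
    refine hscale x ?_
    rintro rfl
    exact hx (by rw [map_zero, map_zero])
  have hli : LinearIndependent E y := by
    rw [Fintype.linearIndependent_iff]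
    intro c hc i
    have h1 := eq_zero_of_residually_independent (c := fun i => f (algebraMap E F (c i))) hy
      (fun i => hscale' (c i)) (fun i d v => hEb (c i) d v) hind (by
        rw [← map_zero f, ← hc, map_sum]
        refine Finset.sum_congr rfl fun i _ => ?_
        rw [Algebra.smul_def, map_mul]) i
    have h2 : algebraMap E F (c i) = 0 := (map_eq_zero_iff f f.injective).mp h1
    exact (map_eq_zero_iff _ (algebraMap E F).injective).mp h2
  haveI : Nonempty (Fin n) := ⟨⟨0, hn⟩⟩
  let by' : Module.Basis (Fin n) E F := basisOfLinearIndependentOfCardEqFinrank hli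
    (by rw [Fintype.card_fin, hF])
  have hby : ∀ i, by' i = y i := fun i => by
    rw [coe_basisOfLinearIndependentOfCardEqFinrank]
  set m := Algebra.leftMulMatrix by' z with hm
  have hmj : ∀ j, z * y j = ∑ i, m i j • y i := by
    intro j
    rw [hm, ← hby j]
    simp only [Algebra.leftMulMatrix_eq_repr_mul, ← hby]
    exact (by'.sum_repr (z * by' j)).symm
  have hex : ∀ i j, ∃ v, Red A (f (algebraMap E F (m i j))) v := by
    intro i j
    refine red_coords (c := fun i => f (algebraMap E F (m i j))) hy (fun i => hscale' _)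
      (fun i d v => hEb _ d v) hind (z := f (z * y j)) (u := fb u * fb (b j)) ?_ ?_ i
    · rw [map_mul]
      exact hz.mul (hy j)
    · rw [hmj, map_sum]
      refine Finset.sum_congr rfl fun i _ => ?_
      rw [Algebra.smul_def, map_mul]
  choose v hv using hex
  have hw : ∀ i j, ∃ w : Eb, fb (algebraMap Eb Fb w) = v i j := by
    intro i j
    refine hEb (m i j) 1 (v i j) ?_
    rw [map_one, one_mul]
    exact hv i j
  choose w hw using hw
  have hmat : Algebra.leftMulMatrix b u = Matrix.of w := by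
    ext i j
    rw [Algebra.leftMulMatrix_eq_repr_mul, Matrix.of_apply]
    have h1 : u * b j = ∑ i, w i j • b i := by
      apply fb.injective
      have h2 : Red A (f (z * y j)) (fb (u * b j)) := by
        rw [map_mul, map_mul]
        exact hz.mul (hy j)
      have h3 : Red A (f (z * y j)) (fb (∑ i, w i j • b i)) := by
        rw [hmj, map_sum, map_sum]
        refine Red.sum _ fun i _ => ?_
        rw [Algebra.smul_def, map_mul, Algebra.smul_def, map_mul, hw]
        exact (hv i j).mul (hy i)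
      exact h2.unique h3
    rw [h1, b.repr_sum_self]
  rw [Algebra.norm_eq_matrix_det by' z, Algebra.norm_eq_matrix_det b u, hmat, ← hm]
  have h1 : f (algebraMap E F m.det) = (m.map fun x => f (algebraMap E F x)).det :=
    RingHom.map_det (f.comp (algebraMap E F)) m
  have h2 : fb (algebraMap Eb Fb (Matrix.of w).det) =
      ((Matrix.of w).map fun x => fb (algebraMap Eb Fb x)).det :=
    RingHom.map_det (fb.comp (algebraMap Eb Fb)) (Matrix.of w)
  rw [h1, h2]
  refine Red.det fun i j => ?_
  rw [Matrix.map_apply, Matrix.map_apply, Matrix.of_apply, hw]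
  exact hv i j

end Fermat.Agent.H12
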