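import Mathlib
import Fermat.Agent.H05.BaseChange
import Fermat.Agent.H05.GalHecke
import Fermat.Agent.H05.HeckeInputs
import Fermat.Agent.H05.NormFormula
import Fermat.Agent.FF.T6

set_option autoImplicit false
set_option linter.style.haveILetI false
set_option linter.unusedSectionVars false
set_option maxSynthPendingDepth 3

/-!
# Correspondences on function fields over algebraically closed fields
-/

noncomputable section

namespace Fermat.Agent.H12

open AlgebraicCurve Fermat.Agent.H05

section Gen

variable {K F F' : Type*} [Field K] [Field F] [Field F'] [Algebra K F] [Algebra K F']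

theorem pullbackAlong_nonneg [HasPrincipalDivisors K F'] (φ : F →ₐ[K] F')
    (hφ : φ.toRingHom.IsIntegral) {D : Divisor K F} (hD : ∀ P, 0 ≤ D P) (W : Place K F') :
    0 ≤ Divisor.pullbackAlong φ hφ D W := by
  rw [Divisor.pullbackAlong_apply]
  exact mul_nonneg (Nat.cast_nonneg _) (hD _)

theorem pushforwardAlong_nonneg (φ : F →ₐ[K] F') (hφ : φ.toRingHom.IsIntegral)
    {D : Divisor K F'} (hD : ∀ P, 0 ≤ D P) (v : Place K F) :
    0 ≤ Divisor.pushforwardAlong φ hφ D v := by
  classical
  letI := algebraAlong φ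
  haveI := isScalarTower_along φ
  haveI := isIntegral_along φ hφ
  change 0 ≤ Divisor.pushforward F D v
  rw [Divisor.pushforward_apply]
  refine Finset.sum_nonneg fun W _ => ?_
  split_ifs
  · exact mul_nonneg (hD W) (Nat.cast_nonneg _)
  · exact le_refl _

theorem single_nonneg (P : Place K F) (R : Place K F) :
    0 ≤ (Finsupp.single P 1 : Divisor K F) R := by
  classical
  rw [Finsupp.single_apply]
  split_ifs <;> norm_num

theorem exists_of_pushforwardAlong_ne_zero (φ : F →ₐ[K] F') (hφ : φ.toRingHom.IsIntegral)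
    {D : Divisor K F'} {v : Place K F} (h : Divisor.pushforwardAlong φ hφ D v ≠ 0) :
    ∃ W : Place K F', W.restrictAlong φ hφ = v ∧ D W ≠ 0 := by
  by_contra hcon
  push Not at hcon
  exact h (pushforwardAlong_apply_eq_zero φ hφ D v hcon)

/-- `ψ_* φ^*` has finite fibres -/
theorem finite_corr [HasPrincipalDivisors K F'] (φ ψ : F →ₐ[K] F')
    (hφ : φ.toRingHom.IsIntegral) (hψ : ψ.toRingHom.IsIntegral) (R : Place K F) :
    {Q : Place K F | Divisor.pushforwardAlong ψ hψ
      (Divisor.pullbackAlong φ hφ (Finsupp.single Q 1)) R ≠ 0}.Finite := by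
  classical
  refine ((Place.fiberAlong ψ hψ R).image fun W => W.restrictAlong φ hφ).finite_toSet.subset ?_
  intro Q hQ
  obtain ⟨W, hW, hW'⟩ := exists_of_pushforwardAlong_ne_zero ψ hψ hQ
  rw [Divisor.pullbackAlong_apply] at hW'
  have h1 := right_ne_zero_of_mul hW'
  rw [Finsupp.single_apply] at h1
  have h2 : Q = W.restrictAlong φ hφ := by
    by_contra hne
    rw [if_neg hne] at h1
    exact h1 rfl
  exact Finset.mem_coe.mpr (Finset.mem_image.mpr ⟨W, Place.mem_fiberAlong.mpr hW, h2.symm⟩)

/-- `φ^* φ_* w^*` has finite fibres -/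
theorem finite_corr' [HasPrincipalDivisors K F'] (φ : F →ₐ[K] F') (w : F' →ₐ[K] F')
    (hφ : φ.toRingHom.IsIntegral) (hw : w.toRingHom.IsIntegral) (R : Place K F') :
    {Q : Place K F' | Divisor.pullbackAlong φ hφ (Divisor.pushforwardAlong φ hφ
      (Divisor.pullbackAlong w hw (Finsupp.single Q 1))) R ≠ 0}.Finite := by
  classical
  refine ((Place.fiberAlong φ hφ (R.restrictAlong φ hφ)).image
    fun W => W.restrictAlong w hw).finite_toSet.subset ?_
  intro Q hQ
  have hQ' : Divisor.pullbackAlong φ hφ (Divisor.pushforwardAlong φ hφ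
      (Divisor.pullbackAlong w hw (Finsupp.single Q 1))) R ≠ 0 := hQ
  rw [Divisor.pullbackAlong_apply] at hQ'
  obtain ⟨W, hW, hW'⟩ := exists_of_pushforwardAlong_ne_zero φ hφ (right_ne_zero_of_mul hQ')
  rw [Divisor.pullbackAlong_apply] at hW'
  have h1 := right_ne_zero_of_mul hW'
  rw [Finsupp.single_apply] at h1
  have h2 : Q = W.restrictAlong w hw := by
    by_contra hne
    rw [if_neg hne] at h1
    exact h1 rfl
  exact Finset.mem_coe.mpr (Finset.mem_image.mpr ⟨W, Place.mem_fiberAlong.mpr hW, h2.symm⟩)

end Gen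

section Norm

variable {K F F' : Type*} [Field K] [Field F] [Field F'] [Algebra K F] [Algebra K F']

theorem normAlong_ne_zero' (φ : F →ₐ[K] F') (hfin : FiniteAlong K φ) {g : F'} (hg : g ≠ 0) :
    normAlong φ g ≠ 0 := by
  letI := algebraAlong φ
  haveI : Module.Finite F F' := hfin
  exact Algebra.norm_ne_zero_iff.mpr hg

end Norm

section Sep

variable {K F F' : Type*} [Field K] [IsAlgClosed K] [Field F] [Field F'] [Algebra K F]
  [Algebra K F'] [FF.FunField K F'] (φ : F →ₐ[K] F') (hφ : φ.toRingHom.IsIntegral)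
  (hfin : FiniteAlong K φ) (hsep : SeparableAlong K φ)

include hsep in
theorem localNormAlong : letI := algebraAlong φ
    haveI := isScalarTower_along φ
    haveI : Module.Finite F F' := hfin
    LocalNormFormula K F F' := by
  letI := algebraAlong φ
  haveI := isScalarTower_along φ
  haveI : Module.Finite F F' := hfin
  haveI : Algebra.IsSeparable F F' := hsep
  refine localNormFormula_of_inertiaDeg K F F' fun w => ?_
  have h := w.deg_restrict_mul_inertiaDeg (F := F)
  rw [FF.deg_eq_one w] at h
  exact Nat.eq_one_of_mul_eq_one_left h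

include hsep in
theorem normFormulaAlong_of_sep : NormFormulaAlong K φ hfin := by
  letI := algebraAlong φ
  haveI := isScalarTower_along φ
  haveI : Module.Finite F F' := hfin
  have h : LocalNormFormula K F F' := localNormAlong φ hfin hsep
  exact h.pushforwardNormFormula

include hsep hfin in
theorem fundamentalIdentityAlong_of_sep [HasPrincipalDivisors K F'] :
    FundamentalIdentityAlong K φ hφ := by
  letI := algebraAlong φ
  haveI := isScalarTower_along φ
  haveI : Module.Finite F F' := hfin
  have h : LocalNormFormula K F F' := localNormAlong φ hfin hsep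
  haveI := h.sumRamificationInertia
  change FundamentalIdentity K F F'
  infer_instance

end Sep

section SepAlong

variable {K F F' : Type*} [Field K] [Field F] [Field F'] [Algebra K F] [Algebra K F']

/-- separability along a homomorphism, elementwise -/
theorem separableAlong_of (φ : F →ₐ[K] F')
    (h : ∀ y : F', ∃ P : Polynomial F, P.Separable ∧ P.eval₂ (φ : F →+* F') y = 0) :
    SeparableAlong K φ := by
  letI := algebraAlong φ
  change Algebra.IsSeparable F F'
  rw [Algebra.isSeparable_def]
  intro y
  obtain ⟨P, hP, hPy⟩ := h y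
  exact hP.of_dvd (minpoly.dvd F y hPy)

theorem exists_of_separableAlong (φ : F →ₐ[K] F') (h : SeparableAlong K φ) (y : F') :
    ∃ P : Polynomial F, P.Separable ∧ P.eval₂ (φ : F →+* F') y = 0 := by
  letI := algebraAlong φ
  haveI : Algebra.IsSeparable F F' := h
  exact ⟨minpoly F y, Algebra.IsSeparable.isSeparable F y, minpoly.aeval F y⟩

/-- separability is invariant under automorphisms of the target -/
theorem separableAlong_comp_equiv (φ ψ : F →ₐ[K] F') (w : F' ≃ₐ[K] F')
    (hw : ∀ x, w (φ x) = ψ x) (h : SeparableAlong K φ) : SeparableAlong K ψ := by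
  refine separableAlong_of ψ fun y => ?_
  obtain ⟨P, hP, hPy⟩ := exists_of_separableAlong φ h (w.symm y)
  refine ⟨P, hP, ?_⟩
  have h1 := congrArg w hPy
  rw [map_zero] at h1
  have h2 := Polynomial.hom_eval₂ P (φ : F →+* F') (w : F' →+* F') (w.symm y)
  have h3 : (w : F' →+* F').comp (φ : F →+* F') = (ψ : F →+* F') := RingHom.ext fun x => hw x
  rw [h3] at h2
  have h4 : (w : F' →+* F') (w.symm y) = y := w.apply_symm_apply y
  rw [h4] at h2
  rw [← h2]
  exact h1

end SepAlong

section Corr'

variable {K F F' : Type*} [Field K] [Field F] [Field F'] [Algebra K F] [Algebra K F']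
  [HasPrincipalDivisors K F'] (φ : F →ₐ[K] F') (w : F' →ₐ[K] F')
  (hφ : φ.toRingHom.IsIntegral) (hw : w.toRingHom.IsIntegral)

/-- the correspondence `φ^* φ_* w^*`. -/
def corr' : Divisor K F' →+ Divisor K F' :=
  (Divisor.pullbackAlong φ hφ).comp ((Divisor.pushforwardAlong φ hφ).comp
    (Divisor.pullbackAlong w hw))

theorem corr'_apply (D : Divisor K F') : corr' φ w hφ hw D =
    Divisor.pullbackAlong φ hφ (Divisor.pushforwardAlong φ hφ (Divisor.pullbackAlong w hw D)) :=
  rfl

theorem corr'_eq_ord (hfin : FiniteAlong K φ) (hN : NormFormulaAlong K φ hfin)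
    {D : Divisor K F'} {z : F'} (hz : w z ≠ 0) (hD : ∀ P, D P = P.ord z) (P : Place K F') :
    corr' φ w hφ hw D P = P.ord (φ (normAlong φ (w z))) := by
  rw [corr'_apply]
  exact pullbackAlong_eq_ord φ hφ _ _ (fun v => pushforwardAlong_eq_ord φ hφ hfin hN _ _ hz
    (fun W => pullbackAlong_eq_ord w hw D z hD W) v) P

theorem corr_eq_ord (ψ : F →ₐ[K] F') (hψ : ψ.toRingHom.IsIntegral) (hfin : FiniteAlong K ψ)
    (hN : NormFormulaAlong K ψ hfin)
    {D : Divisor K F} {z : F} (hz : φ z ≠ 0) (hD : ∀ P, D P = P.ord z) (P : Place K F) :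
    Divisor.correspondence φ ψ hφ hψ D P = P.ord (normAlong ψ (φ z)) := by
  rw [Divisor.correspondence_apply]
  exact pushforwardAlong_eq_ord ψ hψ hfin hN _ _ hz
    (fun W => pullbackAlong_eq_ord φ hφ D z hD W) P

theorem corr'_nonneg (P R : Place K F') : 0 ≤ corr' φ w hφ hw (Finsupp.single P 1) R :=
  pullbackAlong_nonneg φ hφ (pushforwardAlong_nonneg φ hφ
      (pullbackAlong_nonneg w hw (single_nonneg P))) R

theorem degree_corr' (hFI : FundamentalIdentityAlong K φ hφ)
    (hFI' : FundamentalIdentityAlong K w hw) (D : Divisor K F') :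
    Divisor.degree (corr' φ w hφ hw D) =
      (finrankAlong K φ : ℤ) * ((finrankAlong K w : ℤ) * Divisor.degree D) := by
  rw [corr'_apply, Divisor.degree_pullbackAlong φ hφ hFI, Divisor.degree_pushforwardAlong,
    Divisor.degree_pullbackAlong w hw hFI']

theorem finite_corr'' (R : Place K F') :
    {Q : Place K F' | corr' φ w hφ hw (Finsupp.single Q 1) R ≠ 0}.Finite :=
  finite_corr' φ w hφ hw R

end Corr'

section Equiv

variable {K E F : Type*} [Field K] [Field E] [Field F] [Algebra K E] [Algebra K F]
  (w : E ≃ₐ[K] F)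

theorem integral_equiv : (w : E →ₐ[K] F).toRingHom.IsIntegral :=
  RingHom.isIntegral_of_surjective _ w.surjective

theorem finrankAlong_equiv : finrankAlong K (w : E →ₐ[K] F) = 1 := by
  letI := algebraAlong (w : E →ₐ[K] F)
  change Module.finrank E F = 1
  rw [finrank_eq_one_iff_of_nonzero' (1 : F) one_ne_zero]
  intro x
  refine ⟨w.symm x, ?_⟩
  rw [Algebra.smul_def, mul_one]
  exact w.apply_symm_apply x

theorem finite_equiv : FiniteAlong K (w : E →ₐ[K] F) := by
  letI := algebraAlong (w : E →ₐ[K] F)
  have h : Module.finrank E F = 1 := finrankAlong_equiv w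
  exact FiniteDimensional.of_finrank_pos (by rw [h]; exact one_pos)

theorem separable_equiv : SeparableAlong K (w : E →ₐ[K] F) := by
  refine separableAlong_of _ fun y => ⟨Polynomial.X - Polynomial.C (w.symm y),
    Polynomial.separable_X_sub_C, ?_⟩
  rw [Polynomial.eval₂_sub, Polynomial.eval₂_X, Polynomial.eval₂_C]
  change y - w (w.symm y) = 0
  rw [w.apply_symm_apply, sub_self]

end Equiv

end Fermat.Agent.H12
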