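import Mathlib
import Fermat.Agent.H12.Corr
import Fermat.Agent.H27.SepK
import Fermat.Agent.Q.NormFormula
import Fermat.Agent.Igusa.NormQ

set_option autoImplicit false
set_option linter.style.haveILetI false
set_option linter.unusedSectionVars false
set_option maxSynthPendingDepth 3

/-!
# The degeneracy maps over an arbitrary algebraically closed field
-/

noncomputable section

namespace Fermat.Agent.H12

open AlgebraicCurve ModularCurve IntermediateField Fermat.Agent.H05
open Fermat.Agent.H27 (tK)

variable (K : Type*) [Field K] (M q : ℕ) [NeZero M] [hq : Fact q.Prime]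

instance funField_fullC : FF.FunField K (modularFunctionFieldFullC K M) := funField_full K M

/-- the second degeneracy map -/
def betaC : modularFunctionFieldFullC K M →ₐ[K] modularFunctionFieldFullC K (M * q) where
  toFun x := ⟨qExpand K q (x : LaurentSeries K), full_degeneracyC_map_le K M q ⟨x, x.2, rfl⟩⟩
  map_one' := Subtype.ext (map_one (qExpand K q))
  map_mul' _ _ := Subtype.ext (map_mul (qExpand K q) _ _)
  map_zero' := Subtype.ext (map_zero (qExpand K q))
  map_add' _ _ := Subtype.ext (map_add (qExpand K q) _ _)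
  commutes' a := Subtype.ext ((qExpandAlgHomC K q).commutes a)

@[simp] theorem coe_betaC (x : modularFunctionFieldFullC K M) :
    (betaC K M q x : LaurentSeries K) = qExpand K q (x : LaurentSeries K) := rfl

theorem integral_alphaC : (Q.incl K M q).toRingHom.IsIntegral := by
  refine isIntegral_of_algOver _ (tK K M) fun y => ?_
  apply (algOver_map_iff (modularFunctionFieldFullC K (M * q)).val).mp
  change AlgOver K (jqModC K) (y : LaurentSeries K)
  exact algOver_j_of_mem K y.2

theorem integral_betaC : (betaC K M q).toRingHom.IsIntegral := by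
  refine isIntegral_of_algOver _ (tK K M) fun y => ?_
  apply (algOver_map_iff (modularFunctionFieldFullC K (M * q)).val).mp
  change AlgOver K (qExpand K q (jqModC K)) (y : LaurentSeries K)
  exact algOver_jd_of_mem K q y.2

theorem finite_alphaC : FiniteAlong K (Q.incl K M q) := finiteAlong_of _ (integral_alphaC K M q)

theorem finite_betaC : FiniteAlong K (betaC K M q) := finiteAlong_of _ (integral_betaC K M q)

theorem incl_tK : Q.incl K M q (tK K M) = tK K (M * q) :=
  Subtype.ext (Q.coe_incl K M q (tK K M))

theorem separable_alphaC [IsAlgClosed K] (hK : ((M * q : ℕ) : K) ≠ 0) :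
    SeparableAlong K (Q.incl K M q) := by
  refine separableAlong_of _ fun y => ?_
  have hsep : Algebra.IsSeparable K⟮Q.incl K M q (tK K M)⟯
      (modularFunctionFieldFullC K (M * q)) := by
    rw [incl_tK]
    exact H27.isSeparable_Fk K (M * q) hK
  let ι : K⟮Q.incl K M q (tK K M)⟯ →+* modularFunctionFieldFullC K M :=
    (K⟮tK K M⟯.val.toRingHom).comp
      ((simpleEquiv (Q.incl K M q) (tK K M)).symm : K⟮Q.incl K M q (tK K M)⟯ →+* K⟮tK K M⟯)
  have hι : ((Q.incl K M q : modularFunctionFieldFullC K M →+*
      modularFunctionFieldFullC K (M * q))).comp ι = algebraMap K⟮Q.incl K M q (tK K M)⟯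
        (modularFunctionFieldFullC K (M * q)) := by
    refine RingHom.ext fun z => Subtype.ext ?_
    obtain ⟨w, rfl⟩ := (simpleEquiv (Q.incl K M q) (tK K M)).surjective z
    change ((Q.incl K M q ((((simpleEquiv (Q.incl K M q) (tK K M)).symm
      (simpleEquiv (Q.incl K M q) (tK K M) w) : K⟮tK K M⟯)) : modularFunctionFieldFullC K M) :
      modularFunctionFieldFullC K (M * q)) : LaurentSeries K) =
      ((simpleEquiv (Q.incl K M q) (tK K M) w : K⟮Q.incl K M q (tK K M)⟯) :
        modularFunctionFieldFullC K (M * q))
    rw [AlgEquiv.symm_apply_apply, coe_simpleEquiv]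
  have hs : (minpoly K⟮Q.incl K M q (tK K M)⟯ y).Separable :=
    Algebra.IsSeparable.isSeparable K⟮Q.incl K M q (tK K M)⟯ y
  refine ⟨(minpoly K⟮Q.incl K M q (tK K M)⟯ y).map ι, hs.map, ?_⟩
  rw [Polynomial.eval₂_map, hι]
  exact minpoly.aeval _ y

theorem finrank_alphaC (hK : ((M * q : ℕ) : K) ≠ 0) (hqM : ¬ q ∣ M) :
    finrankAlong K (Q.incl K M q) = q + 1 := by
  have hM : (M : K) ≠ 0 := Igusa.natCast_ne_zero_of_dvd (dvd_mul_right M q) hK
  have h1 := Igusa.relrank_prime_step q M hK (Igusa.relrank_full M hM)
  rw [if_neg hqM] at h1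
  exact Igusa.finrankAlong_inclusion _ _ _ h1

end Fermat.Agent.H12
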