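import Mathlib
import Fermat.Prelude.Def_ModularCurve_ReductionModL

set_option autoImplicit false
set_option linter.style.haveILetI false
set_option linter.unusedSectionVars false

/-!
# Correspondences commute with the reduction of divisors
-/

noncomputable section

namespace Fermat.Agent.H12

open AlgebraicCurve

variable {L F k Fb : Type*} [Field L] [Field F] [Field k] [Field Fb] [Algebra L F] [Algebra k Fb]

theorem int_eq_zero_of_dvd {a : ℤ} (h : ∀ n : ℕ, n ≠ 0 → (n : ℤ) ∣ a) : a = 0 :=
  Int.eq_zero_of_dvd_of_natAbs_lt_natAbs (h (a.natAbs + 1) (Nat.succ_ne_zero _))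
    (by rw [Int.natAbs_natCast]; exact Nat.lt_succ_self _)

/-- A homomorphism to a free abelian group which kills principal divisors is constant on
places. -/
theorem eq_of_kill {V : Type*} (δ : Divisor L F →+ (V →₀ ℤ))
    (hkill : ∀ D ∈ Divisor.principal (K := L) (F := F), δ D = 0)
    (hdeg : ∀ P : Place L F, P.deg = 1)
    (hdiv : ∀ n : ℕ, n ≠ 0 → ∀ x : Pic0 L F, ∃ y : Pic0 L F, n • y = x) (P Q : Place L F) :
    δ (Finsupp.single P 1) = δ (Finsupp.single Q 1) := by
  classical
  have hδdeg0 : ∀ D ∈ Divisor.degZero (K := L) (F := F), δ D = 0 := by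
    intro D hD
    ext R
    rw [Finsupp.zero_apply]
    refine int_eq_zero_of_dvd fun n hn => ?_
    obtain ⟨y, hy⟩ := hdiv n hn (Pic0.mk ⟨D, hD⟩)
    obtain ⟨E, rfl⟩ := Pic0.mk_surjective y
    have hmem : ((⟨D, hD⟩ : Divisor.degZero (K := L) (F := F)) - n • E :
        Divisor.degZero (K := L) (F := F)) ∈
          (Divisor.principal (K := L) (F := F)).addSubgroupOf
            (Divisor.degZero (K := L) (F := F)) := by
      rw [← QuotientAddGroup.eq_iff_sub_mem, QuotientAddGroup.mk_nsmul]
      exact hy.symm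
    rw [AddSubgroup.mem_addSubgroupOf, AddSubgroupClass.coe_sub, AddSubgroupClass.coe_nsmul]
      at hmem
    have h0 := hkill _ hmem
    rw [map_sub, map_nsmul, sub_eq_zero] at h0
    refine ⟨δ (E : Divisor L F) R, ?_⟩
    rw [h0, Finsupp.smul_apply, nsmul_eq_mul]
  have hPQ : Finsupp.single P (1 : ℤ) - Finsupp.single Q 1 ∈
      Divisor.degZero (K := L) (F := F) := by
    rw [Divisor.mem_degZero, map_sub, Divisor.degree_single, Divisor.degree_single, hdeg, hdeg,
      sub_self]
  have h := hδdeg0 _ hPQ
  rwa [map_sub, sub_eq_zero] at h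

theorem degree_mapDomain' (r : Place L F → Place k Fb) (hr : ∀ P, (r P).deg = P.deg)
    (D : Divisor L F) :
    Divisor.degree (Finsupp.mapDomain r D : Divisor k Fb) = Divisor.degree D := by
  induction D using Finsupp.induction with
  | zero => simp
  | single_add P n D _ _ ih =>
    rw [Finsupp.mapDomain_add, map_add, map_add, ih, Finsupp.mapDomain_single,
      Divisor.degree_single, Divisor.degree_single, hr]

theorem degree_eq_zero_of_nonneg {c : Divisor k Fb} (hdegb : ∀ R : Place k Fb, R.deg = 1)
    (hc : ∀ R, 0 ≤ c R) (h : Divisor.degree c = 0) : c = 0 := by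
  classical
  have h1 : Divisor.degree c = c.sum fun _ n => n := by
    induction c using Finsupp.induction with
    | zero => simp
    | single_add P n D hP hn ih =>
      clear hc h ih
      have : ∀ E : Divisor k Fb, Divisor.degree E = E.sum fun _ n => n := by
        intro E
        induction E using Finsupp.induction with
        | zero => simp
        | single_add P n D hP hn ih =>
          rw [map_add, ih, Divisor.degree_single, hdegb, Finsupp.sum_add_index' (fun _ => rfl)
            (fun _ _ _ => rfl), Finsupp.sum_single_index rfl, Nat.cast_one, mul_one]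
      exact this _
  rw [h1, Finsupp.sum, Finset.sum_eq_zero_iff_of_nonneg fun R _ => hc R] at h
  ext R
  rw [Finsupp.zero_apply]
  by_contra hne
  exact hne (h R (Finsupp.mem_support_iff.mpr hne))

/-- **The principle**: a correspondence commutes with the reduction as soon as it does so on
principal divisors. -/
theorem star (r : Place L F → Place k Fb) (hrdeg : ∀ P, (r P).deg = P.deg)
    (hdeg : ∀ P : Place L F, P.deg = 1) (hdegb : ∀ R : Place k Fb, R.deg = 1)
    (hdiv : ∀ n : ℕ, n ≠ 0 → ∀ x : Pic0 L F, ∃ y : Pic0 L F, n • y = x)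
    (C : Divisor L F →+ Divisor L F) (Cb : Divisor k Fb →+ Divisor k Fb)
    (hC : ∀ D ∈ Divisor.principal (K := L) (F := F),
      Finsupp.mapDomain r (C D) = Cb (Finsupp.mapDomain r D))
    (heff : ∀ P, ∀ R, 0 ≤ C (Finsupp.single P 1) R)
    (hd : ∀ P, Divisor.degree (C (Finsupp.single P 1)) =
      Divisor.degree (Cb (Finsupp.single (r P) 1)))
    (hsep : ∃ P₁ P₂, ∀ R, Cb (Finsupp.single (r P₁) 1) R = 0 ∨ Cb (Finsupp.single (r P₂) 1) R = 0)
    (D : Divisor L F) : Finsupp.mapDomain r (C D) = Cb (Finsupp.mapDomain r D) := by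
  classical
  set δ : Divisor L F →+ Divisor k Fb :=
    (Finsupp.mapDomain.addMonoidHom r).comp C - Cb.comp (Finsupp.mapDomain.addMonoidHom r) with hδ
  have hδapp : ∀ D, δ D = Finsupp.mapDomain r (C D) - Cb (Finsupp.mapDomain r D) := fun D => rfl
  obtain ⟨P₁, P₂, hsep⟩ := hsep
  have hconst := eq_of_kill δ (fun D hD => by rw [hδapp, hC D hD, sub_self]) hdeg hdiv
  have happ : ∀ P, δ (Finsupp.single P 1) =
      Finsupp.mapDomain r (C (Finsupp.single P 1)) - Cb (Finsupp.single (r P) 1) := by
    intro P
    rw [hδapp, Finsupp.mapDomain_single]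
  have hnn : ∀ P R, 0 ≤ (Finsupp.mapDomain r (C (Finsupp.single P 1)) : Divisor k Fb) R := by
    intro P R
    have h1 := heff P
    generalize C (Finsupp.single P 1) = E at h1
    rw [Finsupp.mapDomain, Finsupp.sum, Finsupp.finsetSum_apply]
    refine Finset.sum_nonneg fun Q _ => ?_
    rw [Finsupp.single_apply]
    split_ifs
    · exact h1 Q
    · exact le_refl _
  have hc0 : δ (Finsupp.single P₁ 1) = 0 := by
    apply degree_eq_zero_of_nonneg hdegb
    · intro R
      rcases hsep R with h | h
      · rw [happ, Finsupp.sub_apply, h, sub_zero]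
        exact hnn P₁ R
      · rw [hconst P₁ P₂, happ, Finsupp.sub_apply, h, sub_zero]
        exact hnn P₂ R
    · rw [happ, map_sub, degree_mapDomain' r hrdeg, hd, sub_self]
  have hall : ∀ D, δ D = 0 := by
    intro D
    induction D using Finsupp.induction with
    | zero => exact map_zero δ
    | single_add P n D _ _ ih =>
      have h1 : (Finsupp.single P n : Divisor L F) = n • Finsupp.single P 1 := by
        rw [Finsupp.smul_single, smul_eq_mul, mul_one]
      rw [map_add, ih, add_zero, h1, map_zsmul, hconst P P₁, hc0, smul_zero]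
  exact sub_eq_zero.mp (hall D)

/-- existence of two places with disjoint images -/
theorem exists_sep (r : Place L F → Place k Fb) (Cb : Divisor k Fb →+ Divisor k Fb)
    (hfin : ∀ R : Place k Fb, {Q | Cb (Finsupp.single Q 1) R ≠ 0}.Finite)
    (hinf : (Set.range r).Infinite) :
    ∃ P₁ P₂, ∀ R, Cb (Finsupp.single (r P₁) 1) R = 0 ∨ Cb (Finsupp.single (r P₂) 1) R = 0 := by
  classical
  obtain ⟨_, P₁, rfl⟩ := hinf.nonempty
  have hbad : (⋃ R ∈ (Cb (Finsupp.single (r P₁) 1)).support,
      {Q | Cb (Finsupp.single Q 1) R ≠ 0}).Finite :=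
    Set.Finite.biUnion (Finset.finite_toSet _) fun R _ => hfin R
  obtain ⟨_, ⟨P₂, rfl⟩, hP₂⟩ := hinf.exists_notMem_finite hbad
  refine ⟨P₁, P₂, fun R => ?_⟩
  by_cases h : Cb (Finsupp.single (r P₁) 1) R = 0
  · exact Or.inl h
  · refine Or.inr ?_
    by_contra h2
    apply hP₂
    simp only [Set.mem_iUnion]
    exact ⟨R, Finsupp.mem_support_iff.mpr h, h2⟩

end Fermat.Agent.H12
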