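import Mathlib
import Fermat.Agent.FF.Div
import Fermat.Agent.H12.Star
import Fermat.Agent.H12.SpecialFibre
import Fermat.Agent.H12.GaussRed

set_option autoImplicit false
set_option linter.style.haveILetI false
set_option linter.unusedSectionVars false
set_option maxSynthPendingDepth 3
set_option synthInstance.maxHeartbeats 400000

/-!
# Good correspondences commute with the reduction of divisors on modular curves
-/

noncomputable section

namespace Fermat.Agent.H12

open AlgebraicCurve ModularCurve IntermediateField Fermat.Agent.H05 Fermat.Agent.Q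

local notation "kk" => IsLocalRing.ResidueField
local notation "Qb" => AlgebraicClosure ℚ

section OrdConst

variable {K F : Type*} [Field K] [IsAlgClosed K] [Field F] [Algebra K F] [FF.FunField K F]

theorem ord_const_mul (v : Place K F) {c : K} (hc : c ≠ 0) {x : F} (hx : x ≠ 0) :
    v.ord (algebraMap K F c * x) = v.ord x := by
  rw [v.ord_mul (by simpa using hc) hx, FF.ord_algebraMap' v c, zero_add]

theorem exists_const_of_ord_eq {x y : F} (hx : x ≠ 0) (hy : y ≠ 0)
    (h : ∀ v : Place K F, v.ord x = v.ord y) : ∃ c : K, c ≠ 0 ∧ x = algebraMap K F c * y := by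
  have h1 : x * y⁻¹ ∈ Set.range (algebraMap K F) := by
    apply FF.mem_range_of_forall_le
    intro v
    rw [v.adicValuation_le_one_iff]
    right
    rw [v.ord_mul hx (inv_ne_zero hy), v.ord_inv, h v]
    omega
  obtain ⟨c, hc⟩ := h1
  refine ⟨c, ?_, ?_⟩
  · rintro rfl
    rw [map_zero] at hc
    exact mul_ne_zero hx (inv_ne_zero hy) hc.symm
  · rw [hc, mul_assoc, inv_mul_cancel₀ hy, mul_one]

end OrdConst

section Main

variable {N : ℕ} [NeZero N] {A : ValuationSubring Qb}

theorem isAlgClosed_kk (A : ValuationSubring Qb) : IsAlgClosed (kk A) := by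
  apply IsAlgClosed.of_exists_root
  intro p hp hirr
  have hlift : p ∈ Polynomial.lifts (IsLocalRing.residue A) :=
    (Polynomial.lifts_iff_coeff_lifts p).2 fun n => IsLocalRing.residue_surjective _
  obtain ⟨P, hP, hdeg, hmon⟩ := Polynomial.lifts_and_natDegree_eq_and_monic hlift hp
  have hdeg' : (P.map A.subtype).degree ≠ 0 := by
    rw [Polynomial.degree_map_eq_of_injective (Subtype.val_injective)]
    rw [Polynomial.degree_eq_natDegree hmon.ne_zero, hdeg]
    have := hirr.natDegree_pos
    exact_mod_cast this.ne'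
  obtain ⟨x, hx⟩ := IsAlgClosed.exists_root _ hdeg'
  have hint : IsIntegral A x := by
    refine ⟨P, hmon, ?_⟩
    rw [Polynomial.IsRoot.def, Polynomial.eval_map] at hx
    exact hx
  obtain ⟨y, hy⟩ := IsIntegrallyClosed.isIntegral_iff.1 hint
  refine ⟨IsLocalRing.residue A y, ?_⟩
  rw [← hP, Polynomial.eval_map, Polynomial.eval₂_hom]
  have h1 : P.eval y = 0 := by
    apply Subtype.val_injective
    change A.subtype (P.eval y) = A.subtype 0
    rw [map_zero, ← Polynomial.eval₂_hom, ← Polynomial.eval_map]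
    have h2 : A.subtype y = x := hy
    rw [h2]
    exact hx
  rw [h1, map_zero]

attribute [local instance] isAlgClosed_kk

theorem red_coeffMap (y : LaurentSeries A) :
    Red A (coeffMap A.subtype y) (coeffMap (IsLocalRing.residue A) y) := by
  have h : coeffMap A.subtype y ∈ intL A := ⟨y, rfl⟩
  have h1 := Red.of_intL (⟨coeffMap A.subtype y, h⟩ : intL A)
  rwa [redL_coeffMap] at h1

variable {r : Place Qb (modularFunctionFieldBar N) →
    Place (kk A) (modularFunctionFieldFullC (kk A) N)}

theorem exists_rep (hr : IsPlaceReductionModL A N r)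
    (hgen : PrincipalGeneratedByIntegral A (IsLocalRing.residue A) N)
    (D : Divisor Qb (modularFunctionFieldBar N))
    (hD : D ∈ Divisor.principal (K := Qb) (F := modularFunctionFieldBar N)) :
    ∃ (z : modularFunctionFieldBar N) (u : modularFunctionFieldFullC (kk A) N), z ≠ 0 ∧ u ≠ 0 ∧
      Red A (z : LaurentSeries Qb) (u : LaurentSeries (kk A)) ∧ (∀ P, D P = P.ord z) ∧
      ∀ Q, (Finsupp.mapDomain r D : Divisor (kk A) (modularFunctionFieldFullC (kk A) N)) Q =
        Q.ord u := by
  have hD' := hgen hD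
  clear hD
  induction hD' using AddSubgroup.closure_induction with
  | mem E hE =>
    obtain ⟨y, hy, hyk, hne, hE⟩ := hE
    have h1 := red_coeffMap y
    refine ⟨⟨_, hy⟩, ⟨_, hyk⟩, ?_, ?_, h1, hE, fun Q => hr.2 y hy hyk hne E hE Q⟩
    · intro h
      exact h1.ne_zero hne (congrArg Subtype.val h)
    · intro h
      exact hne (congrArg Subtype.val h)
  | zero =>
    refine ⟨1, 1, one_ne_zero, one_ne_zero, Red.one, fun P => ?_, fun Q => ?_⟩
    · rw [P.ord_one]; rfl
    · rw [Q.ord_one, Finsupp.mapDomain_zero]; rfl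
  | add E E' _ _ hE hE' =>
    obtain ⟨z, u, hz, hu, hr1, h1, h2⟩ := hE
    obtain ⟨z', u', hz', hu', hr1', h1', h2'⟩ := hE'
    refine ⟨z * z', u * u', mul_ne_zero hz hz', mul_ne_zero hu hu', hr1.mul hr1', fun P => ?_,
      fun Q => ?_⟩
    · rw [P.ord_mul hz hz', Finsupp.add_apply, h1, h1']
    · rw [Q.ord_mul hu hu', Finsupp.mapDomain_add, Finsupp.add_apply, h2, h2']
  | neg E _ hE =>
    obtain ⟨z, u, hz, hu, hr1, h1, h2⟩ := hE
    refine ⟨z⁻¹, u⁻¹, inv_ne_zero hz, inv_ne_zero hu, hr1.inv ?_, fun P => ?_, fun Q => ?_⟩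
    · exact fun h => hu (Subtype.ext h)
    · rw [P.ord_inv, Finsupp.neg_apply, h1]
    · rw [Q.ord_inv, ← h2, ← Finsupp.mapDomain.addMonoidHom_apply, map_neg, Finsupp.neg_apply]
      rfl

theorem mapDomain_of_red (hr : IsPlaceReductionModL A N r)
    (hgen : PrincipalGeneratedByIntegral A (IsLocalRing.residue A) N)
    {z : modularFunctionFieldBar N} {u : modularFunctionFieldFullC (kk A) N} (hu : u ≠ 0)
    (hzu : Red A (z : LaurentSeries Qb) (u : LaurentSeries (kk A)))
    {D : Divisor Qb (modularFunctionFieldBar N)} (hD : ∀ P, D P = P.ord z)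
    (Q : Place (kk A) (modularFunctionFieldFullC (kk A) N)) :
    (Finsupp.mapDomain r D : Divisor (kk A) (modularFunctionFieldFullC (kk A) N)) Q =
      Q.ord u := by
  have huv : (u : LaurentSeries (kk A)) ≠ 0 := fun h => hu (Subtype.ext h)
  have hz : z ≠ 0 := by
    intro h
    apply hzu.ne_zero huv
    rw [h]; rfl
  obtain ⟨z', u', hz', hu', hr', h1, h2⟩ := exists_rep hr hgen D ⟨z, hz, hD⟩
  have huv' : (u' : LaurentSeries (kk A)) ≠ 0 := fun h => hu' (Subtype.ext h)
  obtain ⟨c, hc, rfl⟩ := exists_const_of_ord_eq (K := Qb) hz hz' fun v => by rw [← hD, h1]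
  have h3 : ((algebraMap Qb (modularFunctionFieldBar N) c * z' : modularFunctionFieldBar N) :
      LaurentSeries Qb) = HahnSeries.C c * (z' : LaurentSeries Qb) := by
    rw [← algebraMap_eq_C]; rfl
  rw [h3] at hzu
  obtain ⟨hcA, hcu⟩ := hzu.scale hr' huv'
  have hres : IsLocalRing.residue A ⟨c, hcA⟩ ≠ 0 := by
    intro h0
    apply huv
    rw [hcu, h0, map_zero, zero_mul]
  have h4 : u = algebraMap (kk A) (modularFunctionFieldFullC (kk A) N)
      (IsLocalRing.residue A ⟨c, hcA⟩) * u' := by
    apply Subtype.ext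
    rw [hcu, ← algebraMap_eq_C]
    rfl
  rw [h2, h4, ord_const_mul Q hres hu']

theorem mem_full_bar {x : LaurentSeries Qb} :
    x ∈ modularFunctionFieldBar N ↔ x ∈ modularFunctionFieldFullC Qb N :=
  ⟨mem_full_of_bar, mem_bar_of_full⟩

theorem exists_scale_bar {ℓ : ℕ} (hℓ : ℓ.Prime) (hA : A.LiesOverPrime ℓ)
    (hN : (N : kk A) ≠ 0) {z : modularFunctionFieldBar N} (hz : z ≠ 0) :
    ∃ (c : Qb) (u : modularFunctionFieldFullC (kk A) N), c ≠ 0 ∧ u ≠ 0 ∧
      Red A ((algebraMap Qb (modularFunctionFieldBar N) c * z : modularFunctionFieldBar N) :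
        LaurentSeries Qb) (u : LaurentSeries (kk A)) := by
  have hz' : (z : LaurentSeries Qb) ≠ 0 := fun h => hz (Subtype.ext h)
  obtain ⟨c, hc, u, hu, hred⟩ := exists_red hℓ hA (full_le_FL N (mem_full_of_bar z.2)) hz'
  have h3 : ((algebraMap Qb (modularFunctionFieldBar N) c * z : modularFunctionFieldBar N) :
      LaurentSeries Qb) = HahnSeries.C c * (z : LaurentSeries Qb) := by
    rw [← algebraMap_eq_C]; rfl
  have hmem : u ∈ modularFunctionFieldFullC (kk A) N := by
    refine red_mem_full hℓ hA hN (z := HahnSeries.C c * (z : LaurentSeries Qb)) ?_ hred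
    rw [← h3]
    exact mem_full_of_bar (Subtype.prop _)
  refine ⟨c, ⟨u, hmem⟩, hc, fun h => hu (congrArg Subtype.val h), ?_⟩
  rw [h3]
  exact hred

/-- A correspondence compatible with the reduction of functions. -/
structure GoodCorr (A : ValuationSubring Qb) (N : ℕ) [NeZero N]
    (C : Divisor Qb (modularFunctionFieldBar N) →+ Divisor Qb (modularFunctionFieldBar N))
    (Cb : Divisor (kk A) (modularFunctionFieldFullC (kk A) N) →+
      Divisor (kk A) (modularFunctionFieldFullC (kk A) N)) : Prop where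
  princ : ∀ (z : modularFunctionFieldBar N) (u : modularFunctionFieldFullC (kk A) N), u ≠ 0 →
    Red A (z : LaurentSeries Qb) (u : LaurentSeries (kk A)) →
    ∃ (z' : modularFunctionFieldBar N) (u' : modularFunctionFieldFullC (kk A) N), u' ≠ 0 ∧
      Red A (z' : LaurentSeries Qb) (u' : LaurentSeries (kk A)) ∧
      (∀ D, (∀ P, D P = P.ord z) → ∀ P, C D P = P.ord z') ∧
      (∀ D, (∀ Q, D Q = Q.ord u) → ∀ Q, Cb D Q = Q.ord u')
  eff : ∀ P R, 0 ≤ C (Finsupp.single P 1) R
  deg : ∃ d : ℤ, (∀ P, Divisor.degree (C (Finsupp.single P 1)) = d) ∧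
    ∀ Q, Divisor.degree (Cb (Finsupp.single Q 1)) = d
  fin : ∀ R, {Q | Cb (Finsupp.single Q 1) R ≠ 0}.Finite

theorem range_infinite (hr : IsPlaceReductionModL A N r)
    (hgen : PrincipalGeneratedByIntegral A (IsLocalRing.residue A) N) :
    (Set.range r).Infinite := by
  classical
  have hj : Red A (jqModC Qb) (jqModC (kk A)) := by
    have := red_jd (A := A) 1
    rwa [Igusa.jd_one, Igusa.jd_one] at this
  have htr : Transcendental (kk A) (H27.tK (kk A) N) := by
    intro h
    apply transcendental_j (kk A)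
    exact (isAlgebraic_algHom_iff (modularFunctionFieldFullC (kk A) N).val
      (modularFunctionFieldFullC (kk A) N).val.injective).mpr h
  have key : ∀ c : kk A, ∃ Q ∈ Set.range r,
      0 < Q.ord (H27.tK (kk A) N - algebraMap (kk A) _ c) := by
    intro c
    obtain ⟨a, ha⟩ := IsLocalRing.residue_surjective c
    set u := H27.tK (kk A) N - algebraMap (kk A) (modularFunctionFieldFullC (kk A) N) c with hu
    have htr' : Transcendental (kk A) u := FF.transcendental_sub_const htr c
    have hu0 : u ≠ 0 := by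
      intro h0
      rw [h0] at htr'
      exact htr' isAlgebraic_zero
    have hjmem : jqModC Qb ∈ modularFunctionFieldBar N := mem_bar_of_full (jqModC_mem_full Qb N)
    set z : modularFunctionFieldBar N := ⟨jqModC Qb, hjmem⟩ -
      algebraMap Qb (modularFunctionFieldBar N) (a : Qb) with hz
    have hzu : Red A (z : LaurentSeries Qb) (u : LaurentSeries (kk A)) := by
      have h1 := hj.sub (Red.C a.2)
      have h2 : (z : LaurentSeries Qb) = jqModC Qb - HahnSeries.C (a : Qb) := by
        rw [← algebraMap_eq_C]; rfl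
      have h3 : (u : LaurentSeries (kk A)) = jqModC (kk A) -
          HahnSeries.C (IsLocalRing.residue A ⟨(a : Qb), a.2⟩) := by
        have : IsLocalRing.residue A ⟨(a : Qb), a.2⟩ = c := ha
        rw [this, ← algebraMap_eq_C]; rfl
      rw [h2, h3]
      exact h1
    obtain ⟨D, hD, -⟩ := HasPrincipalDivisors.exists_divisor (K := Qb) z (by
      intro h0
      apply hzu.ne_zero (fun h => hu0 (Subtype.ext h))
      rw [h0]; rfl)
    obtain ⟨Q, hQ⟩ := FF.exists_zero htr'
    refine ⟨Q, ?_, hQ⟩
    by_contra hnot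
    have h4 := mapDomain_of_red hr hgen hu0 hzu hD Q
    rw [Finsupp.mapDomain_of_notMem_range D Q hnot] at h4
    rw [← h4] at hQ
    exact lt_irrefl _ hQ
  choose f hf1 hf2 using key
  have hinj : Function.Injective f := by
    intro a b hab
    have h1 := hf2 a
    have h2 := hf2 b
    rw [← hab] at h2
    by_contra hne
    have h3 : (f a).adicValuation (H27.tK (kk A) N - algebraMap (kk A) _ a) < 1 := by
      rw [show (1 : WithZero (Multiplicative ℤ)) = WithZero.exp 0 from rfl, FF.val_lt_exp_iff]
      right; omega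
    have h4 : (f a).adicValuation (H27.tK (kk A) N - algebraMap (kk A) _ b) < 1 := by
      rw [show (1 : WithZero (Multiplicative ℤ)) = WithZero.exp 0 from rfl, FF.val_lt_exp_iff]
      right; omega
    exact hne ((FF.val_eq_of_lt h3).symm.trans (FF.val_eq_of_lt h4))
  haveI : Infinite (kk A) := IsAlgClosed.instInfinite
  exact (Set.infinite_range_of_injective hinj).mono (by
    rintro _ ⟨c, rfl⟩
    exact hf1 c)

namespace GoodCorr

variable {C : Divisor Qb (modularFunctionFieldBar N) →+ Divisor Qb (modularFunctionFieldBar N)}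
  {Cb : Divisor (kk A) (modularFunctionFieldFullC (kk A) N) →+
      Divisor (kk A) (modularFunctionFieldFullC (kk A) N)}

/-- **A good correspondence commutes with the reduction of divisors.** -/
theorem comm (h : GoodCorr A N C Cb) {ℓ : ℕ} (hℓ : ℓ.Prime) (hA : A.LiesOverPrime ℓ)
    (hN : (N : kk A) ≠ 0) (hr : IsPlaceReductionModL A N r)
    (hgen : PrincipalGeneratedByIntegral A (IsLocalRing.residue A) N)
    (D : Divisor Qb (modularFunctionFieldBar N)) :
    Finsupp.mapDomain r (C D) = Cb (Finsupp.mapDomain r D) := by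
  have hdegb : ∀ R : Place (kk A) (modularFunctionFieldFullC (kk A) N), R.deg = 1 :=
    fun R => FF.deg_eq_one R
  obtain ⟨d, hd1, hd2⟩ := h.deg
  refine star r hr.1 (deg_eq_one_bc Qb N) hdegb ?_ C Cb ?_ h.eff
    (fun P => by rw [hd1, hd2]) (exists_sep r Cb h.fin (range_infinite hr hgen)) D
  · intro n hn x
    exact FF.pic0_divisible n (Nat.pos_of_ne_zero hn) x
  · rintro D ⟨z, hz, hD⟩
    obtain ⟨c, u, hc, hu, hred⟩ := exists_scale_bar hℓ hA hN hz
    have hD' : ∀ P : Place Qb (modularFunctionFieldBar N),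
        D P = P.ord (algebraMap Qb (modularFunctionFieldBar N) c * z) := by
      intro P
      rw [hD, ord_const_mul P hc hz]
    obtain ⟨z', u', hu', hred', h1, h2⟩ := h.princ _ u hu hred
    ext Q
    rw [mapDomain_of_red hr hgen hu' hred' (h1 D hD') Q,
      h2 _ (fun Q => mapDomain_of_red hr hgen hu hred hD' Q) Q]

/-- A good correspondence preserves divisors with principal reduction. -/
theorem principal (h : GoodCorr A N C Cb) {ℓ : ℕ} (hℓ : ℓ.Prime) (hA : A.LiesOverPrime ℓ)
    (hN : (N : kk A) ≠ 0) (hr : IsPlaceReductionModL A N r)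
    (hgen : PrincipalGeneratedByIntegral A (IsLocalRing.residue A) N)
    {D : Divisor Qb (modularFunctionFieldBar N)}
    (hD : (Finsupp.mapDomain r D : Divisor (kk A) (modularFunctionFieldFullC (kk A) N)) ∈
      Divisor.principal (K := kk A) (F := modularFunctionFieldFullC (kk A) N)) :
    (Finsupp.mapDomain r (C D) : Divisor (kk A) (modularFunctionFieldFullC (kk A) N)) ∈
      Divisor.principal (K := kk A) (F := modularFunctionFieldFullC (kk A) N) := by
  rw [h.comm hℓ hA hN hr hgen]
  obtain ⟨u, hu, hDu⟩ := hD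
  obtain ⟨z, hz, hred⟩ := exists_lift (K := Qb) (A := A) N u.2
  obtain ⟨z', u', hu', hred', h1, h2⟩ := h.princ ⟨z, mem_bar_of_full hz⟩ u hu hred
  exact ⟨u', hu', fun Q => h2 _ hDu Q⟩

end GoodCorr

end Main

end Fermat.Agent.H12
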