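import Mathlib

set_option autoImplicit false
set_option linter.style.haveILetI false
set_option linter.unusedSectionVars false

/-!
# The mod `r` cyclotomic character in terms of an additive character `ψ : ZMod r → L`
-/

namespace Fermat.Agent.H12

variable {L : Type*} [Field L] [CharZero L] [IsAlgClosed L]

/-- An injective additive character of `ZMod r` with values in `L`. -/
structure CycData (L : Type*) [Field L] (r : ℕ) where
  ψ : ZMod r → L
  ψ_add : ∀ x y, ψ (x + y) = ψ x * ψ y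
  ψ_inj : Function.Injective ψ
  ψ_pow : ∀ x, ψ x ^ r = 1
  ψ_surj : ∀ z : L, z ^ r = 1 → ∃ x, ψ x = z

theorem nonempty_cycData {r : ℕ} (hr : r.Prime) : Nonempty (CycData L r) := by
  haveI : Fact r.Prime := ⟨hr⟩
  haveI : NeZero r := ⟨hr.ne_zero⟩
  haveI : NeZero (r : L) := ⟨Nat.cast_ne_zero.mpr hr.ne_zero⟩
  obtain ⟨ζ, hζ⟩ := HasEnoughRootsOfUnity.exists_primitiveRoot L r
  refine ⟨⟨AddChar.zmodChar r hζ.pow_eq_one, fun x y => AddChar.map_add_eq_mul _ x y, ?_, ?_, ?_⟩⟩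
  · intro x y hxy
    rw [AddChar.zmodChar_apply, AddChar.zmodChar_apply] at hxy
    exact ZMod.val_injective r (hζ.pow_inj (ZMod.val_lt x) (ZMod.val_lt y) hxy)
  · intro x
    rw [AddChar.zmodChar_apply, ← pow_mul, mul_comm, pow_mul, hζ.pow_eq_one, one_pow]
  · intro z hz
    obtain ⟨i, hi, rfl⟩ := hζ.eq_pow_of_pow_eq_one hz
    exact ⟨(i : ZMod r), AddChar.zmodChar_apply' hζ.pow_eq_one i⟩

namespace CycData

variable {r : ℕ} (D : CycData L r)

theorem ψ_zero (hr : r.Prime) : D.ψ 0 = 1 := by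
  have h := D.ψ_add 0 0
  rw [add_zero] at h
  have h0 : D.ψ 0 ≠ 0 := by
    intro h0
    have := D.ψ_pow 0
    rw [h0, zero_pow hr.ne_zero] at this
    exact zero_ne_one this
  exact (mul_eq_left₀ h0).mp h.symm

theorem ψ_ne_zero (hr : r.Prime) (x : ZMod r) : D.ψ x ≠ 0 := by
  intro h0
  have := D.ψ_pow x
  rw [h0, zero_pow hr.ne_zero] at this
  exact zero_ne_one this

theorem ψ_nsmul (hr : r.Prime) (n : ℕ) (x : ZMod r) : D.ψ ((n : ZMod r) * x) = D.ψ x ^ n := by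
  induction n with
  | zero => rw [Nat.cast_zero, zero_mul, D.ψ_zero hr, pow_zero]
  | succ n ih => rw [Nat.cast_succ, add_mul, one_mul, D.ψ_add, ih, pow_succ]

theorem ψ_zsmul (hr : r.Prime) (n : ℤ) (x : ZMod r) : D.ψ ((n : ZMod r) * x) = D.ψ x ^ n := by
  have hneg : ∀ y, D.ψ (-y) = (D.ψ y)⁻¹ := by
    intro y
    apply eq_inv_of_mul_eq_one_left
    rw [← D.ψ_add, neg_add_cancel, D.ψ_zero hr]
  cases n with
  | ofNat n => rw [Int.ofNat_eq_natCast, Int.cast_natCast, D.ψ_nsmul hr, zpow_natCast]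
  | negSucc n =>
    rw [Int.cast_negSucc, neg_mul, hneg, D.ψ_nsmul hr, zpow_negSucc]

variable {K : Type*} [Field K] [Algebra K L]

/-- The cyclotomic character. -/
noncomputable def χ (hr : r.Prime) : (L ≃ₐ[K] L) →* ZMod r :=
  have hex : ∀ σ : L ≃ₐ[K] L, ∃ x, D.ψ x = σ (D.ψ 1) := fun σ =>
    D.ψ_surj _ (by rw [← map_pow, D.ψ_pow, map_one])
  have hspec : ∀ σ : L ≃ₐ[K] L, ∀ y : ZMod r, σ (D.ψ y) = D.ψ ((hex σ).choose * y) := by
    intro σ y
    haveI : NeZero r := ⟨hr.ne_zero⟩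
    have h1 := (hex σ).choose_spec
    set x := (hex σ).choose
    have h2 : D.ψ y = D.ψ 1 ^ y.val := by
      rw [← D.ψ_nsmul hr, mul_one, ZMod.natCast_zmod_val]
    rw [h2, map_pow, ← h1, ← D.ψ_nsmul hr, ZMod.natCast_zmod_val, mul_comm]
  { toFun := fun σ => (hex σ).choose
    map_one' := by
      apply D.ψ_inj
      rw [(hex 1).choose_spec]
      rfl
    map_mul' := fun σ τ => by
      apply D.ψ_inj
      rw [(hex (σ * τ)).choose_spec, ← hspec σ, (hex τ).choose_spec]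
      rfl }

theorem χ_spec (hr : r.Prime) (σ : L ≃ₐ[K] L) (y : ZMod r) :
    σ (D.ψ y) = D.ψ (D.χ hr σ * y) := by
  haveI : NeZero r := ⟨hr.ne_zero⟩
  have hex : ∀ σ : L ≃ₐ[K] L, ∃ x, D.ψ x = σ (D.ψ 1) := fun σ =>
    D.ψ_surj _ (by rw [← map_pow, D.ψ_pow, map_one])
  have h1 : D.ψ (D.χ hr σ) = σ (D.ψ 1) := (hex σ).choose_spec
  have h2 : D.ψ y = D.ψ 1 ^ y.val := by
    rw [← D.ψ_nsmul hr, mul_one, ZMod.natCast_zmod_val]
  rw [h2, map_pow, ← h1, ← D.ψ_nsmul hr, ZMod.natCast_zmod_val, mul_comm]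

theorem χ_eq_of_forall (hr : r.Prime) (σ : L ≃ₐ[K] L) (c : ℤ)
    (hc : ∀ ζ : L, ζ ^ r = 1 → σ ζ = ζ ^ c) : D.χ hr σ = c := by
  apply D.ψ_inj
  have h1 := D.χ_spec hr σ 1
  rw [mul_one] at h1
  rw [← h1, hc _ (D.ψ_pow 1)]
  have := D.ψ_zsmul hr c 1
  rw [mul_one] at this
  exact this.symm

theorem χ_eq_one (hr : r.Prime) (σ : L ≃ₐ[K] L)
    (hc : ∀ ζ : L, ζ ^ r = 1 → σ ζ = ζ) : D.χ hr σ = 1 := by
  have := D.χ_eq_of_forall hr σ 1 (fun ζ hζ => by rw [zpow_one, hc ζ hζ])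
  simpa using this

end CycData

end Fermat.Agent.H12
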