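import Mathlib

set_option autoImplicit false
set_option linter.style.haveILetI false
set_option linter.unusedSectionVars false

namespace Fermat.Agent.H12

variable {J X : Type*} [AddCommGroup J] [AddCommGroup X]

theorem card_map_mul_card_inf (f : J →+ X) (B : AddSubgroup J) :
    Nat.card (B.map f) * Nat.card ↥(B ⊓ f.ker) = Nat.card B := by
  let g : B →+ X := f.comp B.subtype
  have h1 : g.range = B.map f := by
    ext x
    simp [g, AddSubgroup.mem_map]
  have h2 : Nat.card g.ker * g.ker.index = Nat.card B := AddSubgroup.card_mul_index g.ker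
  rw [AddSubgroup.index_ker, h1] at h2
  have h3 : Nat.card g.ker = Nat.card ↥(B ⊓ f.ker) := by
    apply Nat.card_congr
    exact
      { toFun := fun x => ⟨x.1.1, x.1.2, x.2⟩
        invFun := fun x => ⟨⟨x.1, x.2.1⟩, x.2.2⟩
        left_inv := fun x => rfl
        right_inv := fun x => rfl }
  rw [← h3, mul_comm]
  exact h2

theorem exists_hom_zmod (B' B : AddSubgroup J) (hle : B' ≤ B) {r : ℕ} (hr : r.Prime)
    [Finite B] (hcard : Nat.card B = r * Nat.card B') :
    ∃ f : ↥B →+ ZMod r, Function.Surjective f ∧ ∀ b : ↥B, f b = 0 ↔ (b : J) ∈ B' := by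
  haveI : Fact r.Prime := ⟨hr⟩
  let H : AddSubgroup B := B'.addSubgroupOf B
  have h1 : Nat.card H = Nat.card B' :=
    Nat.card_congr (AddSubgroup.addSubgroupOfEquivOfLe hle).toEquiv
  have h2 : Nat.card (B ⧸ H) = r := by
    have h3 := AddSubgroup.card_eq_card_quotient_mul_card_addSubgroup H
    rw [hcard, h1] at h3
    haveI : Finite B' := Finite.of_injective _ (AddSubgroup.inclusion_injective hle)
    have h4 : 0 < Nat.card B' := Nat.card_pos
    exact (Nat.eq_of_mul_eq_mul_right h4 h3).symm
  haveI : IsAddCyclic (B ⧸ H) := isAddCyclic_of_prime_card h2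
  let e : ZMod (Nat.card (B ⧸ H)) ≃+ (B ⧸ H) := zmodAddCyclicAddEquiv inferInstance
  let e' : (B ⧸ H) ≃+ ZMod r := e.symm.trans (ZMod.ringEquivCongr h2).toAddEquiv
  refine ⟨e'.toAddMonoidHom.comp (QuotientAddGroup.mk' H), ?_, ?_⟩
  · exact e'.surjective.comp (QuotientAddGroup.mk'_surjective H)
  · intro b
    change e' (QuotientAddGroup.mk' H b) = 0 ↔ _
    rw [EmbeddingLike.map_eq_zero_iff, QuotientAddGroup.mk'_apply, QuotientAddGroup.eq_zero_iff]
    exact AddSubgroup.mem_addSubgroupOf

end Fermat.Agent.H12
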