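import Mathlib
import Fermat.Agent.H12.GroupLem

set_option autoImplicit false
set_option linter.style.haveILetI false
set_option linter.unusedSectionVars false

/-!
# Finite duality for a pairing on a finite subgroup `G` of `J` with values in a field
-/

namespace Fermat.Agent.H12

variable {J : Type*} [AddCommGroup J] {L : Type*} [Field L] [CharZero L] [IsAlgClosed L]

/-- A bimultiplicative pairing on the finite subgroup `G`, with values in `m`-th roots of unity,
nondegenerate on the right. -/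
structure IsPairing (G : AddSubgroup J) (m : ℕ) (e : J → J → L) : Prop where
  pow_eq_one : ∀ x ∈ G, ∀ y ∈ G, e x y ^ m = 1
  add_left : ∀ x ∈ G, ∀ x' ∈ G, ∀ y ∈ G, e (x + x') y = e x y * e x' y
  add_right : ∀ x ∈ G, ∀ y ∈ G, ∀ y' ∈ G, e x (y + y') = e x y * e x y'
  nondeg_left : ∀ x ∈ G, (∀ y ∈ G, e x y = 1) → x = 0
  nondeg_right : ∀ y ∈ G, (∀ x ∈ G, e x y = 1) → y = 0

namespace IsPairing

variable {G : AddSubgroup J} {m : ℕ} {e : J → J → L}

theorem ne_zero (h : IsPairing G m e) (hm : m ≠ 0) {x y : J} (hx : x ∈ G) (hy : y ∈ G) :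
    e x y ≠ 0 := by
  intro h0
  have := h.pow_eq_one x hx y hy
  rw [h0, zero_pow hm] at this
  exact zero_ne_one this

theorem zero_left (h : IsPairing G m e) (hm : m ≠ 0) {y : J} (hy : y ∈ G) : e 0 y = 1 := by
  have h1 := h.add_left 0 (zero_mem G) 0 (zero_mem G) y hy
  rw [add_zero] at h1
  exact (mul_eq_left₀ (h.ne_zero hm (zero_mem G) hy)).mp h1.symm

theorem zero_right (h : IsPairing G m e) (hm : m ≠ 0) {x : J} (hx : x ∈ G) : e x 0 = 1 := by
  have h1 := h.add_right x hx 0 (zero_mem G) 0 (zero_mem G)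
  rw [add_zero] at h1
  exact (mul_eq_left₀ (h.ne_zero hm hx (zero_mem G))).mp h1.symm

theorem neg_left (h : IsPairing G m e) (hm : m ≠ 0) {x y : J} (hx : x ∈ G) (hy : y ∈ G) :
    e (-x) y = (e x y)⁻¹ := by
  have h1 := h.add_left x hx (-x) (neg_mem hx) y hy
  rw [add_neg_cancel, h.zero_left hm hy] at h1
  exact eq_inv_of_mul_eq_one_right h1.symm

theorem neg_right (h : IsPairing G m e) (hm : m ≠ 0) {x y : J} (hx : x ∈ G) (hy : y ∈ G) :
    e x (-y) = (e x y)⁻¹ := by
  have h1 := h.add_right x hx y hy (-y) (neg_mem hy)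
  rw [add_neg_cancel, h.zero_right hm hx] at h1
  exact eq_inv_of_mul_eq_one_right h1.symm

theorem sub_left (h : IsPairing G m e) (hm : m ≠ 0) {x x' y : J} (hx : x ∈ G) (hx' : x' ∈ G)
    (hy : y ∈ G) : e (x - x') y = e x y / e x' y := by
  rw [sub_eq_add_neg, h.add_left x hx _ (neg_mem hx') y hy, h.neg_left hm hx' hy, div_eq_mul_inv]

theorem sub_right (h : IsPairing G m e) (hm : m ≠ 0) {x y y' : J} (hx : x ∈ G) (hy : y ∈ G)
    (hy' : y' ∈ G) : e x (y - y') = e x y / e x y' := by
  rw [sub_eq_add_neg, h.add_right x hx y hy _ (neg_mem hy'), h.neg_right hm hx hy',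
    div_eq_mul_inv]

theorem nsmul_left (h : IsPairing G m e) (hm : m ≠ 0) {x y : J} (hx : x ∈ G) (hy : y ∈ G) (n : ℕ) :
    e (n • x) y = e x y ^ n := by
  induction n with
  | zero => rw [zero_smul, h.zero_left hm hy, pow_zero]
  | succ n ih => rw [succ_nsmul, h.add_left _ (nsmul_mem hx n) _ hx y hy, ih, pow_succ]

theorem nsmul_right (h : IsPairing G m e) (hm : m ≠ 0) {x y : J} (hx : x ∈ G) (hy : y ∈ G)
    (n : ℕ) : e x (n • y) = e x y ^ n := by
  induction n with
  | zero => rw [zero_smul, h.zero_right hm hx, pow_zero]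
  | succ n ih => rw [succ_nsmul, h.add_right x hx _ (nsmul_mem hy n) _ hy, ih, pow_succ]

theorem zsmul_left (h : IsPairing G m e) (hm : m ≠ 0) {x y : J} (hx : x ∈ G) (hy : y ∈ G) (n : ℤ) :
    e (n • x) y = e x y ^ n := by
  cases n with
  | ofNat n => rw [Int.ofNat_eq_natCast, natCast_zsmul, zpow_natCast]; exact h.nsmul_left hm hx hy n
  | negSucc n =>
    rw [negSucc_zsmul, h.neg_left hm (nsmul_mem hx _) hy, h.nsmul_left hm hx hy, zpow_negSucc]

theorem zsmul_right (h : IsPairing G m e) (hm : m ≠ 0) {x y : J} (hx : x ∈ G) (hy : y ∈ G)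
    (n : ℤ) : e x (n • y) = e x y ^ n := by
  cases n with
  | ofNat n =>
    rw [Int.ofNat_eq_natCast, natCast_zsmul, zpow_natCast]; exact h.nsmul_right hm hx hy n
  | negSucc n =>
    rw [negSucc_zsmul, h.neg_right hm hx (nsmul_mem hy _), h.nsmul_right hm hx hy, zpow_negSucc]

/-- The character `x ↦ e x z` of `G`. -/
noncomputable def char (h : IsPairing G m e) (hm : m ≠ 0) (z : G) : Multiplicative G →* Lˣ where
  toFun x := Units.mk0 (e (x.toAdd : G) z) (h.ne_zero hm (x.toAdd : G).2 z.2)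
  map_one' := by
    apply Units.ext
    exact h.zero_left hm z.2
  map_mul' x y := by
    apply Units.ext
    exact h.add_left _ (x.toAdd : G).2 _ (y.toAdd : G).2 z z.2

theorem char_bijective (h : IsPairing G m e) (hm : m ≠ 0) [Finite G] :
    Function.Bijective (h.char hm) := by
  classical
  haveI : NeZero ((Monoid.exponent (Multiplicative G) : ℕ) : L) :=
    ⟨Nat.cast_ne_zero.mpr (Monoid.exponent_ne_zero_of_finite)⟩
  haveI : HasEnoughRootsOfUnity L (Monoid.exponent (Multiplicative G)) := inferInstance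
  have hcard : Nat.card (Multiplicative G →* Lˣ) = Nat.card G :=
    CommGroup.card_monoidHom_of_hasEnoughRootsOfUnity (Multiplicative G) L
  haveI : Finite (Multiplicative G →* Lˣ) := by
    apply Nat.finite_of_card_ne_zero
    rw [hcard]
    exact Nat.card_pos.ne'
  refine (Nat.bijective_iff_injective_and_card _).mpr ⟨?_, hcard.symm⟩
  intro z z' hzz
  have h1 : (z : J) - z' = 0 := by
    apply h.nondeg_right _ (sub_mem z.2 z'.2)
    intro x hx
    have h2 := congrArg (fun f : Multiplicative G →* Lˣ => ((f (Multiplicative.ofAdd ⟨x, hx⟩) : Lˣ) : L)) hzz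
    rw [h.sub_right hm hx z.2 z'.2]
    change e x z = e x z' at h2
    rw [h2, div_self (h.ne_zero hm hx z'.2)]
  exact Subtype.ext (sub_eq_zero.mp h1)

/-- Every character of a subgroup is of the form `e · z`. -/
theorem exists_eq (h : IsPairing G m e) (hm : m ≠ 0) [Finite G] (H : AddSubgroup J) (hH : H ≤ G)
    (χ : J → L) (hχ0 : ∀ x ∈ H, χ x ≠ 0) (hχ : ∀ x ∈ H, ∀ y ∈ H, χ (x + y) = χ x * χ y) :
    ∃ z ∈ G, ∀ x ∈ H, e x z = χ x := by
  classical
  haveI : NeZero ((Monoid.exponent (Multiplicative G) : ℕ) : L) :=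
    ⟨Nat.cast_ne_zero.mpr (Monoid.exponent_ne_zero_of_finite)⟩
  haveI : HasEnoughRootsOfUnity L (Monoid.exponent (Multiplicative G)) := inferInstance
  let H' : Subgroup (Multiplicative G) := AddSubgroup.toSubgroup (H.addSubgroupOf G)
  have hχ1 : χ 0 = 1 := by
    have h1 := hχ 0 (zero_mem H) 0 (zero_mem H)
    rw [add_zero] at h1
    exact (mul_eq_left₀ (hχ0 0 (zero_mem H))).mp h1.symm
  let f : H' →* Lˣ :=
    { toFun := fun x => Units.mk0 (χ ((x.1.toAdd : G) : J)) (hχ0 _ x.2)
      map_one' := Units.ext hχ1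
      map_mul' := fun x y => Units.ext (hχ _ x.2 _ y.2) }
  obtain ⟨F, hF⟩ := MonoidHom.domRestrict_surjective L H' f
  obtain ⟨z, hz⟩ := (h.char_bijective hm).2 F
  refine ⟨z, z.2, fun x hx => ?_⟩
  have h1 := congrArg (fun g : H' →* Lˣ =>
    ((g ⟨Multiplicative.ofAdd ⟨x, hH hx⟩, hx⟩ : Lˣ) : L)) hF
  rw [← hz] at h1
  exact h1

/-- An isotropic subgroup has order at most the square root of the order of the group. -/
theorem card_isotropic_le (h : IsPairing G m e) (hm : m ≠ 0) [Finite G] (H : AddSubgroup J)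
    (hH : H ≤ G) (hiso : ∀ x ∈ H, ∀ y ∈ H, e x y = 1) :
    Nat.card H * Nat.card H ≤ Nat.card G := by
  classical
  haveI : Finite H := Finite.of_injective _ (AddSubgroup.inclusion_injective hH)
  haveI : NeZero ((Monoid.exponent (Multiplicative H) : ℕ) : L) :=
    ⟨Nat.cast_ne_zero.mpr (Monoid.exponent_ne_zero_of_finite)⟩
  haveI : HasEnoughRootsOfUnity L (Monoid.exponent (Multiplicative H)) := inferInstance
  have hcard : Nat.card (Multiplicative H →* Lˣ) = Nat.card H :=
    CommGroup.card_monoidHom_of_hasEnoughRootsOfUnity (Multiplicative H) L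
  haveI : Finite (Multiplicative H →* Lˣ) := by
    apply Nat.finite_of_card_ne_zero
    rw [hcard]
    exact Nat.card_pos.ne'
  have hsur : ∀ f : Multiplicative H →* Lˣ, ∃ z ∈ G, ∀ (x : J) (hx : x ∈ H),
      e x z = ((f (Multiplicative.ofAdd ⟨x, hx⟩) : Lˣ) : L) := by
    intro f
    obtain ⟨z, hz, hz'⟩ := h.exists_eq hm H hH
      (fun x => if hx : x ∈ H then ((f (Multiplicative.ofAdd ⟨x, hx⟩) : Lˣ) : L) else 1)
      (fun x hx => by
        simp only [dif_pos hx]
        exact Units.ne_zero _)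
      (fun x hx y hy => by
        simp only [dif_pos hx, dif_pos hy, dif_pos (add_mem hx hy)]
        rw [← Units.val_mul, ← map_mul]
        rfl)
    refine ⟨z, hz, fun x hx => ?_⟩
    have h1 := hz' x hx
    simp only [dif_pos hx] at h1
    exact h1
  choose s hsG hs using hsur
  let g : H × (Multiplicative H →* Lˣ) → G := fun p => ⟨(p.1 : J) + s p.2, add_mem (hH p.1.2) (hsG p.2)⟩
  have hg : Function.Injective g := by
    rintro ⟨x, f⟩ ⟨x', f'⟩ hxx
    have h1 : (x : J) + s f = x' + s f' := congrArg Subtype.val hxx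
    have h2 : f = f' := by
      apply MonoidHom.ext
      intro y
      apply Units.ext
      have hy := (y.toAdd : H).2
      have e1 := hs f _ hy
      have e2 := hs f' _ hy
      have e3 : e (y.toAdd : H) ((x : J) + s f) = e (y.toAdd : H) ((x' : J) + s f') := by rw [h1]
      rw [h.add_right _ (hH hy) _ (hH x.2) _ (hsG f), h.add_right _ (hH hy) _ (hH x'.2) _ (hsG f'),
        hiso _ hy _ x.2, hiso _ hy _ x'.2, one_mul, one_mul, e1, e2] at e3
      exact e3
    subst h2
    have h3 : (x : J) = x' := add_right_cancel h1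
    exact Prod.ext (Subtype.ext h3) rfl
  have h4 := Nat.card_le_card_of_injective g hg
  rwa [Nat.card_prod, hcard] at h4

end IsPairing

end Fermat.Agent.H12
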