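import Mathlib
import Fermat.Agent.H09.Inertia

set_option autoImplicit false
set_option linter.style.haveILetI false
set_option linter.unusedSectionVars false

namespace Fermat.Agent.H12

open Fermat.Agent.H05 Fermat.Agent.H09

theorem nat_eq_pow_of_dvd {r : ℕ} (n : ℕ) (hn : n ≠ 0)
    (h : ∀ ℓ : ℕ, ℓ.Prime → r ∣ padicValNat ℓ n) : ∃ m : ℕ, m ^ r = n := by
  refine ⟨(n.factorization.prod fun p k => p ^ (k / r)), ?_⟩
  conv_rhs => rw [← Nat.prod_factorization_pow_eq_self hn]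
  rw [Finsupp.prod, Finsupp.prod, ← Finset.prod_pow]
  refine Finset.prod_congr rfl fun p hp => ?_
  have hp' : p.Prime := Nat.prime_of_mem_primeFactors (by simpa using hp)
  have h1 := h p hp'
  rw [← Nat.factorization_def n hp'] at h1
  rw [← pow_mul, Nat.div_mul_cancel h1]

theorem rat_eq_pow_of_dvd {r : ℕ} (hr : r ≠ 0) (a : ℚ) (ha : a ≠ 0)
    (h : ∀ ℓ : ℕ, ℓ.Prime → (r : ℤ) ∣ padicValRat ℓ a) :
    ∃ b : ℚ, b ≠ 0 ∧ (b ^ r = a ∨ b ^ r = -a) := by
  have hnum : a.num.natAbs ≠ 0 := by simpa using ha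
  have hden : a.den ≠ 0 := a.den_ne_zero
  have hcop : Nat.Coprime a.num.natAbs a.den := a.reduced
  have key : ∀ ℓ : ℕ, ℓ.Prime → r ∣ padicValNat ℓ a.num.natAbs ∧ r ∣ padicValNat ℓ a.den := by
    intro ℓ hℓ
    have h1 := h ℓ hℓ
    rw [padicValRat.eq_def] at h1
    by_cases h2 : ℓ ∣ a.den
    · have h3 : ¬ ℓ ∣ a.num.natAbs := fun h3 => hℓ.one_lt.ne' (Nat.dvd_one.mp (hcop ▸ Nat.dvd_gcd h3 h2))
      have h4 : padicValNat ℓ a.num.natAbs = 0 := padicValNat.eq_zero_of_not_dvd h3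
      have h5 : (padicValInt ℓ a.num : ℤ) = 0 := by
        unfold padicValInt; exact_mod_cast h4
      rw [h5, zero_sub, dvd_neg] at h1
      exact ⟨by rw [h4]; exact dvd_zero _, by exact_mod_cast h1⟩
    · have h4 : padicValNat ℓ a.den = 0 := padicValNat.eq_zero_of_not_dvd h2
      rw [h4, Nat.cast_zero, sub_zero] at h1
      refine ⟨?_, by rw [h4]; exact dvd_zero _⟩
      unfold padicValInt at h1
      exact_mod_cast h1
  obtain ⟨m, hm⟩ := nat_eq_pow_of_dvd a.num.natAbs hnum fun ℓ hℓ => (key ℓ hℓ).1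
  obtain ⟨d, hd⟩ := nat_eq_pow_of_dvd a.den hden fun ℓ hℓ => (key ℓ hℓ).2
  have hab : (a.num.natAbs : ℚ) / a.den = a ∨ (a.num.natAbs : ℚ) / a.den = -a := by
    rcases Int.natAbs_eq a.num with h1 | h1
    · left
      conv_rhs => rw [← Rat.num_div_den a, h1]
      simp
    · right
      conv_rhs => rw [← Rat.num_div_den a, h1]
      simp [neg_div]
  have h3 : ((m : ℚ) / d) ^ r = (a.num.natAbs : ℚ) / a.den := by
    rw [div_pow, ← hm, ← hd]
    push_cast
    rfl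
  refine ⟨(m : ℚ) / d, ?_, by rwa [h3]⟩
  intro h0
  rw [h0, zero_pow hr] at h3
  have : (a.num.natAbs : ℚ) / a.den ≠ 0 := by
    apply div_ne_zero <;> exact_mod_cast (by assumption)
  exact this h3.symm

variable {L : Type*} [Field L] [CharZero L]

theorem valuation_intCast {A : ValuationSubring L} {ℓ : ℕ} (hℓ : ℓ.Prime)
    (hA : A.LiesOverPrime ℓ) (a : ℤ) (ha : a ≠ 0) :
    A.valuation (a : L) = A.valuation (ℓ : L) ^ padicValInt ℓ a := by
  haveI : Fact ℓ.Prime := ⟨hℓ⟩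
  obtain ⟨b, hb⟩ : (ℓ : ℤ) ^ padicValInt ℓ a ∣ a := padicValInt_dvd a
  have hb' : ¬ (ℓ : ℤ) ∣ b := by
    intro hdvd
    have h1 : (ℓ : ℤ) ^ (padicValInt ℓ a + 1) ∣ a := by
      conv_rhs => rw [hb]
      rw [pow_succ]
      exact mul_dvd_mul_left _ hdvd
    rw [padicValInt_dvd_iff] at h1
    rcases h1 with h1 | h1
    · exact ha h1
    · omega
  conv_lhs => rw [hb]
  push_cast
  rw [map_mul, map_pow, val_intCast_eq_one hℓ hA hb', mul_one]

theorem valuation_ratCast {A : ValuationSubring L} {ℓ : ℕ} (hℓ : ℓ.Prime)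
    (hA : A.LiesOverPrime ℓ) (a : ℚ) (ha : a ≠ 0) :
    A.valuation (a : L) = A.valuation (ℓ : L) ^ padicValRat ℓ a := by
  have hℓ0 : A.valuation (ℓ : L) ≠ 0 :=
    (map_ne_zero _).mpr (Nat.cast_ne_zero.mpr hℓ.ne_zero)
  have h1 : (a : L) = ((a.num : ℤ) : L) / (((a.den : ℤ)) : L) := by
    conv_lhs => rw [← Rat.num_div_den a]
    push_cast
    rfl
  rw [h1, map_div₀, valuation_intCast hℓ hA _ (Rat.num_ne_zero.mpr ha),
    valuation_intCast hℓ hA _ (by exact_mod_cast a.den_ne_zero), padicValRat.eq_def,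
    zpow_sub₀ hℓ0, zpow_natCast, zpow_natCast]
  congr 2

end Fermat.Agent.H12
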