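import Mathlib

set_option autoImplicit false
set_option linter.style.haveILetI false
set_option linter.unusedSectionVars false

/-!
# Simple quotients: a finite module over `T[G]` killed by a power of `P`, on which every `σ ∈ G`
satisfies `σ² - t σ + c = 0` with `t ≡ 1 + c mod P`, has stable subgroups of index `r`.
-/

namespace Fermat.Agent.H12

variable {J : Type*} [AddCommGroup J]

/-- Subgroups stable under `T` and `G`. -/
structure IsStable (T GG : Type*) [CommRing T] [Module T J] [Group GG] [DistribMulAction GG J]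
    (B : AddSubgroup J) : Prop where
  T_mem : ∀ (t : T), ∀ b ∈ B, t • b ∈ B
  G_mem : ∀ (σ : GG), ∀ b ∈ B, σ • b ∈ B

section

variable {T GG : Type*} [CommRing T] [Module T J] [Group GG] [DistribMulAction GG J]

theorem exists_maximal_stable (B : AddSubgroup J) [Finite B]
    (hne : B ≠ ⊥) : ∃ B' : AddSubgroup J, IsStable T GG B' ∧ B' < B ∧
      ∀ B'' : AddSubgroup J, IsStable T GG B'' → B' ≤ B'' → B'' ≤ B → B'' ≠ B → B'' = B' := by
  classical
  let s : Set ℕ := {n | ∃ B' : AddSubgroup J, IsStable T GG B' ∧ B' < B ∧ Nat.card B' = n}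
  have hfin : ∀ B' : AddSubgroup J, B' ≤ B → Finite B' := fun B' h =>
    Finite.of_injective _ (AddSubgroup.inclusion_injective h)
  have hbdd : BddAbove s := by
    refine ⟨Nat.card B, ?_⟩
    rintro n ⟨B', -, hlt, rfl⟩
    exact Nat.card_le_card_of_injective _ (AddSubgroup.inclusion_injective hlt.le)
  have hns : s.Nonempty := by
    refine ⟨_, ⊥, ⟨fun t b hb => ?_, fun σ b hb => ?_⟩, bot_lt_iff_ne_bot.mpr hne, rfl⟩
    · rw [AddSubgroup.mem_bot] at hb ⊢
      rw [hb, smul_zero]
    · rw [AddSubgroup.mem_bot] at hb ⊢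
      rw [hb, smul_zero]
  obtain ⟨B', hB', hlt, hcard⟩ := Nat.sSup_mem hns hbdd
  refine ⟨B', hB', hlt, fun B'' hs h1 h2 h3 => ?_⟩
  have h4 : Nat.card B'' ≤ Nat.card B' := by
    rw [hcard]
    exact le_csSup hbdd ⟨B'', hs, lt_of_le_of_ne h2 h3, rfl⟩
  haveI := hfin B'' h2
  symm
  exact AddSubgroup.eq_of_le_of_card_ge h1 h4

/-- The action of the group on the quotient by a stable subgroup. -/
noncomputable def quotAct {B' B : AddSubgroup J} (hB : IsStable T GG B)
    (hB' : IsStable T GG B') :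
    GG →* AddMonoid.End (B ⧸ B'.addSubgroupOf B) where
  toFun σ := QuotientAddGroup.map _ _
    (((DistribSMul.toAddMonoidHom J σ).comp B.subtype).codRestrict B
      (fun b => hB.G_mem σ b b.2))
    (by
      intro b hb
      rw [AddSubgroup.mem_comap, AddSubgroup.mem_addSubgroupOf]
      rw [AddSubgroup.mem_addSubgroupOf] at hb
      exact hB'.G_mem σ _ hb)
  map_one' := by
    ext x
    obtain ⟨b, rfl⟩ := QuotientAddGroup.mk_surjective x
    change QuotientAddGroup.mk _ = QuotientAddGroup.mk _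
    congr 1
    apply Subtype.ext
    exact one_smul GG (b : J)
  map_mul' σ τ := by
    ext x
    obtain ⟨b, rfl⟩ := QuotientAddGroup.mk_surjective x
    change QuotientAddGroup.mk _ = QuotientAddGroup.mk _
    congr 1
    apply Subtype.ext
    exact mul_smul σ τ (b : J)

theorem quotAct_apply {B' B : AddSubgroup J} (hB : IsStable T GG B)
    (hB' : IsStable T GG B') (σ : GG) (b : B) :
    quotAct hB hB' σ (QuotientAddGroup.mk b) =
      QuotientAddGroup.mk (⟨σ • (b : J), hB.G_mem σ b b.2⟩ : B) := rfl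

theorem mk_eq_mk {B' B : AddSubgroup J} (a b : B) :
    (QuotientAddGroup.mk a : B ⧸ B'.addSubgroupOf B) = QuotientAddGroup.mk b ↔
      (a : J) - b ∈ B' := by
  rw [QuotientAddGroup.eq_iff_sub_mem, AddSubgroup.mem_addSubgroupOf]
  rfl

theorem one_add_pow {R : Type*} [Ring R] (ν : R) (hν : ν * ν = 0) (n : ℕ) :
    (1 + ν) ^ n = 1 + n * ν := by
  induction n with
  | zero => simp
  | succ n ih =>
    rw [pow_succ, ih, mul_add, mul_one, add_mul, one_mul, mul_assoc, hν, mul_zero, add_zero]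
    push_cast
    noncomm_ring

end

/-- The main lemma on simple quotients. -/
theorem exists_index_prime {T GG : Type*} [CommRing T] [Module T J] [Group GG]
    [DistribMulAction GG J] (hcomm : ∀ (t : T) (σ : GG) (x : J), t • σ • x = σ • t • x)
    {r : ℕ} (hr : r.Prime) (P : Ideal T) (hrP : (r : T) ∈ P)
    (hres : ∀ t : T, ∃ n : ℤ, t - n ∈ P) (B : AddSubgroup J) [Finite B] (hB : IsStable T GG B)
    (hne : B ≠ ⊥) (hPB : ∃ n : ℕ, ∀ t ∈ P ^ n, ∀ b ∈ B, t • b = 0)
    (χ : GG →* ZMod r)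
    (hrel : ∀ σ : GG, ∃ (t : T) (c : ℤ), (c : ZMod r) = χ σ ∧ t - (1 + c) ∈ P ∧
      ∀ b ∈ B, σ • σ • b - t • σ • b + c • b = 0) :
    ∃ B' : AddSubgroup J, B' ≤ B ∧ IsStable T GG B' ∧ Nat.card B = r * Nat.card B' := by
  classical
  haveI : Fact r.Prime := ⟨hr⟩
  obtain ⟨B', hB', hlt, hmax⟩ := exists_maximal_stable (T := T) (GG := GG) B hne
  have hle : B' ≤ B := hlt.le
  obtain ⟨n, hn⟩ := hPB
  -- Step 1
  have h1 : ∀ t ∈ P, ∀ b ∈ B, t • b ∈ B' := by
    intro t ht
    let B'' : AddSubgroup J := B' ⊔ B.map (Module.toAddMonoidEnd T J t)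
    have hst : IsStable T GG B'' := by
      constructor
      · intro s b hb
        rw [AddSubgroup.mem_sup] at hb ⊢
        obtain ⟨x, hx, y, ⟨z, hz, rfl⟩, rfl⟩ := hb
        refine ⟨s • x, hB'.T_mem s x hx, _, ⟨s • z, hB.T_mem s z hz, rfl⟩, ?_⟩
        change s • x + t • s • z = s • (x + t • z)
        rw [smul_add, smul_comm s t z]
      · intro σ b hb
        rw [AddSubgroup.mem_sup] at hb ⊢
        obtain ⟨x, hx, y, ⟨z, hz, rfl⟩, rfl⟩ := hb
        refine ⟨σ • x, hB'.G_mem σ x hx, _, ⟨σ • z, hB.G_mem σ z hz, rfl⟩, ?_⟩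
        change σ • x + t • σ • z = σ • (x + t • z)
        rw [smul_add, hcomm]
    have hB''B : B'' ≤ B := by
      rw [sup_le_iff]
      refine ⟨hle, ?_⟩
      rintro _ ⟨z, hz, rfl⟩
      exact hB.T_mem t z hz
    by_cases heq : B'' = B
    · exfalso
      have key : ∀ m : ℕ, ∀ b ∈ B, ∃ b0 ∈ B', ∃ b1 ∈ B, b = b0 + t ^ m • b1 := by
        intro m
        induction m with
        | zero => exact fun b hb => ⟨0, zero_mem _, b, hb, by simp⟩
        | succ m ih =>
          intro b hb
          obtain ⟨b0, hb0, b1, hb1, e⟩ := ih b hb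
          rw [← heq, AddSubgroup.mem_sup] at hb1
          obtain ⟨x, hx, y, ⟨z, hz, rfl⟩, rfl⟩ := hb1
          refine ⟨b0 + t ^ m • x, add_mem hb0 (hB'.T_mem _ x hx), z, hz, ?_⟩
          rw [e]
          change b0 + t ^ m • (x + t • z) = _
          rw [smul_add, pow_succ, mul_smul, add_assoc]
      apply hlt.ne
      apply le_antisymm hle
      intro b hb
      obtain ⟨b0, hb0, b1, hb1, e⟩ := key n b hb
      rw [e, hn _ (Ideal.pow_mem_pow ht n) b1 hb1, add_zero]
      exact hb0
    · have h2 := hmax B'' hst le_sup_left hB''B heq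
      intro b hb
      rw [← h2]
      exact (le_sup_right : _ ≤ B'') ⟨b, hb, rfl⟩
  -- the relation modulo `B'`
  have hrel' : ∀ σ : GG, ∃ c : ℤ, (c : ZMod r) = χ σ ∧
      ∀ b ∈ B, σ • σ • b - (1 + c) • σ • b + c • b ∈ B' := by
    intro σ
    obtain ⟨t, c, hc, ht, h2⟩ := hrel σ
    refine ⟨c, hc, fun b hb => ?_⟩
    have h3 := h1 _ ht (σ • b) (hB.G_mem σ b hb)
    have h4 := h2 b hb
    have h5 : σ • σ • b - (1 + c) • σ • b + c • b = (t - (1 + c)) • σ • b := by
      have e1 : (t - (1 + (c : T))) • σ • b = t • σ • b - (1 + c) • σ • b := by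
        rw [sub_smul, add_smul, add_smul, one_smul, one_smul, Int.cast_smul_eq_zsmul]
      rw [e1]
      rw [sub_add_eq_add_sub, sub_eq_zero] at h4
      rw [sub_add_eq_add_sub, h4]
    rw [h5]
    exact h3
  have hrB : ∀ b ∈ B, (r : ℤ) • b ∈ B' := by
    intro b hb
    have := h1 _ hrP b hb
    rwa [Nat.cast_smul_eq_nsmul, ← natCast_zsmul] at this
  -- Step 2
  let S := B ⧸ B'.addSubgroupOf B
  let ρ : GG →* AddMonoid.End S := quotAct hB hB'
  haveI : Finite S := inferInstance
  haveI : Finite (AddMonoid.End S) := by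
    apply Finite.of_injective (fun f : AddMonoid.End S => (f : S → S))
    intro f g h
    exact AddMonoidHom.ext fun x => congrFun h x
  have hrS : ((r : ℕ) : AddMonoid.End S) = 0 := by
    ext x
    obtain ⟨b, rfl⟩ := QuotientAddGroup.mk_surjective x
    change ((r : ℕ) : AddMonoid.End S) (QuotientAddGroup.mk b) = 0
    rw [AddMonoid.End.natCast_apply, ← QuotientAddGroup.mk_nsmul, QuotientAddGroup.eq_zero_iff,
      AddSubgroup.mem_addSubgroupOf]
    have := hrB b b.2
    rw [natCast_zsmul] at this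
    exact this
  have hpow : ∀ σ : GG, χ σ = 1 → ρ σ ^ r = 1 := by
    intro σ hσ
    obtain ⟨c, hc, h2⟩ := hrel' σ
    set ν : AddMonoid.End S := ρ σ - 1 with hν
    have hν2 : ν * ν = 0 := by
      ext x
      obtain ⟨b, rfl⟩ := QuotientAddGroup.mk_surjective x
      change ρ σ (ρ σ (QuotientAddGroup.mk b) - QuotientAddGroup.mk b) -
        (ρ σ (QuotientAddGroup.mk b) - QuotientAddGroup.mk b) = 0
      rw [map_sub, quotAct_apply, quotAct_apply, ← sub_add]
      rw [← QuotientAddGroup.mk_sub, ← QuotientAddGroup.mk_sub, ← QuotientAddGroup.mk_add,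
        QuotientAddGroup.eq_zero_iff, AddSubgroup.mem_addSubgroupOf]
      change σ • σ • (b : J) - σ • (b : J) - σ • (b : J) + (b : J) ∈ B'
      have h3 := h2 b b.2
      have hc1 : ∃ d : ℤ, c = 1 + r * d := by
        have : ((c - 1 : ℤ) : ZMod r) = 0 := by
          push_cast
          rw [hc, hσ, sub_self]
        rw [ZMod.intCast_zmod_eq_zero_iff_dvd] at this
        obtain ⟨d, hd⟩ := this
        exact ⟨d, by linarith⟩
      obtain ⟨d, hd⟩ := hc1
      have h4 : σ • σ • (b : J) - σ • (b : J) - σ • (b : J) + (b : J) =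
          (σ • σ • (b : J) - (1 + c) • σ • (b : J) + c • (b : J)) +
            (d • ((r : ℤ) • (σ • (b : J))) - d • ((r : ℤ) • (b : J))) := by
        rw [hd]
        simp only [add_smul, one_smul, mul_smul]
        rw [smul_comm (r : ℤ) d, smul_comm (r : ℤ) d]
        abel
      rw [h4]
      refine add_mem h3 (sub_mem ?_ ?_)
      · exact zsmul_mem (hrB _ (hB.G_mem σ _ b.2)) d
      · exact zsmul_mem (hrB _ b.2) d
    have e1 : ρ σ = 1 + ν := by rw [hν]; abel
    rw [e1, one_add_pow ν hν2, hrS, zero_mul]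
    apply AddMonoidHom.ext
    intro x
    exact add_zero (x : S)
  let ρu : GG →* (AddMonoid.End S)ˣ := ρ.toHomUnits
  let Hs : Subgroup GG := (MonoidHom.toHomUnits χ).ker
  have hHs : ∀ σ, σ ∈ Hs ↔ χ σ = 1 := by
    intro σ
    rw [MonoidHom.mem_ker, Units.ext_iff]
    rfl
  let Q : Subgroup (AddMonoid.End S)ˣ := Hs.map ρu
  have hQ : IsPGroup r Q := by
    rintro ⟨_, σ, hσ, rfl⟩
    refine ⟨1, Subtype.ext (Units.ext ?_)⟩
    rw [pow_one]
    exact hpow σ ((hHs σ).mp hσ)
  have hSne : ∃ s : S, s ≠ 0 := by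
    by_contra hcon
    push Not at hcon
    apply hlt.ne
    apply le_antisymm hle
    intro b hb
    have := hcon (QuotientAddGroup.mk ⟨b, hb⟩)
    rw [QuotientAddGroup.eq_zero_iff, AddSubgroup.mem_addSubgroupOf] at this
    exact this
  have hrcard : r ∣ Nat.card S := by
    obtain ⟨s, hs⟩ := hSne
    have h2 : addOrderOf s = r := by
      apply addOrderOf_eq_prime _ hs
      have := congrArg (fun f : AddMonoid.End S => f s) hrS
      simpa using this
    rw [← h2]
    exact addOrderOf_dvd_natCard s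
  obtain ⟨s, hs, hs0⟩ := hQ.exists_fixed_point_of_prime_dvd_card_of_fixed_point S hrcard
    (a := (0 : S)) (by
      intro g
      change ((g : (AddMonoid.End S)ˣ) : AddMonoid.End S) (0 : S) = 0
      exact map_zero _)
  -- stable subgroup of elements fixed mod B' by the kernel of χ
  let B1 : AddSubgroup J :=
    { carrier := {b | b ∈ B ∧ ∀ σ : GG, χ σ = 1 → σ • b - b ∈ B'}
      zero_mem' := ⟨zero_mem B, fun σ _ => by rw [smul_zero, sub_zero]; exact zero_mem B'⟩
      add_mem' := fun {a b} ha hb => ⟨add_mem ha.1 hb.1, fun σ hσ => by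
        have : σ • (a + b) - (a + b) = (σ • a - a) + (σ • b - b) := by rw [smul_add]; abel
        rw [this]
        exact add_mem (ha.2 σ hσ) (hb.2 σ hσ)⟩
      neg_mem' := fun {a} ha => ⟨neg_mem ha.1, fun σ hσ => by
        have : σ • (-a) - (-a) = -(σ • a - a) := by rw [smul_neg]; abel
        rw [this]
        exact neg_mem (ha.2 σ hσ)⟩ }
  have hχconj : ∀ (τ σ : GG), χ (τ * σ * τ⁻¹) = χ σ := by
    intro τ σ
    rw [map_mul, map_mul, mul_comm (χ τ), mul_assoc, ← map_mul, mul_inv_cancel, map_one, mul_one]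
  have hB1st : IsStable T GG B1 := by
    constructor
    · intro t b hb
      refine ⟨hB.T_mem t b hb.1, fun σ hσ => ?_⟩
      rw [← hcomm, ← smul_sub]
      exact hB'.T_mem t _ (hb.2 σ hσ)
    · intro τ b hb
      refine ⟨hB.G_mem τ b hb.1, fun σ hσ => ?_⟩
      have h2 : σ • τ • b - τ • b = τ • ((τ⁻¹ * σ * τ⁻¹⁻¹) • b - b) := by
        rw [smul_sub, smul_smul, smul_smul]
        congr 2
        group
      rw [h2]
      exact hB'.G_mem τ _ (hb.2 _ (by rw [hχconj, hσ]))
  have hB1 : B1 = B := by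
    by_contra hne1
    have h2 := hmax B1 hB1st (by
      intro b hb
      exact ⟨hle hb, fun σ _ => sub_mem (hB'.G_mem σ b hb) hb⟩) (fun b hb => hb.1) hne1
    obtain ⟨b, rfl⟩ := QuotientAddGroup.mk_surjective s
    have h3 : (b : J) ∈ B1 := by
      refine ⟨b.2, fun σ hσ => ?_⟩
      have h4 := hs ⟨ρu σ, ⟨σ, (hHs σ).mpr hσ, rfl⟩⟩
      have h5 : ρ σ (QuotientAddGroup.mk b) = QuotientAddGroup.mk b := h4
      rw [quotAct_apply, mk_eq_mk] at h5
      exact h5
    rw [h2] at h3
    apply hs0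
    symm
    rw [QuotientAddGroup.eq_zero_iff, AddSubgroup.mem_addSubgroupOf]
    exact h3
  have hker : ∀ b ∈ B, ∀ σ : GG, χ σ = 1 → σ • b - b ∈ B' := by
    intro b hb
    rw [← hB1] at hb
    exact hb.2
  -- Step 3: every σ acts as an integer
  have hint : ∀ σ : GG, ∃ c : ℤ, ∀ b ∈ B, σ • b - c • b ∈ B' := by
    intro σ
    let K : AddSubgroup J :=
      { carrier := {b | b ∈ B ∧ σ • b - b ∈ B'}
        zero_mem' := ⟨zero_mem B, by rw [smul_zero, sub_zero]; exact zero_mem B'⟩
        add_mem' := fun {a b} ha hb => ⟨add_mem ha.1 hb.1, by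
          have : σ • (a + b) - (a + b) = (σ • a - a) + (σ • b - b) := by rw [smul_add]; abel
          rw [this]
          exact add_mem ha.2 hb.2⟩
        neg_mem' := fun {a} ha => ⟨neg_mem ha.1, by
          have : σ • (-a) - (-a) = -(σ • a - a) := by rw [smul_neg]; abel
          rw [this]
          exact neg_mem ha.2⟩ }
    have hKst : IsStable T GG K := by
      constructor
      · intro t b hb
        refine ⟨hB.T_mem t b hb.1, ?_⟩
        rw [← hcomm, ← smul_sub]
        exact hB'.T_mem t _ hb.2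
      · intro τ b hb
        refine ⟨hB.G_mem τ b hb.1, ?_⟩
        have h2 : σ • τ • b - τ • b = τ • (σ • ((σ⁻¹ * τ⁻¹ * σ * τ) • b - b) + (σ • b - b)) := by
          rw [smul_sub σ, sub_add_sub_cancel, smul_sub, smul_smul, smul_smul, smul_smul]
          congr 2
          group
        rw [h2]
        refine hB'.G_mem τ _ (add_mem (hB'.G_mem σ _ (hker b hb.1 _ ?_)) hb.2)
        have := hχconj τ⁻¹ σ
        rw [inv_inv] at this
        rw [mul_assoc, mul_assoc, map_mul, ← mul_assoc, this, ← map_mul, inv_mul_cancel, map_one]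
    by_cases hK : K = B
    · refine ⟨1, fun b hb => ?_⟩
      rw [← hK] at hb
      rw [one_smul]
      exact hb.2
    · have h2 := hmax K hKst (fun b hb => ⟨hle hb, sub_mem (hB'.G_mem σ b hb) hb⟩)
        (fun b hb => hb.1) hK
      obtain ⟨c, -, h3⟩ := hrel' σ
      refine ⟨c, fun b hb => ?_⟩
      rw [← h2]
      refine ⟨sub_mem (hB.G_mem σ b hb) (zsmul_mem hb c), ?_⟩
      have h4 := h3 b hb
      have h5 : σ • (σ • b - c • b) - (σ • b - c • b) =
          σ • σ • b - (1 + c) • σ • b + c • b := by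
        rw [smul_sub, smul_comm σ c b, add_smul, one_smul]
        abel
      rw [h5]
      exact h4
  -- Step 4
  obtain ⟨b0, hb0, hb0'⟩ := SetLike.exists_of_lt hlt
  let B2 : AddSubgroup J := B' ⊔ AddSubgroup.zmultiples b0
  have hB2st : IsStable T GG B2 := by
    constructor
    · intro t b hb
      rw [AddSubgroup.mem_sup] at hb
      obtain ⟨x, hx, y, ⟨k, rfl⟩, rfl⟩ := hb
      obtain ⟨m, hm⟩ := hres t
      have h2 := h1 _ hm b0 hb0
      rw [AddSubgroup.mem_sup]
      refine ⟨t • x + k • ((t - m) • b0), add_mem (hB'.T_mem t x hx) (zsmul_mem h2 k),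
        (m * k) • b0, ⟨m * k, rfl⟩, ?_⟩
      change _ = t • (x + k • b0)
      rw [smul_add, sub_smul, Int.cast_smul_eq_zsmul, smul_comm t k, smul_sub, mul_comm m k,
        mul_smul]
      abel
    · intro σ b hb
      rw [AddSubgroup.mem_sup] at hb
      obtain ⟨x, hx, y, ⟨k, rfl⟩, rfl⟩ := hb
      obtain ⟨m, hm⟩ := hint σ
      have h2 := hm b0 hb0
      rw [AddSubgroup.mem_sup]
      refine ⟨σ • x + k • (σ • b0 - m • b0), add_mem (hB'.G_mem σ x hx) (zsmul_mem h2 k),
        (m * k) • b0, ⟨m * k, rfl⟩, ?_⟩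
      change _ = σ • (x + k • b0)
      rw [smul_add, smul_comm σ k, smul_sub, mul_comm m k, mul_smul]
      abel
  have hB2 : B2 = B := by
    by_contra hne2
    have h2 := hmax B2 hB2st le_sup_left (by
      rw [sup_le_iff]
      exact ⟨hle, AddSubgroup.zmultiples_le_of_mem hb0⟩) hne2
    apply hb0'
    rw [← h2]
    exact (le_sup_right : _ ≤ B2) (AddSubgroup.mem_zmultiples b0)
  refine ⟨B', hle, hB', ?_⟩
  have hcardS : Nat.card S = r := by
    let s0 : S := QuotientAddGroup.mk ⟨b0, hb0⟩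
    have hs0' : s0 ≠ 0 := by
      intro h
      rw [QuotientAddGroup.eq_zero_iff, AddSubgroup.mem_addSubgroupOf] at h
      exact hb0' h
    have h2 : addOrderOf s0 = r := by
      apply addOrderOf_eq_prime _ hs0'
      have := congrArg (fun f : AddMonoid.End S => f s0) hrS
      simpa using this
    rw [← h2, ← Nat.card_zmultiples]
    have htop : AddSubgroup.zmultiples s0 = ⊤ := by
      rw [AddSubgroup.eq_top_iff']
      intro y
      obtain ⟨b, rfl⟩ := QuotientAddGroup.mk_surjective y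
      have h3 : (b : J) ∈ B2 := by rw [hB2]; exact b.2
      rw [AddSubgroup.mem_sup] at h3
      obtain ⟨x, hx, y, ⟨k, rfl⟩, hxy⟩ := h3
      refine ⟨k, ?_⟩
      change k • (QuotientAddGroup.mk ⟨b0, hb0⟩ : S) = _
      rw [← QuotientAddGroup.mk_zsmul, mk_eq_mk, ← hxy]
      change k • b0 - (x + k • b0) ∈ B'
      have : k • b0 - (x + k • b0) = -x := by abel
      rw [this]
      exact neg_mem hx
    rw [htop]
    exact (Nat.card_congr (Equiv.Set.univ S)).symm
  have h3 := AddSubgroup.card_eq_card_quotient_mul_card_addSubgroup (B'.addSubgroupOf B)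
  rw [h3, hcardS, Nat.card_congr (AddSubgroup.addSubgroupOfEquivOfLe hle).toEquiv]

end Fermat.Agent.H12
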