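import Mathlib
import Fermat.Agent.H12.Hilbert90
import Fermat.Agent.H12.InertiaVal
import Fermat.Agent.H12.InertiaConj
import Fermat.Agent.H12.RatVal
import Fermat.Agent.H12.GroupLem
import Fermat.Agent.H12.Simple
import Fermat.Agent.H12.Duality
import Fermat.Agent.H12.CycChar
import Fermat.Agent.H05_Cyclo

set_option autoImplicit false
set_option linter.style.haveILetI false
set_option linter.unusedSectionVars false

/-!
# The counting lemma of the descent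
-/

namespace Fermat.Agent.H12

open Fermat.Agent.H05 Fermat.Agent.H09
open scoped Pointwise

/-- The hypotheses on the finite module `G` (the Eisenstein part of `J[r^K]`). -/
structure DescentData (L : Type*) [Field L] [CharZero L] [IsGalois ℚ L] [IsAlgClosed L]
    {J : Type*} [AddCommGroup J] [DistribMulAction (L ≃ₐ[ℚ] L) J]
    {T : Type*} [CommRing T] [Module T J] (N r K : ℕ) (P : Ideal T)
    (Ar AN : ValuationSubring L) (G G0 : AddSubgroup J) (e : J → J → L) : Prop where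
  hN : N.Prime
  hr : r.Prime
  hrN : r ≠ N
  hK : 1 ≤ K
  hAr : Ar.LiesOverPrime r
  hAN : AN.LiesOverPrime N
  comm : ∀ (t : T) (σ : L ≃ₐ[ℚ] L) (x : J), t • σ • x = σ • t • x
  rP : (r : T) ∈ P
  res : ∀ t : T, ∃ n : ℤ, t - n ∈ P
  fin : Finite G
  st : IsStable T (L ≃ₐ[ℚ] L) G
  GP : ∃ n : ℕ, ∀ t ∈ P ^ n, ∀ b ∈ G, t • b = 0
  Gr : ∀ x ∈ G, (r ^ K) • x = 0
  rel : ∀ σ : L ≃ₐ[ℚ] L, ∃ (t : T) (c : ℤ), (∀ ζ : L, ζ ^ (r ^ K) = 1 → σ ζ = ζ ^ c) ∧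
    t - (1 + c) ∈ P ∧ ∀ b ∈ G, σ • σ • b - t • σ • b + c • b = 0
  opn : ∃ U : Subgroup (L ≃ₐ[ℚ] L), IsOpen (U : Set (L ≃ₐ[ℚ] L)) ∧ ∀ σ ∈ U, ∀ b ∈ G, σ • b = b
  ur : ∀ ℓ : ℕ, ℓ.Prime → ℓ ≠ r → ℓ ≠ N → ∀ A : ValuationSubring L, A.LiesOverPrime ℓ →
    ∀ σ ∈ A.inertiaSubgroupIn ℚ, ∀ b ∈ G, σ • b = b
  uN : ∀ σ ∈ AN.inertiaSubgroupIn ℚ, ∀ τ ∈ AN.inertiaSubgroupIn ℚ, ∀ b ∈ G,
    σ • (τ • b - b) = τ • b - b
  G0le : G0 ≤ G
  ir : ∀ σ ∈ Ar.inertiaSubgroupIn ℚ, ∀ b ∈ G, σ • b - b ∈ G0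
  pair : IsPairing G (r ^ K) e
  equi : ∀ σ : L ≃ₐ[ℚ] L, ∀ x ∈ G, ∀ y ∈ G, e (σ • x) (σ • y) = σ (e x y)
  iso : ∀ x ∈ G0, ∀ y ∈ G0, e x y = 1

section

variable {L : Type*} [Field L] [CharZero L] [IsGalois ℚ L] [IsAlgClosed L]
    {J : Type*} [AddCommGroup J] [DistribMulAction (L ≃ₐ[ℚ] L) J]
    {T : Type*} [CommRing T] [Module T J] {N r K : ℕ} {P : Ideal T}
    {Ar AN : ValuationSubring L} {G G0 : AddSubgroup J} {e : J → J → L}

local notation "Γ" => L ≃ₐ[ℚ] L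

/-- The local conditions: `c` is a cocycle with values in `B`, satisfying the Selmer conditions,
and `m ∈ B` trivialises it on the inertia group at `N`. -/
structure IsSel (N r : ℕ) (Ar AN : ValuationSubring L) (G G0 : AddSubgroup J) (e : J → J → L)
    (B : AddSubgroup J) (c : Γ → J) (m : J) : Prop where
  c_mem : ∀ σ, c σ ∈ B
  m_mem : m ∈ B
  cocycle : ∀ σ τ, c (σ * τ) = c σ + σ • c τ
  opn : ∃ U : Subgroup Γ, IsOpen (U : Set Γ) ∧ ∀ σ ∈ U, c σ = 0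
  ur : ∀ ℓ : ℕ, ℓ.Prime → ℓ ≠ r → ℓ ≠ N → ∀ A : ValuationSubring L, A.LiesOverPrime ℓ →
    ∀ σ ∈ A.inertiaSubgroupIn ℚ, c σ = 0
  atN : ∀ σ ∈ AN.inertiaSubgroupIn ℚ, c σ = σ • m - m
  atr : ∀ σ ∈ Ar.inertiaSubgroupIn ℚ, c σ ∈ G0
  flat : ∀ z ∈ G, ∃ u : L, Ar.valuation u = 1 ∧ ∀ σ ∈ Ar.inertiaSubgroupIn ℚ,
    σ u = e (c σ) z * u

/-- The group `Ẑ(B)`. -/
def Zhat (h : DescentData L (T := T) N r K P Ar AN G G0 e) (B : AddSubgroup J) (hB : B ≤ G) :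
    AddSubgroup ((Γ → J) × J) where
  carrier := {p | IsSel N r Ar AN G G0 e B p.1 p.2}
  zero_mem' := by
    refine ⟨fun _ => zero_mem B, zero_mem B, fun σ τ => ?_, ⟨⊤, isOpen_univ, fun _ _ => rfl⟩,
      fun _ _ _ _ _ _ _ _ => rfl, fun σ _ => ?_, fun _ _ => zero_mem G0, fun z hz => ?_⟩
    · change (0 : J) = 0 + σ • 0
      rw [smul_zero, add_zero]
    · change (0 : J) = σ • 0 - 0
      rw [smul_zero, sub_zero]
    · refine ⟨1, map_one _, fun σ _ => ?_⟩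
      change σ 1 = e 0 z * 1
      rw [map_one, mul_one, h.pair.zero_left (pow_ne_zero K h.hr.ne_zero) hz]
  add_mem' := by
    rintro ⟨c, m⟩ ⟨c', m'⟩ h1 h2
    replace h1 : IsSel N r Ar AN G G0 e B c m := h1
    replace h2 : IsSel N r Ar AN G G0 e B c' m' := h2
    refine ⟨fun σ => add_mem (h1.c_mem σ) (h2.c_mem σ), add_mem h1.m_mem h2.m_mem,
      fun σ τ => ?_, ?_, fun ℓ hℓ hℓr hℓN A hA σ hσ => ?_, fun σ hσ => ?_,
      fun σ hσ => add_mem (h1.atr σ hσ) (h2.atr σ hσ), fun z hz => ?_⟩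
    · have e1 := h1.cocycle σ τ
      have e2 := h2.cocycle σ τ
      change c (σ * τ) + c' (σ * τ) = (c σ + c' σ) + σ • (c τ + c' τ)
      rw [e1, e2, smul_add]
      abel
    · obtain ⟨U, hU, hU'⟩ := h1.opn
      obtain ⟨V, hV, hV'⟩ := h2.opn
      refine ⟨U ⊓ V, hU.inter hV, fun σ hσ => ?_⟩
      change c σ + c' σ = 0
      rw [hU' σ hσ.1, hV' σ hσ.2, add_zero]
    · change c σ + c' σ = 0
      rw [h1.ur ℓ hℓ hℓr hℓN A hA σ hσ, h2.ur ℓ hℓ hℓr hℓN A hA σ hσ, add_zero]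
    · have e1 := h1.atN σ hσ
      have e2 := h2.atN σ hσ
      change c σ + c' σ = σ • (m + m') - (m + m')
      rw [e1, e2, smul_add]
      abel
    · obtain ⟨u, hu, hu'⟩ := h1.flat z hz
      obtain ⟨v, hv, hv'⟩ := h2.flat z hz
      refine ⟨u * v, by rw [map_mul, hu, hv, one_mul], fun σ hσ => ?_⟩
      have e1 := hu' σ hσ
      have e2 := hv' σ hσ
      change σ (u * v) = e (c σ + c' σ) z * (u * v)
      rw [map_mul, e1, e2, h.pair.add_left _ (hB (h1.c_mem σ)) _ (hB (h2.c_mem σ)) z hz]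
      ring
  neg_mem' := by
    rintro ⟨c, m⟩ h1
    replace h1 : IsSel N r Ar AN G G0 e B c m := h1
    refine ⟨fun σ => neg_mem (h1.c_mem σ), neg_mem h1.m_mem,
      fun σ τ => ?_, ?_, fun ℓ hℓ hℓr hℓN A hA σ hσ => ?_, fun σ hσ => ?_,
      fun σ hσ => neg_mem (h1.atr σ hσ), fun z hz => ?_⟩
    · have e1 := h1.cocycle σ τ
      change -c (σ * τ) = -c σ + σ • (-c τ)
      rw [e1, smul_neg]
      abel
    · obtain ⟨U, hU, hU'⟩ := h1.opn
      refine ⟨U, hU, fun σ hσ => ?_⟩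
      change -c σ = 0
      rw [hU' σ hσ, neg_zero]
    · change -c σ = 0
      rw [h1.ur ℓ hℓ hℓr hℓN A hA σ hσ, neg_zero]
    · have e1 := h1.atN σ hσ
      change -c σ = σ • (-m) - (-m)
      rw [e1, smul_neg]
      abel
    · obtain ⟨u, hu, hu'⟩ := h1.flat z hz
      refine ⟨u⁻¹, by rw [map_inv₀, hu, inv_one], fun σ hσ => ?_⟩
      have e1 := hu' σ hσ
      change σ (u⁻¹) = e (-c σ) z * u⁻¹
      rw [map_inv₀, e1, h.pair.neg_left (pow_ne_zero K h.hr.ne_zero) (hB (h1.c_mem σ)) hz,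
        mul_inv]

theorem mem_Zhat (h : DescentData L (T := T) N r K P Ar AN G G0 e) (B : AddSubgroup J)
    (hB : B ≤ G) (p : (Γ → J) × J) : p ∈ Zhat h B hB ↔ IsSel N r Ar AN G G0 e B p.1 p.2 := Iff.rfl

namespace DescentData

variable (h : DescentData L (T := T) N r K P Ar AN G G0 e)
include h

theorem m0 : r ^ K ≠ 0 := pow_ne_zero K h.hr.ne_zero

/-- On `G0` inertia at `r` acts through the cyclotomic character. -/
theorem inertia_G0 (σ : Γ) (hσ : σ ∈ Ar.inertiaSubgroupIn ℚ) (c : ℤ)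
    (hc : ∀ ζ : L, ζ ^ (r ^ K) = 1 → σ ζ = ζ ^ c) (x : J) (hx : x ∈ G0) : σ • x = c • x := by
  have hxG := h.G0le hx
  have hσx : σ • x ∈ G := h.st.G_mem σ x hxG
  have h1 : σ • x - c • x = 0 := by
    apply h.pair.nondeg_left _ (sub_mem hσx (zsmul_mem hxG c))
    intro y hy
    rw [h.pair.sub_left h.m0 hσx (zsmul_mem hxG c) hy, h.pair.zsmul_left h.m0 hxG hy]
    have hσx0 : σ • x ∈ G0 := by
      have := add_mem (h.ir σ hσ x hxG) hx
      rwa [sub_add_cancel] at this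
    have h2 : e (σ • x) y = σ (e x y) := by
      rw [← h.equi σ x hxG y hy]
      have h3 : σ • y = y + (σ • y - y) := by abel
      rw [h3, h.pair.add_right _ hσx y hy _ (h.G0le (h.ir σ hσ y hy)),
        h.iso _ hσx0 _ (h.ir σ hσ y hy), mul_one]
    rw [h2, hc _ (h.pair.pow_eq_one x hxG y hy), div_self]
    exact zpow_ne_zero c (h.pair.ne_zero h.m0 hxG hy)
  exact sub_eq_zero.mp h1

end DescentData

end

end Fermat.Agent.H12
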