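import Mathlib
import Fermat.Agent.H12.Count

set_option autoImplicit false
set_option linter.style.haveILetI false
set_option linter.unusedSectionVars false

/-!
# The base cases of the counting lemma
-/

namespace Fermat.Agent.H12

open Fermat.Agent.H05 Fermat.Agent.H09
open scoped Pointwise

variable {L : Type*} [Field L] [CharZero L] [IsGalois ℚ L] [IsAlgClosed L]
    {J : Type*} [AddCommGroup J] [DistribMulAction (L ≃ₐ[ℚ] L) J]
    {T : Type*} [CommRing T] [Module T J] {N r K : ℕ} {P : Ideal T}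
    {Ar AN : ValuationSubring L} {G G0 : AddSubgroup J} {e : J → J → L}

local notation "Γ" => L ≃ₐ[ℚ] L

/-- A quotient `B/B' ≅ Z/r` with character `a`. -/
structure QuotData (r : ℕ) (B' B : AddSubgroup J) (F : J → ZMod r)
    (a : (L ≃ₐ[ℚ] L) →* ZMod r) : Prop where
  le : B' ≤ B
  map_add : ∀ x ∈ B, ∀ y ∈ B, F (x + y) = F x + F y
  eq_zero : ∀ x ∈ B, F x = 0 ↔ x ∈ B'
  smul : ∀ (σ : L ≃ₐ[ℚ] L), ∀ x ∈ B, F (σ • x) = a σ * F x
  surj : ∃ x ∈ B, F x = 1

namespace QuotData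

variable {B' B : AddSubgroup J} {F : J → ZMod r} {a : (L ≃ₐ[ℚ] L) →* ZMod r}

theorem map_zero (q : QuotData (L := L) r B' B F a) : F 0 = 0 := by
  have h := q.map_add 0 (zero_mem B) 0 (zero_mem B)
  rw [add_zero] at h
  exact (add_eq_left.mp h.symm)

theorem map_sub (q : QuotData (L := L) r B' B F a) {x y : J} (hx : x ∈ B) (hy : y ∈ B) :
    F (x - y) = F x - F y := by
  have h := q.map_add (x - y) (sub_mem hx hy) y hy
  rw [sub_add_cancel] at h
  rw [h, add_sub_cancel_right]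

theorem map_neg (q : QuotData (L := L) r B' B F a) {x : J} (hx : x ∈ B) : F (-x) = -F x := by
  have h := q.map_sub (zero_mem B) hx
  rwa [zero_sub, q.map_zero, zero_sub] at h

theorem map_nsmul (q : QuotData (L := L) r B' B F a) {x : J} (hx : x ∈ B) (n : ℕ) :
    F (n • x) = n * F x := by
  induction n with
  | zero => rw [zero_smul, q.map_zero, Nat.cast_zero, zero_mul]
  | succ n ih => rw [succ_nsmul, q.map_add _ (nsmul_mem hx n) x hx, ih, Nat.cast_succ, add_mul,
      one_mul]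

theorem map_zsmul (q : QuotData (L := L) r B' B F a) {x : J} (hx : x ∈ B) (n : ℤ) :
    F (n • x) = n * F x := by
  cases n with
  | ofNat n =>
    rw [Int.ofNat_eq_natCast, Int.cast_natCast, natCast_zsmul]
    exact q.map_nsmul hx n
  | negSucc n =>
    rw [Int.cast_negSucc, neg_mul, negSucc_zsmul, q.map_neg (nsmul_mem hx _), q.map_nsmul hx]

theorem sub_mem_iff (q : QuotData (L := L) r B' B F a) {x y : J} (hx : x ∈ B) (hy : y ∈ B) :
    x - y ∈ B' ↔ F x = F y := by
  rw [← q.eq_zero _ (sub_mem hx hy), q.map_sub hx hy, sub_eq_zero]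

end QuotData

theorem exists_quotData {B' B : AddSubgroup J} (hle : B' ≤ B) (hr : r.Prime) [Finite B]
    (hst : IsStable T Γ B) (hst' : IsStable T Γ B')
    (hcard : Nat.card B = r * Nat.card B') :
    ∃ (F : J → ZMod r) (a : Γ →* ZMod r), QuotData r B' B F a := by
  classical
  obtain ⟨f, hf, hf0⟩ := exists_hom_zmod B' B hle hr hcard
  haveI : Fact r.Prime := ⟨hr⟩
  haveI : NeZero r := ⟨hr.ne_zero⟩
  obtain ⟨b0, hb0⟩ := hf 1
  have key : ∀ (σ : Γ) (b : B), f ⟨σ • (b : J), hst.G_mem σ b b.2⟩ =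
      f ⟨σ • (b0 : J), hst.G_mem σ b0 b0.2⟩ * f b := by
    intro σ b
    set j : ℕ := (f b).val with hj
    have hj' : (j : ZMod r) = f b := ZMod.natCast_zmod_val _
    have h1 : f (b - j • b0) = 0 := by
      rw [map_sub, map_nsmul, hb0, nsmul_eq_mul, mul_one, hj', sub_self]
    rw [hf0] at h1
    have h2 := hst'.G_mem σ _ h1
    have h3 : f (⟨σ • (b : J), hst.G_mem σ b b.2⟩ - j • ⟨σ • (b0 : J), hst.G_mem σ b0 b0.2⟩) = 0 := by
      rw [hf0]
      have : ((⟨σ • (b : J), hst.G_mem σ b b.2⟩ - j • ⟨σ • (b0 : J), hst.G_mem σ b0 b0.2⟩ : B) : J) =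
          σ • (((b - j • b0 : B)) : J) := by
        push_cast
        rw [smul_sub, smul_comm σ j]
      rw [this]
      exact h2
    rw [map_sub, map_nsmul, sub_eq_zero] at h3
    rw [h3, nsmul_eq_mul, hj', mul_comm]
  let F : J → ZMod r := fun x => if hx : x ∈ B then f ⟨x, hx⟩ else 0
  have hF : ∀ (x : J) (hx : x ∈ B), F x = f ⟨x, hx⟩ := fun x hx => dif_pos hx
  let a : Γ →* ZMod r :=
    { toFun := fun σ => f ⟨σ • (b0 : J), hst.G_mem σ b0 b0.2⟩
      map_one' := by
        rw [← hb0]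
        congr 1
        apply Subtype.ext
        exact one_smul Γ (b0 : J)
      map_mul' := fun σ τ => by
        have h1 := key σ ⟨τ • (b0 : J), hst.G_mem τ b0 b0.2⟩
        rw [← h1]
        congr 1
        apply Subtype.ext
        exact mul_smul σ τ (b0 : J) }
  refine ⟨F, a, hle, ?_, ?_, ?_, ?_⟩
  · intro x hx y hy
    rw [hF x hx, hF y hy, hF _ (add_mem hx hy), ← map_add]
    rfl
  · intro x hx
    rw [hF x hx, hf0]
  · intro σ x hx
    rw [hF x hx, hF _ (hst.G_mem σ x hx), key σ ⟨x, hx⟩]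
    rfl
  · exact ⟨b0, b0.2, by rw [hF _ b0.2]; exact hb0⟩

namespace DescentData

variable (h : DescentData L (T := T) N r K P Ar AN G G0 e)
include h

/-- Elements of `Γ` act trivially on `r`-th roots of unity if they act trivially on
`r^K`-th roots of unity. -/
theorem pow_rK {ζ : L} (hζ : ζ ^ r = 1) : ζ ^ (r ^ K) = 1 := by
  obtain ⟨k, rfl⟩ : ∃ k, K = k + 1 := ⟨K - 1, by have := h.hK; omega⟩
  rw [pow_succ', pow_mul, hζ, one_pow]

theorem not_dvd_of_ne {ℓ : ℕ} (hℓ : ℓ.Prime) (hℓr : ℓ ≠ r) : ¬ ℓ ∣ r := fun hd =>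
  hℓr ((Nat.prime_dvd_prime_iff_eq hℓ h.hr).mp hd)

theorem fix_of_a {B' B : AddSubgroup J} {F : J → ZMod r} {a : Γ →* ZMod r}
    (q : QuotData (L := L) r B' B F a) {σ : Γ} (hσ : ∀ b ∈ B, σ • b = b) : a σ = 1 := by
  obtain ⟨x, hx, hx1⟩ := q.surj
  have := q.smul σ x hx
  rw [hσ x hx, hx1, mul_one] at this
  exact this.symm

/-- At `N` inertia acts trivially on simple quotients. -/
theorem a_atN {B' B : AddSubgroup J} {F : J → ZMod r} {a : Γ →* ZMod r} (hBG : B ≤ G)
    (hst : IsStable T Γ B) (q : QuotData (L := L) r B' B F a) (σ : Γ)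
    (hσ : σ ∈ AN.inertiaSubgroupIn ℚ) : a σ = 1 := by
  haveI : Fact r.Prime := ⟨h.hr⟩
  obtain ⟨x, hx, hx1⟩ := q.surj
  have hσx := hst.G_mem σ x hx
  have hσσx := hst.G_mem σ _ (sub_mem hσx hx)
  have h1 := h.uN σ hσ σ hσ x (hBG hx)
  have h2 : F (σ • (σ • x - x)) = F (σ • x - x) := by rw [h1]
  rw [q.smul σ _ (sub_mem hσx hx), q.map_sub hσx hx, q.smul σ x hx, hx1, mul_one] at h2
  have h3 : (a σ - 1) * (a σ - 1) = 0 := by linear_combination h2
  have h4 := mul_self_eq_zero.mp h3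
  exact sub_eq_zero.mp h4

/-- Case A: `B ∩ G0 ⊆ B'`. -/
theorem caseA {B' B : AddSubgroup J} {F : J → ZMod r} {a : Γ →* ZMod r} (hBG : B ≤ G)
    (hst : IsStable T Γ B) (q : QuotData (L := L) r B' B F a)
    (hA : ∀ x ∈ B, x ∈ G0 → x ∈ B') (c : Γ → J) (m : J)
    (hc : IsSel N r Ar AN G G0 e B c m) (σ : Γ) : c σ ∈ B' := by
  classical
  haveI : Fact r.Prime := ⟨h.hr⟩
  obtain ⟨U, hU, hUG⟩ := h.opn
  -- trivial action
  let H1 : Subgroup Γ := MonoidHom.eqLocus a 1
  haveI : H1.Normal := by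
    constructor
    intro n hn g
    change a (g * n * g⁻¹) = 1
    have hn' : a n = 1 := hn
    rw [map_mul, map_mul, hn', mul_one, ← map_mul, mul_inv_cancel, map_one]
  have hH1 : H1 = ⊤ := by
    apply minkowski' H1
    · refine Subgroup.isOpen_mono (H₁ := U) ?_ hU
      intro τ hτ
      exact h.fix_of_a q fun b hb => hUG τ hτ b (hBG hb)
    · intro p hp
      by_cases hpr : p = r
      · subst hpr
        refine ⟨Ar, h.hAr, fun τ hτ => ?_⟩
        obtain ⟨x, hx, hx1⟩ := q.surj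
        have h1 := h.ir τ hτ x (hBG hx)
        have h2 := hA _ (sub_mem (hst.G_mem τ x hx) hx) h1
        rw [q.sub_mem_iff (hst.G_mem τ x hx) hx, q.smul τ x hx, hx1, mul_one] at h2
        exact h2
      · by_cases hpN : p = N
        · subst hpN
          exact ⟨AN, h.hAN, fun τ hτ => h.a_atN hBG hst q τ hτ⟩
        · obtain ⟨A, hA'⟩ := exists_liesOverPrime L hp
          refine ⟨A, hA', fun τ hτ => ?_⟩
          exact h.fix_of_a q fun b hb => h.ur p hp hpr hpN A hA' τ hτ b (hBG hb)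
  have ha : ∀ τ, a τ = 1 := fun τ => by
    have : τ ∈ H1 := by rw [hH1]; trivial
    exact this
  -- F ∘ c is a homomorphism
  let φ : Γ →* Multiplicative (ZMod r) :=
    { toFun := fun τ => Multiplicative.ofAdd (F (c τ))
      map_one' := by
        have h1 := hc.cocycle 1 1
        rw [mul_one, one_smul, left_eq_add] at h1
        rw [h1, q.map_zero]
        rfl
      map_mul' := fun τ τ' => by
        rw [hc.cocycle, q.map_add _ (hc.c_mem τ) _ (hst.G_mem τ _ (hc.c_mem τ')),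
          q.smul τ _ (hc.c_mem τ'), ha, one_mul]
        rfl }
  have hφ : ∀ τ, φ τ = 1 ↔ c τ ∈ B' := by
    intro τ
    rw [← q.eq_zero _ (hc.c_mem τ)]
    rfl
  have hker : φ.ker = ⊤ := by
    apply minkowski' φ.ker
    · obtain ⟨V, hV, hV'⟩ := hc.opn
      refine Subgroup.isOpen_mono (H₁ := V) ?_ hV
      intro τ hτ
      rw [MonoidHom.mem_ker, hφ, hV' τ hτ]
      exact zero_mem B'
    · intro p hp
      by_cases hpr : p = r
      · subst hpr
        refine ⟨Ar, h.hAr, fun τ hτ => ?_⟩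
        rw [MonoidHom.mem_ker, hφ]
        exact hA _ (hc.c_mem τ) (hc.atr τ hτ)
      · by_cases hpN : p = N
        · subst hpN
          refine ⟨AN, h.hAN, fun τ hτ => ?_⟩
          rw [MonoidHom.mem_ker, hφ, hc.atN τ hτ, q.sub_mem_iff (hst.G_mem τ m hc.m_mem) hc.m_mem,
            q.smul τ m hc.m_mem, ha, one_mul]
        · obtain ⟨A, hA'⟩ := exists_liesOverPrime L hp
          refine ⟨A, hA', fun τ hτ => ?_⟩
          rw [MonoidHom.mem_ker, hφ, hc.ur p hp hpr hpN A hA' τ hτ]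
          exact zero_mem B'
  rw [← hφ, ← MonoidHom.mem_ker, hker]
  trivial

/-- Case B: `B ∩ G0 ⊄ B'`: the character is cyclotomic. -/
theorem a_eq_χ (D : CycData L r) {B' B : AddSubgroup J} {F : J → ZMod r} {a : Γ →* ZMod r}
    (hBG : B ≤ G) (hst : IsStable T Γ B) (q : QuotData (L := L) r B' B F a)
    (hB : ∃ x ∈ B, x ∈ G0 ∧ x ∉ B') : ∀ σ, a σ = D.χ h.hr σ := by
  classical
  haveI : Fact r.Prime := ⟨h.hr⟩
  obtain ⟨U, hU, hUG⟩ := h.opn
  let H1 : Subgroup Γ := MonoidHom.eqLocus a (D.χ h.hr)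
  haveI : H1.Normal := by
    constructor
    intro n hn g
    change a (g * n * g⁻¹) = D.χ h.hr (g * n * g⁻¹)
    have hn' : a n = D.χ h.hr n := hn
    have h1 : a (g * n * g⁻¹) = a n := by
      rw [map_mul, map_mul, mul_comm (a g), mul_assoc, ← map_mul, mul_inv_cancel, map_one, mul_one]
    have h2 : D.χ h.hr (g * n * g⁻¹) = D.χ h.hr n := by
      rw [map_mul, map_mul, mul_comm (D.χ h.hr g), mul_assoc, ← map_mul, mul_inv_cancel, map_one,
        mul_one]
    rw [h1, h2, hn']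
  have hroot : ∀ {p : ℕ} (hp : p.Prime) (hpr : p ≠ r) {A : ValuationSubring L}
      (hA : A.LiesOverPrime p), ∀ τ ∈ A.inertiaSubgroupIn ℚ, D.χ h.hr τ = 1 := by
    intro p hp hpr A hA τ hτ
    exact D.χ_eq_one h.hr τ fun ζ hζ =>
      inertia_apply_rootOfUnity hp hA (h.not_dvd_of_ne hp hpr) hτ hζ
  have hH1 : H1 = ⊤ := by
    apply minkowski' H1
    · -- open: U ∩ stabiliser of ψ 1
      let V : Subgroup Γ := (IntermediateField.adjoin ℚ {D.ψ 1}).fixingSubgroup
      have hV : IsOpen (V : Set Γ) := by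
        haveI : FiniteDimensional ℚ (IntermediateField.adjoin ℚ {D.ψ 1}) :=
          IntermediateField.adjoin.finiteDimensional (Algebra.IsIntegral.isIntegral _)
        exact IntermediateField.fixingSubgroup_isOpen _
      refine Subgroup.isOpen_mono (H₁ := U ⊓ V) ?_ (hU.inter hV)
      intro τ hτ
      change a τ = D.χ h.hr τ
      rw [h.fix_of_a q fun b hb => hUG τ hτ.1 b (hBG hb)]
      have h1 : τ (D.ψ 1) = D.ψ 1 :=
        (IntermediateField.mem_fixingSubgroup_iff _ τ).mp hτ.2 _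
          (IntermediateField.subset_adjoin ℚ _ (Set.mem_singleton _))
      rw [D.χ_spec h.hr, mul_one] at h1
      exact (D.ψ_inj h1).symm
    · intro p hp
      by_cases hpr : p = r
      · subst hpr
        refine ⟨Ar, h.hAr, fun τ hτ => ?_⟩
        change a τ = D.χ h.hr τ
        obtain ⟨x, hx, hx0, hxB'⟩ := hB
        obtain ⟨t, c, hc, -, -⟩ := h.rel τ
        have h1 := h.inertia_G0 τ hτ c hc x hx0
        have h2 := q.smul τ x hx
        rw [h1, q.map_zsmul hx] at h2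
        have h3 : F x ≠ 0 := fun h0 => hxB' ((q.eq_zero x hx).mp h0)
        rw [D.χ_eq_of_forall h.hr τ c fun ζ hζ => hc ζ (h.pow_rK hζ)]
        exact (mul_right_cancel₀ h3 h2).symm
      · by_cases hpN : p = N
        · subst hpN
          refine ⟨AN, h.hAN, fun τ hτ => ?_⟩
          change a τ = D.χ h.hr τ
          rw [h.a_atN hBG hst q τ hτ, hroot hp hpr h.hAN τ hτ]
        · obtain ⟨A, hA'⟩ := exists_liesOverPrime L hp
          refine ⟨A, hA', fun τ hτ => ?_⟩
          change a τ = D.χ h.hr τ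
          rw [h.fix_of_a q fun b hb => h.ur p hp hpr hpN A hA' τ hτ b (hBG hb),
            hroot hp hpr hA' τ hτ]
  intro σ
  have : σ ∈ H1 := by rw [hH1]; trivial
  exact this

/-- Case B: the cocycle `ψ ∘ F ∘ c` is one of `r` explicit ones. -/
theorem caseB (D : CycData L r) {ξ : L} (hξ : IsPrimitiveRoot ξ (2 * r))
    {B' B : AddSubgroup J} {F : J → ZMod r} {a : Γ →* ZMod r}
    (hBG : B ≤ G) (hst : IsStable T Γ B) (q : QuotData (L := L) r B' B F a)
    (hB : ∃ x ∈ B, x ∈ G0 ∧ x ∉ B') (c : Γ → J) (m : J)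
    (hc : IsSel N r Ar AN G G0 e B c m) :
    ∃ j : Fin r, ∀ σ : Γ, D.ψ (F (c σ)) = σ (ξ ^ (j : ℕ)) / ξ ^ (j : ℕ) := by
  classical
  haveI : Fact r.Prime := ⟨h.hr⟩
  haveI : Finite G := h.fin
  have ha := h.a_eq_χ D hBG hst q hB
  have hr0 : r ≠ 0 := h.hr.ne_zero
  -- the cocycle g
  let g : Γ → L := fun σ => D.ψ (F (c σ))
  have hg0 : ∀ σ, g σ ≠ 0 := fun σ => D.ψ_ne_zero h.hr _
  have hgc : ∀ σ τ, g (σ * τ) = g σ * σ (g τ) := by
    intro σ τ
    change D.ψ (F (c (σ * τ))) = D.ψ (F (c σ)) * σ (D.ψ (F (c τ)))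
    rw [hc.cocycle, q.map_add _ (hc.c_mem σ) _ (hst.G_mem σ _ (hc.c_mem τ)), D.ψ_add,
      q.smul σ _ (hc.c_mem τ), D.χ_spec h.hr, ha]
  obtain ⟨V, hV, hV'⟩ := hc.opn
  obtain ⟨w, hw0, hw⟩ := hilbert90' (⊤ : Subgroup Γ) g (fun σ _ => hg0 σ)
    (fun σ _ τ _ => hgc σ τ) V hV (fun σ _ hσ => by
      change D.ψ (F (c σ)) = 1
      rw [hV' σ hσ, q.map_zero, D.ψ_zero h.hr])
  replace hw : ∀ σ, σ w = g σ * w := fun σ => hw σ (Subgroup.mem_top σ)
  -- `w ^ r` is rational
  have hwr : ∀ σ : Γ, σ (w ^ r) = w ^ r := by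
    intro σ
    rw [map_pow, hw, mul_pow]
    change D.ψ (F (c σ)) ^ r * w ^ r = w ^ r
    rw [D.ψ_pow, one_mul]
  obtain ⟨α, hα⟩ := (InfiniteGalois.mem_bot_iff_fixed (k := ℚ) (K := L) (w ^ r)).mpr hwr
  have hα' : ((α : ℚ) : L) = w ^ r := by
    rw [← hα]
    exact (eq_ratCast (algebraMap ℚ L) α).symm
  have hα0 : α ≠ 0 := by
    rintro rfl
    rw [Rat.cast_zero] at hα'
    exact pow_ne_zero r hw0 hα'.symm
  -- local computation
  have hloc : ∀ p : ℕ, p.Prime → ∃ A : ValuationSubring L, A.LiesOverPrime p ∧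
      ∃ n : ℤ, A.valuation w = A.valuation (p : L) ^ n := by
    intro p hp
    have hsimple : ∀ A : ValuationSubring L, A.LiesOverPrime p →
        (∀ σ ∈ A.inertiaSubgroupIn ℚ, g σ = 1) →
        ∃ n : ℤ, A.valuation w = A.valuation (p : L) ^ n := by
      intro A hA hg1
      exact exists_valuation_eq_zpow hp hA w hw0 fun σ hσ => by rw [hw, hg1 σ hσ, one_mul]
    by_cases hpr : p = r
    · subst hpr
      refine ⟨Ar, h.hAr, ?_⟩
      -- represent ψ ∘ F on B ⊓ G0
      obtain ⟨z, hz, hz'⟩ := h.pair.exists_eq h.m0 (B ⊓ G0) (fun x hx => hBG hx.1)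
        (fun x => D.ψ (F x)) (fun x _ => D.ψ_ne_zero h.hr _)
        (fun x hx y hy => by
          change D.ψ (F (x + y)) = _
          rw [q.map_add x hx.1 y hy.1, D.ψ_add])
      obtain ⟨u, hu, hu'⟩ := hc.flat z hz
      have hu0 : u ≠ 0 := by
        rintro rfl
        rw [_root_.map_zero] at hu
        exact zero_ne_one hu
      obtain ⟨n, hn⟩ := exists_valuation_eq_zpow h.hr h.hAr (w / u) (div_ne_zero hw0 hu0)
        (fun σ hσ => by
          have h1 := hu' σ hσ
          rw [hz' (c σ) ⟨hc.c_mem σ, hc.atr σ hσ⟩] at h1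
          rw [map_div₀, hw, h1]
          have hg1 : g σ ≠ 0 := hg0 σ
          change g σ * w / (g σ * u) = w / u
          exact mul_div_mul_left _ _ hg1)
      rw [map_div₀, hu, div_one] at hn
      exact ⟨n, hn⟩
    · by_cases hpN : p = N
      · subst hpN
        refine ⟨AN, h.hAN, hsimple AN h.hAN fun σ hσ => ?_⟩
        change D.ψ (F (c σ)) = 1
        rw [hc.atN σ hσ, q.map_sub (hst.G_mem σ m hc.m_mem) hc.m_mem, q.smul σ m hc.m_mem,
          h.a_atN hBG hst q σ hσ, one_mul, sub_self, D.ψ_zero h.hr]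
      · obtain ⟨A, hA'⟩ := exists_liesOverPrime L hp
        refine ⟨A, hA', hsimple A hA' fun σ hσ => ?_⟩
        change D.ψ (F (c σ)) = 1
        rw [hc.ur p hp hpr hpN A hA' σ hσ, q.map_zero, D.ψ_zero h.hr]
  -- hence `α = ± b ^ r`
  have hval : ∀ p : ℕ, p.Prime → (r : ℤ) ∣ padicValRat p α := by
    intro p hp
    obtain ⟨A, hA, n, hn⟩ := hloc p hp
    have h1 := valuation_ratCast hp hA α hα0
    rw [hα', map_pow, hn, ← zpow_natCast, ← zpow_mul] at h1
    have hlt : A.valuation (p : L) < 1 := val_natCast_lt_one hA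
    have hv0 : 0 < A.valuation (p : L) := by
      rw [zero_lt_iff]; exact (map_ne_zero _).mpr (Nat.cast_ne_zero.mpr hp.ne_zero)
    have h2 := (zpow_right_strictAnti₀ hv0 hlt).injective h1
    exact ⟨n, by rw [← h2, mul_comm]⟩
  obtain ⟨b, hb0, hb⟩ := rat_eq_pow_of_dvd hr0 α hα0 hval
  have hbL : ((b : ℚ) : L) ≠ 0 := Rat.cast_ne_zero.mpr hb0
  set η : L := w / (b : L) with hη
  have hη0 : η ≠ 0 := div_ne_zero hw0 hbL
  have hη2 : η ^ (2 * r) = 1 := by
    have h1 : η ^ r = 1 ∨ η ^ r = -1 := by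
      rw [hη, div_pow, ← hα']
      rcases hb with hb | hb
      · left
        have : ((b : ℚ) : L) ^ r = (α : L) := by rw [← hb]; push_cast; rfl
        rw [this, div_self (Rat.cast_ne_zero.mpr hα0)]
      · right
        have : ((b : ℚ) : L) ^ r = -(α : L) := by
          have : (((b : ℚ) ^ r : ℚ) : L) = ((-α : ℚ) : L) := by rw [hb]
          push_cast at this
          exact this
        rw [this, div_neg, div_self (Rat.cast_ne_zero.mpr hα0)]
    rw [mul_comm, pow_mul]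
    rcases h1 with h1 | h1
    · rw [h1, one_pow]
    · rw [h1]; norm_num
  have hgη : ∀ σ : Γ, g σ = σ η / η := by
    intro σ
    have h1 : σ ((b : ℚ) : L) = ((b : ℚ) : L) := map_ratCast σ b
    rw [hη, map_div₀, h1, hw]
    field_simp
  obtain ⟨i, hi, hiη⟩ := hξ.eq_pow_of_pow_eq_one hη2
  have hξ0 : ξ ≠ 0 := hξ.ne_zero (by omega)
  have hξr : ξ ^ r = -1 := by
    have h1 : (ξ ^ r) ^ 2 = 1 := by rw [← pow_mul, mul_comm, hξ.pow_eq_one]
    rcases sq_eq_one_iff.mp h1 with h2 | h2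
    · exfalso
      have := hξ.dvd_of_pow_eq_one r h2
      have := Nat.le_of_dvd (Nat.pos_of_ne_zero hr0) this
      omega
    · exact h2
  by_cases hir : i < r
  · refine ⟨⟨i, hir⟩, fun σ => ?_⟩
    rw [hiη]
    exact hgη σ
  · refine ⟨⟨i - r, by omega⟩, fun σ => ?_⟩
    have h1 : η = -ξ ^ (i - r) := by
      rw [← hiη]
      conv_lhs => rw [show i = (i - r) + r by omega, pow_add, hξr]
      ring
    have h2 := hgη σ
    rw [h1, map_neg, neg_div_neg_eq] at h2
    exact h2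

end DescentData

end Fermat.Agent.H12
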