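import Mathlib
import Fermat.Agent.H12.Base

set_option autoImplicit false
set_option linter.style.haveILetI false
set_option linter.unusedSectionVars false

/-!
# The counting lemma: `|Ẑ(B)| ≤ |B| |B ∩ G0|`
-/

namespace Fermat.Agent.H12

open Fermat.Agent.H05 Fermat.Agent.H09
open scoped Pointwise

variable {L : Type*} [Field L] [CharZero L] [IsGalois ℚ L] [IsAlgClosed L]
    {J : Type*} [AddCommGroup J] [DistribMulAction (L ≃ₐ[ℚ] L) J]
    {T : Type*} [CommRing T] [Module T J] {N r K : ℕ} {P : Ideal T}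
    {Ar AN : ValuationSubring L} {G G0 : AddSubgroup J} {e : J → J → L}

local notation "Γ" => L ≃ₐ[ℚ] L

namespace DescentData

variable (h : DescentData L (T := T) N r K P Ar AN G G0 e)
include h

/-- The map `(c, m) ↦ (F ∘ c, F m)`. -/
def proj {B' B : AddSubgroup J} {F : J → ZMod r} {a : Γ →* ZMod r} (hBG : B ≤ G)
    (q : QuotData (L := L) r B' B F a) : ↥(Zhat h B hBG) →+ (Γ → ZMod r) × ZMod r where
  toFun p := (fun σ => F (p.1.1 σ), F p.1.2)
  map_zero' := by
    ext σ
    · exact q.map_zero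
    · exact q.map_zero
  map_add' p p' := by
    have h1 := (mem_Zhat h B hBG p.1).mp p.2
    have h2 := (mem_Zhat h B hBG p'.1).mp p'.2
    ext σ
    · exact q.map_add _ (h1.c_mem σ) _ (h2.c_mem σ)
    · exact q.map_add _ h1.m_mem _ h2.m_mem

theorem card_ker_proj {B' B : AddSubgroup J} {F : J → ZMod r} {a : Γ →* ZMod r} (hBG : B ≤ G)
    (q : QuotData (L := L) r B' B F a) :
    Nonempty (↥(h.proj hBG q).ker ≃ ↥(Zhat h B' (q.le.trans hBG))) := by
  refine ⟨{ toFun := fun p => ⟨p.1.1, ?_⟩, invFun := fun p => ⟨⟨p.1, ?_⟩, ?_⟩,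
            left_inv := fun p => rfl, right_inv := fun p => rfl }⟩
  · have h1 := (mem_Zhat h B hBG p.1.1).mp p.1.2
    have h2 := p.2
    rw [AddMonoidHom.mem_ker] at h2
    have h3 : ∀ σ, F (p.1.1.1 σ) = 0 := fun σ => congrFun (congrArg Prod.fst h2) σ
    have h4 : F p.1.1.2 = 0 := congrArg Prod.snd h2
    rw [mem_Zhat]
    exact ⟨fun σ => (q.eq_zero _ (h1.c_mem σ)).mp (h3 σ), (q.eq_zero _ h1.m_mem).mp h4,
      h1.cocycle, h1.opn, h1.ur, h1.atN, h1.atr, h1.flat⟩
  · have h1 := (mem_Zhat h B' (q.le.trans hBG) p.1).mp p.2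
    rw [mem_Zhat]
    exact ⟨fun σ => q.le (h1.c_mem σ), q.le h1.m_mem, h1.cocycle, h1.opn, h1.ur, h1.atN, h1.atr,
      h1.flat⟩
  · have h1 := (mem_Zhat h B' (q.le.trans hBG) p.1).mp p.2
    rw [AddMonoidHom.mem_ker]
    ext σ
    · exact (q.eq_zero _ (q.le (h1.c_mem σ))).mpr (h1.c_mem σ)
    · exact (q.eq_zero _ (q.le h1.m_mem)).mpr h1.m_mem

theorem finite_card_le (n : ℕ) : ∀ (B : AddSubgroup J) (hBG : B ≤ G), IsStable T Γ B →
    Nat.card B = n → Finite ↥(Zhat h B hBG) ∧
      Nat.card ↥(Zhat h B hBG) ≤ Nat.card B * Nat.card ↥(B ⊓ G0) := by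
  classical
  haveI : Fact r.Prime := ⟨h.hr⟩
  haveI : NeZero r := ⟨h.hr.ne_zero⟩
  haveI : Finite G := h.fin
  have hfin : ∀ B : AddSubgroup J, B ≤ G → Finite B := fun B hB =>
    Finite.of_injective _ (AddSubgroup.inclusion_injective hB)
  obtain ⟨D⟩ := nonempty_cycData (L := L) h.hr
  haveI : NeZero ((2 * r : ℕ) : L) :=
    ⟨Nat.cast_ne_zero.mpr (mul_ne_zero two_ne_zero h.hr.ne_zero)⟩
  obtain ⟨ξ, hξ⟩ := HasEnoughRootsOfUnity.exists_primitiveRoot L (2 * r)
  induction n using Nat.strong_induction_on with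
  | _ n ih =>
  intro B hBG hst hn
  haveI := hfin B hBG
  by_cases hne : B = ⊥
  · -- trivial case
    have hbot : Zhat h B hBG = ⊥ := by
      rw [AddSubgroup.eq_bot_iff_forall]
      intro p hp
      rw [mem_Zhat] at hp
      have h1 : ∀ σ, p.1 σ = 0 := fun σ => by
        have := hp.c_mem σ
        rwa [hne, AddSubgroup.mem_bot] at this
      have h2 : p.2 = 0 := by
        have := hp.m_mem
        rwa [hne, AddSubgroup.mem_bot] at this
      exact Prod.ext (funext h1) h2
    rw [hbot]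
    refine ⟨inferInstance, ?_⟩
    rw [AddSubgroup.card_bot]
    haveI : Finite ↥(B ⊓ G0) := hfin _ (inf_le_left.trans hBG)
    exact Nat.one_le_iff_ne_zero.mpr (mul_ne_zero Nat.card_pos.ne' Nat.card_pos.ne')
  · obtain ⟨k, hk⟩ := h.GP
    obtain ⟨B', hle, hst', hcard⟩ := exists_index_prime h.comm h.hr P h.rP h.res B hst hne
      ⟨k, fun t ht b hb => hk t ht b (hBG hb)⟩ (D.χ h.hr) (fun σ => by
        obtain ⟨t, c, hc, ht, hrel⟩ := h.rel σ
        exact ⟨t, c, (D.χ_eq_of_forall h.hr σ c fun ζ hζ => hc ζ (h.pow_rK hζ)).symm, ht,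
          fun b hb => hrel b (hBG hb)⟩)
    have hB'G : B' ≤ G := hle.trans hBG
    haveI := hfin B' hB'G
    haveI : Finite ↥(B ⊓ G0) := hfin _ (inf_le_left.trans hBG)
    haveI : Finite ↥(B' ⊓ G0) := hfin _ (inf_le_left.trans hB'G)
    obtain ⟨F, a, q⟩ := exists_quotData hle h.hr hst hst' hcard
    have hlt : Nat.card B' < n := by
      rw [← hn, hcard]
      have h1 : 0 < Nat.card B' := Nat.card_pos
      have h2 := h.hr.two_le
      nlinarith
    obtain ⟨ihfin, ihle⟩ := ih _ hlt B' hB'G hst' rfl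
    obtain ⟨eker⟩ := h.card_ker_proj hBG q
    -- reduce to bounding the range
    have hmain : ∀ s : ℕ, Finite ↥(h.proj hBG q).range ∧
        Nat.card ↥(h.proj hBG q).range ≤ s * r →
        s * Nat.card ↥(B' ⊓ G0) ≤ Nat.card ↥(B ⊓ G0) →
        Finite ↥(Zhat h B hBG) ∧
          Nat.card ↥(Zhat h B hBG) ≤ Nat.card B * Nat.card ↥(B ⊓ G0) := by
      rintro s ⟨hf, hs⟩ hs'
      have h1 : Nat.card ↥(h.proj hBG q).ker * (h.proj hBG q).ker.index =
          Nat.card ↥(Zhat h B hBG) := AddSubgroup.card_mul_index _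
      have h2 : (h.proj hBG q).ker.index = Nat.card ↥(h.proj hBG q).range :=
        AddSubgroup.index_ker _
      have h3 : Nat.card ↥(h.proj hBG q).ker = Nat.card ↥(Zhat h B' (q.le.trans hBG)) :=
        Nat.card_congr eker
      rw [h2, h3] at h1
      haveI : Finite ↥(Zhat h B' (q.le.trans hBG)) := ihfin
      have h4 : 0 < Nat.card ↥(Zhat h B' (q.le.trans hBG)) := Nat.card_pos
      have h5 : 0 < Nat.card ↥(h.proj hBG q).range := Nat.card_pos
      refine ⟨Nat.finite_of_card_ne_zero ?_, ?_⟩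
      · rw [← h1]
        exact (Nat.mul_pos h4 h5).ne'
      · rw [← h1, hcard]
        calc Nat.card ↥(Zhat h B' (q.le.trans hBG)) * Nat.card ↥(h.proj hBG q).range
            ≤ (Nat.card B' * Nat.card ↥(B' ⊓ G0)) * (s * r) := Nat.mul_le_mul ihle hs
          _ = r * Nat.card B' * (s * Nat.card ↥(B' ⊓ G0)) := by ring
          _ ≤ r * Nat.card B' * Nat.card ↥(B ⊓ G0) := Nat.mul_le_mul_left _ hs'
    by_cases hB : ∃ x ∈ B, x ∈ G0 ∧ x ∉ B'
    · -- case B
      refine hmain r ?_ ?_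
      · -- injection of the range into Fin r × ZMod r
        have hex : ∀ y : ↥(h.proj hBG q).range, ∃ p : Fin r × ZMod r, ∀ σ : Γ,
            D.ψ (y.1.1 σ) = σ (ξ ^ (p.1 : ℕ)) / ξ ^ (p.1 : ℕ) ∧ y.1.2 = p.2 := by
          rintro ⟨y, p, rfl⟩
          have h1 := (mem_Zhat h B hBG p.1).mp p.2
          obtain ⟨j, hj⟩ := h.caseB D hξ hBG hst q hB p.1.1 p.1.2 h1
          exact ⟨(j, F p.1.2), fun σ => ⟨hj σ, rfl⟩⟩
        choose φ hφ using hex
        have hinj : Function.Injective φ := by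
          intro y y' hyy
          apply Subtype.ext
          refine Prod.ext (funext fun σ => ?_) ?_
          · apply D.ψ_inj
            rw [(hφ y σ).1, (hφ y' σ).1, hyy]
          · rw [(hφ y 1).2, (hφ y' 1).2, hyy]
        refine ⟨Finite.of_injective φ hinj, ?_⟩
        have h1 := Nat.card_le_card_of_injective φ hinj
        rwa [Nat.card_prod, Nat.card_fin, Nat.card_zmod] at h1
      · -- card (B ⊓ G0) ≥ r * card (B' ⊓ G0)
        obtain ⟨x, hx, hx0, hxB'⟩ := hB
        have hFx : F x ≠ 0 := fun h0 => hxB' ((q.eq_zero x hx).mp h0)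
        let g : ZMod r × ↥(B' ⊓ G0) → ↥(B ⊓ G0) := fun p =>
          ⟨p.1.val • x + p.2, add_mem (nsmul_mem hx _) (hle p.2.2.1),
            add_mem (nsmul_mem hx0 _) p.2.2.2⟩
        have hg : Function.Injective g := by
          rintro ⟨j, y⟩ ⟨j', y'⟩ hyy
          have h1 : j.val • x + (y : J) = j'.val • x + y' := congrArg Subtype.val hyy
          have h2 : F (j.val • x + (y : J)) = F (j'.val • x + y') := by rw [h1]
          rw [q.map_add _ (nsmul_mem hx _) _ (hle y.2.1), q.map_add _ (nsmul_mem hx _) _ (hle y'.2.1),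
            (q.eq_zero _ (hle y.2.1)).mpr y.2.1, (q.eq_zero _ (hle y'.2.1)).mpr y'.2.1,
            q.map_nsmul hx, q.map_nsmul hx, add_zero, add_zero, ZMod.natCast_zmod_val,
            ZMod.natCast_zmod_val] at h2
          have h3 : j = j' := mul_right_cancel₀ hFx h2
          subst h3
          exact Prod.ext rfl (Subtype.ext (add_left_cancel h1))
        have h1 := Nat.card_le_card_of_injective g hg
        rwa [Nat.card_prod, Nat.card_zmod] at h1
    · -- case A
      push Not at hB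
      refine hmain 1 ?_ ?_
      · have hex : ∀ y : ↥(h.proj hBG q).range, ∀ σ, y.1.1 σ = 0 := by
          rintro ⟨y, p, rfl⟩ σ
          have h1 := (mem_Zhat h B hBG p.1).mp p.2
          have h2 := h.caseA hBG hst q hB p.1.1 p.1.2 h1 σ
          exact (q.eq_zero _ (h1.c_mem σ)).mpr h2
        have hinj : Function.Injective (fun y : ↥(h.proj hBG q).range => y.1.2) := by
          intro y y' hyy
          apply Subtype.ext
          refine Prod.ext (funext fun σ => ?_) hyy
          rw [hex y σ, hex y' σ]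
        refine ⟨Finite.of_injective _ hinj, ?_⟩
        have h1 := Nat.card_le_card_of_injective _ hinj
        rw [Nat.card_zmod] at h1
        rw [one_mul]
        exact h1
      · rw [one_mul]
        refine Nat.card_le_card_of_injective
          (fun x : ↥(B' ⊓ G0) => (⟨x.1, hle x.2.1, x.2.2⟩ : ↥(B ⊓ G0))) ?_
        intro x y hxy
        exact Subtype.ext (congrArg (fun z : ↥(B ⊓ G0) => (z : J)) hxy)

/-- **The counting lemma.** -/
theorem finite_Zhat : Finite ↥(Zhat h G le_rfl) := (h.finite_card_le _ G le_rfl h.st rfl).1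

theorem card_Zhat_le : Nat.card ↥(Zhat h G le_rfl) ≤ Nat.card G * Nat.card G0 := by
  have h1 := (h.finite_card_le _ G le_rfl h.st rfl).2
  rwa [inf_eq_right.mpr h.G0le] at h1

end DescentData

end Fermat.Agent.H12
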