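import Mathlib
import Fermat.Agent.H12.CountMain
import Fermat.Agent.H12.Tame

set_option autoImplicit false
set_option linter.style.haveILetI false
set_option linter.unusedSectionVars false

/-!
# The local analysis at `N`
-/

namespace Fermat.Agent.H12

open Fermat.Agent.H05 Fermat.Agent.H09
open scoped Pointwise

/-- In a finite abelian group killed by `r^K`, a subgroup of index at most `κ` contains the
multiples of `r^κ`. -/
theorem pow_smul_mem_of_card_le {J : Type*} [AddCommGroup J] {r : ℕ} (hr : r.Prime) {K : ℕ}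
    (G S : AddSubgroup J) [Finite G] (hGr : ∀ x ∈ G, (r ^ K) • x = 0) (hS : S ≤ G) (κ : ℕ)
    (hκ : Nat.card G ≤ κ * Nat.card S) (x : J) (hx : x ∈ G) : (r ^ κ) • x ∈ S := by
  classical
  let S' : AddSubgroup G := S.addSubgroupOf G
  have h1 : Nat.card S' = Nat.card S :=
    Nat.card_congr (AddSubgroup.addSubgroupOfEquivOfLe hS).toEquiv
  have h2 := AddSubgroup.card_eq_card_quotient_mul_card_addSubgroup S'
  rw [h1] at h2
  haveI : Finite S := Finite.of_injective _ (AddSubgroup.inclusion_injective hS)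
  have h3 : 0 < Nat.card S := Nat.card_pos
  rw [h2] at hκ
  have h4 : Nat.card (G ⧸ S') ≤ κ := Nat.le_of_mul_le_mul_right hκ h3
  let y : G ⧸ S' := QuotientAddGroup.mk ⟨x, hx⟩
  have h5 : (r ^ K) • y = 0 := by
    change (r ^ K) • (QuotientAddGroup.mk ⟨x, hx⟩ : G ⧸ S') = 0
    rw [← QuotientAddGroup.mk_nsmul]
    have : (r ^ K) • (⟨x, hx⟩ : G) = 0 := Subtype.ext (hGr x hx)
    rw [this]
    rfl
  have h6 : addOrderOf y ∣ r ^ K := addOrderOf_dvd_of_nsmul_eq_zero h5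
  obtain ⟨s, -, hs⟩ := (Nat.dvd_prime_pow hr).mp h6
  have h7 : addOrderOf y ≤ Nat.card (G ⧸ S') :=
    Nat.le_of_dvd Nat.card_pos (addOrderOf_dvd_natCard y)
  have h8 : s ≤ κ := by
    by_contra hcon
    push Not at hcon
    have h9 : κ < r ^ κ := Nat.lt_pow_self hr.one_lt
    have h10 : r ^ κ ≤ r ^ s := Nat.pow_le_pow_right hr.pos hcon.le
    omega
  have h9 : (r ^ κ) • y = 0 := by
    apply addOrderOf_dvd_iff_nsmul_eq_zero.mp
    rw [hs]
    exact Nat.pow_dvd_pow r h8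
  change (r ^ κ) • (QuotientAddGroup.mk ⟨x, hx⟩ : G ⧸ S') = 0 at h9
  rw [← QuotientAddGroup.mk_nsmul, QuotientAddGroup.eq_zero_iff, AddSubgroup.mem_addSubgroupOf] at h9
  exact h9

/-- Division by integers prime to `r` in subgroups. -/
theorem smul_mem_of_coprime {J : Type*} [AddCommGroup J] {r : ℕ} {K : ℕ}
    (S : AddSubgroup J) {x : J} (hx : (r ^ K) • x = 0) {s : ℕ} (hs : Nat.Coprime s r)
    (h : s • x ∈ S) : x ∈ S := by
  have h1 : IsCoprime (s : ℤ) ((r ^ K : ℕ) : ℤ) :=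
    Nat.isCoprime_iff_coprime.mpr (Nat.Coprime.pow_right K hs)
  obtain ⟨u, v, huv⟩ := h1
  have h2 : x = u • (s • x) + v • ((r ^ K) • x) := by
    rw [← natCast_zsmul x s, ← natCast_zsmul x (r ^ K), smul_smul, smul_smul, ← add_smul, huv,
      one_smul]
  rw [h2, hx, smul_zero, add_zero]
  exact zsmul_mem h u

variable {L : Type*} [Field L] [CharZero L] [IsGalois ℚ L] [IsAlgClosed L]
    {J : Type*} [AddCommGroup J] [DistribMulAction (L ≃ₐ[ℚ] L) J]
    {T : Type*} [CommRing T] [Module T J] {N r K : ℕ} {P : Ideal T}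
    {Ar AN : ValuationSubring L} {G G0 : AddSubgroup J} {e : J → J → L}

local notation "Γ" => L ≃ₐ[ℚ] L

theorem dvd_choose_two {r K : ℕ} (hr : r.Prime) : r ^ K ∣ (r ^ (K + 1)).choose 2 := by
  have h1 : (r ^ (K + 1)).choose 2 * 2 = r ^ (K + 1) * (r ^ (K + 1) - 1) := by
    rw [Nat.choose_two_right]
    apply Nat.div_mul_cancel
    exact (Nat.even_mul_pred_self _).two_dvd
  rcases hr.eq_two_or_odd' with h2 | h2
  · subst h2
    refine ⟨2 ^ (K + 1) - 1, ?_⟩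
    apply Nat.eq_of_mul_eq_mul_right (two_pos)
    rw [h1, pow_succ]
    ring
  · have h3 : Nat.Coprime (r ^ K) 2 := (Nat.coprime_two_right.mpr h2).pow_left K
    apply h3.dvd_of_dvd_mul_right
    rw [h1]
    exact Dvd.dvd.mul_right (pow_dvd_pow r (Nat.le_succ K)) _

namespace DescentData

variable (h : DescentData L (T := T) N r K P Ar AN G G0 e)
include h

/-- The affine action of the inertia group at `N` on `G` attached to a cocycle. -/
noncomputable def affine (c : Γ → J) (hcG : ∀ σ, c σ ∈ G)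
    (hc : ∀ σ τ, c (σ * τ) = c σ + σ • c τ) :
    ↥(AN.inertiaSubgroupIn ℚ) →* Equiv.Perm G where
  toFun σ :=
    { toFun := fun x => ⟨(σ : Γ) • (x : J) + c σ, add_mem (h.st.G_mem _ _ x.2) (hcG _)⟩
      invFun := fun x => ⟨(σ : Γ)⁻¹ • ((x : J) - c σ), h.st.G_mem _ _ (sub_mem x.2 (hcG _))⟩
      left_inv := fun x => Subtype.ext (by
        change (σ : Γ)⁻¹ • ((σ : Γ) • (x : J) + c σ - c σ) = x
        rw [add_sub_cancel_right, inv_smul_smul])
      right_inv := fun x => Subtype.ext (by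
        change (σ : Γ) • ((σ : Γ)⁻¹ • ((x : J) - c σ)) + c σ = x
        rw [smul_inv_smul, sub_add_cancel]) }
  map_one' := by
    ext x
    change ((1 : Γ) • (x : J) + c 1) = x
    have h1 := hc 1 1
    rw [mul_one, one_smul, left_eq_add] at h1
    rw [h1, one_smul, add_zero]
  map_mul' σ τ := by
    ext x
    change ((σ : Γ) * (τ : Γ)) • (x : J) + c ((σ : Γ) * (τ : Γ)) =
      (σ : Γ) • ((τ : Γ) • (x : J) + c τ) + c σ
    rw [hc, mul_smul, smul_add]
    abel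

theorem affine_pow (c : Γ → J) (hcG : ∀ σ, c σ ∈ G)
    (hc : ∀ σ τ, c (σ * τ) = c σ + σ • c τ) (σ : ↥(AN.inertiaSubgroupIn ℚ)) (n : ℕ) (x : G) :
    (((h.affine c hcG hc σ) ^ n) x : J) = x + n • ((σ : Γ) • (x : J) - x) + n • c σ +
      (n.choose 2) • ((σ : Γ) • c σ - c σ) := by
  induction n with
  | zero => simp
  | succ n ih =>
    rw [pow_succ']
    change (σ : Γ) • (((h.affine c hcG hc σ) ^ n) x : J) + c σ = _
    have h1 := h.uN σ σ.2 σ σ.2 x x.2
    have h2 := h.uN σ σ.2 σ σ.2 (c σ) (hcG σ)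
    rw [ih, smul_add, smul_add, smul_add, smul_comm (σ : Γ) n, smul_comm (σ : Γ) n,
      smul_comm (σ : Γ) (n.choose 2), h1, h2, Nat.choose_succ_succ' n 1, Nat.choose_one_right,
      add_smul, add_smul, add_smul, one_smul, one_smul]
    have e1 : n • (σ : Γ) • c σ = n • ((σ : Γ) • c σ - c σ) + n • c σ := by
      rw [← smul_add, sub_add_cancel]
    have e2 : (σ : Γ) • (x : J) = ((σ : Γ) • (x : J) - x) + x := by rw [sub_add_cancel]
    rw [e1]
    nth_rewrite 1 [e2]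
    abel

theorem affine_pow_eq_one (c : Γ → J) (hcG : ∀ σ, c σ ∈ G)
    (hc : ∀ σ τ, c (σ * τ) = c σ + σ • c τ) (σ : ↥(AN.inertiaSubgroupIn ℚ)) :
    (h.affine c hcG hc σ) ^ r ^ (K + 1) = 1 := by
  ext x
  rw [h.affine_pow]
  have hz : ∀ y ∈ G, ∀ n : ℕ, r ^ K ∣ n → n • y = 0 := by
    rintro y hy n ⟨k, rfl⟩
    rw [mul_comm, mul_smul, h.Gr y hy, smul_zero]
  have h1 : r ^ K ∣ r ^ (K + 1) := pow_dvd_pow r (Nat.le_succ K)
  rw [hz _ (sub_mem (h.st.G_mem _ _ x.2) x.2) _ h1, hz _ (hcG σ) _ h1,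
    hz _ (sub_mem (h.st.G_mem _ _ (hcG σ)) (hcG σ)) _ (dvd_choose_two h.hr)]
  simp

/-- The two consequences of tameness for a cocycle. -/
theorem tame_cocycle (c : Γ → J) (hcG : ∀ σ, c σ ∈ G)
    (hc : ∀ σ τ, c (σ * τ) = c σ + σ • c τ)
    (hop : ∃ U : Subgroup Γ, IsOpen (U : Set Γ) ∧ ∀ σ ∈ U, c σ = 0)
    (π₁ : L) (hπ₁ : π₁ ^ r = (N : L)) (τ : Γ) (hτI : τ ∈ AN.inertiaSubgroupIn ℚ)
    (hτ : τ π₁ ≠ π₁) :
    (∀ m ∈ G, c τ = τ • m - m → ∀ σ ∈ AN.inertiaSubgroupIn ℚ, c σ = σ • m - m) ∧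
    (∀ φ : Γ, AN.IsFrobeniusAt φ N →
      c (φ * τ * φ⁻¹) = N • c τ + (N.choose 2) • (τ • c τ - c τ) ∧
      ∀ x ∈ G, (φ * τ * φ⁻¹) • x = x + N • (τ • x - x)) := by
  obtain ⟨U, hU, hcU⟩ := hop
  obtain ⟨V, hV, hVG⟩ := h.opn
  haveI : Finite G := h.fin
  have h1 := tame_inertia h.hN h.hAN h.hr h.hrN π₁ hπ₁ τ hτI hτ (h.affine c hcG hc)
    (fun σ => ⟨K + 1, h.affine_pow_eq_one c hcG hc σ⟩) (U ⊓ V) (hU.inter hV) (by
      intro σ hσ
      ext x
      change (σ : Γ) • (x : J) + c σ = x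
      rw [hVG _ hσ.2 _ x.2, hcU _ hσ.1, add_zero])
  constructor
  · intro m hm hcτ σ hσ
    obtain ⟨n, hn⟩ := h1.1 ⟨σ, hσ⟩
    have h2 : (h.affine c hcG hc ⟨τ, hτI⟩) ⟨-m, neg_mem hm⟩ = ⟨-m, neg_mem hm⟩ := by
      apply Subtype.ext
      change τ • (-m) + c τ = -m
      rw [hcτ, smul_neg]
      abel
    have h3 : ((h.affine c hcG hc ⟨τ, hτI⟩) ^ n) ⟨-m, neg_mem hm⟩ = ⟨-m, neg_mem hm⟩ := by
      apply Equiv.Perm.zpow_apply_eq_self_of_apply_eq_self h2
    rw [← hn] at h3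
    have h4 : σ • (-m) + c σ = -m := congrArg Subtype.val h3
    rw [smul_neg] at h4
    rw [neg_add_eq_iff_eq_add] at h4
    rw [h4]
    abel
  · intro φ hφ
    have hconj : φ * τ * φ⁻¹ ∈ AN.inertiaSubgroupIn ℚ := by
      obtain ⟨hφd, -⟩ := hφ
      have hφA : φ • AN = AN := hφd
      have h2 := mem_inertia_conj h.hN h.hAN φ (φ * τ * φ⁻¹)
      rw [hφA] at h2
      rw [h2]
      have : φ⁻¹ * (φ * τ * φ⁻¹) * φ = τ := by group
      rw [this]
      exact hτI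
    have h2 := h1.2 φ hφ τ hτI hconj
    have h3 : ∀ x : G, (φ * τ * φ⁻¹) • (x : J) + c (φ * τ * φ⁻¹) =
        x + N • (τ • (x : J) - x) + N • c τ + (N.choose 2) • (τ • c τ - c τ) := by
      intro x
      have h4 := h.affine_pow c hcG hc ⟨τ, hτI⟩ N x
      rw [← h2] at h4
      exact h4
    have h5 := h3 0
    simp only [ZeroMemClass.coe_zero, smul_zero, zero_add, sub_zero] at h5
    refine ⟨h5, fun x hx => ?_⟩
    have h6 := h3 ⟨x, hx⟩
    rw [h5] at h6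
    have h7 : (φ * τ * φ⁻¹) • x + (N • c τ + (N.choose 2) • (τ • c τ - c τ)) =
        (x + N • (τ • x - x)) + (N • c τ + (N.choose 2) • (τ • c τ - c τ)) := by
      rw [h6]
      change x + N • (τ • x - x) + N • c τ + (N.choose 2) • (τ • c τ - c τ) = _
      abel
    exact add_right_cancel h7

end DescentData

end Fermat.Agent.H12
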