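import Mathlib
import Fermat.Agent.H12.AtN

set_option autoImplicit false
set_option linter.style.haveILetI false
set_option linter.unusedSectionVars false

/-!
# The local analysis at `N`, continued
-/

namespace Fermat.Agent.H12

open Fermat.Agent.H05 Fermat.Agent.H09
open scoped Pointwise

variable {L : Type*} [Field L] [CharZero L] [IsGalois ℚ L] [IsAlgClosed L]
    {J : Type*} [AddCommGroup J] [DistribMulAction (L ≃ₐ[ℚ] L) J]
    {T : Type*} [CommRing T] [Module T J] {N r K : ℕ} {P : Ideal T}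
    {Ar AN : ValuationSubring L} {G G0 : AddSubgroup J} {e : J → J → L}

local notation "Γ" => L ≃ₐ[ℚ] L

/-- `(σ - 1) G`. -/
def deltaMap (σ : Γ) : J →+ J := DistribSMul.toAddMonoidHom J σ - AddMonoidHom.id J

theorem deltaMap_apply (σ : Γ) (x : J) : deltaMap σ x = σ • x - x := rfl

/-- Elements of `G` fixed by `σ`. -/
def fixedBy' (G : AddSubgroup J) (σ : Γ) : AddSubgroup J := G ⊓ (deltaMap σ).ker

theorem mem_fixedBy' (G : AddSubgroup J) (σ : Γ) (x : J) :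
    x ∈ fixedBy' G σ ↔ x ∈ G ∧ σ • x = x := by
  rw [fixedBy', AddSubgroup.mem_inf, AddMonoidHom.mem_ker, deltaMap_apply, sub_eq_zero]

/-- Elements of `G` fixed by everything. -/
def fixedAll (G : AddSubgroup J) : AddSubgroup J where
  carrier := {x | x ∈ G ∧ ∀ σ : Γ, σ • x = x}
  zero_mem' := ⟨zero_mem G, fun σ => smul_zero σ⟩
  add_mem' := fun ha hb => ⟨add_mem ha.1 hb.1, fun σ => by rw [smul_add, ha.2, hb.2]⟩
  neg_mem' := fun ha => ⟨neg_mem ha.1, fun σ => by rw [smul_neg, ha.2]⟩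

/-- Data at `N`: a tame generator and a Frobenius element. -/
structure DataN (L : Type*) [Field L] [CharZero L] (N r : ℕ) (AN : ValuationSubring L)
    (τ φ : L ≃ₐ[ℚ] L) : Prop where
  root : ∃ π₁ : L, π₁ ^ r = (N : L) ∧ τ π₁ ≠ π₁
  mem : τ ∈ AN.inertiaSubgroupIn ℚ
  frob : AN.IsFrobeniusAt φ N

theorem exists_dataN {N r : ℕ} (hN : N.Prime) (hr : r.Prime) {AN : ValuationSubring L}
    (hA : AN.LiesOverPrime N) : ∃ τ φ : Γ, DataN L N r AN τ φ := by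
  obtain ⟨π₁, hπ₁⟩ : ∃ π₁ : L, π₁ ^ r = (N : L) := IsAlgClosed.exists_pow_nat_eq _ hr.pos
  obtain ⟨τ, hτ, hτ'⟩ := exists_inertia_move hN hA hr.one_lt π₁ hπ₁
  obtain ⟨φ, hφ⟩ := exists_isFrobeniusAt hN hA
  exact ⟨τ, φ, ⟨π₁, hπ₁, hτ'⟩, hτ, hφ⟩

namespace DescentData

variable {τ φ : L ≃ₐ[ℚ] L}
variable (h : DescentData L (T := T) N r K P Ar AN G G0 e)
variable (d : DataN L N r AN τ φ)
include h d

theorem fixed_of_tau {x : J} (hx : x ∈ G) (hτ : τ • x = x) :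
    ∀ σ ∈ AN.inertiaSubgroupIn ℚ, σ • x = x := by
  obtain ⟨π₁, hπ₁, hτπ⟩ := d.root
  intro σ hσ
  have h1 := (h.tame_cocycle (fun _ => 0) (fun _ => zero_mem G) (fun σ τ => by
    rw [smul_zero, add_zero]) ⟨⊤, isOpen_univ, fun _ _ => rfl⟩ π₁ hπ₁ τ d.mem hτπ).1 x hx (by
    rw [hτ, sub_self]) σ hσ
  exact (sub_eq_zero.mp h1.symm)

theorem phi_nu {x : J} (hx : x ∈ G) : φ • (τ • x - x) = N • (τ • φ • x - φ • x) := by
  obtain ⟨π₁, hπ₁, hτπ⟩ := d.root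
  have h1 := ((h.tame_cocycle (fun _ => 0) (fun _ => zero_mem G) (fun σ τ => by
    rw [smul_zero, add_zero]) ⟨⊤, isOpen_univ, fun _ _ => rfl⟩ π₁ hπ₁ τ d.mem hτπ).2 φ d.frob).2
    (φ • x) (h.st.G_mem φ x hx)
  have h2 : (φ * τ * φ⁻¹) • φ • x = φ • τ • x := by
    rw [smul_smul, smul_smul]
    congr 1
    group
  rw [h2] at h1
  rw [smul_sub, h1]
  abel

/-- On roots of unity of `r`-power order `φ` and `φ τ` act as raising to the power `N`. -/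
theorem phi_root {ζ : L} (hζ : ζ ^ (r ^ K) = 1) : φ ζ = ζ ^ N := by
  refine Fermat.Agent.H05.IsFrobeniusAt.apply_rootOfUnity h.hN h.hAN ?_ d.frob hζ
  intro hd
  exact h.hrN ((Nat.prime_dvd_prime_iff_eq h.hN h.hr).mp (h.hN.dvd_of_dvd_pow hd)).symm

theorem tau_root {ζ : L} (hζ : ζ ^ (r ^ K) = 1) : τ ζ = ζ := by
  refine inertia_apply_rootOfUnity h.hN h.hAN ?_ d.mem hζ
  intro hd
  exact h.hrN ((Nat.prime_dvd_prime_iff_eq h.hN h.hr).mp (h.hN.dvd_of_dvd_pow hd)).symm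

omit d in
/-- If `σ ζ = ζ ^ c = ζ ^ n` on `r^K`-th roots of unity, then `c • x = n • x` on `G`. -/
theorem smul_eq_of_root (c : ℤ) (n : ℕ) (hc : ∀ ζ : L, ζ ^ (r ^ K) = 1 → ζ ^ c = ζ ^ n)
    {x : J} (hx : x ∈ G) : c • x = n • x := by
  haveI : NeZero ((r ^ K : ℕ) : L) := ⟨Nat.cast_ne_zero.mpr h.m0⟩
  obtain ⟨ζ, hζ⟩ := HasEnoughRootsOfUnity.exists_primitiveRoot L (r ^ K)
  have h1 := hc ζ hζ.pow_eq_one
  have hζ0 : ζ ≠ 0 := hζ.ne_zero h.m0
  have h2 : ζ ^ (c - n) = 1 := by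
    rw [zpow_sub₀ hζ0, h1, zpow_natCast, div_self (pow_ne_zero n hζ0)]
  obtain ⟨k, hk⟩ := (hζ.zpow_eq_one_iff_dvd _).mp h2
  have h3 : c = n + (r ^ K : ℕ) * k := by linarith
  rw [h3, add_smul, natCast_zsmul, mul_comm, mul_smul, natCast_zsmul, h.Gr x hx, smul_zero,
    add_zero]

/-- `(N-1)(φ² - 1)` maps `G` into the `τ`-invariants. -/
theorem key_s {y : J} (hy : y ∈ G) : (N - 1 : ℕ) • (φ • φ • y - y) ∈ fixedBy' G τ := by
  have hN1 : 1 ≤ N := h.hN.one_lt.le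
  have hG := h.st.G_mem
  have hpn : ∀ x ∈ G, φ • (τ • x - x) = N • (τ • φ • x - φ • x) := fun x hx => h.phi_nu d hx
  -- the Hecke operators attached to φ and φ τ
  obtain ⟨t1, c1, hc1, -, hrel1⟩ := h.rel φ
  obtain ⟨t2, c2, hc2, -, hrel2⟩ := h.rel (φ * τ)
  have hc1' : ∀ x ∈ G, c1 • x = N • x := fun x hx => h.smul_eq_of_root c1 N
    (fun ζ hζ => by rw [← hc1 ζ hζ, h.phi_root d hζ]) hx
  have hc2' : ∀ x ∈ G, c2 • x = N • x := fun x hx => h.smul_eq_of_root c2 N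
    (fun ζ hζ => by
      rw [← hc2 ζ hζ]
      change φ (τ ζ) = _
      rw [h.tau_root d hζ, h.phi_root d hζ]) hx
  -- `ν φ⁻¹ = N φ⁻¹ ν`
  have hnu' : ∀ x ∈ G, τ • φ⁻¹ • x - φ⁻¹ • x = N • (φ⁻¹ • (τ • x - x)) := by
    intro x hx
    have h1 := hpn (φ⁻¹ • x) (hG _ _ hx)
    rw [smul_inv_smul] at h1
    have h2 : φ⁻¹ • φ • (τ • φ⁻¹ • x - φ⁻¹ • x) = φ⁻¹ • (N • (τ • x - x)) := by rw [h1]
    rw [inv_smul_smul, smul_comm φ⁻¹ N] at h2
    exact h2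
  -- inverse of τ
  have htinv : ∀ x ∈ G, τ⁻¹ • x = x - (τ • x - x) := by
    intro x hx
    have h1 := h.uN τ d.mem τ d.mem x hx
    rw [inv_smul_eq_iff, smul_sub, h1]
    abel
  have hD1 : ∀ x ∈ G, t1 • x = φ • x + N • (φ⁻¹ • x) := by
    intro x hx
    have h1 := hrel1 (φ⁻¹ • x) (hG _ _ hx)
    rw [smul_inv_smul, hc1' _ (hG _ _ hx)] at h1
    have h2 : t1 • x = φ • x + N • (φ⁻¹ • x) - (φ • x - t1 • x + N • (φ⁻¹ • x)) := by abel
    rw [h2, h1, sub_zero]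
  have hD2 : ∀ x ∈ G, t2 • x = φ • τ • x + N • (τ⁻¹ • φ⁻¹ • x) := by
    intro x hx
    have h1 := hrel2 (τ⁻¹ • φ⁻¹ • x) (hG _ _ (hG _ _ hx))
    have h3 : (φ * τ) • τ⁻¹ • φ⁻¹ • x = x := by
      rw [smul_smul, smul_smul]
      have : φ * τ * τ⁻¹ * φ⁻¹ = 1 := by group
      rw [this, one_smul]
    rw [h3, hc2' _ (hG _ _ (hG _ _ hx)), mul_smul] at h1
    have h2 : t2 • x = φ • τ • x + N • (τ⁻¹ • φ⁻¹ • x) -
        (φ • τ • x - t2 • x + N • (τ⁻¹ • φ⁻¹ • x)) := by abel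
    rw [h2, h1, sub_zero]
  -- D = φ ν - N² φ⁻¹ ν
  have hD : ∀ x ∈ G, (t2 - t1) • x = φ • (τ • x - x) - (N * N) • (φ⁻¹ • (τ • x - x)) := by
    intro x hx
    have hx' := hG φ⁻¹ x hx
    rw [sub_smul, hD1 x hx, hD2 x hx, htinv _ hx', hnu' x hx, smul_sub φ, smul_sub N, smul_smul N N]
    abel
  -- D commutes with φ
  have hcomm := h.comm (t2 - t1) φ y
  have hφy := hG φ y hy
  have hνy : τ • y - y ∈ G := sub_mem (hG _ _ hy) hy
  rw [hD _ hφy, hD _ hy, smul_sub φ (φ • (τ • y - y)), smul_comm φ (N * N), smul_inv_smul] at hcomm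
  -- hcomm : φ (τ φ y - φ y) - N² φ⁻¹ (τ φ y - φ y) = φ φ ν y - N² ν y
  have hA : N • (φ • (τ • φ • y - φ • y)) = φ • φ • (τ • y - y) := by
    rw [hpn y hy, smul_comm φ N]
  have hB : N • (φ⁻¹ • (τ • φ • y - φ • y)) = τ • y - y := by
    rw [← smul_comm φ⁻¹ N, ← hpn y hy, inv_smul_smul]
  have h1 : N • (φ • φ • (τ • y - y) - (N * N) • (τ • y - y)) =
      φ • φ • (τ • y - y) - (N * N) • (τ • y - y) := by
    have e1 : N • (φ • (τ • φ • y - φ • y) - (N * N) • (φ⁻¹ • (τ • φ • y - φ • y))) =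
        φ • φ • (τ • y - y) - (N * N) • (τ • y - y) := by
      rw [smul_sub N, hA, smul_comm N (N * N), hB]
    rwa [hcomm] at e1
  have h2 : (N - 1 : ℕ) • (φ • φ • (τ • y - y) - (N * N) • (τ • y - y)) = 0 := by
    have : N = (N - 1) + 1 := by omega
    rw [this, add_smul, one_smul, add_eq_right] at h1
    rw [← this] at h1
    exact h1
  -- rewrite φ φ ν y = N² ν φ² y
  have h3 : φ • φ • (τ • y - y) = (N * N) • (τ • φ • φ • y - φ • φ • y) := by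
    rw [hpn y hy, smul_comm φ N, hpn _ hφy, smul_smul]
  rw [h3, ← smul_sub, smul_smul, mul_comm, mul_smul] at h2
  -- cancel N²
  have hz : (N - 1 : ℕ) • (τ • φ • φ • y - φ • φ • y - (τ • y - y)) ∈ (⊥ : AddSubgroup J) := by
    have hcop : Nat.Coprime (N * N) r := by
      have : Nat.Coprime N r := (Nat.coprime_primes h.hN h.hr).mpr h.hrN.symm
      exact Nat.Coprime.mul_left this this
    refine smul_mem_of_coprime (K := K) _ (h.Gr _ ?_) hcop ?_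
    · exact nsmul_mem (sub_mem (sub_mem (hG _ _ (hG _ _ (hG _ _ hy))) (hG _ _ (hG _ _ hy)))
        hνy) _
    · rw [h2]
      exact zero_mem _
  rw [AddSubgroup.mem_bot] at hz
  rw [mem_fixedBy']
  refine ⟨nsmul_mem (sub_mem (hG _ _ (hG _ _ hy)) hy) _, ?_⟩
  rw [smul_comm τ (N - 1 : ℕ), ← sub_eq_zero, ← smul_sub]
  rw [← hz]
  congr 1
  rw [smul_sub]
  abel

/-- `φ c(τ) ≡ N c(τ)` modulo `(τ - 1) G`. -/
theorem phi_c_tau (c : Γ → J) (hcG : ∀ σ, c σ ∈ G)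
    (hc : ∀ σ τ, c (σ * τ) = c σ + σ • c τ)
    (hop : ∃ U : Subgroup Γ, IsOpen (U : Set Γ) ∧ ∀ σ ∈ U, c σ = 0) :
    φ • c τ - N • c τ ∈ G.map (deltaMap τ) := by
  obtain ⟨π₁, hπ₁, hτπ⟩ := d.root
  obtain ⟨h1, h2⟩ := (h.tame_cocycle c hcG hc hop π₁ hπ₁ τ d.mem hτπ).2 φ d.frob
  have h3 : c φ⁻¹ = -(φ⁻¹ • c φ) := by
    have h4 := hc φ⁻¹ φ
    have h5 := hc 1 1
    rw [mul_one, one_smul, left_eq_add] at h5
    rw [inv_mul_cancel, h5] at h4
    exact eq_neg_of_add_eq_zero_left h4.symm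
  have h4 : c (φ * τ * φ⁻¹) = c φ + φ • c τ - (φ * τ * φ⁻¹) • c φ := by
    rw [hc, hc, h3, smul_neg, ← sub_eq_add_neg, smul_smul]
  rw [h4, h2 _ (hcG φ)] at h1
  have h5 : φ • c τ - N • c τ = (N.choose 2) • (τ • c τ - c τ) + N • (τ • c φ - c φ) := by
    have h6 : c φ + φ • c τ - (c φ + N • (τ • c φ - c φ)) = φ • c τ - N • (τ • c φ - c φ) := by
      abel
    rw [h6] at h1
    rw [sub_eq_iff_eq_add] at h1
    rw [h1]
    abel
  rw [h5]
  refine add_mem (nsmul_mem ?_ _) (nsmul_mem ?_ _)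
  · exact ⟨c τ, hcG τ, rfl⟩
  · exact ⟨c φ, hcG φ, rfl⟩

theorem phi_map_mem {x : J} (hx : x ∈ G.map (deltaMap τ)) :
    φ • x ∈ G.map (deltaMap τ) := by
  obtain ⟨y, hy, rfl⟩ := hx
  rw [deltaMap_apply, h.phi_nu d hy]
  exact nsmul_mem (AddSubgroup.mem_map.mpr ⟨φ • y, h.st.G_mem φ y hy, rfl⟩) N

/-- If `r^b` kills `G^τ / (τ-1) G`, then `r^(b + v)` kills the class of `c(τ)`. -/
theorem c_tau_mem (c : Γ → J) (hcG : ∀ σ, c σ ∈ G)
    (hc : ∀ σ τ, c (σ * τ) = c σ + σ • c τ)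
    (hop : ∃ U : Subgroup Γ, IsOpen (U : Set Γ) ∧ ∀ σ ∈ U, c σ = 0) (b : ℕ)
    (hb : ∀ x ∈ fixedBy' G τ, (r ^ b) • x ∈ G.map (deltaMap τ)) :
    (r ^ (b + padicValNat r ((N - 1) * (N * N - 1)))) • c τ ∈ G.map (deltaMap τ) := by
  have hN2 : 2 ≤ N := h.hN.two_le
  set M := (N - 1) * (N * N - 1) with hM
  have hM0 : M ≠ 0 := by
    have : 4 ≤ N * N := Nat.mul_le_mul hN2 hN2
    exact mul_ne_zero (by omega) (by omega)
  -- φ² c τ ≡ N² c τ
  have h1 := h.phi_c_tau d c hcG hc hop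
  have h2 : φ • φ • c τ - (N * N) • c τ ∈ G.map (deltaMap τ) := by
    have h3 := add_mem (h.phi_map_mem d h1) (nsmul_mem h1 N)
    have h4 : φ • (φ • c τ - N • c τ) + N • (φ • c τ - N • c τ) =
        φ • φ • c τ - (N * N) • c τ := by
      rw [smul_sub, smul_comm φ N, smul_sub, smul_smul N N]
      abel
    rwa [h4] at h3
  have h3 := hb _ (h.key_s d (hcG τ))
  have h4 : (r ^ b * M) • c τ ∈ G.map (deltaMap τ) := by
    have h5 : (r ^ b * M) • c τ = (r ^ b) • ((N - 1 : ℕ) • (φ • φ • c τ - c τ)) -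
        (r ^ b * (N - 1)) • (φ • φ • c τ - (N * N) • c τ) := by
      have e1 : (N * N) • c τ = (N * N - 1) • c τ + c τ := by
        have : 1 ≤ N * N := by nlinarith
        rw [← succ_nsmul]
        congr 1
        omega
      rw [e1, hM, smul_smul, ← smul_sub]
      have e2 : φ • φ • c τ - c τ - (φ • φ • c τ - ((N * N - 1) • c τ + c τ)) =
          (N * N - 1) • c τ := by abel
      rw [e2, smul_smul, mul_assoc]
    rw [h5]
    exact sub_mem h3 (nsmul_mem h2 _)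
  obtain ⟨s, hs⟩ : r ^ padicValNat r M ∣ M := pow_padicValNat_dvd
  have hcop : Nat.Coprime s r := by
    haveI : Fact r.Prime := ⟨h.hr⟩
    rw [Nat.coprime_comm, h.hr.coprime_iff_not_dvd]
    rintro ⟨u, hu⟩
    have h5 : r ^ (padicValNat r M + 1) ∣ M := by
      conv_rhs => rw [hs, hu]
      rw [pow_succ]
      exact mul_dvd_mul_left _ (Dvd.intro _ rfl)
    rw [padicValNat_dvd_iff_le hM0] at h5
    omega
  refine smul_mem_of_coprime (K := K) _ (h.Gr _ (nsmul_mem (hcG τ) _)) hcop ?_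
  rw [smul_smul]
  have h6 : s * r ^ (b + padicValNat r M) = r ^ b * M := by
    conv_rhs => rw [hs]
    rw [pow_add]
    ring
  rw [h6]
  exact h4

end DescentData

end Fermat.Agent.H12
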