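import Mathlib
import Fermat.Agent.H12.AtN2

set_option autoImplicit false
set_option linter.style.haveILetI false
set_option linter.unusedSectionVars false

/-!
# The local analysis at `r`: flatness of coboundaries
-/

namespace Fermat.Agent.H12

open Fermat.Agent.H05 Fermat.Agent.H09
open scoped Pointwise

/-- The algebraic core: a pairing for which `φ` is orthogonal and `t` self-adjoint, with
`φ² - t φ + r` in both kernels. -/
theorem pairing_core {M X : Type*} [AddCommGroup M] [AddCommGroup X] (b : M →+ M →+ X)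
    (φ : M ≃+ M) (t : M →+ M) (r : ℕ) (hφ : ∀ m z, b (φ m) (φ z) = b m z)
    (ht : ∀ m z, b (t m) z = b m (t z))
    (h1 : ∀ m z, b (φ (φ m) - t (φ m) + r • m) z = 0)
    (h2 : ∀ m z, b m (φ (φ z) - t (φ z) + r • z) = 0) (m z : M) :
    ((r : ℤ) - 1) • (b m (φ (φ z)) - b m z) = 0 := by
  have e1 : ∀ m z, b m (φ.symm z) = b (φ m) z := by
    intro m z
    have := hφ m (φ.symm z)
    rw [φ.apply_symm_apply] at this
    exact this.symm
  have e2 : ∀ m z, b (φ.symm m) z = b m (φ z) := by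
    intro m z
    have := hφ (φ.symm m) z
    rw [φ.apply_symm_apply] at this
    exact this.symm
  have key : ∀ z, ((r : ℤ) - 1) • (b m (φ z) - b m (φ.symm z)) = 0 := by
    intro z
    have h3 := h1 (φ.symm m) z
    rw [φ.apply_symm_apply, map_add, map_sub, map_nsmul] at h3
    simp only [AddMonoidHom.add_apply, AddMonoidHom.sub_apply, AddMonoidHom.nsmul_apply] at h3
    have h4 := h2 m (φ.symm z)
    rw [φ.apply_symm_apply, map_add, map_sub, map_nsmul] at h4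
    rw [e2 m z, ← e1 m z, ht] at h3
    have h5 : (r : ℤ) • b m (φ z) = b m (t z) - b m (φ.symm z) := by
      rw [natCast_zsmul]
      have := sub_eq_zero.mpr h3
      rw [sub_zero] at this
      rw [← sub_eq_zero]
      rw [← this]
      abel
    have h6 : (r : ℤ) • b m (φ.symm z) = b m (t z) - b m (φ z) := by
      rw [natCast_zsmul]
      have := sub_eq_zero.mpr h4
      rw [sub_zero] at this
      rw [← sub_eq_zero]
      rw [← this]
      abel
    rw [sub_smul, one_smul, smul_sub, h5, h6]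
    abel
  have h3 := key (φ z)
  rwa [φ.symm_apply_apply] at h3

/-- `S_G(σ)`: elements of `G` with `σ x ≡ x` modulo `G0`. -/
def kerMod {Γ' J : Type*} [Group Γ'] [AddCommGroup J] [DistribMulAction Γ' J]
    (G G0 : AddSubgroup J) (σ : Γ') : AddSubgroup J where
  carrier := {x | x ∈ G ∧ σ • x - x ∈ G0}
  zero_mem' := ⟨zero_mem G, by rw [smul_zero, sub_zero]; exact zero_mem G0⟩
  add_mem' := fun {a b} ha hb => ⟨add_mem ha.1 hb.1, by
    have : σ • (a + b) - (a + b) = (σ • a - a) + (σ • b - b) := by rw [smul_add]; abel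
    rw [this]
    exact add_mem ha.2 hb.2⟩
  neg_mem' := fun {a} ha => ⟨neg_mem ha.1, by
    have : σ • (-a) - (-a) = -(σ • a - a) := by rw [smul_neg]; abel
    rw [this]
    exact neg_mem ha.2⟩

variable {L : Type*} [Field L] [CharZero L] [IsGalois ℚ L] [IsAlgClosed L]
    {J : Type*} [AddCommGroup J] [DistribMulAction (L ≃ₐ[ℚ] L) J]
    {T : Type*} [CommRing T] [Module T J] {N r K : ℕ} {P : Ideal T}
    {Ar AN : ValuationSubring L} {G G0 : AddSubgroup J} {e : J → J → L}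

local notation "Γ" => L ≃ₐ[ℚ] L

/-- Flat functions on the inertia group at `r`. -/
def Flat (Ar : ValuationSubring L) (f : (L ≃ₐ[ℚ] L) → L) : Prop :=
  ∃ u : L, Ar.valuation u = 1 ∧ ∀ σ ∈ Ar.inertiaSubgroupIn ℚ, σ u = f σ * u

theorem Flat.mul {f g : Γ → L} (hf : Flat Ar f) (hg : Flat Ar g) :
    Flat Ar (fun σ => f σ * g σ) := by
  obtain ⟨u, hu, hu'⟩ := hf
  obtain ⟨v, hv, hv'⟩ := hg
  refine ⟨u * v, by rw [map_mul, hu, hv, one_mul], fun σ hσ => ?_⟩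
  rw [map_mul, hu' σ hσ, hv' σ hσ]
  ring

theorem Flat.inv {f : Γ → L} (hf : Flat Ar f) : Flat Ar (fun σ => (f σ)⁻¹) := by
  obtain ⟨u, hu, hu'⟩ := hf
  refine ⟨u⁻¹, by rw [map_inv₀, hu, inv_one], fun σ hσ => ?_⟩
  rw [map_inv₀, hu' σ hσ, mul_inv]

theorem Flat.congr {f g : Γ → L} (hf : Flat Ar f)
    (hfg : ∀ σ ∈ Ar.inertiaSubgroupIn ℚ, f σ = g σ) : Flat Ar g := by
  obtain ⟨u, hu, hu'⟩ := hf
  exact ⟨u, hu, fun σ hσ => by rw [hu' σ hσ, hfg σ hσ]⟩

theorem Flat.one : Flat Ar (fun _ : Γ => (1 : L)) :=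
  ⟨1, map_one _, fun σ _ => by rw [map_one, one_mul]⟩

/-- Data at `r`. -/
structure DataR (r : ℕ) (Ar : ValuationSubring L) (G G0 : AddSubgroup J) (e : J → J → L)
    (φ : L ≃ₐ[ℚ] L) (t : T) (κ₁ κ₂ : ℕ) : Prop where
  stab : φ • Ar = Ar
  rel : ∀ x ∈ G, φ • φ • x - t • φ • x + r • x ∈ G0
  adj : ∀ x ∈ G, ∀ y ∈ G, e (t • x) y = e x (t • y)
  fin1 : Nat.card (kerMod G G0 φ) ≤ κ₁ * Nat.card G0
  fin2 : Nat.card (kerMod G G0 (φ * φ)) ≤ κ₂ * Nat.card G0

namespace DescentData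

variable (h : DescentData L (T := T) N r K P Ar AN G G0 e)
include h

theorem exists_of_kerMod (σ : Γ) (κ : ℕ) (hκ : Nat.card (kerMod G G0 σ) ≤ κ * Nat.card G0)
    (x : J) (hx : x ∈ G) : ∃ y ∈ G, ∃ z ∈ G0, (r ^ κ) • x = (σ • y - y) + z := by
  haveI : Finite G := h.fin
  let S : AddSubgroup J := G.map (deltaMap σ) ⊔ G0
  have hSG : S ≤ G := by
    rw [sup_le_iff]
    refine ⟨?_, h.G0le⟩
    rintro _ ⟨y, hy, rfl⟩
    exact sub_mem (h.st.G_mem σ y hy) hy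
  let f : J →+ J ⧸ G0 := (QuotientAddGroup.mk' G0).comp (deltaMap σ)
  have h1 := card_map_mul_card_inf f G
  have h2 : G ⊓ f.ker = kerMod G G0 σ := by
    ext y
    rw [AddSubgroup.mem_inf, AddMonoidHom.mem_ker]
    change (y ∈ G ∧ (QuotientAddGroup.mk (σ • y - y) : J ⧸ G0) = 0) ↔ _
    rw [QuotientAddGroup.eq_zero_iff]
    rfl
  have h3 := card_map_mul_card_inf (QuotientAddGroup.mk' G0) S
  have h4 : S ⊓ (QuotientAddGroup.mk' G0).ker = G0 := by
    rw [QuotientAddGroup.ker_mk']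
    exact inf_eq_right.mpr le_sup_right
  have h5 : S.map (QuotientAddGroup.mk' G0) = G.map f := by
    rw [AddSubgroup.map_sup, AddSubgroup.map_map]
    have : G0.map (QuotientAddGroup.mk' G0) = ⊥ := by
      rw [AddSubgroup.eq_bot_iff_forall]
      rintro _ ⟨y, hy, rfl⟩
      rw [QuotientAddGroup.mk'_apply, QuotientAddGroup.eq_zero_iff]
      exact hy
    rw [this, sup_bot_eq]
  rw [h2] at h1
  rw [h4, h5] at h3
  have h6 : Nat.card G ≤ κ * Nat.card S := by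
    rw [← h1, ← h3]
    calc Nat.card (G.map f) * Nat.card (kerMod G G0 σ)
        ≤ Nat.card (G.map f) * (κ * Nat.card G0) := Nat.mul_le_mul_left _ hκ
      _ = κ * (Nat.card (G.map f) * Nat.card G0) := by ring
  have h7 := pow_smul_mem_of_card_le h.hr G S h.Gr hSG κ h6 x hx
  rw [AddSubgroup.mem_sup] at h7
  obtain ⟨_, ⟨y, hy, rfl⟩, z, hz, h8⟩ := h7
  exact ⟨y, hy, z, hz, h8.symm⟩

/-- The Hilbert 90 representation of `σ ↦ e (c σ) z` on the inertia group at `r`. -/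
theorem exists_hilbert (c : Γ → J) (hcG : ∀ σ, c σ ∈ G)
    (hc : ∀ σ τ, c (σ * τ) = c σ + σ • c τ)
    (hop : ∃ U : Subgroup Γ, IsOpen (U : Set Γ) ∧ ∀ σ ∈ U, c σ = 0)
    (hc0 : ∀ σ ∈ Ar.inertiaSubgroupIn ℚ, c σ ∈ G0) (z : J) (hz : z ∈ G) :
    ∃ u : L, u ≠ 0 ∧ ∀ σ ∈ Ar.inertiaSubgroupIn ℚ, σ u = e (c σ) z * u := by
  obtain ⟨U, hU, hcU⟩ := hop
  refine hilbert90' (Ar.inertiaSubgroupIn ℚ) (fun σ => e (c σ) z)
    (fun σ _ => h.pair.ne_zero h.m0 (hcG σ) hz) (fun σ hσ τ hτ => ?_) U hU (fun σ _ hσ => by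
      change e (c σ) z = 1
      rw [hcU σ hσ, h.pair.zero_left h.m0 hz])
  change e (c (σ * τ)) z = e (c σ) z * σ (e (c τ) z)
  have hστ : σ • c τ ∈ G := h.st.G_mem σ _ (hcG τ)
  have hστ0 : σ • c τ ∈ G0 := by
    have := add_mem (h.ir σ hσ _ (hcG τ)) (hc0 τ hτ)
    rwa [sub_add_cancel] at this
  rw [hc, h.pair.add_left _ (hcG σ) _ hστ z hz, ← h.equi σ _ (hcG τ) z hz]
  have h3 : σ • z = z + (σ • z - z) := by abel
  have h4 : e (σ • c τ) (σ • z) = e (σ • c τ) z := by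
    rw [h3, h.pair.add_right _ hστ z hz _ (h.G0le (h.ir σ hσ z hz)),
      h.iso _ hστ0 _ (h.ir σ hσ z hz), mul_one]
  rw [h4]

/-- The comparison of `e (c σ) z` and `e (c σ) (φ z)`. -/
theorem flat_phi (c : Γ → J) (hcG : ∀ σ, c σ ∈ G)
    (hc : ∀ σ τ, c (σ * τ) = c σ + σ • c τ)
    (hop : ∃ U : Subgroup Γ, IsOpen (U : Set Γ) ∧ ∀ σ ∈ U, c σ = 0)
    (hc0 : ∀ σ ∈ Ar.inertiaSubgroupIn ℚ, c σ ∈ G0) (φ : Γ) (hφ : φ • Ar = Ar)
    (z : J) (hz : z ∈ G) :
    Flat Ar (fun σ => e (c σ) (φ • z) * e (σ • c φ - c φ) (φ • z) * (e (c σ) z)⁻¹) := by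
  obtain ⟨u, hu0, hu⟩ := h.exists_hilbert c hcG hc hop hc0 z hz
  haveI : Algebra.IsAlgebraic ℚ L := inferInstance
  refine ⟨φ u / u, ?_, fun σ hσ => ?_⟩
  · rw [map_div₀, val_apply_eq hφ, div_self]
    exact (map_ne_zero _).mpr hu0
  · have hφz := h.st.G_mem φ z hz
    set ρ : Γ := φ⁻¹ * σ * φ with hρ
    have hρI : ρ ∈ Ar.inertiaSubgroupIn ℚ := by
      have h1 := mem_inertia_conj h.hr h.hAr φ σ
      rw [hφ] at h1
      exact h1.mp hσ
    have h1 : φ • c ρ = c σ + (σ • c φ - c φ) := by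
      have h2 : φ * ρ = σ * φ := by rw [hρ]; group
      have h3 := hc φ ρ
      rw [h2, hc σ φ] at h3
      rw [add_sub_assoc', h3]
      abel
    have h2 : e (c σ) (φ • z) * e (σ • c φ - c φ) (φ • z) = φ (e (c ρ) z) := by
      rw [← h.pair.add_left _ (hcG σ) _ (sub_mem (h.st.G_mem σ _ (hcG φ)) (hcG φ)) _ hφz, ← h1,
        h.equi φ _ (hcG ρ) z hz]
    have h3 : e (c ρ) z = ρ u / u := by
      rw [hu ρ hρI, mul_div_assoc, div_self hu0, mul_one]
    have h4 : φ (e (c ρ) z) = σ (φ u) / φ u := by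
      rw [h3, map_div₀]
      congr 1
      change (φ * ρ) u = (σ * φ) u
      rw [hρ]
      congr 1
      group
    have h5 : e (c σ) z = σ u / u := by
      rw [hu σ hσ, mul_div_assoc, div_self hu0, mul_one]
    have hφu0 : φ u ≠ 0 := by simpa using hu0
    have hσu0 : σ u ≠ 0 := by simpa using hu0
    beta_reduce
    rw [h2, h4, h5, map_div₀]
    field_simp

end DescentData

/-- The group of flat functions. -/
def flatSub (Ar : ValuationSubring L) : AddSubgroup (Γ → Additive Lˣ) where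
  carrier := {f | Flat Ar (fun σ => (((f σ).toMul : Lˣ) : L))}
  zero_mem' := Flat.one
  add_mem' := fun {a b} ha hb => (Flat.mul ha hb).congr fun σ _ => by
    change _ = (((a σ + b σ).toMul : Lˣ) : L)
    rw [toMul_add, Units.val_mul]
  neg_mem' := fun {a} ha => (Flat.inv ha).congr fun σ _ => by
    change _ = (((-a σ).toMul : Lˣ) : L)
    rw [toMul_neg, Units.val_inv_eq_inv_val]

/-- The group of functions modulo flat functions. -/
abbrev FlatQuot (Ar : ValuationSubring L) : Type _ := (Γ → Additive Lˣ) ⧸ flatSub Ar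

noncomputable instance (Ar : ValuationSubring L) : AddCommGroup (FlatQuot Ar) :=
  QuotientAddGroup.Quotient.addCommGroup _

namespace DescentData

variable (h : DescentData L (T := T) N r K P Ar AN G G0 e)
include h

/-- The pairing `(m, z) ↦ (σ ↦ e (σ m - m) z)`. -/
noncomputable def bb : G →+ G →+ (Γ → Additive Lˣ) :=
  AddMonoidHom.mk' (fun m => AddMonoidHom.mk' (fun z => fun σ => Additive.ofMul
    (Units.mk0 (e (σ • (m : J) - m) z)
      (h.pair.ne_zero h.m0 (sub_mem (h.st.G_mem σ _ m.2) m.2) z.2)))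
    (fun z z' => by
      funext σ
      apply Additive.toMul.injective
      apply Units.ext
      exact h.pair.add_right _ (sub_mem (h.st.G_mem σ _ m.2) m.2) _ z.2 _ z'.2))
  (fun m m' => by
    ext z σ
    change e (σ • ((m : J) + m') - ((m : J) + m')) z = e (σ • (m : J) - m) z * e (σ • (m' : J) - m') z
    rw [← h.pair.add_left _ (sub_mem (h.st.G_mem σ _ m.2) m.2) _
      (sub_mem (h.st.G_mem σ _ m'.2) m'.2) _ z.2]
    congr 1
    rw [smul_add]
    abel)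

theorem bb_apply (m z : G) (σ : Γ) :
    (((h.bb m z σ).toMul : Lˣ) : L) = e (σ • (m : J) - m) z := rfl

/-- The pairing modulo flat functions. -/
noncomputable def bbq : G →+ G →+ FlatQuot Ar :=
  (AddMonoidHom.compHom (N := Γ → Additive Lˣ) (P := FlatQuot Ar)
    (QuotientAddGroup.mk' (flatSub Ar))).comp h.bb

theorem bbq_eq_zero_iff (m z : G) :
    h.bbq m z = 0 ↔ Flat Ar (fun σ => e (σ • (m : J) - m) z) := by
  change (QuotientAddGroup.mk (h.bb m z) : (Γ → Additive Lˣ) ⧸ flatSub Ar) = 0 ↔ _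
  rw [QuotientAddGroup.eq_zero_iff]
  rfl

/-- Coboundaries form cocycles with the properties needed above. -/
theorem cob_props (m : J) (hm : m ∈ G) :
    (∀ σ : Γ, σ • m - m ∈ G) ∧ (∀ σ τ : Γ, (σ * τ) • m - m = (σ • m - m) + σ • (τ • m - m)) ∧
    (∃ U : Subgroup Γ, IsOpen (U : Set Γ) ∧ ∀ σ ∈ U, σ • m - m = 0) ∧
    (∀ σ ∈ Ar.inertiaSubgroupIn ℚ, σ • m - m ∈ G0) := by
  refine ⟨fun σ => sub_mem (h.st.G_mem σ _ hm) hm, fun σ τ => ?_, ?_, fun σ hσ => h.ir σ hσ m hm⟩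
  · rw [smul_sub, mul_smul]
    abel
  · obtain ⟨U, hU, hUG⟩ := h.opn
    exact ⟨U, hU, fun σ hσ => by rw [hUG σ hσ m hm, sub_self]⟩

/-- `b(φ m, φ z) = b(m, z)`. -/
theorem bbq_phi (φ : Γ) (hφ : φ • Ar = Ar) (m z : G) :
    h.bbq ⟨φ • (m : J), h.st.G_mem φ _ m.2⟩ ⟨φ • (z : J), h.st.G_mem φ _ z.2⟩ = h.bbq m z := by
  obtain ⟨p1, p2, p3, p4⟩ := h.cob_props m m.2
  have h1 := h.flat_phi (fun σ => σ • (m : J) - m) p1 p2 p3 p4 φ hφ z z.2
  rw [← sub_eq_zero]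
  change (QuotientAddGroup.mk (h.bb _ _) : (Γ → Additive Lˣ) ⧸ flatSub Ar) -
    QuotientAddGroup.mk (h.bb m z) = 0
  rw [← QuotientAddGroup.mk_sub, QuotientAddGroup.eq_zero_iff]
  refine h1.congr fun σ _ => ?_
  change _ = (((h.bb _ _ σ - h.bb m z σ).toMul : Lˣ) : L)
  rw [toMul_sub, Units.val_div_eq_div_val, bb_apply, bb_apply, div_eq_mul_inv]
  congr 1
  rw [← h.pair.add_left _ (p1 σ) _ (sub_mem (h.st.G_mem σ _ (p1 φ)) (p1 φ)) _
    (h.st.G_mem φ _ z.2)]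
  congr 1
  change σ • (m : J) - m + (σ • (φ • (m : J) - m) - (φ • (m : J) - m)) =
    σ • φ • (m : J) - φ • (m : J)
  rw [smul_sub]
  abel

theorem bbq_left_G0 (m z : G) (hm : (m : J) ∈ G0) : h.bbq m z = 0 := by
  rw [bbq_eq_zero_iff]
  have hmz0 := h.pair.ne_zero h.m0 m.2 z.2
  refine ⟨e m z, ?_, fun σ hσ => ?_⟩
  · have h1 : Ar.valuation (e m z) ^ (r ^ K) = 1 := by
      rw [← map_pow, h.pair.pow_eq_one _ m.2 _ z.2, map_one]
    exact (pow_eq_one_iff.mp h1).resolve_right h.m0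
  · have hσm : σ • (m : J) ∈ G := h.st.G_mem σ _ m.2
    have hσm0 : σ • (m : J) ∈ G0 := by
      have := add_mem (h.ir σ hσ _ m.2) hm
      rwa [sub_add_cancel] at this
    beta_reduce
    rw [← h.equi σ _ m.2 _ z.2, h.pair.sub_left h.m0 hσm m.2 z.2, div_mul_cancel₀ _ hmz0]
    have h3 : σ • (z : J) = z + (σ • (z : J) - z) := by abel
    rw [h3, h.pair.add_right _ hσm _ z.2 _ (h.G0le (h.ir σ hσ _ z.2)),
      h.iso _ hσm0 _ (h.ir σ hσ _ z.2), mul_one]

theorem bbq_right_G0 (m z : G) (hz : (z : J) ∈ G0) : h.bbq m z = 0 := by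
  rw [bbq_eq_zero_iff]
  exact Flat.one.congr fun σ hσ => (h.iso _ (h.ir σ hσ _ m.2) _ hz).symm

/-- Coboundaries are flat up to a bounded power of `r`. -/
theorem flat_cob {φ : Γ} {t : T} {κ₁ κ₂ : ℕ} (d : DataR r Ar G G0 e φ t κ₁ κ₂) (m z : J)
    (hm : m ∈ G) (hz : z ∈ G) : Flat Ar (fun σ => e (σ • m - m) ((r ^ κ₂) • z)) := by
  -- bundled maps
  let φ' : G ≃+ G :=
    { toFun := fun x => ⟨φ • (x : J), h.st.G_mem φ _ x.2⟩
      invFun := fun x => ⟨φ⁻¹ • (x : J), h.st.G_mem φ⁻¹ _ x.2⟩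
      left_inv := fun x => Subtype.ext (inv_smul_smul φ (x : J))
      right_inv := fun x => Subtype.ext (smul_inv_smul φ (x : J))
      map_add' := fun x y => Subtype.ext (smul_add φ (x : J) (y : J)) }
  let t' : G →+ G :=
    { toFun := fun x => ⟨t • (x : J), h.st.T_mem t _ x.2⟩
      map_zero' := Subtype.ext (smul_zero t)
      map_add' := fun x y => Subtype.ext (smul_add t (x : J) (y : J)) }
  have hz1 : ∀ m z : G, h.bbq (φ' (φ' m) - t' (φ' m) + r • m) z = 0 := fun m z =>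
    h.bbq_left_G0 _ _ (d.rel m m.2)
  have hz2 : ∀ m z : G, h.bbq m (φ' (φ' z) - t' (φ' z) + r • z) = 0 := fun m z =>
    h.bbq_right_G0 _ _ (d.rel z z.2)
  have hadj : ∀ m z : G, h.bbq (t' m) z = h.bbq m (t' z) := by
    intro m z
    change (QuotientAddGroup.mk (h.bb (t' m) z) : (Γ → Additive Lˣ) ⧸ flatSub Ar) =
      QuotientAddGroup.mk (h.bb m (t' z))
    congr 1
    funext σ
    apply Additive.toMul.injective
    apply Units.ext
    change e (σ • t • (m : J) - t • (m : J)) z = e (σ • (m : J) - m) (t • (z : J))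
    rw [← d.adj _ (sub_mem (h.st.G_mem σ _ m.2) m.2) _ z.2, smul_sub, h.comm]
  have hcore := pairing_core h.bbq φ' t' r (fun m z => h.bbq_phi φ d.stab m z) hadj hz1 hz2
  -- cancel `r - 1`
  have hφφ : ∀ m z : G, h.bbq m (φ' (φ' z)) = h.bbq m z := by
    intro m z
    have h1 := hcore m z
    set w := h.bbq m (φ' (φ' z)) - h.bbq m z with hw
    have h2 : ((r ^ K : ℕ) : ℤ) • w = 0 := by
      have e1 : ∀ y : G, (r ^ K) • h.bbq m y = 0 := by
        intro y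
        rw [← map_nsmul]
        have : (r ^ K) • y = 0 := Subtype.ext (h.Gr y y.2)
        rw [this, map_zero]
      rw [natCast_zsmul, hw, smul_sub, e1, e1, sub_zero]
    have h3 : IsCoprime ((r : ℤ) - 1) ((r ^ K : ℕ) : ℤ) := by
      push_cast
      apply IsCoprime.pow_right
      exact ⟨-1, 1, by ring⟩
    obtain ⟨u, v, huv⟩ := h3
    have h4 : w = u • (((r : ℤ) - 1) • w) + v • (((r ^ K : ℕ) : ℤ) • w) := by
      rw [smul_smul, smul_smul, ← add_smul, huv, one_smul]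
    rw [h1, h2, smul_zero, smul_zero, add_zero] at h4
    exact sub_eq_zero.mp h4
  -- conclusion
  obtain ⟨y, hy, z0, hz0, h5⟩ := h.exists_of_kerMod (φ * φ) κ₂ d.fin2 z hz
  have h6 : h.bbq ⟨m, hm⟩ ⟨(r ^ κ₂) • z, nsmul_mem hz _⟩ = 0 := by
    have e1 : (⟨(r ^ κ₂) • z, nsmul_mem hz _⟩ : G) =
        (φ' (φ' ⟨y, hy⟩) - ⟨y, hy⟩) + ⟨z0, h.G0le hz0⟩ := by
      apply Subtype.ext
      change (r ^ κ₂) • z = (φ • φ • y - y) + z0
      rw [h5, mul_smul]
    rw [e1, map_add, map_sub, hφφ, sub_self, zero_add]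
    exact h.bbq_right_G0 _ _ hz0
  exact (h.bbq_eq_zero_iff _ _).mp h6

/-- Cocycles with values in `G0` on inertia are flat up to a bounded power of `r`. -/
theorem flat_cocycle {φ : Γ} {t : T} {κ₁ κ₂ : ℕ} (d : DataR r Ar G G0 e φ t κ₁ κ₂)
    (c : Γ → J) (hcG : ∀ σ, c σ ∈ G)
    (hc : ∀ σ τ, c (σ * τ) = c σ + σ • c τ)
    (hop : ∃ U : Subgroup Γ, IsOpen (U : Set Γ) ∧ ∀ σ ∈ U, c σ = 0)
    (hc0 : ∀ σ ∈ Ar.inertiaSubgroupIn ℚ, c σ ∈ G0) (z : J) (hz : z ∈ G) :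
    Flat Ar (fun σ => e (c σ) ((r ^ (κ₂ + κ₁)) • z)) := by
  obtain ⟨y, hy, z0, hz0, h5⟩ := h.exists_of_kerMod φ κ₁ d.fin1 z hz
  have hφy : φ • y ∈ G := h.st.G_mem φ y hy
  set n := r ^ κ₂ with hn
  have e1 : (r ^ (κ₂ + κ₁)) • z = (φ • (n • y) - n • y) + n • z0 := by
    rw [pow_add, mul_smul, h5, smul_add, smul_sub, smul_comm φ n]
  have h6 := h.flat_phi c hcG hc hop hc0 φ d.stab (n • y) (nsmul_mem hy n)
  have h7 := h.flat_cob d (c φ) (φ • y) (hcG φ) hφy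
  refine (h6.mul h7.inv).congr fun σ hσ => ?_
  have hny : n • y ∈ G := nsmul_mem hy n
  have hnφy : φ • (n • y) ∈ G := h.st.G_mem φ _ hny
  have hb : e (σ • c φ - c φ) (φ • (n • y)) = e (σ • c φ - c φ) ((r ^ κ₂) • (φ • y)) := by
    rw [smul_comm φ n]
  have hb0 : e (σ • c φ - c φ) ((r ^ κ₂) • (φ • y)) ≠ 0 :=
    h.pair.ne_zero h.m0 (sub_mem (h.st.G_mem σ _ (hcG φ)) (hcG φ)) (nsmul_mem hφy _)
  beta_reduce
  rw [e1, h.pair.add_right _ (hcG σ) _ (sub_mem hnφy hny) _ (nsmul_mem (h.G0le hz0) _),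
    h.pair.sub_right h.m0 (hcG σ) hnφy hny, h.iso _ (hc0 σ hσ) _ (nsmul_mem hz0 _), mul_one, hb]
  field_simp

end DescentData

end Fermat.Agent.H12
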