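import Mathlib
import Fermat.Agent.H12.AtR

set_option autoImplicit false
set_option linter.style.haveILetI false
set_option linter.unusedSectionVars false

/-!
# The conclusion of the descent at finite level
-/

namespace Fermat.Agent.H12

open Fermat.Agent.H05 Fermat.Agent.H09
open scoped Pointwise

variable {L : Type*} [Field L] [CharZero L] [IsGalois ℚ L] [IsAlgClosed L]
    {J : Type*} [AddCommGroup J] [DistribMulAction (L ≃ₐ[ℚ] L) J]
    {T : Type*} [CommRing T] [Module T J] {N r K : ℕ} {P : Ideal T}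
    {Ar AN : ValuationSubring L} {G G0 : AddSubgroup J} {e : J → J → L}

local notation "Γ" => L ≃ₐ[ℚ] L

/-- Multiplication by `n` as an additive map. -/
def mulBy (J : Type*) [AddCommGroup J] (n : ℕ) : J →+ J where
  toFun x := n • x
  map_zero' := smul_zero n
  map_add' := smul_add n

theorem mulBy_apply (n : ℕ) (x : J) : mulBy J n x = n • x := rfl

namespace DescentData

variable (h : DescentData L (T := T) N r K P Ar AN G G0 e)
include h

theorem isSel_theta {φ : Γ} {t : T} {κ₁ κ₂ : ℕ} (d : DataR r Ar G G0 e φ t κ₁ κ₂)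
    {τ φN : Γ} (dN : DataN L N r AN τ φN) (m m' : J) (hm : m ∈ G) (hm' : m' ∈ fixedBy' G τ) :
    IsSel N r Ar AN G G0 e G (fun σ => σ • ((r ^ κ₂) • m) - (r ^ κ₂) • m)
      ((r ^ κ₂) • m + m') := by
  rw [mem_fixedBy'] at hm'
  have hrm : (r ^ κ₂) • m ∈ G := nsmul_mem hm _
  obtain ⟨p1, p2, p3, p4⟩ := h.cob_props _ hrm
  refine ⟨p1, add_mem hrm hm'.1, p2, p3, ?_, ?_, p4, ?_⟩
  · intro ℓ hℓ hℓr hℓN A hA σ hσ
    rw [h.ur ℓ hℓ hℓr hℓN A hA σ hσ _ hrm, sub_self]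
  · intro σ hσ
    have h1 := h.fixed_of_tau dN hm'.1 hm'.2 σ hσ
    rw [smul_add, h1]
    abel
  · intro z hz
    have h1 := h.flat_cob d m z hm hz
    refine h1.congr fun σ hσ => ?_
    have hx : σ • m - m ∈ G := sub_mem (h.st.G_mem σ _ hm) hm
    have e1 : σ • ((r ^ κ₂) • m) - (r ^ κ₂) • m = (r ^ κ₂) • (σ • m - m) := by
      rw [smul_sub, smul_comm σ]
    rw [e1, h.pair.nsmul_left h.m0 hx hz, h.pair.nsmul_right h.m0 hx hz]

/-- The map `Θ`. -/
def theta {φ : Γ} {t : T} {κ₁ κ₂ : ℕ} (d : DataR r Ar G G0 e φ t κ₁ κ₂)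
    {τ φN : Γ} (dN : DataN L N r AN τ φN) : G × fixedBy' G τ →+ ↥(Zhat h G le_rfl) where
  toFun p := ⟨(fun σ => σ • ((r ^ κ₂) • (p.1 : J)) - (r ^ κ₂) • (p.1 : J),
    (r ^ κ₂) • (p.1 : J) + p.2), h.isSel_theta d dN _ _ p.1.2 p.2.2⟩
  map_zero' := by
    apply Subtype.ext
    refine Prod.ext (funext fun σ => ?_) ?_
    · change σ • ((r ^ κ₂) • (0 : J)) - (r ^ κ₂) • (0 : J) = 0
      rw [smul_zero, smul_zero, sub_zero]
    · change (r ^ κ₂) • (0 : J) + 0 = 0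
      rw [smul_zero, add_zero]
  map_add' p q := by
    apply Subtype.ext
    refine Prod.ext (funext fun σ => ?_) ?_
    · change σ • ((r ^ κ₂) • ((p.1 : J) + q.1)) - (r ^ κ₂) • ((p.1 : J) + q.1) =
        (σ • ((r ^ κ₂) • (p.1 : J)) - (r ^ κ₂) • (p.1 : J)) +
        (σ • ((r ^ κ₂) • (q.1 : J)) - (r ^ κ₂) • (q.1 : J))
      rw [smul_add, smul_add]
      abel
    · change (r ^ κ₂) • ((p.1 : J) + q.1) + ((p.2 : J) + q.2) =
        ((r ^ κ₂) • (p.1 : J) + p.2) + ((r ^ κ₂) • (q.1 : J) + q.2)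
      rw [smul_add]
      abel

theorem card_ker_theta {φ : Γ} {t : T} {κ₁ κ₂ : ℕ} (d : DataR r Ar G G0 e φ t κ₁ κ₂)
    {τ φN : Γ} (dN : DataN L N r AN τ φN) (γ ω : ℕ) (hγ : Nat.card (fixedAll (L := L) G) ≤ γ)
    (hω : Nat.card ↥(G ⊓ (mulBy J (r ^ κ₂)).ker) ≤ ω) :
    Nat.card ↥(h.theta d dN).ker ≤ γ * ω := by
  haveI : Finite G := h.fin
  -- the subgroup `S = {m ∈ G | r^κ₂ m ∈ G^Γ}`
  let S : AddSubgroup J := G ⊓ (fixedAll (L := L) G).comap (mulBy J (r ^ κ₂))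
  have hSG : S ≤ G := inf_le_left
  haveI : Finite S := Finite.of_injective _ (AddSubgroup.inclusion_injective hSG)
  have h1 := card_map_mul_card_inf (mulBy J (r ^ κ₂)) S
  have h2 : S ⊓ (mulBy J (r ^ κ₂)).ker = G ⊓ (mulBy J (r ^ κ₂)).ker := by
    ext x
    simp only [AddSubgroup.mem_inf, S, AddSubgroup.mem_comap, AddMonoidHom.mem_ker]
    constructor
    · rintro ⟨⟨h1, -⟩, h2⟩
      exact ⟨h1, h2⟩
    · rintro ⟨h1, h2⟩
      exact ⟨⟨h1, by rw [h2]; exact zero_mem _⟩, h2⟩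
  have hfix : fixedAll (L := L) G ≤ G := fun x hx => hx.1
  haveI : Finite (fixedAll (L := L) G) :=
    Finite.of_injective _ (AddSubgroup.inclusion_injective hfix)
  have h3 : Nat.card (S.map (mulBy J (r ^ κ₂))) ≤ Nat.card (fixedAll (L := L) G) := by
    apply Nat.card_le_card_of_injective (AddSubgroup.inclusion ?_)
      (AddSubgroup.inclusion_injective _)
    rintro _ ⟨y, hy, rfl⟩
    exact hy.2
  have h4 : Nat.card S ≤ γ * ω := by
    rw [← h1, h2]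
    exact Nat.mul_le_mul (h3.trans hγ) hω
  refine le_trans ?_ h4
  -- injection of the kernel into S
  have hker : ∀ p : ↥(h.theta d dN).ker, (∀ σ : Γ, σ • ((r ^ κ₂) • (p.1.1 : J)) -
      (r ^ κ₂) • (p.1.1 : J) = 0) ∧ (r ^ κ₂) • (p.1.1 : J) + p.1.2 = 0 := by
    intro p
    have h5 := p.2
    rw [AddMonoidHom.mem_ker] at h5
    have h6 := congrArg Subtype.val h5
    exact ⟨fun σ => congrFun (congrArg Prod.fst h6) σ, congrArg Prod.snd h6⟩
  let f : ↥(h.theta d dN).ker → S := fun p => ⟨p.1.1, p.1.1.2, nsmul_mem p.1.1.2 _, fun σ =>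
    sub_eq_zero.mp ((hker p).1 σ)⟩
  apply Nat.card_le_card_of_injective f
  intro p q hpq
  have h5 : (p.1.1 : J) = q.1.1 := congrArg (fun x : S => (x : J)) hpq
  have h6 := (hker p).2
  have h7 := (hker q).2
  apply Subtype.ext
  refine Prod.ext (Subtype.ext h5) (Subtype.ext ?_)
  rw [h5] at h6
  exact add_left_cancel (h6.trans h7.symm)

theorem deltaMap_le {τ : Γ} (hτ : τ ∈ AN.inertiaSubgroupIn ℚ) :
    G.map (deltaMap τ) ≤ fixedBy' G τ := by
  rintro _ ⟨y, hy, rfl⟩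
  rw [mem_fixedBy', deltaMap_apply]
  exact ⟨sub_mem (h.st.G_mem τ y hy) hy, h.uN τ hτ τ hτ y hy⟩

/-- The numerical consequences of the counting lemma. -/
theorem card_consequences {φ : Γ} {t : T} {κ₁ κ₂ : ℕ} (d : DataR r Ar G G0 e φ t κ₁ κ₂)
    {τ φN : Γ} (dN : DataN L N r AN τ φN) (γ ω : ℕ) (hγ : Nat.card (fixedAll (L := L) G) ≤ γ)
    (hω : Nat.card ↥(G ⊓ (mulBy J (r ^ κ₂)).ker) ≤ ω) :
    Nat.card (fixedBy' G τ) ≤ (γ * ω) ^ 2 * Nat.card (G.map (deltaMap τ)) ∧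
    Nat.card ↥(Zhat h G le_rfl) ≤ (γ * ω) * Nat.card ↥(h.theta d dN).range := by
  haveI : Finite G := h.fin
  haveI hf0 : Finite G0 := Finite.of_injective _ (AddSubgroup.inclusion_injective h.G0le)
  have hle : fixedBy' G τ ≤ G := inf_le_left
  haveI : Finite (fixedBy' G τ) := Finite.of_injective _ (AddSubgroup.inclusion_injective hle)
  haveI : Finite (G.map (deltaMap τ)) :=
    Finite.of_injective _ (AddSubgroup.inclusion_injective ((h.deltaMap_le dN.mem).trans hle))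
  haveI : Finite ↥(Zhat h G le_rfl) := h.finite_Zhat
  have hZ := h.card_Zhat_le
  have hker := h.card_ker_theta d dN γ ω hγ hω
  set Θ := h.theta d dN with hΘ
  have h1 : Nat.card Θ.ker * Θ.ker.index = Nat.card (G × fixedBy' G τ) :=
    AddSubgroup.card_mul_index _
  rw [AddSubgroup.index_ker, Nat.card_prod] at h1
  have h2 : Nat.card Θ.range ≤ Nat.card ↥(Zhat h G le_rfl) :=
    Nat.card_le_card_of_injective _ Subtype.val_injective
  have h3 : Nat.card G0 * Nat.card G0 ≤ Nat.card G := h.pair.card_isotropic_le h.m0 G0 h.G0le h.iso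
  have h4 : Nat.card (G.map (deltaMap τ)) * Nat.card (fixedBy' G τ) = Nat.card G :=
    card_map_mul_card_inf (deltaMap τ) G
  have h5 : Nat.card (G.map (deltaMap τ)) ≤ Nat.card (fixedBy' G τ) :=
    Nat.card_le_card_of_injective _ (AddSubgroup.inclusion_injective (h.deltaMap_le dN.mem))
  have hG : 0 < Nat.card G := Nat.card_pos
  have hGI : 0 < Nat.card (fixedBy' G τ) := Nat.card_pos
  set g := Nat.card G
  set gi := Nat.card (fixedBy' G τ)
  set g0 := Nat.card G0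
  set s := Nat.card (G.map (deltaMap τ))
  set z := Nat.card ↥(Zhat h G le_rfl)
  set w := Nat.card Θ.range
  set k := Nat.card Θ.ker
  -- g * gi ≤ γω w
  have h6 : g * gi ≤ γ * ω * w := by
    rw [← h1]
    exact Nat.mul_le_mul_right _ hker
  have h7 : gi ≤ γ * ω * g0 := by
    apply Nat.le_of_mul_le_mul_left _ hG
    calc g * gi ≤ γ * ω * w := h6
      _ ≤ γ * ω * (g * g0) := Nat.mul_le_mul_left _ (h2.trans hZ)
      _ = g * (γ * ω * g0) := by ring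
  constructor
  · apply Nat.le_of_mul_le_mul_right _ hGI
    calc gi * gi ≤ (γ * ω * g0) * (γ * ω * g0) := Nat.mul_le_mul h7 h7
      _ = (γ * ω) ^ 2 * (g0 * g0) := by ring
      _ ≤ (γ * ω) ^ 2 * g := Nat.mul_le_mul_left _ h3
      _ = (γ * ω) ^ 2 * s * gi := by rw [← h4]; ring
  · have h8 : g0 ≤ gi := by
      have h9 : g0 * g0 ≤ gi * gi := h3.trans (by rw [← h4]; exact Nat.mul_le_mul_right _ h5)
      exact Nat.mul_self_le_mul_self_iff.mp h9
    calc z ≤ g * g0 := hZ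
      _ ≤ g * gi := Nat.mul_le_mul_left _ h8
      _ ≤ γ * ω * w := h6

/-- The exponent which kills the relevant cocycle classes. -/
def expo (N r κ₁ κ₂ γ ω : ℕ) : ℕ :=
  γ * ω + ((γ * ω) ^ 2 + padicValNat r ((N - 1) * (N * N - 1)) + (κ₂ + κ₁))

/-- The main theorem at finite level: a cocycle satisfying the local conditions becomes a
coboundary after multiplication by a power of `r` bounded independently of `K`. -/
theorem exists_coboundary {φ : Γ} {t : T} {κ₁ κ₂ : ℕ} (d : DataR r Ar G G0 e φ t κ₁ κ₂)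
    (γ ω : ℕ) (hγ : Nat.card (fixedAll (L := L) G) ≤ γ)
    (hω : Nat.card ↥(G ⊓ (mulBy J (r ^ κ₂)).ker) ≤ ω)
    (c : Γ → J) (hcG : ∀ σ, c σ ∈ G)
    (hc : ∀ σ τ, c (σ * τ) = c σ + σ • c τ)
    (hop : ∃ U : Subgroup Γ, IsOpen (U : Set Γ) ∧ ∀ σ ∈ U, c σ = 0)
    (hur : ∀ ℓ : ℕ, ℓ.Prime → ℓ ≠ r → ℓ ≠ N → ∀ A : ValuationSubring L, A.LiesOverPrime ℓ →
      ∀ σ ∈ A.inertiaSubgroupIn ℚ, c σ = 0)
    (hc0 : ∀ σ ∈ Ar.inertiaSubgroupIn ℚ, c σ ∈ G0) :
    ∃ g ∈ G, ∀ σ, (r ^ expo N r κ₁ κ₂ γ ω) • c σ = σ • g - g := by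
  haveI : Finite G := h.fin
  obtain ⟨τ, φN, dN⟩ := exists_dataN h.hN h.hr h.hAN
  obtain ⟨h1, h2⟩ := h.card_consequences d dN γ ω hγ hω
  have hle : fixedBy' G τ ≤ G := inf_le_left
  haveI : Finite (fixedBy' G τ) := Finite.of_injective _ (AddSubgroup.inclusion_injective hle)
  haveI : Finite ↥(Zhat h G le_rfl) := h.finite_Zhat
  -- at N
  have hb : ∀ x ∈ fixedBy' G τ, (r ^ ((γ * ω) ^ 2)) • x ∈ G.map (deltaMap τ) := fun x hx =>
    pow_smul_mem_of_card_le h.hr (fixedBy' G τ) _ (fun y hy => h.Gr y (hle hy))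
      (h.deltaMap_le dN.mem) _ h1 x hx
  have h3 := h.c_tau_mem dN c hcG hc hop _ hb
  set v := padicValNat r ((N - 1) * (N * N - 1)) with hv
  set b := (γ * ω) ^ 2 with hbdef
  set β := b + v + (κ₂ + κ₁) with hβ
  have h4 : (r ^ β) • c τ ∈ G.map (deltaMap τ) := by
    rw [hβ, pow_add, mul_comm, mul_smul]
    exact nsmul_mem h3 _
  obtain ⟨m, hm, hmτ⟩ := h4
  rw [deltaMap_apply] at hmτ
  set c' : Γ → J := fun σ => (r ^ β) • c σ with hc'
  have hc'G : ∀ σ, c' σ ∈ G := fun σ => nsmul_mem (hcG σ) _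
  have hc'c : ∀ σ τ, c' (σ * τ) = c' σ + σ • c' τ := by
    intro σ τ
    change (r ^ β) • c (σ * τ) = (r ^ β) • c σ + σ • ((r ^ β) • c τ)
    rw [hc, smul_add, smul_comm σ]
  have hc'op : ∃ U : Subgroup Γ, IsOpen (U : Set Γ) ∧ ∀ σ ∈ U, c' σ = 0 := by
    obtain ⟨U, hU, hcU⟩ := hop
    refine ⟨U, hU, fun σ hσ => ?_⟩
    change (r ^ β) • c σ = 0
    rw [hcU σ hσ, smul_zero]
  obtain ⟨π₁, hπ₁, hτπ⟩ := dN.root
  have h5 := (h.tame_cocycle c' hc'G hc'c hc'op π₁ hπ₁ τ dN.mem hτπ).1 m hm hmτ.symm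
  have hsel : IsSel N r Ar AN G G0 e G c' m := by
    refine ⟨hc'G, hm, hc'c, hc'op, ?_, h5, fun σ hσ => nsmul_mem (hc0 σ hσ) _, ?_⟩
    · intro ℓ hℓ hℓr hℓN A hA σ hσ
      change (r ^ β) • c σ = 0
      rw [hur ℓ hℓ hℓr hℓN A hA σ hσ, smul_zero]
    · intro z hz
      have h6 := h.flat_cocycle d c hcG hc hop hc0 ((r ^ (b + v)) • z) (nsmul_mem hz _)
      refine h6.congr fun σ hσ => ?_
      change e (c σ) ((r ^ (κ₂ + κ₁)) • (r ^ (b + v)) • z) = e ((r ^ β) • c σ) z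
      rw [smul_smul, ← pow_add, h.pair.nsmul_left h.m0 (hcG σ) hz,
        h.pair.nsmul_right h.m0 (hcG σ) hz, hβ, add_comm (κ₂ + κ₁)]
  -- the global argument
  have h6 := pow_smul_mem_of_card_le (J := ↥(Zhat h G le_rfl)) h.hr (K := K) ⊤
    (h.theta d dN).range (fun x _ => by
      have h7 := (mem_Zhat h G le_rfl x.1).mp x.2
      apply Subtype.ext
      refine Prod.ext (funext fun σ => ?_) ?_
      · change (r ^ K) • x.1.1 σ = 0
        exact h.Gr _ (h7.c_mem σ)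
      · change (r ^ K) • x.1.2 = 0
        exact h.Gr _ h7.m_mem) le_top (γ * ω) (by
      rw [Nat.card_congr (AddSubgroup.topEquiv (G := ↥(Zhat h G le_rfl))).toEquiv]
      exact h2) ⟨(c', m), hsel⟩ (AddSubgroup.mem_top _)
  obtain ⟨p, hp⟩ := h6
  refine ⟨(r ^ κ₂) • (p.1 : J), nsmul_mem p.1.2 _, fun σ => ?_⟩
  have h7 : σ • ((r ^ κ₂) • (p.1 : J)) - (r ^ κ₂) • (p.1 : J) = (r ^ (γ * ω)) • c' σ :=
    congrFun (congrArg Prod.fst (congrArg Subtype.val hp)) σ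
  rw [h7]
  change (r ^ expo N r κ₁ κ₂ γ ω) • c σ = (r ^ (γ * ω)) • (r ^ β) • c σ
  rw [smul_smul, ← pow_add]
  rfl

end DescentData

end Fermat.Agent.H12
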