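import Mathlib
import Fermat.Agent.H12.Final
import Fermat.Agent.H25.Density

set_option autoImplicit false
set_option linter.style.haveILetI false
set_option linter.unusedSectionVars false

/-!
# The projector on the primary part, and the Eichler–Shimura relation for all Galois elements
-/

namespace Fermat.Agent.H12

open scoped Pointwise

section Projector

variable {J : Type*} [AddCommGroup J] {T : Type*} [CommRing T] [Module T J]

/-- The `P`-primary part of a subgroup. -/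
def primaryPart (P : Ideal T) (M : AddSubgroup J) : AddSubgroup J where
  carrier := {x | x ∈ M ∧ ∃ n : ℕ, ∀ t ∈ P ^ n, t • x = 0}
  zero_mem' := ⟨zero_mem M, 0, fun t _ => smul_zero t⟩
  add_mem' := by
    rintro a b ⟨ha, n, hn⟩ ⟨hb, m, hm⟩
    refine ⟨add_mem ha hb, max n m, fun t ht => ?_⟩
    rw [smul_add, hn t (Ideal.pow_le_pow_right (le_max_left n m) ht),
      hm t (Ideal.pow_le_pow_right (le_max_right n m) ht), add_zero]
  neg_mem' := by
    rintro a ⟨ha, n, hn⟩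
    exact ⟨neg_mem ha, n, fun t ht => by rw [smul_neg, hn t ht, neg_zero]⟩

theorem mem_primaryPart (P : Ideal T) (M : AddSubgroup J) (x : J) :
    x ∈ primaryPart P M ↔ x ∈ M ∧ ∃ n : ℕ, ∀ t ∈ P ^ n, t • x = 0 := Iff.rfl

theorem primaryPart_le (P : Ideal T) (M : AddSubgroup J) : primaryPart P M ≤ M := fun _ h => h.1

/-- A uniform exponent. -/
theorem exists_uniform (P : Ideal T) (M : AddSubgroup J) [Finite M] :
    ∃ n : ℕ, ∀ t ∈ P ^ n, ∀ b ∈ primaryPart P M, t • b = 0 := by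
  classical
  haveI : Finite (primaryPart P M) :=
    Finite.of_injective _ (AddSubgroup.inclusion_injective (primaryPart_le P M))
  choose f hf using fun b : primaryPart P M => b.2.2
  obtain ⟨n, hn⟩ := Set.finite_range f |>.bddAbove
  refine ⟨n, fun t ht b hb => ?_⟩
  exact hf ⟨b, hb⟩ t (Ideal.pow_le_pow_right (hn ⟨⟨b, hb⟩, rfl⟩) ht)

theorem primaryPart_smul_mem (P : Ideal T) (M : AddSubgroup J)
    (hM : ∀ (t : T), ∀ x ∈ M, t • x ∈ M) (t : T) (x : J) (hx : x ∈ primaryPart P M) :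
    t • x ∈ primaryPart P M := by
  obtain ⟨h1, n, hn⟩ := hx
  exact ⟨hM t x h1, n, fun s hs => by rw [smul_comm, hn s hs, smul_zero]⟩

/-- An element `a ∈ P` acts nilpotently on each element of the primary part. -/
theorem eq_zero_of_smul_eq_zero (P : Ideal T) (M : AddSubgroup J) (s : T) (hs : s - 1 ∈ P)
    (x : J) (hx : x ∈ primaryPart P M) (h : s • x = 0) : x = 0 := by
  obtain ⟨h1, n, hn⟩ := hx
  have h2 : ∀ m : ℕ, (1 - s) ^ m • x = x := by
    intro m
    induction m with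
    | zero => rw [pow_zero, one_smul]
    | succ m ih => rw [pow_succ, mul_smul, sub_smul, one_smul, h, sub_zero, ih]
  have h3 : (1 - s) ^ n ∈ P ^ n := by
    apply Ideal.pow_mem_pow
    have := neg_mem hs
    rwa [neg_sub] at this
  rw [← h2 n, hn _ h3]

theorem exists_projector (P : Ideal T) (M : AddSubgroup J) [Finite M]
    (hM : ∀ (t : T), ∀ x ∈ M, t • x ∈ M) :
    ∃ t : T, (∀ x ∈ M, t • x ∈ primaryPart P M) ∧ (∀ x ∈ primaryPart P M, t • x = x) := by
  classical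
  let M' : Submodule T J := { M with smul_mem' := fun t x hx => hM t x hx }
  haveI : Finite M' := ‹Finite M›
  haveI : IsArtinian T M' := isArtinian_of_finite
  let f : ℕ →o (Submodule T M')ᵒᵈ :=
    ⟨fun n => OrderDual.toDual (P ^ n • (⊤ : Submodule T M')), fun n m hnm =>
      Submodule.smul_mono_left (Ideal.pow_le_pow_right hnm)⟩
  obtain ⟨n, hn⟩ := IsArtinian.monotone_stabilizes f
  have h1 : P ^ n • (⊤ : Submodule T M') ≤ P • (P ^ n • (⊤ : Submodule T M')) := by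
    have h2 : P ^ n • (⊤ : Submodule T M') = P ^ (n + 1) • (⊤ : Submodule T M') :=
      hn (n + 1) (Nat.le_succ n)
    rw [← Submodule.mul_smul, ← pow_succ', ← h2]
  haveI : Finite (↥(P ^ n • (⊤ : Submodule T M'))) := inferInstance
  obtain ⟨s, hs, hs'⟩ := Submodule.exists_sub_one_mem_and_smul_eq_zero_of_fg_of_le_smul P
    (P ^ n • (⊤ : Submodule T M')) (Submodule.FG.of_finite) h1
  -- `s` maps `M` to the primary part
  have h3 : ∀ x ∈ M, s • x ∈ primaryPart P M := by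
    intro x hx
    refine ⟨hM s x hx, n, fun t ht => ?_⟩
    have h4 : t • (⟨x, hx⟩ : M') ∈ P ^ n • (⊤ : Submodule T M') :=
      Submodule.smul_mem_smul ht Submodule.mem_top
    have h5 := congrArg (Subtype.val) (hs' _ h4)
    change s • t • x = 0 at h5
    rw [smul_comm, h5]
  haveI : Finite (primaryPart P M) :=
    Finite.of_injective _ (AddSubgroup.inclusion_injective (primaryPart_le P M))
  let g : primaryPart P M → primaryPart P M := fun x =>
    ⟨s • (x : J), primaryPart_smul_mem P M hM s x x.2⟩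
  have hg : Function.Injective g := by
    intro x y hxy
    have h4 : s • (x : J) = s • (y : J) := congrArg Subtype.val hxy
    have h5 : s • ((x : J) - y) = 0 := by rw [smul_sub, h4, sub_self]
    have h6 := eq_zero_of_smul_eq_zero P M s hs _ (sub_mem x.2 y.2) h5
    exact Subtype.ext (sub_eq_zero.mp h6)
  let e : Equiv.Perm (primaryPart P M) := Equiv.ofBijective g (Finite.injective_iff_bijective.mp hg)
  have hpow : ∀ (m : ℕ) (x : primaryPart P M), ((e ^ m) x : J) = s ^ m • (x : J) := by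
    intro m
    induction m with
    | zero => intro x; rw [pow_zero, pow_zero, one_smul]; rfl
    | succ m ih =>
      intro x
      rw [pow_succ', Equiv.Perm.mul_apply, pow_succ', mul_smul, ← ih]
      rfl
  obtain ⟨k, hk, hk'⟩ := isOfFinOrder_iff_pow_eq_one.mp (isOfFinOrder_of_finite e)
  refine ⟨s ^ k, fun x hx => ?_, fun x hx => ?_⟩
  · obtain ⟨k', rfl⟩ : ∃ k', k = k' + 1 := ⟨k - 1, by omega⟩
    rw [pow_succ, mul_smul]
    exact primaryPart_smul_mem P M hM _ _ (h3 x hx)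
  · rw [← hpow k ⟨x, hx⟩, hk']
    rfl

end Projector

section Relation

variable {J : Type*} [AddCommGroup J] {T : Type*} [CommRing T] [Module T J]

theorem lucas_smul {GG : Type*} [Group GG] [DistribMulAction GG J]
    (B : AddSubgroup J) (hBG : ∀ (σ : GG), ∀ x ∈ B, σ • x ∈ B)
    (φ : GG) (t : T) (ℓ : ℕ)
    (hrel : ∀ w ∈ B, φ • φ • w - t • φ • w + ℓ • w = 0) (j : ℕ) (w : J) (hw : w ∈ B) :
    Fermat.Agent.H05.lucas t (ℓ : T) j • w = (φ ^ j) • w + (ℓ ^ j) • ((φ ^ j)⁻¹ • w) := by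
  have ht : ∀ w ∈ B, t • w = φ • w + ℓ • (φ⁻¹ • w) := by
    intro w hw
    have h := hrel (φ⁻¹ • w) (hBG _ w hw)
    rw [smul_inv_smul] at h
    have h2 : t • w = φ • w + ℓ • (φ⁻¹ • w) - (φ • w - t • w + ℓ • (φ⁻¹ • w)) := by abel
    rw [h2, h, sub_zero]
  induction j using Nat.twoStepInduction generalizing w with
  | zero =>
    rw [Fermat.Agent.H05.lucas, pow_zero, inv_one, one_smul, pow_zero, one_smul, two_smul]
  | one => rw [Fermat.Agent.H05.lucas, pow_one, pow_one, ht w hw]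
  | more n h1 h2 =>
    have hBT : ∀ x ∈ B, Fermat.Agent.H05.lucas t (ℓ : T) (n + 1) • x =
        (φ ^ (n + 1)) • x + (ℓ ^ (n + 1)) • ((φ ^ (n + 1))⁻¹ • x) := fun x hx => h2 x hx
    have e1 : φ • (φ ^ (n + 1)) • w = (φ ^ (n + 2)) • w := by
      rw [← mul_smul, ← pow_succ']
    have e2 : φ • ((φ ^ (n + 1))⁻¹ • w) = (φ ^ n)⁻¹ • w := by
      rw [← mul_smul, pow_succ, mul_inv_rev, mul_inv_cancel_left]
    have e3 : φ⁻¹ • (φ ^ (n + 1)) • w = (φ ^ n) • w := by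
      rw [← mul_smul, pow_succ', inv_mul_cancel_left]
    have e4 : φ⁻¹ • ((φ ^ (n + 1))⁻¹ • w) = (φ ^ (n + 2))⁻¹ • w := by
      rw [← mul_smul, ← mul_inv_rev, ← pow_succ]
    have hnℓ : ∀ x : J, (ℓ : T) • x = ℓ • x := fun x => Nat.cast_smul_eq_nsmul T ℓ x
    rw [Fermat.Agent.H05.lucas, sub_smul, mul_smul, mul_smul, h2 w hw, h1 w hw, hnℓ,
      ht _ (add_mem (hBG _ w hw) (nsmul_mem (hBG _ w hw) _)), smul_add, smul_add,
      smul_comm φ (ℓ ^ (n + 1)), smul_comm φ⁻¹ (ℓ ^ (n + 1)), e1, e2, e3, e4, smul_add, smul_add,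
      smul_smul, smul_smul]
    have e5 : ℓ * ℓ ^ (n + 1) = ℓ ^ (n + 2) := by ring
    have e6 : ℓ ^ (n + 1) = ℓ * ℓ ^ n := by ring
    rw [e5, e6]
    abel

theorem lucas_sub_mem (P : Ideal T) (t : T) (ℓ : ℕ) (ht : t - (1 + (ℓ : T)) ∈ P) (j : ℕ) :
    Fermat.Agent.H05.lucas t (ℓ : T) j - (1 + ((ℓ ^ j : ℕ) : T)) ∈ P := by
  have h1 : ∀ j : ℕ, Fermat.Agent.H05.lucas (1 + (ℓ : T)) (ℓ : T) j = 1 + ((ℓ ^ j : ℕ) : T) := by
    intro j
    induction j using Nat.twoStepInduction with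
    | zero => rw [Fermat.Agent.H05.lucas]; push_cast; ring
    | one => rw [Fermat.Agent.H05.lucas]; push_cast; ring
    | more n h1 h2 => rw [Fermat.Agent.H05.lucas, h1, h2]; push_cast; ring
  rw [← Ideal.Quotient.mk_eq_mk_iff_sub_mem] at ht ⊢
  rw [← h1 j, Fermat.Agent.H05.map_lucas, Fermat.Agent.H05.map_lucas, ht]

local notation "Γq" => AlgebraicClosure ℚ ≃ₐ[ℚ] AlgebraicClosure ℚ

/-- The Eichler–Shimura relation for all Galois elements. -/
theorem exists_rel [DistribMulAction Γq J]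
    {r : ℕ} (hr : r.Prime) (P : Ideal T) (k : ℕ) (B : AddSubgroup J)
    (hBG : ∀ (σ : Γq), ∀ x ∈ B, σ • x ∈ B)
    (hop : ∃ U : Subgroup Γq, IsOpen (U : Set Γq) ∧ ∀ σ ∈ U, ∀ b ∈ B, σ • b = b)
    (S : Finset ℕ)
    (hES : ∀ ℓ : ℕ, ℓ.Prime → ℓ ∉ S → ∃ t : T, t - (1 + (ℓ : T)) ∈ P ∧
      ∀ A : ValuationSubring (AlgebraicClosure ℚ), A.LiesOverPrime ℓ →
      ∀ φ : Γq, A.IsFrobeniusAt φ ℓ → ∀ w ∈ B, φ • φ • w - t • φ • w + ℓ • w = 0) (σ : Γq) :
    ∃ (t : T) (c : ℤ), (∀ ζ : AlgebraicClosure ℚ, ζ ^ (r ^ k) = 1 → σ ζ = ζ ^ c) ∧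
      t - (1 + c) ∈ P ∧ ∀ b ∈ B, σ • σ • b - t • σ • b + c • b = 0 := by
  classical
  obtain ⟨U, hU, hUB⟩ := hop
  obtain ⟨E, hEf, hE⟩ := (krullTopology_mem_nhds_one_iff ℚ (AlgebraicClosure ℚ) (U : Set Γq)).mp
    (hU.mem_nhds (one_mem U))
  haveI : NeZero ((r ^ k : ℕ) : AlgebraicClosure ℚ) :=
    ⟨Nat.cast_ne_zero.mpr (pow_ne_zero k hr.ne_zero)⟩
  obtain ⟨ζ, hζ⟩ := HasEnoughRootsOfUnity.exists_primitiveRoot (AlgebraicClosure ℚ) (r ^ k)
  let L₃ : IntermediateField ℚ (AlgebraicClosure ℚ) := IntermediateField.adjoin ℚ {ζ}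
  haveI hL₃ : FiniteDimensional ℚ L₃ := by
    apply IntermediateField.adjoin.finiteDimensional
    apply IsIntegral.of_pow (pow_pos hr.pos k)
    rw [hζ.pow_eq_one]
    exact isIntegral_one
  haveI : FiniteDimensional ℚ (E ⊔ L₃ : IntermediateField ℚ (AlgebraicClosure ℚ)) :=
    IntermediateField.finiteDimensional_sup E L₃
  obtain ⟨ℓ, hℓ, hℓS, A, hA, φ, hφ, j, hj⟩ :=
    Fermat.Agent.H25.weakChebotarev (E ⊔ L₃) inferInstance (insert r S) σ
  have hℓS' : ℓ ∉ S := fun h => hℓS (Finset.mem_insert_of_mem h)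
  have hℓr : ℓ ≠ r := fun h => hℓS (h ▸ Finset.mem_insert_self r S)
  obtain ⟨t, ht, hES'⟩ := hES ℓ hℓ hℓS'
  have hrel := hES' A hA φ hφ
  have hu : ∀ x ∈ (E ⊔ L₃ : IntermediateField ℚ (AlgebraicClosure ℚ)),
      ((φ ^ j)⁻¹ * σ) x = x := by
    intro x hx
    change (φ ^ j)⁻¹ (σ x) = x
    rw [hj x hx]
    change ((φ ^ j)⁻¹ * (φ ^ j)) x = x
    rw [inv_mul_cancel]
    rfl
  have huU : (φ ^ j)⁻¹ * σ ∈ U := by
    apply hE
    change (φ ^ j)⁻¹ * σ ∈ E.fixingSubgroup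
    rw [IntermediateField.mem_fixingSubgroup_iff]
    exact fun x hx => hu x (le_sup_left (a := E) hx)
  have hσ : ∀ b ∈ B, σ • b = (φ ^ j) • b := by
    intro b hb
    have h1 := hUB _ huU b hb
    rw [mul_smul] at h1
    have h2 : (φ ^ j) • (φ ^ j)⁻¹ • σ • b = (φ ^ j) • b := by rw [h1]
    rwa [smul_inv_smul] at h2
  refine ⟨Fermat.Agent.H05.lucas t (ℓ : T) j, ((ℓ ^ j : ℕ) : ℤ), ?_, ?_, ?_⟩
  · intro ξ hξ
    haveI : NeZero (r ^ k) := ⟨pow_ne_zero k hr.ne_zero⟩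
    obtain ⟨i, -, rfl⟩ := hζ.eq_pow_of_pow_eq_one hξ
    have h7 : σ ζ = (φ ^ j) ζ :=
      hj ζ (le_sup_right (a := E) (IntermediateField.mem_adjoin_simple_self ℚ ζ))
    have hℓm : ¬ ℓ ∣ r ^ k := fun h =>
      hℓr ((Nat.prime_dvd_prime_iff_eq hℓ hr).mp (hℓ.dvd_of_dvd_pow h))
    have hpow : ∀ j : ℕ, (φ ^ j) ζ = ζ ^ ℓ ^ j := by
      intro j
      induction j with
      | zero => simp
      | succ j ih =>
        have h8 : (φ ^ (j + 1)) ζ = φ ((φ ^ j) ζ) := by rw [pow_succ']; rfl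
        rw [h8, ih, map_pow,
          Fermat.Agent.H05.IsFrobeniusAt.apply_rootOfUnity hℓ hA hℓm hφ hζ.pow_eq_one, ← pow_mul,
          pow_succ']
    rw [zpow_natCast, map_pow, h7, hpow j, ← pow_mul, ← pow_mul, mul_comm]
  · have := lucas_sub_mem P t ℓ ht j
    push_cast at this ⊢
    exact this
  · intro b hb
    have hσb : σ • b ∈ B := hBG σ b hb
    have h1 := lucas_smul B hBG φ t ℓ hrel j (σ • b) hσb
    rw [h1, natCast_zsmul, hσ _ hσb]
    have h2 : (φ ^ j)⁻¹ • σ • b = b := by rw [hσ b hb, inv_smul_smul]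
    rw [h2]
    abel

end Relation

end Fermat.Agent.H12
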