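import Mathlib
import Fermat.Agent.H12.Proj

set_option autoImplicit false
set_option linter.style.haveILetI false
set_option linter.unusedSectionVars false

/-!
# The divisible part of an `r`-primary torsion group of finite corank
-/

namespace Fermat.Agent.H12

section

variable {J : Type*} [AddCommGroup J]

theorem mem_map_mulBy (S : AddSubgroup J) (n : ℕ) (x : J) :
    x ∈ S.map (mulBy J n) ↔ ∃ y ∈ S, n • y = x := Iff.rfl

theorem mem_ker_mulBy (n : ℕ) (x : J) : x ∈ (mulBy J n).ker ↔ n • x = 0 := Iff.rfl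

theorem map_mulBy_le_of_le (S : AddSubgroup J) {r m m' : ℕ} (h : m ≤ m') :
    S.map (mulBy J (r ^ m')) ≤ S.map (mulBy J (r ^ m)) := by
  rintro _ ⟨y, hy, rfl⟩
  obtain ⟨d, rfl⟩ := Nat.exists_eq_add_of_le h
  refine ⟨(r ^ d) • y, nsmul_mem hy _, ?_⟩
  rw [mulBy_apply, mulBy_apply, smul_smul, ← pow_add]

/-- The divisible part. -/
theorem exists_divisible_part (S : AddSubgroup J) (r : ℕ)
    (hS : ∀ x ∈ S, ∃ k : ℕ, (r ^ k) • x = 0) (hfin : Finite (mulBy J r).ker) :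
    ∃ m : ℕ, ∀ x ∈ S.map (mulBy J (r ^ m)), ∃ y ∈ S.map (mulBy J (r ^ m)), r • y = x := by
  classical
  -- the sequence of finite groups
  let f : ℕ → AddSubgroup J := fun m => S.map (mulBy J (r ^ m)) ⊓ (mulBy J r).ker
  have hanti : Antitone f := fun m m' h => inf_le_inf_right _ (map_mulBy_le_of_le S h)
  have hfinf : ∀ m, Finite (f m) := fun m =>
    Finite.of_injective _ (AddSubgroup.inclusion_injective (inf_le_right : f m ≤ _))
  obtain ⟨m, hm⟩ : ∃ m, ∀ m', m ≤ m' → f m' = f m := by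
    have hex : ∃ n, ∃ m, Nat.card (f m) = n := ⟨_, 0, rfl⟩
    obtain ⟨m, hm⟩ := Nat.find_spec hex
    refine ⟨m, fun m' hm' => ?_⟩
    haveI := hfinf m
    apply AddSubgroup.eq_of_le_of_card_ge (hanti hm')
    rw [hm]
    exact Nat.find_min' hex ⟨m', rfl⟩
  -- every element of `r ^ a S` with `a ≥ m` lies in `r ^ (a + 1) S`
  have key : ∀ j : ℕ, ∀ a, m ≤ a → ∀ x ∈ S.map (mulBy J (r ^ a)), (r ^ j) • x = 0 →
      x ∈ S.map (mulBy J (r ^ (a + 1))) := by
    intro j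
    induction j with
    | zero =>
      intro a _ x _ h0
      rw [pow_zero, one_smul] at h0
      rw [h0]
      exact zero_mem _
    | succ j ih =>
      intro a ha x hx h0
      have h1 : r • x ∈ S.map (mulBy J (r ^ (a + 1))) := by
        obtain ⟨y, hy, rfl⟩ := hx
        refine ⟨y, hy, ?_⟩
        rw [mulBy_apply, mulBy_apply, smul_smul, ← pow_succ']
      have h2 : (r ^ j) • (r • x) = 0 := by rw [smul_smul, ← pow_succ, h0]
      obtain ⟨y, hy, hy'⟩ := ih (a + 1) (by omega) _ h1 h2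
      rw [mulBy_apply] at hy'
      set x' : J := (r ^ (a + 1)) • y with hx'
      have hx'mem : x' ∈ S.map (mulBy J (r ^ (a + 1))) := ⟨y, hy, rfl⟩
      have h3 : r • x' = r • x := by
        rw [← hy', hx', smul_smul, ← pow_succ']
      have h4 : x - x' ∈ f a := by
        refine AddSubgroup.mem_inf.mpr ⟨sub_mem hx (map_mulBy_le_of_le S (Nat.le_succ a) hx'mem), ?_⟩
        rw [mem_ker_mulBy, smul_sub, h3, sub_self]
      rw [hm a ha, ← hm (a + 1) (by omega)] at h4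
      have h5 := add_mem (AddSubgroup.mem_inf.mp h4).1 hx'mem
      rwa [sub_add_cancel] at h5
  refine ⟨m, fun x hx => ?_⟩
  obtain ⟨k, hk⟩ : ∃ k : ℕ, (r ^ k) • x = 0 := by
    obtain ⟨y, hy, rfl⟩ := hx
    obtain ⟨k, hk⟩ := hS y hy
    exact ⟨k, by rw [mulBy_apply, smul_comm, hk, smul_zero]⟩
  obtain ⟨y, hy, hy'⟩ := key k m le_rfl x hx hk
  refine ⟨(r ^ m) • y, ⟨y, hy, rfl⟩, ?_⟩
  rw [smul_smul, ← pow_succ', ← hy']
  rfl

theorem divisible_pow {D : AddSubgroup J} {r : ℕ} (h : ∀ x ∈ D, ∃ y ∈ D, r • y = x) (b : ℕ) :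
    ∀ x ∈ D, ∃ y ∈ D, (r ^ b) • y = x := by
  induction b with
  | zero => exact fun x hx => ⟨x, hx, by rw [pow_zero, one_smul]⟩
  | succ b ih =>
    intro x hx
    obtain ⟨y, hy, rfl⟩ := ih x hx
    obtain ⟨z, hz, rfl⟩ := h y hy
    exact ⟨z, hz, by rw [pow_succ, mul_smul]⟩

end

section

variable {J : Type*} [AddCommGroup J] {T : Type*} [CommRing T] [Module T J]

/-- The `P`-primary part of the `r`-power torsion. -/
def eisPart (P : Ideal T) (r : ℕ) : AddSubgroup J where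
  carrier := {x | ∃ k : ℕ, x ∈ primaryPart P (mulBy J (r ^ k)).ker}
  zero_mem' := ⟨0, zero_mem _⟩
  add_mem' := by
    rintro a b ⟨k, hk⟩ ⟨l, hl⟩
    refine ⟨k + l, add_mem ⟨?_, hk.2⟩ ⟨?_, hl.2⟩⟩
    · have h1 := hk.1
      rw [mem_ker_mulBy] at h1 ⊢
      rw [add_comm, pow_add, mul_smul, h1, smul_zero]
    · have h1 := hl.1
      rw [mem_ker_mulBy] at h1 ⊢
      rw [pow_add, mul_smul, h1, smul_zero]
  neg_mem' := by
    rintro a ⟨k, hk⟩
    exact ⟨k, neg_mem hk⟩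

theorem mem_eisPart (P : Ideal T) (r : ℕ) (x : J) :
    x ∈ eisPart P r ↔ ∃ k : ℕ, x ∈ primaryPart P (mulBy J (r ^ k)).ker := Iff.rfl

theorem mem_eisPart' (P : Ideal T) (r : ℕ) {x : J} (hx : x ∈ eisPart P r) {k : ℕ}
    (hk : (r ^ k) • x = 0) : x ∈ primaryPart P (mulBy J (r ^ k)).ker := by
  obtain ⟨l, hl⟩ := hx
  exact ⟨hk, hl.2⟩

end

end Fermat.Agent.H12
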