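import Mathlib
import Fermat.Agent.H12.DivPart

set_option autoImplicit false
set_option linter.style.haveILetI false
set_option linter.unusedSectionVars false

/-!
# The abstract form of Mazur's descent
-/

namespace Fermat.Agent.H12

open scoped Pointwise

local notation "Qb" => AlgebraicClosure ℚ
local notation "Γq" => AlgebraicClosure ℚ ≃ₐ[ℚ] AlgebraicClosure ℚ

variable {J : Type*} [AddCommGroup J] [DistribMulAction Γq J] {T : Type*} [CommRing T] [Module T J]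

/-- The classes modulo `J1` fixed by `σ`. -/
noncomputable def fixedClasses (J1 : AddSubgroup J) (σ : Γq) : AddSubgroup (J ⧸ J1) :=
  (J1.comap (deltaMap σ)).map (QuotientAddGroup.mk' J1)

theorem mem_fixedClasses (J1 : AddSubgroup J) (σ : Γq) (y : J ⧸ J1) :
    y ∈ fixedClasses J1 σ ↔ ∃ x : J, QuotientAddGroup.mk x = y ∧ σ • x - x ∈ J1 := by
  constructor
  · rintro ⟨x, hx, rfl⟩
    exact ⟨x, rfl, hx⟩
  · rintro ⟨x, rfl, hx⟩
    exact ⟨x, hx, rfl⟩

theorem finite_fixedClasses_of {J1 : AddSubgroup J} {σ : Γq}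
    (h : Set.Finite {y : J ⧸ J1 | ∃ x : J, QuotientAddGroup.mk x = y ∧ σ • x - x ∈ J1}) :
    Finite (fixedClasses J1 σ) := by
  refine Set.Finite.to_subtype (h.subset fun y hy => ?_)
  exact (mem_fixedClasses J1 σ y).mp hy

theorem card_kerMod_le {J1 : AddSubgroup J} {σ : Γq} [Finite (fixedClasses J1 σ)]
    (G D : AddSubgroup J) [Finite G] (hD : D ≤ J1) (n : ℕ) [Finite (mulBy J n).ker]
    (hn : ∀ x ∈ G, x ∈ J1 → n • x ∈ D) :
    Nat.card (kerMod G (G ⊓ D) σ) ≤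
      (Nat.card (fixedClasses J1 σ) * Nat.card (mulBy J n).ker) * Nat.card ↥(G ⊓ D) := by
  have h1 := card_map_mul_card_inf (QuotientAddGroup.mk' J1) (kerMod G (G ⊓ D) σ)
  rw [← h1]
  have h2 : (kerMod G (G ⊓ D) σ).map (QuotientAddGroup.mk' J1) ≤ fixedClasses J1 σ := by
    rintro _ ⟨x, hx, rfl⟩
    exact ⟨x, hD hx.2.2, rfl⟩
  have h3 : kerMod G (G ⊓ D) σ ⊓ (QuotientAddGroup.mk' J1).ker ≤ G ⊓ J1 := by
    rw [QuotientAddGroup.ker_mk']
    exact fun x hx => ⟨hx.1.1, hx.2⟩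
  haveI : Finite ↥(G ⊓ J1) :=
    Finite.of_injective _ (AddSubgroup.inclusion_injective (inf_le_left : G ⊓ J1 ≤ G))
  haveI : Finite ↥(G ⊓ D) :=
    Finite.of_injective _ (AddSubgroup.inclusion_injective (inf_le_left : G ⊓ D ≤ G))
  have h4 : Nat.card ↥(G ⊓ J1) ≤ Nat.card (mulBy J n).ker * Nat.card ↥(G ⊓ D) := by
    have h5 := card_map_mul_card_inf (mulBy J n) (G ⊓ J1)
    rw [← h5, mul_comm]
    have h6 : (G ⊓ J1).map (mulBy J n) ≤ G ⊓ D := by
      rintro _ ⟨x, hx, rfl⟩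
      exact ⟨nsmul_mem hx.1 n, hn x hx.1 hx.2⟩
    exact Nat.mul_le_mul
      (Nat.card_le_card_of_injective _ (AddSubgroup.inclusion_injective inf_le_right))
      (Nat.card_le_card_of_injective _ (AddSubgroup.inclusion_injective h6))
  calc _ ≤ Nat.card (fixedClasses J1 σ) * Nat.card ↥(G ⊓ J1) :=
        Nat.mul_le_mul (Nat.card_le_card_of_injective _ (AddSubgroup.inclusion_injective h2))
          (Nat.card_le_card_of_injective _ (AddSubgroup.inclusion_injective h3))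
    _ ≤ Nat.card (fixedClasses J1 σ) * (Nat.card (mulBy J n).ker * Nat.card ↥(G ⊓ D)) :=
        Nat.mul_le_mul_left _ h4
    _ = _ := by ring

theorem card_fixedAll_le {J1 : AddSubgroup J} {σ : Γq} [Finite (fixedClasses J1 σ)]
    (G : AddSubgroup J) (hG : ∀ x ∈ G, x ∈ J1 → x = 0) :
    Nat.card (fixedAll (L := Qb) G) ≤ Nat.card (fixedClasses J1 σ) := by
  have h1 := card_map_mul_card_inf (QuotientAddGroup.mk' J1) (fixedAll (L := Qb) G)
  have h2 : (fixedAll (L := Qb) G).map (QuotientAddGroup.mk' J1) ≤ fixedClasses J1 σ := by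
    rintro _ ⟨x, hx, rfl⟩
    refine ⟨x, ?_, rfl⟩
    change σ • x - x ∈ J1
    rw [hx.2 σ, sub_self]
    exact zero_mem J1
  have h3 : fixedAll (L := Qb) G ⊓ (QuotientAddGroup.mk' J1).ker = ⊥ := by
    rw [QuotientAddGroup.ker_mk', AddSubgroup.eq_bot_iff_forall]
    exact fun x hx => hG x hx.1.1 hx.2
  rw [h3, AddSubgroup.card_bot, mul_one] at h1
  rw [← h1]
  exact Nat.card_le_card_of_injective _ (AddSubgroup.inclusion_injective h2)

/-- Elements fixed by `Γ` become divisible in `J1` up to a fixed power of `r` and an integer prime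
to `r`. -/
theorem exists_smul_mem {J1 : AddSubgroup J} {σ : Γq} [Finite (fixedClasses J1 σ)] {r : ℕ}
    (hr : r.Prime) : ∃ a m : ℕ, Nat.Coprime m r ∧ ∀ w : J, σ • w = w →
      ∀ k, a ≤ k → m • ((r ^ k) • w) ∈ J1 := by
  have h0 : Nat.card (fixedClasses J1 σ) ≠ 0 := Nat.card_pos.ne'
  obtain ⟨a, m, hm, hcard⟩ := Nat.exists_eq_pow_mul_and_not_dvd h0 r hr.ne_one
  refine ⟨a, m, ((Nat.Prime.coprime_iff_not_dvd hr).mpr hm).symm, fun w hw k hk => ?_⟩
  let y : fixedClasses J1 σ := ⟨QuotientAddGroup.mk w, (mem_fixedClasses J1 σ _).mpr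
    ⟨w, rfl, by rw [hw, sub_self]; exact zero_mem J1⟩⟩
  have h1 : Nat.card (fixedClasses J1 σ) • y = 0 := card_nsmul_eq_zero'
  have h2 : Nat.card (fixedClasses J1 σ) • w ∈ J1 := by
    have h3 := congrArg Subtype.val h1
    change Nat.card (fixedClasses J1 σ) • (QuotientAddGroup.mk w : J ⧸ J1) = 0 at h3
    rw [← QuotientAddGroup.mk_nsmul, QuotientAddGroup.eq_zero_iff] at h3
    exact h3
  obtain ⟨d, rfl⟩ := Nat.exists_eq_add_of_le hk
  have h3 : m • ((r ^ (a + d)) • w) = (r ^ d) • (Nat.card (fixedClasses J1 σ) • w) := by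
    rw [hcard, smul_smul, smul_smul]
    congr 1
    ring
  rw [h3]
  exact nsmul_mem h2 _

/-- The kernel of the reduction at a place away from `r`. -/
structure RedPlace (T : Type*) [CommRing T] [Module T J] (r : ℕ) (J1 : AddSubgroup J)
    (φ : Γq) : Prop where
  T_mem : ∀ (t : T), ∀ x ∈ J1, t • x ∈ J1
  tors : ∀ (k : ℕ) (x : J), (r ^ k) • x = 0 → x ∈ J1 → x = 0
  fin : Finite (fixedClasses J1 φ)

/-- The hypotheses of Mazur's descent. -/
structure MazurData (J : Type*) [AddCommGroup J] [DistribMulAction Γq J] {T : Type*} [CommRing T]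
    [Module T J] (N r : ℕ) (P : Ideal T) (Ar : ValuationSubring Qb) (Jr : AddSubgroup J) :
    Prop where
  hN : N.Prime
  hr : r.Prime
  hrN : r ≠ N
  hAr : Ar.LiesOverPrime r
  comm : ∀ (t : T) (σ : Γq) (x : J), t • σ • x = σ • t • x
  div : ∀ x : J, ∃ y : J, r • y = x
  fin : ∀ k : ℕ, Finite (mulBy J (r ^ k)).ker
  opn : ∀ x : J, ∃ U : Subgroup Γq, IsOpen (U : Set Γq) ∧ ∀ σ ∈ U, σ • x = x
  rP : (r : T) ∈ P
  res : ∀ t : T, ∃ n : ℤ, t - n ∈ P
  es : ∃ S : Finset ℕ, ∀ ℓ : ℕ, ℓ.Prime → ℓ ∉ S → ∃ t : T, t - (1 + (ℓ : T)) ∈ P ∧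
    ∀ A : ValuationSubring Qb, A.LiesOverPrime ℓ → ∀ φ : Γq, A.IsFrobeniusAt φ ℓ →
    ∀ (k : ℕ) (w : J), (r ^ k) • w = 0 → φ • φ • w - t • φ • w + ℓ • w = 0
  ur : ∀ ℓ : ℕ, ℓ.Prime → ℓ ≠ r → ℓ ≠ N → ∀ A : ValuationSubring Qb, A.LiesOverPrime ℓ →
    ∃ J1 : AddSubgroup J, (∀ σ ∈ A.inertiaSubgroupIn ℚ, ∀ x : J, σ • x - x ∈ J1) ∧
      ∀ (k : ℕ) (x : J), (r ^ k) • x = 0 → x ∈ J1 → x = 0
  uN : ∀ A : ValuationSubring Qb, A.LiesOverPrime N → ∀ σ ∈ A.inertiaSubgroupIn ℚ,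
    ∀ τ ∈ A.inertiaSubgroupIn ℚ, ∀ (k : ℕ) (x : J), (r ^ k) • x = 0 →
      σ • (τ • x - x) = τ • x - x
  pair : ∃ (e : ℕ → J → J → Qb) (b : ℕ),
    (∀ k, IsPairing (mulBy J (r ^ k)).ker (r ^ k) (e k)) ∧
    (∀ (k : ℕ) (σ : Γq) (x y : J), (r ^ k) • x = 0 → (r ^ k) • y = 0 →
      e k (σ • x) (σ • y) = σ (e k x y)) ∧
    (∀ (k : ℕ) (t : T) (x y : J), (r ^ k) • x = 0 → (r ^ k) • y = 0 →
      e k (t • x) y = e k x (t • y)) ∧
    (∀ (k m : ℕ) (x y : J), (r ^ k) • x = 0 → (r ^ (k + m)) • y = 0 →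
      e (k + m) x y = e k x ((r ^ m) • y)) ∧
    (∀ k, ∀ x ∈ primaryPart P (mulBy J (r ^ k)).ker, ∀ y ∈ primaryPart P (mulBy J (r ^ k)).ker,
      x ∈ Jr → y ∈ Jr → e k x y ^ (r ^ b) = 1)
  JrI : ∀ σ ∈ Ar.inertiaSubgroupIn ℚ, ∀ x : J, σ • x - x ∈ Jr
  esr : ∃ (φ : Γq) (t : T), φ • Ar = Ar ∧
    (∀ (k : ℕ) (x : J), (r ^ k) • x = 0 → φ • φ • x - t • φ • x + r • x ∈ Jr) ∧
    Finite (fixedClasses Jr φ) ∧ Finite (fixedClasses Jr (φ * φ))

namespace MazurData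

variable {N r : ℕ} {P : Ideal T} {Ar : ValuationSubring Qb} {Jr : AddSubgroup J}

section

variable (h : MazurData J N r P Ar Jr)
include h

theorem exists_pow_smul (k : ℕ) (x : J) : ∃ y : J, (r ^ k) • y = x := by
  induction k generalizing x with
  | zero => exact ⟨x, by rw [pow_zero, one_smul]⟩
  | succ k ih =>
    obtain ⟨y, hy⟩ := ih x
    obtain ⟨z, hz⟩ := h.div y
    exact ⟨z, by rw [pow_succ, mul_smul, hz, hy]⟩

theorem ker_smul (k : ℕ) (t : T) (x : J) (hx : x ∈ (mulBy J (r ^ k)).ker) :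
    t • x ∈ (mulBy J (r ^ k)).ker := by
  rw [AddMonoidHom.mem_ker, mulBy_apply] at hx ⊢
  rw [smul_comm, hx, smul_zero]

theorem ker_gal (k : ℕ) (σ : Γq) (x : J) (hx : x ∈ (mulBy J (r ^ k)).ker) :
    σ • x ∈ (mulBy J (r ^ k)).ker := by
  rw [AddMonoidHom.mem_ker, mulBy_apply] at hx ⊢
  rw [← smul_comm σ, hx, smul_zero]

theorem primary_gal (k : ℕ) (σ : Γq) (x : J) (hx : x ∈ primaryPart P (mulBy J (r ^ k)).ker) :
    σ • x ∈ primaryPart P (mulBy J (r ^ k)).ker := by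
  obtain ⟨h1, n, hn⟩ := hx
  exact ⟨h.ker_gal k σ x h1, n, fun t ht => by rw [h.comm, hn t ht, smul_zero]⟩

theorem exists_open (B : AddSubgroup J) [Finite B] :
    ∃ U : Subgroup Γq, IsOpen (U : Set Γq) ∧ ∀ σ ∈ U, ∀ b ∈ B, σ • b = b := by
  classical
  choose U hU hU' using h.opn
  refine ⟨⨅ b : B, U b, ?_, fun σ hσ b hb => ?_⟩
  · rw [Subgroup.coe_iInf]
    exact isOpen_iInter_of_finite fun b => hU b
  · exact hU' b σ ((Subgroup.mem_iInf.mp hσ) ⟨b, hb⟩)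

theorem eis_div (x : J) (hx : x ∈ eisPart P r) (m : ℕ) : ∃ y ∈ eisPart P r, (r ^ m) • y = x := by
  obtain ⟨k, hk⟩ := hx
  haveI := h.fin (k + m)
  obtain ⟨s, hs1, hs2⟩ := exists_projector P (mulBy J (r ^ (k + m))).ker (h.ker_smul (k + m))
  obtain ⟨y, rfl⟩ := h.exists_pow_smul m x
  have hy : y ∈ (mulBy J (r ^ (k + m))).ker := by
    rw [mem_ker_mulBy, pow_add, mul_smul]
    exact hk.1
  refine ⟨s • y, ⟨k + m, hs1 y hy⟩, ?_⟩
  rw [smul_comm]
  refine hs2 _ ⟨?_, hk.2⟩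
  rw [mem_ker_mulBy, smul_comm, (mem_ker_mulBy _ _).mp hy, smul_zero]

theorem eis_gal (σ : Γq) (x : J) (hx : x ∈ eisPart P r) : σ • x ∈ eisPart P r := by
  obtain ⟨k, hk⟩ := hx
  exact ⟨k, h.primary_gal k σ x hk⟩

theorem eis_smul (t : T) (x : J) (hx : x ∈ eisPart P r) : t • x ∈ eisPart P r := by
  obtain ⟨k, hk⟩ := hx
  exact ⟨k, primaryPart_smul_mem P _ (h.ker_smul k) t x hk⟩

theorem exists_descentData (e : ℕ → J → J → Qb) (b : ℕ)
    (he : ∀ k, IsPairing (mulBy J (r ^ k)).ker (r ^ k) (e k))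
    (hequi : ∀ (k : ℕ) (σ : Γq) (x y : J), (r ^ k) • x = 0 → (r ^ k) • y = 0 →
      e k (σ • x) (σ • y) = σ (e k x y))
    (hadj : ∀ (k : ℕ) (t : T) (x y : J), (r ^ k) • x = 0 → (r ^ k) • y = 0 →
      e k (t • x) y = e k x (t • y))
    (hcompat : ∀ (k m : ℕ) (x y : J), (r ^ k) • x = 0 → (r ^ (k + m)) • y = 0 →
      e (k + m) x y = e k x ((r ^ m) • y))
    (hiso : ∀ k, ∀ x ∈ primaryPart P (mulBy J (r ^ k)).ker,
      ∀ y ∈ primaryPart P (mulBy J (r ^ k)).ker, x ∈ Jr → y ∈ Jr → e k x y ^ (r ^ b) = 1)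
    (m : ℕ) (hm : ∀ x ∈ (eisPart P r ⊓ Jr).map (mulBy J (r ^ m)),
      ∃ y ∈ (eisPart P r ⊓ Jr).map (mulBy J (r ^ m)), r • y = x)
    (k : ℕ) (hk : 1 ≤ k) (AN : ValuationSubring Qb)
    (hAN : AN.LiesOverPrime N) :
    DescentData Qb (T := T) N r k P Ar AN (primaryPart P (mulBy J (r ^ k)).ker)
      (primaryPart P (mulBy J (r ^ k)).ker ⊓ (eisPart P r ⊓ Jr).map (mulBy J (r ^ m))) (e k) := by
  haveI := h.fin k
  set M := (mulBy J (r ^ k)).ker with hM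
  set G := primaryPart P M with hG
  have hGM : G ≤ M := primaryPart_le P M
  haveI : Finite G := Finite.of_injective _ (AddSubgroup.inclusion_injective hGM)
  have hM0 : ∀ x ∈ M, (r ^ k) • x = 0 := fun x hx => hx
  obtain ⟨s, hs1, hs2⟩ := exists_projector P M (h.ker_smul k)
  refine
    { hN := h.hN
      hr := h.hr
      hrN := h.hrN
      hK := hk
      hAr := h.hAr
      hAN := hAN
      comm := h.comm
      rP := h.rP
      res := h.res
      fin := inferInstance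
      st := ⟨fun t x hx => primaryPart_smul_mem P M (h.ker_smul k) t x hx,
        fun σ x hx => h.primary_gal k σ x hx⟩
      GP := exists_uniform P M
      Gr := fun x hx => hM0 x (hGM hx)
      rel := ?_
      opn := h.exists_open G
      ur := ?_
      uN := fun σ hσ τ hτ x hx => h.uN AN hAN σ hσ τ hτ k x (hM0 x (hGM hx))
      G0le := inf_le_left
      ir := ?_
      pair := ?_
      equi := fun σ x hx y hy => hequi k σ x y (hM0 x (hGM hx)) (hM0 y (hGM hy))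
      iso := ?_ }
  · obtain ⟨S, hS⟩ := h.es
    exact exists_rel h.hr P k G (fun σ x hx => h.primary_gal k σ x hx) (h.exists_open G) S
      (fun ℓ hℓ hℓS => by
        obtain ⟨t, ht, ht'⟩ := hS ℓ hℓ hℓS
        exact ⟨t, ht, fun A hA φ hφ w hw => ht' A hA φ hφ k w (hM0 w (hGM hw))⟩)
  · intro ℓ hℓ hℓr hℓN A hA σ hσ x hx
    obtain ⟨J1, h1, h2⟩ := h.ur ℓ hℓ hℓr hℓN A hA
    have h3 : σ • x - x ∈ M := sub_mem (h.ker_gal k σ x (hGM hx)) (hGM hx)
    exact sub_eq_zero.mp (h2 k _ (hM0 _ h3) (h1 σ hσ x))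
  · intro σ hσ x hx
    refine AddSubgroup.mem_inf.mpr ⟨sub_mem (h.primary_gal k σ x hx) hx, ?_⟩
    obtain ⟨y, hy, rfl⟩ := h.eis_div x ⟨k, hx⟩ m
    refine ⟨σ • y - y, AddSubgroup.mem_inf.mpr ⟨sub_mem (h.eis_gal σ y hy) hy, h.JrI σ hσ y⟩, ?_⟩
    rw [mulBy_apply, smul_sub, smul_comm σ]
  · refine ⟨fun x hx y hy => (he k).pow_eq_one x (hGM hx) y (hGM hy),
      fun x hx x' hx' y hy => (he k).add_left x (hGM hx) x' (hGM hx') y (hGM hy),
      fun x hx y hy y' hy' => (he k).add_right x (hGM hx) y (hGM hy) y' (hGM hy'), ?_, ?_⟩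
    · intro x hx hx'
      apply (he k).nondeg_left x (hGM hx)
      intro y hy
      rw [← hs2 x hx, hadj k s x y (hM0 x (hGM hx)) (hM0 y hy)]
      exact hx' _ (hs1 y hy)
    · intro y hy hy'
      apply (he k).nondeg_right y (hGM hy)
      intro x hx
      rw [← hs2 y hy, ← hadj k s x y (hM0 x hx) (hM0 y (hGM hy))]
      exact hy' _ (hs1 x hx)
  · intro x hx y hy
    have hxk : (r ^ k) • x = 0 := hM0 x (hGM hx.1)
    have hyk : (r ^ k) • y = 0 := hM0 y (hGM hy.1)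
    have hsub : ∀ z ∈ (eisPart P r ⊓ Jr).map (mulBy J (r ^ m)), z ∈ eisPart P r ∧ z ∈ Jr := by
      rintro _ ⟨z, hz, rfl⟩
      exact ⟨nsmul_mem hz.1 _, nsmul_mem hz.2 _⟩
    obtain ⟨x', hx', rfl⟩ := divisible_pow hm b x hx.2
    obtain ⟨y', hy', rfl⟩ := divisible_pow hm b y hy.2
    have hx'k : (r ^ (k + b)) • x' = 0 := by rw [pow_add, mul_smul, hxk]
    have hy'k : (r ^ (k + b)) • y' = 0 := by rw [pow_add, mul_smul, hyk]
    rw [← hcompat k b _ y' hxk hy'k, (he (k + b)).nsmul_left (pow_ne_zero _ h.hr.ne_zero) hx'k hy'k]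
    exact hiso (k + b) x' (mem_eisPart' P r (hsub x' hx').1 hx'k) y'
      (mem_eisPart' P r (hsub y' hy').1 hy'k) (hsub x' hx').2 (hsub y' hy').2

end

/-- **Mazur's descent**, abstract form. -/
theorem descent (h : MazurData J N r P Ar Jr) {J0 J1 : AddSubgroup J} {φ0 φ1 : Γq}
    (h0 : RedPlace T r J0 φ0) (h1 : RedPlace T r J1 φ1) (AN : ValuationSubring Qb)
    (hAN : AN.LiesOverPrime N) (D c c' : J)
    (hD : ∀ σ : Γq, σ • D = D) (hD0 : D ∈ J0) (hD1 : D - (c + c') ∈ J1)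
    (hc : ∃ n : ℕ, ∀ t ∈ P ^ n, t • c = 0) (hc' : ∃ m : ℕ, Nat.Coprime m r ∧ m • c' = 0) :
    c = 0 := by
  obtain ⟨φ, t, hφ, hes, hfin1, hfin2⟩ := h.esr
  haveI := hfin1
  haveI := hfin2
  haveI := h0.fin
  haveI := h1.fin
  obtain ⟨n, hn⟩ := hc
  obtain ⟨m', hm', hm'c⟩ := hc'
  obtain ⟨e, b, he, hequi, hadj, hcompat, hiso⟩ := h.pair
  haveI hfr : Finite (mulBy J r).ker := by simpa using h.fin 1
  obtain ⟨m, hm⟩ := exists_divisible_part (eisPart P r ⊓ Jr) r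
    (fun x hx => by
      obtain ⟨l, hl⟩ := hx.1
      exact ⟨l, hl.1⟩) hfr
  set Dr : AddSubgroup J := (eisPart P r ⊓ Jr).map (mulBy J (r ^ m)) with hDr
  have hDrJ : Dr ≤ Jr := by
    rintro _ ⟨z, hz, rfl⟩
    exact nsmul_mem hz.2 _
  haveI := h.fin m
  set κ₁ := Nat.card (fixedClasses Jr φ) * Nat.card (mulBy J (r ^ m)).ker with hκ₁
  set κ₂ := Nat.card (fixedClasses Jr (φ * φ)) * Nat.card (mulBy J (r ^ m)).ker with hκ₂
  set γ := Nat.card (fixedClasses J0 φ0) with hγ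
  set ω := Nat.card (mulBy J (r ^ κ₂)).ker with hω
  obtain ⟨a0, m0, hm0, hm0'⟩ := exists_smul_mem (J1 := J0) (σ := φ0) h.hr
  obtain ⟨a1, m1, hm1, hm1'⟩ := exists_smul_mem (J1 := J1) (σ := φ1) h.hr
  set β := DescentData.expo N r κ₁ κ₂ γ ω with hβ
  set k := n + a0 + a1 + 1 with hk
  set K := k + β with hK
  haveI := h.fin K
  haveI := h.fin κ₂
  set M := (mulBy J (r ^ K)).ker with hM
  set G := primaryPart P M with hG
  have hGM : G ≤ M := primaryPart_le P M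
  haveI : Finite G := Finite.of_injective _ (AddSubgroup.inclusion_injective hGM)
  have hM0 : ∀ x ∈ M, (r ^ K) • x = 0 := fun x hx => hx
  have hed := h.exists_descentData e b he hequi hadj hcompat hiso m hm K (by omega) AN hAN
  obtain ⟨s, hs1, hs2⟩ := exists_projector P M (h.ker_smul K)
  have hGD : ∀ x ∈ G, x ∈ Jr → (r ^ m) • x ∈ Dr := fun x hx hxJ =>
    ⟨x, AddSubgroup.mem_inf.mpr ⟨⟨K, hx⟩, hxJ⟩, rfl⟩
  -- the data at r
  have dr : DataR r Ar G (G ⊓ Dr) (e K) φ t κ₁ κ₂ := by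
    refine ⟨hφ, fun x hx => AddSubgroup.mem_inf.mpr ⟨?_, ?_⟩,
      fun x hx y hy => hadj K t x y (hM0 x (hGM hx)) (hM0 y (hGM hy)),
      card_kerMod_le G Dr hDrJ (r ^ m) hGD, card_kerMod_le G Dr hDrJ (r ^ m) hGD⟩
    · have hφx : φ • x ∈ G := h.primary_gal K φ x hx
      exact add_mem (sub_mem (h.primary_gal K φ _ hφx)
        (primaryPart_smul_mem P M (h.ker_smul K) t _ hφx)) (nsmul_mem hx r)
    · obtain ⟨y, hy, rfl⟩ := h.eis_div x ⟨K, hx⟩ m
      obtain ⟨l, hl⟩ := id hy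
      refine ⟨φ • φ • y - t • φ • y + r • y, AddSubgroup.mem_inf.mpr ⟨?_, hes l y hl.1⟩, ?_⟩
      · exact add_mem (sub_mem (h.eis_gal φ _ (h.eis_gal φ y hy))
          (h.eis_smul t _ (h.eis_gal φ y hy))) (nsmul_mem hy r)
      · rw [mulBy_apply, smul_add, smul_sub, smul_comm φ (r ^ m) y, smul_comm φ (r ^ m),
          smul_comm t (r ^ m), smul_comm r (r ^ m)]
  -- the cocycle
  obtain ⟨y, hy⟩ := h.exists_pow_smul K D
  have hyM : ∀ σ : Γq, σ • y - y ∈ M := by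
    intro σ
    rw [hM, AddMonoidHom.mem_ker, mulBy_apply, smul_sub, ← smul_comm σ, hy, hD, sub_self]
  set c₁ : Γq → J := fun σ => s • (σ • y - y) with hc₁
  have hc₁G : ∀ σ, c₁ σ ∈ G := fun σ => hs1 _ (hyM σ)
  have hc₁c : ∀ σ τ, c₁ (σ * τ) = c₁ σ + σ • c₁ τ := by
    intro σ τ
    change s • ((σ * τ) • y - y) = s • (σ • y - y) + σ • s • (τ • y - y)
    rw [← h.comm, ← smul_add, smul_sub σ, mul_smul]
    congr 1
    abel
  have hc₁op : ∃ U : Subgroup Γq, IsOpen (U : Set Γq) ∧ ∀ σ ∈ U, c₁ σ = 0 := by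
    obtain ⟨U, hU, hU'⟩ := h.opn y
    refine ⟨U, hU, fun σ hσ => ?_⟩
    change s • (σ • y - y) = 0
    rw [hU' σ hσ, sub_self, smul_zero]
  have hc₁ur : ∀ ℓ : ℕ, ℓ.Prime → ℓ ≠ r → ℓ ≠ N → ∀ A : ValuationSubring Qb,
      A.LiesOverPrime ℓ → ∀ σ ∈ A.inertiaSubgroupIn ℚ, c₁ σ = 0 := by
    intro ℓ hℓ hℓr hℓN A hA σ hσ
    obtain ⟨J2, h2, h3⟩ := h.ur ℓ hℓ hℓr hℓN A hA
    change s • (σ • y - y) = 0
    rw [h3 K _ (hM0 _ (hyM σ)) (h2 σ hσ y), smul_zero]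
  have hc₁0 : ∀ σ ∈ Ar.inertiaSubgroupIn ℚ, c₁ σ ∈ G ⊓ Dr := by
    intro σ hσ
    refine AddSubgroup.mem_inf.mpr ⟨hc₁G σ, ?_⟩
    obtain ⟨y', hy'⟩ := h.exists_pow_smul m y
    haveI := h.fin (K + m)
    obtain ⟨s', hs1', hs2'⟩ := exists_projector P (mulBy J (r ^ (K + m))).ker
      (h.ker_smul (K + m))
    have hzM' : σ • y' - y' ∈ (mulBy J (r ^ (K + m))).ker := by
      rw [mem_ker_mulBy, pow_add, mul_smul, smul_sub, smul_comm (r ^ m) σ, hy']
      exact hM0 _ (hyM σ)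
    -- the two projectors agree on `M`
    have hagree : ∀ z ∈ M, s • z = s' • z := by
      intro z hz
      have hzM : z ∈ (mulBy J (r ^ (K + m))).ker := by
        rw [mem_ker_mulBy, add_comm, pow_add, mul_smul, hM0 z hz, smul_zero]
      have e1 : s' • s • z = s • z := by
        apply hs2'
        have h2 := hs1 z hz
        refine ⟨?_, h2.2⟩
        rw [mem_ker_mulBy, add_comm, pow_add, mul_smul, hM0 _ (hGM h2), smul_zero]
      have e2 : s • s' • z = s' • z := by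
        apply hs2
        refine ⟨h.ker_smul K s' z hz, (hs1' z hzM).2⟩
      rw [← e1, smul_comm, e2]
    refine ⟨s' • (σ • y' - y'), AddSubgroup.mem_inf.mpr ⟨⟨K + m, hs1' _ hzM'⟩, ?_⟩, ?_⟩
    · rw [smul_sub, h.comm]
      exact h.JrI σ hσ (s' • y')
    · change _ = s • (σ • y - y)
      rw [hagree _ (hyM σ), mulBy_apply, ← hy', ← smul_comm s' (r ^ m), smul_sub (r ^ m),
        smul_comm (r ^ m) σ]
  obtain ⟨g, hg, hgc⟩ := hed.exists_coboundary dr γ ω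
    (card_fixedAll_le G fun x hx hx0 => h0.tors K x (hM0 x (hGM hx)) hx0)
    (Nat.card_le_card_of_injective _ (AddSubgroup.inclusion_injective
      (inf_le_right : G ⊓ (mulBy J (r ^ κ₂)).ker ≤ (mulBy J (r ^ κ₂)).ker)))
    c₁ hc₁G hc₁c hc₁op hc₁ur hc₁0
  -- the rational element `w`
  set w : J := s • ((r ^ β) • y) - g with hw
  have hwfix : ∀ σ : Γq, σ • w = w := by
    intro σ
    have e1 : σ • w - w = (r ^ β) • c₁ σ - (σ • g - g) := by
      change σ • (s • ((r ^ β) • y) - g) - (s • ((r ^ β) • y) - g) =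
        (r ^ β) • (s • (σ • y - y)) - (σ • g - g)
      rw [smul_sub σ, ← h.comm, ← smul_comm (r ^ β) σ, smul_sub s, smul_sub (r ^ β),
        smul_comm (r ^ β) s, smul_comm (r ^ β) s]
      abel
    have e2 : (r ^ β) • c₁ σ = σ • g - g := hgc σ
    rw [e2, sub_self] at e1
    exact sub_eq_zero.mp e1
  have hwk : (r ^ k) • w = s • D - (r ^ k) • g := by
    rw [hw, smul_sub, smul_comm (r ^ k) s, smul_smul, ← pow_add, ← hK, hy]
  -- the torsion element `(r ^ k) • g` vanishes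
  have hgk : (r ^ k) • g = 0 := by
    have e1 : m0 • ((r ^ k) • w) ∈ J0 := hm0' w (hwfix φ0) k (by omega)
    have e2 : m0 • (s • D) ∈ J0 := nsmul_mem (h0.T_mem s D hD0) m0
    have e3 : m0 • ((r ^ k) • g) ∈ J0 := by
      have : m0 • ((r ^ k) • g) = m0 • (s • D) - m0 • ((r ^ k) • w) := by
        rw [hwk, smul_sub]; abel
      rw [this]
      exact sub_mem e2 e1
    have hgM : (r ^ K) • g = 0 := hM0 g (hGM hg)
    have e4 : m0 • ((r ^ k) • g) = 0 := by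
      refine h0.tors K _ ?_ e3
      have : (r ^ K) • m0 • ((r ^ k) • g) = (m0 * r ^ k) • ((r ^ K) • g) := by
        rw [smul_smul, smul_smul, smul_smul]
        congr 1
        ring
      rw [this, hgM, smul_zero]
    have e5 : (r ^ k) • g ∈ (⊥ : AddSubgroup J) := by
      refine smul_mem_of_coprime (K := K) ⊥ ?_ hm0 ?_
      · rw [smul_comm, hgM, smul_zero]
      · rw [e4]; exact zero_mem _
    exact (AddSubgroup.mem_bot).mp e5
  rw [hgk, sub_zero] at hwk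
  -- conclusion at the second place
  have hrc : (r ^ n) • c = 0 := by
    have := hn ((r : T) ^ n) (Ideal.pow_mem_pow h.rP n)
    rwa [← Nat.cast_pow, Nat.cast_smul_eq_nsmul] at this
  have hrKc : (r ^ K) • c = 0 := by
    have : K = (K - n) + n := by omega
    rw [this, pow_add, mul_smul, hrc, smul_zero]
  have hcG : c ∈ G := ⟨hrKc, n, hn⟩
  have hsc : s • c = c := hs2 c hcG
  have e1 : m1 • (s • D) ∈ J1 := by
    rw [← hwk]
    exact hm1' w (hwfix φ1) k (by omega)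
  have e2 : s • D - (c + s • c') ∈ J1 := by
    have := h1.T_mem s _ hD1
    rwa [smul_sub, smul_add, hsc] at this
  have e3 : (m' * m1) • c ∈ J1 := by
    have e4 : m' • (s • c') = 0 := by rw [smul_comm, hm'c, smul_zero]
    have e5 : (m' * m1) • c = m' • (m1 • (s • D)) - (m' * m1) • (s • D - (c + s • c')) := by
      have e6 : (m' * m1) • (s • c') = 0 := by rw [mul_comm, mul_smul, e4, smul_zero]
      rw [smul_sub, smul_add, e6, add_zero, mul_smul m' m1 (s • D)]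
      abel
    rw [e5]
    exact sub_mem (nsmul_mem e1 m') (nsmul_mem e2 _)
  have e4 : (m' * m1) • c = 0 := by
    refine h1.tors K _ ?_ e3
    rw [smul_comm, hrKc, smul_zero]
  have e5 : c ∈ (⊥ : AddSubgroup J) := by
    refine smul_mem_of_coprime (K := K) ⊥ hrKc (Nat.Coprime.mul_left hm' hm1) ?_
    rw [e4]; exact zero_mem _
  exact (AddSubgroup.mem_bot).mp e5

end MazurData

end Fermat.Agent.H12
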