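import Mathlib
import Fermat.Agent.H12.Infinite
import Fermat.Agent.H05.GalHecke
import Fermat.Agent.H05.HeckeComm
import Fermat.Prelude.Def_ModularCurve_HeckeModule

set_option autoImplicit false
set_option linter.style.haveILetI false
set_option linter.unusedSectionVars false

/-!
# The Hecke ring used in the descent, and its Eisenstein ideal
-/

noncomputable section

namespace Fermat.Agent.H12

open ModularCurve AlgebraicCurve MvPolynomial

variable (N : ℕ) [NeZero N] (r : ℕ)

/-- The indices of the allowed Hecke operators. -/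
def Idx : Type := {q : Nat.Primes // (q : ℕ) = r ∨ ¬ (q : ℕ) ∣ 6 * N}

/-- The Hecke ring. -/
abbrev TT : Type := MvPolynomial (Idx N r) ℤ

/-- The map to the full abstract Hecke ring. -/
def ttMap : TT N r →+* HeckeAlg := (rename (fun q : Idx N r => q.1)).toRingHom

/-- The action on `J₀(N)`. -/
@[reducible] def ttModule : Module (TT N r) (JZero N) :=
  letI := heckeModuleBar N
  Module.compHom (JZero N) (ttMap N r)

theorem tt_smul_def (t : TT N r) (x : JZero N) :
    (letI := ttModule N r; t • x) = (letI := heckeModuleBar N; ttMap N r t • x) := rfl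

theorem tt_X_smul (q : Idx N r) (x : JZero N) :
    (letI := ttModule N r; (X q : TT N r) • x) = heckeOperatorBar N q.1 x := by
  rw [tt_smul_def]
  have h1 : ttMap N r (X q) = heckeGen q.1 := rename_X _ _
  rw [h1]
  exact heckeModuleBar_heckeGen_smul (Fermat.Agent.H05.heckeOperatorsCommuteBar N) q.1 x

theorem tt_C_smul (a : ℤ) (x : JZero N) :
    (letI := ttModule N r; (C a : TT N r) • x) = a • x := by
  rw [tt_smul_def]
  have h1 : ttMap N r (C a) = C a := rename_C _ _
  rw [h1]
  exact heckeModuleBar_C_smul a x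

theorem tt_smul_mem (S : AddSubgroup (JZero N))
    (hS : ∀ q : Idx N r, ∀ x ∈ S, heckeOperatorBar N q.1 x ∈ S) (t : TT N r) (x : JZero N)
    (hx : x ∈ S) : (letI := ttModule N r; t • x) ∈ S := by
  letI := ttModule N r
  change t • x ∈ S
  induction t using MvPolynomial.induction_on generalizing x with
  | C a =>
    rw [show (C a : TT N r) • x = a • x from tt_C_smul N r a x]
    exact zsmul_mem hx a
  | add p q hp hq =>
    rw [add_smul]
    exact add_mem (hp x hx) (hq x hx)
  | mul_X p q hp =>
    rw [mul_smul, show (X q : TT N r) • x = heckeOperatorBar N q.1 x from tt_X_smul N r q x]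
    exact hp _ (hS q x hx)

theorem tt_comm (t : TT N r) (σ : AlgebraicClosure ℚ ≃ₐ[ℚ] AlgebraicClosure ℚ) (x : JZero N) :
    (letI := ttModule N r; t • σ • x) = σ • (letI := ttModule N r; t • x) := by
  rw [tt_smul_def, tt_smul_def]
  letI := heckeModuleBar N
  exact ((Fermat.Agent.H05.smulCommClass_heckeModuleBar N).smul_comm σ (ttMap N r t) x).symm

/-- The Eisenstein character. -/
def ttEval : TT N r →+* ℤ := MvPolynomial.eval (fun q : Idx N r => 1 + ((q.1 : ℕ) : ℤ))

/-- The Eisenstein ideal at `r`. -/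
def PP : Ideal (TT N r) := (Ideal.span {(r : ℤ)}).comap (ttEval N r)

variable {N r}

theorem mem_PP (t : TT N r) : t ∈ PP N r ↔ (r : ℤ) ∣ ttEval N r t := by
  rw [PP, Ideal.mem_comap, Ideal.mem_span_singleton]

theorem mem_PP_pow {n : ℕ} {t : TT N r} (ht : t ∈ PP N r ^ n) :
    (r : ℤ) ^ n ∣ ttEval N r t := by
  have h1 : ttEval N r t ∈ (PP N r ^ n).map (ttEval N r) := Ideal.mem_map_of_mem _ ht
  rw [Ideal.map_pow] at h1
  have h2 : (PP N r).map (ttEval N r) ≤ Ideal.span {(r : ℤ)} := Ideal.map_comap_le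
  have h3 := Ideal.pow_right_mono h2 n h1
  rwa [Ideal.span_singleton_pow, Ideal.mem_span_singleton] at h3

theorem r_mem_PP : ((r : ℕ) : TT N r) ∈ PP N r := by
  rw [mem_PP, map_natCast]

theorem PP_res (t : TT N r) : ∃ n : ℤ, t - n ∈ PP N r := by
  refine ⟨ttEval N r t, ?_⟩
  rw [mem_PP, map_sub, map_intCast]
  simp

theorem X_sub_mem_PP (q : Idx N r) : (X q : TT N r) - (1 + ((q.1 : ℕ) : TT N r)) ∈ PP N r := by
  rw [mem_PP, map_sub, map_add, map_one, map_natCast]
  have : ttEval N r (X q) = 1 + ((q.1 : ℕ) : ℤ) := MvPolynomial.eval_X q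
  rw [this, sub_self]
  exact dvd_zero _

theorem tt_smul_eisenstein (c : JZero N)
    (hc : ∀ q : Idx N r, heckeOperatorBar N q.1 c = (1 + ((q.1 : ℕ) : ℤ)) • c) (t : TT N r) :
    (letI := ttModule N r; t • c) = ttEval N r t • c := by
  letI := ttModule N r
  change t • c = ttEval N r t • c
  induction t using MvPolynomial.induction_on with
  | C a =>
    rw [show (C a : TT N r) • c = a • c from tt_C_smul N r a c]
    have : ttEval N r (C a) = a := MvPolynomial.eval_C a
    rw [this]
  | add p q hp hq =>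
    rw [add_smul, hp, hq, map_add]
    exact (add_zsmul c _ _).symm
  | mul_X p q hp =>
    have h1 : (X q : TT N r) • c = (1 + ((q.1 : ℕ) : ℤ)) • c := by
      rw [show (X q : TT N r) • c = heckeOperatorBar N q.1 c from tt_X_smul N r q c, hc]
    have h2 : ttEval N r (p * X q) = (1 + ((q.1 : ℕ) : ℤ)) * ttEval N r p := by
      rw [map_mul, show ttEval N r (X q) = 1 + ((q.1 : ℕ) : ℤ) from MvPolynomial.eval_X q,
        mul_comm]
    rw [mul_smul, h1, smul_comm, hp, h2, mul_smul]

/-- Eisenstein elements killed by `r ^ n` are killed by the `n`-th power of the Eisenstein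
ideal. -/
theorem eisenstein_killed (c : JZero N)
    (hc : ∀ q : Idx N r, heckeOperatorBar N q.1 c = (1 + ((q.1 : ℕ) : ℤ)) • c) (n : ℕ)
    (hn : (r ^ n) • c = 0) (t : TT N r) (ht : t ∈ PP N r ^ n) :
    (letI := ttModule N r; t • c) = 0 := by
  rw [tt_smul_eisenstein c hc t]
  obtain ⟨d, hd⟩ := mem_PP_pow ht
  rw [hd, mul_comm, mul_smul, ← Nat.cast_pow, natCast_zsmul, hn, smul_zero]

end Fermat.Agent.H12
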