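import Mathlib
import Fermat.Agent.H12.TT
import Fermat.Agent.H12.OpenStab
import Fermat.Agent.WP.JZero
import Fermat.Agent.WP.Galois
import Fermat.Agent.WP.Hecke
import Fermat.Agent.WP.Divisible
import Fermat.Agent.Descent.Input
import Fermat.Agent.M5.Main

set_option autoImplicit false
set_option linter.style.haveILetI false
set_option linter.unusedSectionVars false

/-!
# Mazur's descent for `J₀(N)`: assembly
-/

noncomputable section

namespace Fermat.Agent.H12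

open ModularCurve AlgebraicCurve MvPolynomial

local notation "Qb" => AlgebraicClosure ℚ
local notation "Γq" => AlgebraicClosure ℚ ≃ₐ[ℚ] AlgebraicClosure ℚ

/-- The reduction package at a place `A` over `ℓ`: `J1` is the kernel of the reduction. -/
structure RedPkg (N : ℕ) [NeZero N] (r ℓ : ℕ) (A : ValuationSubring Qb)
    (J1 : AddSubgroup (JZero N)) : Prop where
  inertia : ∀ σ ∈ A.inertiaSubgroupIn ℚ, ∀ x : JZero N, σ • x - x ∈ J1
  es : ∀ (hℓ : ℓ.Prime) (φ : Γq), A.IsFrobeniusAt φ ℓ → ∀ (k : ℕ) (x : JZero N),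
    (r ^ k) • x = 0 → φ • φ • x - heckeOperatorBar N ⟨ℓ, hℓ⟩ (φ • x) + ℓ • x ∈ J1
  fin1 : ∀ φ : Γq, A.IsFrobeniusAt φ ℓ → Finite (fixedClasses J1 φ)
  fin2 : ∀ φ : Γq, A.IsFrobeniusAt φ ℓ → Finite (fixedClasses J1 (φ * φ))
  hecke : ℓ ≠ r → ∀ q : Idx N r, ∀ x ∈ J1, heckeOperatorBar N q.1 x ∈ J1
  tors : ℓ ≠ r → ∀ (k : ℕ) (x : JZero N), (r ^ k) • x = 0 → x ∈ J1 → x = 0

/-- The hypotheses of the descent at level `N` for the prime `r`. -/
structure MazurInputs (N : ℕ) [NeZero N] (r : ℕ) (J1 : ℕ → ValuationSubring Qb →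
    AddSubgroup (JZero N)) : Prop where
  hN : N.Prime
  hr : r.Prime
  hrN : r ≠ N
  pkg : ∀ ℓ : ℕ, ℓ.Prime → ℓ ≠ N → ∀ A : ValuationSubring Qb, A.LiesOverPrime ℓ →
    RedPkg N r ℓ A (J1 ℓ A)
  uN : ∀ A : ValuationSubring Qb, A.LiesOverPrime N → ∀ σ ∈ A.inertiaSubgroupIn ℚ,
    ∀ τ ∈ A.inertiaSubgroupIn ℚ, ∀ (k : ℕ) (x : JZero N), (r ^ k) • x = 0 →
      σ • (τ • x - x) = τ • x - x
  iso : ∃ b : ℕ, ∀ A : ValuationSubring Qb, A.LiesOverPrime r → ∀ (k : ℕ) (x y : JZero N),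
    (letI := ttModule N r; x ∈ primaryPart (PP N r) (mulBy (JZero N) (r ^ k)).ker) →
    (letI := ttModule N r; y ∈ primaryPart (PP N r) (mulBy (JZero N) (r ^ k)).ker) →
    x ∈ J1 r A → y ∈ J1 r A → WP.weilPairing (r ^ k) x y ^ (r ^ b) = 1

theorem finite_ker_mulBy (N : ℕ) [NeZero N] {m : ℕ} (hm : m ≠ 0) :
    Finite (mulBy (JZero N) m).ker := by
  haveI : NeZero m := ⟨hm⟩
  letI := WP.qbC
  haveI : Fact (m ≠ 0) := ⟨hm⟩
  have h1 := Fermat.Agent.H26.finite_tor N m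
  exact Finite.of_injective (β := Fermat.Agent.H26.Tor N m)
    (fun x => ⟨x.1, Fermat.Agent.H26.mem_tor.mpr x.2⟩) fun x y hxy =>
      Subtype.ext (congrArg (fun z : Fermat.Agent.H26.Tor N m => (z : JZero N)) hxy)

theorem kill_aux {J : Type*} [AddCommGroup J] [DistribMulAction Γq J] {T : Type*} [CommRing T]
    [Module T J] (n ℓ : ℕ) (φ : Γq) (t : T) (w : J) (hw : n • w = 0) :
    n • (φ • φ • w - t • φ • w + ℓ • w) = 0 := by
  have h1 : n • φ • w = 0 := by rw [smul_comm, hw, smul_zero]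
  rw [smul_add, smul_sub, smul_comm n φ, h1, smul_zero, smul_comm n t, h1, smul_zero,
    smul_comm n ℓ, hw, smul_zero, sub_zero, add_zero]

theorem smul_neg_aux {J : Type*} [AddCommGroup J] (n : ℕ) (w : J) (hw : n • w = 0) :
    n • (-w) = 0 := by rw [smul_neg, hw, neg_zero]

namespace MazurInputs

variable {N : ℕ} [NeZero N] {r : ℕ} {J1 : ℕ → ValuationSubring Qb → AddSubgroup (JZero N)}

theorem adjTT (h : MazurInputs N r J1) {m : ℕ} (hm : m ≠ 0) (t : TT N r) (x y : JZero N) (hx : m • x = 0)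
    (hy : m • y = 0) :
    WP.weilPairing m (letI := ttModule N r; t • x) y =
      WP.weilPairing m x (letI := ttModule N r; t • y) := by
  letI := ttModule N r
  change WP.weilPairing m (t • x) y = WP.weilPairing m x (t • y)
  have hk : ∀ (t : TT N r) (z : JZero N), m • z = 0 → m • (t • z) = 0 := by
    intro t z hz
    rw [smul_comm, hz, smul_zero]
  have hnat : ∀ (n : ℕ) (x y : JZero N), m • x = 0 → m • y = 0 →
      WP.weilPairing m (n • x) y = WP.weilPairing m x (n • y) := by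
    intro n x y hx hy
    rw [WP.weilPairing_nsmul_left hx hy, WP.weilPairing_symm m (n • y) x,
      WP.weilPairing_nsmul_left hy hx, WP.weilPairing_symm m x y, inv_pow, inv_inv]
  induction t using MvPolynomial.induction_on generalizing x y with
  | C a =>
    rw [show (C a : TT N r) • x = a • x from tt_C_smul N r a x,
      show (C a : TT N r) • y = a • y from tt_C_smul N r a y]
    have hneg : ∀ z w : JZero N, m • z = 0 → m • w = 0 →
        WP.weilPairing m (-z) w = (WP.weilPairing m z w)⁻¹ := by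
      intro z w hz hw
      have h1 := WP.weilPairing_add_left (x := z) (x' := -z) (y := w) hz
        (smul_neg_aux m z hz) hw
      rw [add_neg_cancel, WP.weilPairing_zero_left] at h1
      exact eq_inv_of_mul_eq_one_right h1.symm
    obtain ⟨n, rfl | rfl⟩ := Int.eq_nat_or_neg a
    · rw [natCast_zsmul, natCast_zsmul, hnat n x y hx hy]
    · have h1 : m • (n • x) = 0 := by rw [smul_comm, hx, smul_zero]
      have h2 : m • (n • y) = 0 := by rw [smul_comm, hy, smul_zero]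
      rw [neg_smul, neg_smul, natCast_zsmul, natCast_zsmul, hneg _ _ h1 hy,
        WP.weilPairing_symm m (-(n • y)) x, hneg _ _ h2 hx, inv_inv,
        WP.weilPairing_symm m x (n • y), inv_inj, hnat n x y hx hy]
  | add p q hp hq =>
    rw [add_smul, add_smul, WP.weilPairing_add_left (hk p x hx) (hk q x hx) hy,
      WP.weilPairing_add_right hx (hk p y hy) (hk q y hy), hp x y hx hy, hq x y hx hy]
  | mul_X p q hp =>
    have hqN : ¬ (q.1 : ℕ) ∣ N := by
      rcases q.2 with h1 | h1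
      · rw [h1]
        intro h2
        exact h.hrN ((Nat.prime_dvd_prime_iff_eq h.hr h.hN).mp h2)
      · intro h2
        exact h1 (h2.mul_left 6)
    rw [mul_smul, mul_smul, show (X q : TT N r) • x = heckeOperatorBar N q.1 x from
        tt_X_smul N r q x, show (X q : TT N r) • y = heckeOperatorBar N q.1 y from
        tt_X_smul N r q y]
    have hx' : m • heckeOperatorBar N q.1 x = 0 := by
      rw [← map_nsmul, hx, map_zero]
    have hy' : m • heckeOperatorBar N q.1 y = 0 := by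
      rw [← map_nsmul, hy, map_zero]
    have h1 : p • heckeOperatorBar N q.1 y = heckeOperatorBar N q.1 (p • y) := by
      rw [← show (X q : TT N r) • y = heckeOperatorBar N q.1 y from tt_X_smul N r q y,
        ← show (X q : TT N r) • (p • y) = heckeOperatorBar N q.1 (p • y) from
          tt_X_smul N r q (p • y), smul_comm]
    rw [hp _ y hx' hy, WP.weilPairing_hecke q.1 hqN hm hx (hk p y hy), ← h1]

theorem mazurData (h : MazurInputs N r J1) (Ar : ValuationSubring Qb)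
    (hAr : Ar.LiesOverPrime r) :
    letI := ttModule N r
    MazurData (JZero N) N r (PP N r) Ar (J1 r Ar) := by
  letI := ttModule N r
  have hNpos : 0 < N := h.hN.pos
  have pr := h.pkg r h.hr h.hrN Ar hAr
  refine
    { hN := h.hN
      hr := h.hr
      hrN := h.hrN
      hAr := hAr
      comm := fun t σ x => tt_comm N r t σ x
      div := fun x => WP.divisible_JZero h.hr.pos x
      fin := fun k => finite_ker_mulBy N (pow_ne_zero k h.hr.ne_zero)
      opn := fun x => exists_open_pic0 (modularFunctionFieldFull N) x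
      rP := r_mem_PP
      res := PP_res
      es := ?_
      ur := ?_
      uN := h.uN
      pair := ?_
      JrI := pr.inertia
      esr := ?_ }
  · refine ⟨insert r (6 * N).primeFactors, fun ℓ hℓ hℓS => ?_⟩
    have hℓr : ℓ ≠ r := fun h1 => hℓS (h1 ▸ Finset.mem_insert_self _ _)
    have hℓN : ¬ ℓ ∣ 6 * N := fun h1 => hℓS (Finset.mem_insert_of_mem
      (Nat.mem_primeFactors.mpr ⟨hℓ, h1, by positivity⟩))
    have hℓN' : ℓ ≠ N := fun h1 => hℓN (h1 ▸ Dvd.intro_left 6 rfl)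
    let q : Idx N r := ⟨⟨ℓ, hℓ⟩, Or.inr hℓN⟩
    refine ⟨X q, X_sub_mem_PP q, fun A hA φ hφ k w hw => ?_⟩
    have p := h.pkg ℓ hℓ hℓN' A hA
    have h1 := p.es hℓ φ hφ k w hw
    rw [← show (X q : TT N r) • (φ • w) = heckeOperatorBar N ⟨ℓ, hℓ⟩ (φ • w) from
      tt_X_smul N r q (φ • w)] at h1
    exact p.tors hℓr k _ (kill_aux _ _ _ _ _ hw) h1
  · intro ℓ hℓ hℓr hℓN A hA
    have p := h.pkg ℓ hℓ hℓN A hA
    exact ⟨J1 ℓ A, p.inertia, p.tors hℓr⟩
  · obtain ⟨b, hb⟩ := h.iso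
    have hk0 : ∀ k, 0 < r ^ k := fun k => pow_pos h.hr.pos k
    refine ⟨fun k x y => ((WP.weilPairing (r ^ k) x y : Qbˣ) : Qb), b,
      fun k => ⟨?_, ?_, ?_, ?_, ?_⟩, ?_, ?_, ?_, ?_⟩
    · intro x _ y _
      rw [← Units.val_pow_eq_pow_val, WP.weilPairing_pow, Units.val_one]
    · intro x hx x' hx' y hy
      beta_reduce
      rw [WP.weilPairing_add_left hx hx' hy, Units.val_mul]
    · intro x hx y hy y' hy'
      beta_reduce
      rw [WP.weilPairing_add_right hx hy hy', Units.val_mul]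
    · intro x hx hx'
      exact WP.weilPairing_nondeg_JZero N (hk0 k) hx fun y hy => Units.ext (hx' y hy)
    · intro y hy hy'
      refine WP.weilPairing_nondeg_JZero N (hk0 k) hy fun x hx => ?_
      rw [WP.weilPairing_symm, inv_eq_one]
      exact Units.ext (hy' x hx)
    · intro k σ x y hx hy
      change ((WP.weilPairing (r ^ k) (arithmeticGalois (modularFunctionFieldFull N) σ • x)
        (arithmeticGalois (modularFunctionFieldFull N) σ • y) : Qbˣ) : Qb) = _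
      rw [WP.weilPairing_smul _ hx hy, WP.baseU_coe, baseAut_arithmeticGalois]
      rfl
    · intro k t x y hx hy
      exact congrArg Units.val (h.adjTT (hk0 k).ne' t x y hx hy)
    · intro k m x y hx hy
      beta_reduce
      rw [pow_add] at hy ⊢
      exact congrArg Units.val (WP.weilPairing_mul_level hx hy)
    · intro k x hx y hy hx' hy'
      beta_reduce
      rw [← Units.val_pow_eq_pow_val, hb Ar hAr k x y hx hy hx' hy', Units.val_one]
  · obtain ⟨φ, hφ⟩ := Fermat.Agent.H05.exists_isFrobeniusAt h.hr hAr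
    let q : Idx N r := ⟨⟨r, h.hr⟩, Or.inl rfl⟩
    refine ⟨φ, X q, hφ.1, fun k x hx => ?_, pr.fin1 φ hφ, pr.fin2 φ hφ⟩
    rw [show (X q : TT N r) • (φ • x) = heckeOperatorBar N ⟨r, h.hr⟩ (φ • x) from
      tt_X_smul N r q (φ • x)]
    exact pr.es h.hr φ hφ k x hx

theorem redPlace (h : MazurInputs N r J1) {ℓ : ℕ} (hℓ : ℓ.Prime) (hℓN : ℓ ≠ N) (hℓr : ℓ ≠ r)
    (A : ValuationSubring Qb) (hA : A.LiesOverPrime ℓ) :
    letI := ttModule N r
    ∃ φ : Γq, RedPlace (TT N r) r (J1 ℓ A) φ := by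
  letI := ttModule N r
  obtain ⟨φ, hφ⟩ := Fermat.Agent.H05.exists_isFrobeniusAt hℓ hA
  have p := h.pkg ℓ hℓ hℓN A hA
  exact ⟨φ, fun t x hx => tt_smul_mem N r (J1 ℓ A) (p.hecke hℓr) t x hx, p.tors hℓr, p.fin1 φ hφ⟩

/-- The descent argument. -/
theorem no_switch_aux (h : MazurInputs N r J1) (hrN : r ∣ N - 1) (C : JZero N)
    (hC : ∀ q : Nat.Primes, (q : ℕ) ≠ N → heckeOperatorBar N q C = (1 + ((q : ℕ) : ℤ)) • C)
    (htor : ((N : ℤ) - 1) • C = 0) (hnz : ∀ m : ℤ, ¬ (r : ℤ) ∣ m → m • C ≠ 0)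
    (D1 D2 : JZero N) (hD1 : ∀ σ : Γq, σ • D1 = D1) (hD : D1 - D2 = C)
    {ℓ₀ : ℕ} (hℓ₀ : ℓ₀.Prime) (hℓ₀N : ℓ₀ ≠ N) (hℓ₀r : ℓ₀ ≠ r) (A₀ : ValuationSubring Qb)
    (hA₀ : A₀.LiesOverPrime ℓ₀)
    {ℓ₁ : ℕ} (hℓ₁ : ℓ₁.Prime) (hℓ₁N : ℓ₁ ≠ N) (hℓ₁r : ℓ₁ ≠ r) (A₁ : ValuationSubring Qb)
    (hA₁ : A₁.LiesOverPrime ℓ₁) (h0 : D1 ∈ J1 ℓ₀ A₀) (h1 : D2 ∈ J1 ℓ₁ A₁) : False := by
  letI := ttModule N r
  obtain ⟨Ar, hAr⟩ := Fermat.Agent.H05.exists_liesOverPrime Qb h.hr
  obtain ⟨AN, hAN⟩ := Fermat.Agent.H05.exists_liesOverPrime Qb h.hN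
  obtain ⟨φ₀, hφ₀⟩ := h.redPlace hℓ₀ hℓ₀N hℓ₀r A₀ hA₀
  obtain ⟨φ₁, hφ₁⟩ := h.redPlace hℓ₁ hℓ₁N hℓ₁r A₁ hA₁
  have hN1 : N - 1 ≠ 0 := by have := h.hN.two_le; omega
  obtain ⟨a, m, hm, hcard⟩ := Nat.exists_eq_pow_mul_and_not_dvd hN1 r h.hr.ne_one
  have ha : a ≠ 0 := by
    rintro rfl
    rw [pow_zero, one_mul] at hcard
    exact hm (hcard ▸ hrN)
  have htor' : ((r : ℤ) ^ a * m) • C = 0 := by
    have e1 : ((N : ℤ) - 1) = (r : ℤ) ^ a * m := by
      have := congrArg (Nat.cast (R := ℤ)) hcard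
      rw [Nat.cast_sub h.hN.one_lt.le] at this
      push_cast at this
      exact this
    rw [← e1]
    exact htor
  have hcop : IsCoprime ((r : ℤ) ^ a) (m : ℤ) := by
    apply IsCoprime.pow_left
    exact (Nat.isCoprime_iff_coprime.mpr ((Nat.Prime.coprime_iff_not_dvd h.hr).mpr hm))
  obtain ⟨u, v, huv⟩ := hcop
  set c : JZero N := (v * m) • C with hc
  set c' : JZero N := (u * (r : ℤ) ^ a) • C with hc'
  have hcc : c + c' = C := by
    rw [hc, hc', ← add_zsmul, add_comm (v * (m : ℤ)), huv, one_zsmul]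
  have hHc : ∀ q : Idx N r, heckeOperatorBar N q.1 c = (1 + ((q.1 : ℕ) : ℤ)) • c := by
    intro q
    have hqN : (q.1 : ℕ) ≠ N := by
      rcases q.2 with h2 | h2
      · rw [h2]; exact h.hrN
      · rintro h3
        rw [h3] at h2
        exact h2 (Dvd.intro_left 6 rfl)
    rw [hc, map_zsmul, hC q.1 hqN, ← mul_zsmul', ← mul_zsmul]
  have hrc : (r ^ a) • c = 0 := by
    rw [hc, ← natCast_zsmul, ← mul_zsmul']
    have : ((r ^ a : ℕ) : ℤ) * (v * (m : ℤ)) = ((r : ℤ) ^ a * m) * v := by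
      push_cast; ring
    rw [mul_comm, this, mul_comm, mul_zsmul, htor', zsmul_zero]
  have hmc : m • c' = 0 := by
    rw [hc', ← natCast_zsmul, ← mul_zsmul']
    have : (m : ℤ) * (u * (r : ℤ) ^ a) = ((r : ℤ) ^ a * m) * u := by ring
    rw [mul_comm, this, mul_comm, mul_zsmul, htor', zsmul_zero]
  have hzero : c = 0 := by
    refine (h.mazurData Ar hAr).descent hφ₀ hφ₁ AN hAN D1 c c' hD1 h0 ?_
      ⟨a, fun t ht => eisenstein_killed c hHc a hrc t ht⟩
      ⟨m, ((Nat.Prime.coprime_iff_not_dvd h.hr).mpr hm).symm, hmc⟩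
    have : D1 - (c + c') = D2 := by
      rw [hcc, ← hD]
      abel
    rw [this]
    exact h1
  refine hnz (v * m) ?_ hzero
  intro hdvd
  have h2 : (r : ℤ) ∣ 1 := by
    rw [← huv]
    exact dvd_add ((dvd_pow_self _ ha).mul_left u) hdvd
  have h3 := Int.natAbs_dvd_natAbs.mpr h2
  simp only [Int.natAbs_natCast, Int.natAbs_one, Nat.dvd_one] at h3
  exact h.hr.ne_one h3

end MazurInputs

end Fermat.Agent.H12
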