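import Mathlib
import Fermat.Agent.H12.Assembly
import Fermat.Agent.H09.S12Red

set_option autoImplicit false
set_option linter.style.haveILetI false
set_option linter.unusedSectionVars false

/-!
# S15 and S12 from the inputs of the descent
-/

noncomputable section

namespace Fermat.Agent.H12

open ModularCurve AlgebraicCurve WeierstrassCurve WeierstrassCurve.Affine
  WeierstrassCurve.Affine.Point

local notation "Qb" => AlgebraicClosure ℚ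
local notation "Γq" => AlgebraicClosure ℚ ≃ₐ[ℚ] AlgebraicClosure ℚ

/-- The type I condition: the line `C` lies in the zero component at `A`. -/
def TypeI (W : WeierstrassCurve ℤ) (C : AddSubgroup ((W.map (Int.castRingHom ℚ))⁄Qb).Point)
    (A : ValuationSubring Qb) : Prop :=
  ∀ Q ∈ C, W.InZeroComponentAt A Q

/-- The output of the dictionary (M4). -/
def Dictionary (N : ℕ) [NeZero N] (J1 : ℕ → ℕ → ValuationSubring Qb → AddSubgroup (JZero N)) :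
    Prop :=
  ∀ (W : WeierstrassCurve ℤ), W.Δ ≠ 0 → (2 : ℤ) ∣ W.Δ → ¬ (2 : ℤ) ∣ W.c₄ →
  ∀ C : AddSubgroup ((W.map (Int.castRingHom ℚ))⁄Qb).Point, Nat.card C = N →
  (∀ (σ : Γq), ∀ Q ∈ C, σ • Q ∈ C) →
  ∃ D1 D2 : JZero N, (∀ σ : Γq, σ • D1 = D1) ∧ (∀ σ : Γq, σ • D2 = D2) ∧
    D1 - D2 = Fermat.Agent.M5.cc N ∧
    ∀ r : ℕ, r.Prime → r ∣ N - 1 → ∀ ℓ : ℕ, ℓ.Prime → ℓ ≠ N → (ℓ : ℤ) ∣ W.Δ →
      ¬ (ℓ : ℤ) ∣ W.c₄ → ∀ A : ValuationSubring Qb, A.LiesOverPrime ℓ →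
      (TypeI W C A → D1 ∈ J1 r ℓ A) ∧ (¬ TypeI W C A → D2 ∈ J1 r ℓ A)

/-- All the inputs at level `N`. -/
structure AllInputs (N : ℕ) [NeZero N]
    (J1 : ℕ → ℕ → ValuationSubring Qb → AddSubgroup (JZero N)) : Prop where
  inputs : ∀ r : ℕ, r.Prime → r ∣ N - 1 → MazurInputs N r (J1 r)
  dict : Dictionary N J1

variable {N : ℕ} [NeZero N] {J1 : ℕ → ℕ → ValuationSubring Qb → AddSubgroup (JZero N)}

theorem ne_of_dvd_sq_sub_one (hN : N.Prime) (h3 : N ≠ 3) {ℓ r : ℕ} (hℓ : ℓ.Prime)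
    (hd : N ∣ ℓ ^ 2 - 1) (hr : r.Prime) (hrN : r ∣ N - 1) : ℓ ≠ r ∧ ℓ ≠ N := by
  have hℓ2 := hℓ.two_le
  have hN2 := hN.two_le
  have e1 : ℓ ^ 2 - 1 = (ℓ - 1) * (ℓ + 1) := by
    obtain ⟨k, rfl⟩ := Nat.exists_eq_add_of_le hℓ2
    have h1 : 2 + k - 1 = k + 1 := by omega
    rw [h1]
    have : (2 + k) ^ 2 = (k + 1) * (2 + k + 1) + 1 := by ring
    rw [this]
    rfl
  rw [e1] at hd
  have hge : N ≤ ℓ + 1 := by
    rcases hN.dvd_mul.mp hd with h1 | h1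
    · have := Nat.le_of_dvd (by omega) h1
      omega
    · exact Nat.le_of_dvd (by omega) h1
  have hrle : r ≤ N - 1 := Nat.le_of_dvd (by omega) hrN
  constructor
  · rintro rfl
    have h4 : ℓ = N - 1 := by omega
    rcases hN.eq_two_or_odd' with h5 | ⟨k, h5⟩
    · omega
    · have h6 : Even ℓ := ⟨k, by omega⟩
      have h7 := (Nat.Prime.even_iff hℓ).mp h6
      omega
  · rintro rfl
    rcases hN.dvd_mul.mp hd with h1 | h1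
    · have := Nat.le_of_dvd (by omega) h1
      omega
    · have h8 : ℓ ∣ 1 := (Nat.dvd_add_right (dvd_refl ℓ)).mp h1
      have := Nat.le_of_dvd one_pos h8
      omega

/-- The key statement: the type cannot change. -/
theorem AllInputs.no_switch (h : AllInputs N J1) (hN : N.Prime) (h2 : N ≠ 2) (h3 : N ≠ 3)
    (h5 : N ≠ 5) (h7 : N ≠ 7) (h13 : N ≠ 13)
    (W : WeierstrassCurve ℤ) (hΔ : W.Δ ≠ 0)
    (h2Δ : (2 : ℤ) ∣ W.Δ) (h2c₄ : ¬ (2 : ℤ) ∣ W.c₄) (h3Δ : (3 : ℤ) ∣ W.Δ)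
    (h3c₄ : ¬ (3 : ℤ) ∣ W.c₄)
    (C : AddSubgroup ((W.map (Int.castRingHom ℚ))⁄Qb).Point) (hC : Nat.card C = N)
    (hCst : ∀ (σ : Γq), ∀ Q ∈ C, σ • Q ∈ C)
    {ℓ : ℕ} (hℓ : ℓ.Prime) (hd : N ∣ ℓ ^ 2 - 1) (hℓΔ : (ℓ : ℤ) ∣ W.Δ) (hℓc₄ : ¬ (ℓ : ℤ) ∣ W.c₄)
    (A : ValuationSubring Qb) (hA : A.LiesOverPrime ℓ) :
    ((∀ A : ValuationSubring Qb, A.LiesOverPrime 2 → TypeI W C A) →
      (∀ A : ValuationSubring Qb, A.LiesOverPrime 3 → TypeI W C A) → TypeI W C A) ∧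
    ((∀ A : ValuationSubring Qb, A.LiesOverPrime 2 → ¬ TypeI W C A) →
      (∀ A : ValuationSubring Qb, A.LiesOverPrime 3 → ¬ TypeI W C A) → ¬ TypeI W C A) := by
  obtain ⟨D1, D2, hD1, hD2, hD, hdict⟩ := h.dict W hΔ h2Δ h2c₄ C hC hCst
  obtain ⟨r, hr, hrN, hnz⟩ := Fermat.Agent.M5.exists_prime_cc hN h2 h3 h5 h7 h13
  obtain ⟨hℓr, hℓN⟩ := ne_of_dvd_sq_sub_one hN h3 hℓ hd hr hrN
  have hin := h.inputs r hr hrN
  -- the auxiliary place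
  obtain ⟨ℓ₀, hℓ₀, hℓ₀r, hℓ₀'⟩ : ∃ ℓ₀ : ℕ, ℓ₀.Prime ∧ ℓ₀ ≠ r ∧ (ℓ₀ = 2 ∨ ℓ₀ = 3) := by
    by_cases hr2 : r = 2
    · exact ⟨3, Nat.prime_three, by omega, Or.inr rfl⟩
    · exact ⟨2, Nat.prime_two, fun h => hr2 h.symm, Or.inl rfl⟩
  obtain ⟨A₀, hA₀⟩ := Fermat.Agent.H05.exists_liesOverPrime Qb hℓ₀
  have hℓ₀N : ℓ₀ ≠ N := by
    rcases hℓ₀' with rfl | rfl
    · exact fun h => h2 h.symm
    · exact fun h => h3 h.symm
  have hℓ₀Δ : (ℓ₀ : ℤ) ∣ W.Δ := by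
    rcases hℓ₀' with rfl | rfl
    · exact h2Δ
    · exact h3Δ
  have hℓ₀c : ¬ (ℓ₀ : ℤ) ∣ W.c₄ := by
    rcases hℓ₀' with rfl | rfl
    · exact h2c₄
    · exact h3c₄
  have hd0 := hdict r hr hrN ℓ₀ hℓ₀ hℓ₀N hℓ₀Δ hℓ₀c A₀ hA₀
  have hd1 := hdict r hr hrN ℓ hℓ hℓN hℓΔ hℓc₄ A hA
  constructor
  · intro hI2 hI3
    have hI0 : TypeI W C A₀ := by
      rcases hℓ₀' with rfl | rfl
      · exact hI2 A₀ hA₀
      · exact hI3 A₀ hA₀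
    by_contra hcon
    exact hin.no_switch_aux hrN (Fermat.Agent.M5.cc N)
      (fun q hq => Fermat.Agent.M5.hecke_cc hN q hq) (Fermat.Agent.M5.torsion_cc hN) hnz D1 D2
      hD1 hD hℓ₀ hℓ₀N hℓ₀r A₀ hA₀ hℓ hℓN hℓr A hA (hd0.1 hI0) (hd1.2 hcon)
  · intro hI2 hI3
    have hI0 : ¬ TypeI W C A₀ := by
      rcases hℓ₀' with rfl | rfl
      · exact hI2 A₀ hA₀
      · exact hI3 A₀ hA₀
    intro hcon
    refine hin.no_switch_aux hrN (-Fermat.Agent.M5.cc N) (fun q hq => ?_) ?_ (fun m hm h0 => ?_)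
      D2 D1 hD2 ?_ hℓ₀ hℓ₀N hℓ₀r A₀ hA₀ hℓ hℓN hℓr A hA (hd0.2 hI0) (hd1.1 hcon)
    · rw [map_neg, Fermat.Agent.M5.hecke_cc hN q hq, zsmul_neg]
    · rw [zsmul_neg, Fermat.Agent.M5.torsion_cc hN, _root_.neg_zero]
    · rw [zsmul_neg, neg_eq_zero] at h0
      exact hnz m hm h0
    · rw [← hD]
      abel

/-- **S15** from the inputs. -/
theorem AllInputs.s15 (h : AllInputs N J1) (hN : N.Prime)
    (hN' : N ∉ ({2, 3, 5, 7, 13} : Finset ℕ))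
    (W : WeierstrassCurve ℤ) (hΔ : W.Δ ≠ 0)
    (Q : ((W.map (Int.castRingHom ℚ))⁄Qb).Point)
    (hQfix : ∀ σ : Γq, σ • Q = Q) (hQord : addOrderOf Q = N)
    (h2Δ : (2 : ℤ) ∣ W.Δ) (h2c₄ : ¬ (2 : ℤ) ∣ W.c₄)
    (h2 : ∀ A : ValuationSubring Qb, A.LiesOverPrime 2 → ¬ W.InZeroComponentAt A Q)
    (h3Δ : (3 : ℤ) ∣ W.Δ) (h3c₄ : ¬ (3 : ℤ) ∣ W.c₄)
    (h3 : ∀ A : ValuationSubring Qb, A.LiesOverPrime 3 → ¬ W.InZeroComponentAt A Q)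
    {ℓ : ℕ} (hℓ : ℓ.Prime) (hℓp : ℓ ≠ N) (hℓΔ : (ℓ : ℤ) ∣ W.Δ) (hℓc₄ : ¬ (ℓ : ℤ) ∣ W.c₄)
    (A : ValuationSubring Qb) (hA : A.LiesOverPrime ℓ) :
    ¬ W.InZeroComponentAt A Q := by
  intro hin
  simp only [Finset.mem_insert, Finset.mem_singleton, not_or] at hN'
  obtain ⟨n2, n3, n5, n7, n13⟩ := hN'
  have hd := Fermat.Agent.H09.dvd_of_rational_inZeroComponentAt hN hΔ hQfix hQord hℓ hℓp hℓΔ
    hℓc₄ hA hin
  let C : AddSubgroup ((W.map (Int.castRingHom ℚ))⁄Qb).Point := AddSubgroup.zmultiples Q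
  have hC : Nat.card C = N := by rw [Nat.card_zmultiples, hQord]
  have hCst : ∀ (σ : Γq), ∀ P ∈ C, σ • P ∈ C := by
    rintro σ P ⟨n, rfl⟩
    refine ⟨n, ?_⟩
    have h1 := map_zsmul (DistribSMul.toAddMonoidHom ((W.map (Int.castRingHom ℚ))⁄Qb).Point σ) n Q
    rw [DistribSMul.toAddMonoidHom_apply, DistribSMul.toAddMonoidHom_apply, hQfix σ] at h1
    exact h1.symm
  have hkey := (h.no_switch hN n2 n3 n5 n7 n13 W hΔ h2Δ h2c₄ h3Δ h3c₄ C hC hCst hℓ hd hℓΔ hℓc₄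
    A hA).2 (fun A' hA' hI => h2 A' hA' (hI Q (AddSubgroup.mem_zmultiples Q)))
    (fun A' hA' hI => h3 A' hA' (hI Q (AddSubgroup.mem_zmultiples Q)))
  apply hkey
  obtain ⟨-, r, t, α, β, hnd⟩ := Fermat.Agent.H09.exists_nodeData_int hΔ hℓ hℓΔ hℓc₄ hA
  have hQ0 : Q ∈ Fermat.Agent.H09.nodeE0Sub hnd :=
    (Fermat.Agent.H09.nodeE0_iff_nonsingularRed hnd).mpr
      (Fermat.Agent.H09.inZeroComponentAt_iff.mp hin)
  rintro P ⟨n, rfl⟩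
  have hP : n • Q ∈ Fermat.Agent.H09.nodeE0Sub hnd := zsmul_mem hQ0 n
  exact Fermat.Agent.H09.inZeroComponentAt_iff.mpr
    ((Fermat.Agent.H09.nodeE0_iff_nonsingularRed hnd).mp hP)

/-- **S12** from the inputs. -/
theorem s12_of (P : FreyPackage) (hp : 17 ≤ P.p)
    (hall : haveI : NeZero P.p := ⟨P.pp.ne_zero⟩
      ∃ J1 : ℕ → ℕ → ValuationSubring Qb → AddSubgroup (JZero P.p), AllInputs P.p J1) :
    ¬ HasGaloisStableCofixedLine (K := Qb) ℚ P.freyCurve P.p := by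
  haveI : NeZero P.p := ⟨P.pp.ne_zero⟩
  obtain ⟨J1, h⟩ := hall
  refine Fermat.Agent.H09.frey_no_cofixed_of P hp ?_
  intro C hC h3Δ hI2 hI3 ℓ hℓ hℓp hℓΔ hℓc₄ A hA
  have hΔ0 : P.freyCurveInt.Δ ≠ 0 := Fermat.Agent.H26.freyCurveInt_Δ_ne_zero P
  have hss : P.freyCurveInt.IsSemistableModel :=
    Fermat.Agent.H26.freyCurveInt_isSemistableModel P
  have h2Δ : (2 : ℤ) ∣ P.freyCurveInt.Δ := Fermat.Agent.H26.two_dvd_freyCurveInt_Δ P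
  by_contra hcon
  have hd := hC.dvd_of_not_inZeroComponentAt hΔ0 P.pp (by omega) hℓ hℓp hℓΔ hℓc₄ hA hcon
  have hkey := (h.no_switch P.pp (by omega) (by omega) (by omega) (by omega) (by omega)
    P.freyCurveInt hΔ0 h2Δ (hss 2 Nat.prime_two h2Δ) h3Δ (hss 3 Nat.prime_three h3Δ) C hC.card
    hC.stable hℓ hd hℓΔ hℓc₄ A hA).1 hI2 hI3
  exact hcon hkey

end Fermat.Agent.H12
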