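import Mathlib
import Fermat.Agent.FF.T8
import Fermat.Agent.H18_FixedClasses
import Fermat.Agent.H28.ModPlace
import Fermat.Agent.H12.RedDiv
import Fermat.Agent.H12.Infinite
import Fermat.Agent.M5.Main

set_option autoImplicit false
set_option linter.style.haveILetI false
set_option linter.unusedSectionVars false

/-!
# Finiteness of the set of Frobenius-fixed classes modulo the kernel of reduction
-/

noncomputable section

namespace Fermat.Agent.H12

open AlgebraicCurve ModularCurve IsLocalRing Fermat.Agent.H28 Fermat.Agent.H18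

local notation "Qb" => AlgebraicClosure ℚ
local notation "Γq" => AlgebraicClosure ℚ ≃ₐ[ℚ] AlgebraicClosure ℚ

section Abs

variable {K F : Type*} [Field K] [Field F] [Algebra K F] [IsAlgClosed K] [FF.FunField K F]

theorem exists_effAt (P₀ : Place K F) (c : Pic0 K F) :
    ∃ E, FixedClasses.EffAt P₀ c (genusFF K F) E := by
  obtain ⟨D, rfl⟩ := Pic0.mk_surjective c
  have hdeg : Divisor.degree ((D : Divisor K F) +
      Finsupp.single P₀ ((genusFF K F : ℕ) : ℤ)) = genusFF K F := by
    rw [map_add, Divisor.degree_single, Divisor.mem_degZero.mp D.2, FF.deg_eq_one]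
    push_cast
    ring
  obtain ⟨f, hf, h⟩ := FF.exists_effective (K := K) (F := F) (D := (D : Divisor K F) +
      Finsupp.single P₀ ((genusFF K F : ℕ) : ℤ)) hdeg.ge
  have hp : FF.div f ∈ Divisor.principal (K := K) (F := F) :=
    ⟨f, hf, fun v => by rw [FF.div_apply]⟩
  refine ⟨_, h, ?_, ?_⟩
  · have h1 : (D : Divisor K F) + Finsupp.single P₀ ((genusFF K F : ℕ) : ℤ) + FF.div f -
        Finsupp.single P₀ ((genusFF K F : ℕ) : ℤ) = (D : Divisor K F) + FF.div f := by abel
    rw [h1]
    exact add_mem D.2 (Divisor.mem_degZero.mpr (FixedClasses.degree_principal hp))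
  · rw [FixedClasses.mk_eq_mk_iff]
    have h1 : (D : Divisor K F) - ((D : Divisor K F) +
        Finsupp.single P₀ ((genusFF K F : ℕ) : ℤ) + FF.div f -
        Finsupp.single P₀ ((genusFF K F : ℕ) : ℤ)) = - FF.div f := by abel
    rw [h1]
    exact neg_mem hp

end Abs

section Two

variable {L : Type*} [Field L] [IsAlgClosed L] {A : ValuationSubring L} {F Fb : Type*} [Field F]
  [Field Fb] [Algebra L F] [Algebra (ResidueField A) Fb] {D : RedData A F Fb} (C : TwoCharts D)

theorem mapDomain_smul {g : SemilinearAut L F} {gb : Fb ≃+* Fb}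
    {σb : ResidueField A ≃+* ResidueField A} (h : C.RedAut g gb σb) (E : Divisor L F) :
    (Finsupp.mapDomain C.redPl (g • E) : Divisor (ResidueField A) Fb) =
      h.gB • Finsupp.mapDomain C.redPl E := by
  induction E using Finsupp.induction_linear with
  | zero => rw [smul_zero, Finsupp.mapDomain_zero, smul_zero]
  | add a b ha hb => rw [smul_add, Finsupp.mapDomain_add, Finsupp.mapDomain_add, ha, hb, smul_add]
  | single P n =>
    rw [SemilinearAut.smul_single, Finsupp.mapDomain_single, Finsupp.mapDomain_single,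
      SemilinearAut.smul_single, h.redPl_smul]

theorem finite_fixed [IsAlgClosed (ResidueField A)] [FF.FunField (ResidueField A) Fb]
    (hdeg : ∀ P : Place L F, P.deg = 1)
    {g : SemilinearAut L F} {gb : Fb ≃+* Fb}
    {σb : ResidueField A ≃+* ResidueField A} (h : C.RedAut g gb σb) {P₀ : Place L F}
    (hP₀ : g • P₀ = P₀) (htr : Transcendental (ResidueField A) (D.ρ C.t₁))
    (hfix : gb (D.ρ C.t₁) = D.ρ C.t₁)
    (hK : ∀ n : ℕ, 0 < n → {a : ResidueField A | (σb ^ n) a = a}.Finite) :
    Set.Finite {y : Pic0 L F ⧸ C.kernel | ∃ x : Pic0 L F, QuotientAddGroup.mk x = y ∧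
      g • x - x ∈ C.kernel} := by
  classical
  have hdegb : ∀ Q : Place (ResidueField A) Fb, Q.deg = 1 := fun Q => FF.deg_eq_one Q
  have hfin : ({c : Pic0 (ResidueField A) Fb | h.gB • c = c}).Finite := by
    refine FixedClasses.finite_fixed_classes hdegb h.gB (P₀ := C.redPl P₀) ?_ htr hfix ?_
      (genusFF (ResidueField A) Fb) (fun c hc => hc) (fun c _ => exists_effAt _ c)
    · rw [← h.redPl_smul, hP₀]
    · intro n hn
      have h1 : SemilinearAut.baseAut (h.gB ^ n) = σb ^ n := by
        clear hn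
        induction n with
        | zero => rfl
        | succ n ih => rw [pow_succ, SemilinearAut.baseAut_mul, ih, pow_succ]; rfl
      rw [h1]
      exact hK n hn
  have hmd : ∀ E : Divisor.degZero (K := L) (F := F),
      (Finsupp.mapDomain C.redPl (E : Divisor L F) : Divisor (ResidueField A) Fb) ∈
        Divisor.degZero (K := ResidueField A) (F := Fb) := by
    intro E
    rw [Divisor.mem_degZero, degree_mapDomain' C.redPl (fun P => by rw [C.deg_redPl, hdeg])]
    exact Divisor.mem_degZero.mp E.2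
  have hch : ∀ y : {y : Pic0 L F ⧸ C.kernel | ∃ x : Pic0 L F, QuotientAddGroup.mk x = y ∧
      g • x - x ∈ C.kernel}, ∃ E : Divisor.degZero (K := L) (F := F),
        (QuotientAddGroup.mk (Pic0.mk E : Pic0 L F) : Pic0 L F ⧸ C.kernel) = y.1 ∧
        (g • (E : Divisor L F) - (E : Divisor L F)) ∈ C.KDiv := by
    rintro ⟨y, x, hx, hgx⟩
    obtain ⟨E, rfl⟩ := Pic0.mk_surjective x
    refine ⟨E, hx, ?_⟩
    have h1 : g • Pic0.mk E - Pic0.mk E = Pic0.mk (SemilinearAut.degZeroSMulHom g E - E) := rfl
    rw [h1, C.mk_mem_kernel] at hgx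
    exact hgx
  choose E hE1 hE2 using hch
  haveI := hfin.to_subtype
  refine Set.finite_coe_iff.mp (Finite.of_injective
    (β := {c : Pic0 (ResidueField A) Fb | h.gB • c = c})
    (fun y => ⟨Pic0.mk ⟨_, hmd (E y)⟩, ?_⟩) ?_)
  · rw [Set.mem_ofPred_eq, SemilinearAut.pic0_smul_mk, FixedClasses.mk_eq_mk_iff]
    have h2 := C.mem_KDiv_iff.mp (hE2 y)
    rw [sub_eq_add_neg, Finsupp.mapDomain_add, mapDomain_smul C h] at h2
    have h3 : (Finsupp.mapDomain C.redPl (-(E y : Divisor L F)) :
        Divisor (ResidueField A) Fb) = - Finsupp.mapDomain C.redPl (E y : Divisor L F) :=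
      map_neg (Finsupp.mapDomain.addMonoidHom C.redPl) _
    rw [h3, ← sub_eq_add_neg] at h2
    exact h2
  · intro y y' hyy
    have h2 := congrArg Subtype.val hyy
    simp only at h2
    rw [FixedClasses.mk_eq_mk_iff] at h2
    have h3 : (E y : Divisor L F) - (E y' : Divisor L F) ∈ C.KDiv := by
      rw [C.mem_KDiv_iff, sub_eq_add_neg, Finsupp.mapDomain_add]
      have h4 : (Finsupp.mapDomain C.redPl (-(E y' : Divisor L F)) :
          Divisor (ResidueField A) Fb) = - Finsupp.mapDomain C.redPl (E y' : Divisor L F) :=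
        map_neg (Finsupp.mapDomain.addMonoidHom C.redPl) _
      rw [h4, ← sub_eq_add_neg]
      exact h2
    have h4 : Pic0.mk (E y - E y') ∈ C.kernel := C.mk_mem_kernel.mpr h3
    apply Subtype.ext
    rw [← hE1 y, ← hE1 y', QuotientAddGroup.eq_iff_sub_mem]
    exact h4

end Two

section Mod

variable {M : ℕ} [NeZero M] {A : ValuationSubring Qb}

theorem finite_pow_eq {k : Type*} [Field k] {q : ℕ} (hq : 1 < q) : {a : k | a ^ q = a}.Finite := by
  classical
  have hp : (Polynomial.X ^ q - Polynomial.X : Polynomial k) ≠ 0 :=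
    FiniteField.X_pow_card_sub_X_ne_zero k hq
  refine (Polynomial.X ^ q - Polynomial.X : Polynomial k).roots.toFinset.finite_toSet.subset ?_
  intro a ha
  rw [Finset.mem_coe, Multiset.mem_toFinset, Polynomial.mem_roots hp, Polynomial.IsRoot.def]
  simp only [Polynomial.eval_sub, Polynomial.eval_pow, Polynomial.eval_X]
  rw [Set.mem_ofPred_eq] at ha
  rw [ha, sub_self]

theorem iter_pow {k : Type*} [Field k] (σ : k ≃+* k) {q : ℕ} (h : ∀ x, σ x = x ^ q) (n : ℕ)
    (x : k) : (σ ^ n) x = x ^ (q ^ n) := by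
  induction n generalizing x with
  | zero => rw [pow_zero, pow_zero, pow_one]; rfl
  | succ n ih =>
    rw [pow_succ]
    change (σ ^ n) (σ x) = _
    rw [ih, h, ← pow_mul, pow_succ']

theorem finite_fixed_mod {q : ℕ} (hq : 1 < q) (h₁ : (modRed M A).IsChart (jZ M A))
    (h₂ : (modRed M A).IsChart (jinvZ M A)) {σ : Γq} (hσ : σ ∈ A.decompositionSubgroup ℚ)
    (hres : ∀ x : ResidueField A, decRes hσ x = x ^ q) :
    Finite (fixedClasses (modCharts M A h₁ h₂).kernel σ) := by
  apply finite_fixedClasses_of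
  haveI : IsAlgClosed (ResidueField A) := isAlgClosed_kk A
  have h := finite_fixed (modCharts M A h₁ h₂) (fun P => H05.deg_eq_one_bc Qb M P)
    (modRedAut h₁ h₂ hσ) (P₀ := M5.c₁ M) (M5.smul_c₁ σ) ?_ ?_ ?_
  · exact h
  · change Transcendental (ResidueField A) ((modRed M A).ρ (jZ M A))
    have h1 := H05.transcendental_j (ResidueField A)
    rw [← ρ_jZ M A] at h1
    intro h2
    exact h1 (h2.algHom (modularFunctionFieldFullC (ResidueField A) M).val)
  · apply Subtype.ext
    rw [coe_fullAut]
    change coeffMap _ (((modRed M A).ρ (jZ M A) : modularFunctionFieldFullC (ResidueField A) M) :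
      LaurentSeries (ResidueField A)) = (((modRed M A).ρ (jZ M A) :
        modularFunctionFieldFullC (ResidueField A) M) : LaurentSeries (ResidueField A))
    rw [ρ_jZ M A, coeffMap_jqModC]
  · intro n hn
    have h1 : 1 < q ^ n := Nat.one_lt_pow hn.ne' hq
    refine (finite_pow_eq (k := ResidueField A) h1).subset ?_
    intro a ha
    rw [Set.mem_ofPred_eq] at ha ⊢
    rw [← iter_pow _ hres n a]
    exact ha

theorem fixedClasses_comap {J J' : Type*} [AddCommGroup J] [AddCommGroup J']
    [DistribMulAction Γq J] [DistribMulAction Γq J'] (f : J →+ J')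
    (hf : ∀ (σ : Γq) x, f (σ • x) = σ • f x) (K : AddSubgroup J') (σ : Γq)
    [hfin : Finite (fixedClasses K σ)] : Finite (fixedClasses (K.comap f) σ) := by
  classical
  let g : (J ⧸ K.comap f) →+ (J' ⧸ K) := QuotientAddGroup.map _ _ f le_rfl
  have hg : Function.Injective g := by
    rw [injective_iff_map_eq_zero]
    intro x hx
    obtain ⟨x, rfl⟩ := QuotientAddGroup.mk_surjective x
    rw [QuotientAddGroup.map_mk, QuotientAddGroup.eq_zero_iff] at hx
    rw [QuotientAddGroup.eq_zero_iff]
    exact hx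
  have hmem : ∀ y : fixedClasses (K.comap f) σ, g y ∈ fixedClasses K σ := by
    rintro ⟨y, hy⟩
    obtain ⟨x, rfl, hx⟩ := (mem_fixedClasses _ _ _).mp hy
    rw [mem_fixedClasses]
    refine ⟨f x, rfl, ?_⟩
    rw [← hf, ← map_sub]
    exact hx
  refine Finite.of_injective (β := fixedClasses K σ) (fun y => ⟨g y, hmem y⟩) ?_
  intro y y' h
  exact Subtype.ext (hg (congrArg Subtype.val h))

end Mod

end Fermat.Agent.H12
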