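import Mathlib
import Fermat.Agent.H12.RedDiv

set_option autoImplicit false
set_option linter.style.haveILetI false
set_option linter.unusedSectionVars false
set_option maxSynthPendingDepth 3
set_option synthInstance.maxHeartbeats 400000

/-!
# Hecke correspondences are compatible with the reduction
-/

noncomputable section

namespace Fermat.Agent.H12

open AlgebraicCurve ModularCurve IntermediateField Fermat.Agent.H05 Fermat.Agent.Q

local notation "kk" => IsLocalRing.ResidueField
local notation "Qb" => AlgebraicClosure ℚ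

/-- Reduction of norms along homomorphisms. -/
theorem red_normAlong {K : Type*} [Field K] {A : ValuationSubring K} {E F Eb Fb : Type*}
    [Field E] [Field F] [Field Eb] [Field Fb] [Algebra K E] [Algebra K F] [Algebra (kk A) Eb]
    [Algebra (kk A) Fb] (φ : E →ₐ[K] F) (φb : Eb →ₐ[kk A] Fb) (n : ℕ) (hn : 0 < n)
    (hF : finrankAlong K φ = n) (hFb : finrankAlong (kk A) φb = n) (f : F →+* LaurentSeries K)
    (fb : Fb →+* LaurentSeries (kk A))
    (hscale : ∀ x : E, x ≠ 0 → ∃ d : K, d ≠ 0 ∧ ∃ v : LaurentSeries (kk A), v ≠ 0 ∧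
      Red A (HahnSeries.C d * f (φ x)) v)
    (hEb : ∀ (x : E) (d : K) v, Red A (HahnSeries.C d * f (φ x)) v → ∃ w : Eb, fb (φb w) = v)
    (hlift : ∀ v : Fb, ∃ z : F, Red A (f z) (fb v))
    {z : F} {u : Fb} (hz : Red A (f z) (fb u)) :
    Red A (f (φ (normAlong φ z))) (fb (φb (normAlong φb u))) := by
  letI := algebraAlong φ
  letI := algebraAlong φb
  exact red_norm (E := E) (F := F) (Eb := Eb) (Fb := Fb) n hn hF hFb f fb hscale hEb hlift hz

section Mod

variable {M q : ℕ} [NeZero M] [hq : Fact q.Prime] {A : ValuationSubring Qb}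

attribute [local instance] isAlgClosed_kk

theorem finrank_alphaBar (hqM : ¬ q ∣ M) : finrankAlong Qb (heckeAlphaBar Qb M q) = q + 1 :=
  Igusa.finrank_alpha Qb M q hqM

/-- norms along the first degeneracy map reduce to norms. -/
theorem red_norm_alpha {ℓ : ℕ} (hℓ : ℓ.Prime) (hA : A.LiesOverPrime ℓ)
    (hMq : ((M * q : ℕ) : kk A) ≠ 0) (hqM : ¬ q ∣ M)
    {z : modularFunctionFieldBar (M * q)} {u : modularFunctionFieldFullC (kk A) (M * q)}
    (hz : Red A (z : LaurentSeries Qb) (u : LaurentSeries (kk A))) :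
    Red A ((normAlong (heckeAlphaBar Qb M q) z : modularFunctionFieldBar M) : LaurentSeries Qb)
      ((normAlong (Q.incl (kk A) M q) u : modularFunctionFieldFullC (kk A) M) :
        LaurentSeries (kk A)) := by
  have hM : (M : kk A) ≠ 0 := Igusa.natCast_ne_zero_of_dvd (dvd_mul_right M q) hMq
  have h := red_normAlong (A := A) (heckeAlphaBar Qb M q) (Q.incl (kk A) M q) (q + 1)
    (Nat.succ_pos q) (finrank_alphaBar hqM) (finrank_alphaC (kk A) M q hMq hqM)
    (modularFunctionFieldBar (M * q)).val.toRingHom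
    (modularFunctionFieldFullC (kk A) (M * q)).val.toRingHom ?_ ?_ ?_ (z := z) (u := u) hz
  · change Red A ((heckeAlphaBar Qb M q (normAlong (heckeAlphaBar Qb M q) z) :
      modularFunctionFieldBar (M * q)) : LaurentSeries Qb)
      ((Q.incl (kk A) M q (normAlong (Q.incl (kk A) M q) u) :
        modularFunctionFieldFullC (kk A) (M * q)) : LaurentSeries (kk A)) at h
    rwa [coe_heckeAlphaBar, Q.coe_incl] at h
  · intro x hx
    obtain ⟨c, v, hc, hv, hred⟩ := exists_scale_bar hℓ hA hM hx
    refine ⟨c, hc, v, fun h => hv (Subtype.ext h), ?_⟩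
    change Red A (HahnSeries.C c * ((heckeAlphaBar Qb M q x : modularFunctionFieldBar (M * q)) :
      LaurentSeries Qb)) v
    rw [coe_heckeAlphaBar, ← algebraMap_eq_C]
    exact hred
  · intro x d v hv
    change Red A (HahnSeries.C d * ((heckeAlphaBar Qb M q x : modularFunctionFieldBar (M * q)) :
      LaurentSeries Qb)) v at hv
    rw [coe_heckeAlphaBar] at hv
    have hmem : HahnSeries.C d * (x : LaurentSeries Qb) ∈ modularFunctionFieldFullC Qb M := by
      rw [← algebraMap_eq_C]
      exact mul_mem ((modularFunctionFieldFullC Qb M).algebraMap_mem d) (mem_full_of_bar x.2)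
    exact ⟨⟨v, red_mem_full hℓ hA hM hmem hv⟩, Q.coe_incl (kk A) M q
      (⟨v, red_mem_full hℓ hA hM hmem hv⟩ : modularFunctionFieldFullC (kk A) M)⟩
  · intro v
    obtain ⟨z, hz, hred⟩ := exists_lift (K := Qb) (A := A) (M * q) v.2
    exact ⟨⟨z, mem_bar_of_full hz⟩, hred⟩

/-- The Atkin–Lehner involution on the special fibre. -/
def WBar (A : ValuationSubring Qb) (M q : ℕ) [NeZero M] [Fact q.Prime]
    (hqM : Nat.Coprime q M) : Prop :=
  ∃ wb : modularFunctionFieldFullC (kk A) (M * q) ≃ₐ[kk A]
      modularFunctionFieldFullC (kk A) (M * q),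
    (∀ (z : modularFunctionFieldFullC Qb (M * q)) (u : modularFunctionFieldFullC (kk A) (M * q)),
      Red A (z : LaurentSeries Qb) (u : LaurentSeries (kk A)) →
      Red A (wQ Qb hqM z : LaurentSeries Qb) (wb u : LaurentSeries (kk A))) ∧
    ∀ x : modularFunctionFieldFullC (kk A) M,
      (wb (Q.incl (kk A) M q x) : LaurentSeries (kk A)) =
        qExpand (kk A) q (x : LaurentSeries (kk A))

variable {hqM : Nat.Coprime q M}

theorem wb_incl {wb : modularFunctionFieldFullC (kk A) (M * q) ≃ₐ[kk A]
      modularFunctionFieldFullC (kk A) (M * q)}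
    (h : ∀ x : modularFunctionFieldFullC (kk A) M,
      (wb (Q.incl (kk A) M q x) : LaurentSeries (kk A)) =
        qExpand (kk A) q (x : LaurentSeries (kk A))) (x : modularFunctionFieldFullC (kk A) M) :
    wb (Q.incl (kk A) M q x) = betaC (kk A) M q x := Subtype.ext (h x)

theorem finrank_betaC (hw : WBar A M q hqM) (hMq : ((M * q : ℕ) : kk A) ≠ 0) :
    finrankAlong (kk A) (betaC (kk A) M q) = q + 1 := by
  obtain ⟨wb, -, h⟩ := hw
  have hqM' : ¬ q ∣ M := hq.out.coprime_iff_not_dvd.mp hqM
  rw [← finrank_alphaC (kk A) M q hMq hqM']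
  exact (Igusa.finrankAlong_comp_equiv _ _ wb (wb_incl h)).symm

theorem separable_betaC (hw : WBar A M q hqM) (hMq : ((M * q : ℕ) : kk A) ≠ 0) :
    SeparableAlong (kk A) (betaC (kk A) M q) := by
  obtain ⟨wb, -, h⟩ := hw
  exact separableAlong_comp_equiv _ _ wb (wb_incl h) (separable_alphaC (kk A) M q hMq)

theorem fi_betaC (hw : WBar A M q hqM) (hMq : ((M * q : ℕ) : kk A) ≠ 0) :
    FundamentalIdentityAlong (kk A) (betaC (kk A) M q) (integral_betaC (kk A) M q) :=
  fundamentalIdentityAlong_of_sep _ _ (finite_betaC (kk A) M q) (separable_betaC hw hMq)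

theorem nf_alphaC (hMq : ((M * q : ℕ) : kk A) ≠ 0) :
    NormFormulaAlong (kk A) (Q.incl (kk A) M q) (finite_alphaC (kk A) M q) :=
  normFormulaAlong_of_sep _ _ (separable_alphaC (kk A) M q hMq)

theorem fi_alphaC (hMq : ((M * q : ℕ) : kk A) ≠ 0) :
    FundamentalIdentityAlong (kk A) (Q.incl (kk A) M q) (integral_alphaC (kk A) M q) :=
  fundamentalIdentityAlong_of_sep _ _ (finite_alphaC (kk A) M q)
    (separable_alphaC (kk A) M q hMq)

/-- The Hecke correspondence `T_q` is good at level `M` prime to `q ℓ`. -/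
theorem goodCorr_hecke {ℓ : ℕ} (hℓ : ℓ.Prime) (hA : A.LiesOverPrime ℓ)
    (hMq : ((M * q : ℕ) : kk A) ≠ 0) (hw : WBar A M q hqM) :
    GoodCorr A M
      (Divisor.correspondence (heckeBetaBar Qb M q) (heckeAlphaBar Qb M q)
        (heckeBetaBarIntegral Qb M q) (heckeAlphaBarIntegral Qb M q))
      (Divisor.correspondence (betaC (kk A) M q) (Q.incl (kk A) M q) (integral_betaC (kk A) M q)
        (integral_alphaC (kk A) M q)) := by
  have hqM' : ¬ q ∣ M := hq.out.coprime_iff_not_dvd.mp hqM
  refine ⟨?_, ?_, ?_, ?_⟩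
  · intro z u hu hzu
    have huv : (u : LaurentSeries (kk A)) ≠ 0 := fun h => hu (Subtype.ext h)
    have hz0 : z ≠ 0 := by
      intro h
      apply hzu.ne_zero huv
      rw [h]; rfl
    have h1 : Red A ((heckeBetaBar Qb M q z : modularFunctionFieldBar (M * q)) : LaurentSeries Qb)
        ((betaC (kk A) M q u : modularFunctionFieldFullC (kk A) (M * q)) :
          LaurentSeries (kk A)) := by
      rw [coe_heckeBetaBar, coe_betaC]
      exact hzu.qExpand q
    have hβz : heckeBetaBar Qb M q z ≠ 0 :=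
      (map_ne_zero_iff _ (heckeBetaBar Qb M q).toRingHom.injective).mpr hz0
    have hβu : betaC (kk A) M q u ≠ 0 :=
      (map_ne_zero_iff _ (betaC (kk A) M q).toRingHom.injective).mpr hu
    refine ⟨normAlong (heckeAlphaBar Qb M q) (heckeBetaBar Qb M q z),
      normAlong (Q.incl (kk A) M q) (betaC (kk A) M q u), ?_, red_norm_alpha hℓ hA hMq hqM' h1,
      ?_, ?_⟩
    · exact normAlong_ne_zero' _ (finite_alphaC (kk A) M q) hβu
    · intro D hD P
      rw [Divisor.correspondence_apply]
      exact pushforwardAlong_eq_ord _ _ (finiteAlong_alpha Qb M q) (normFormulaAlong_of _ _) _ _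
        hβz (fun W => pullbackAlong_eq_ord _ _ D z hD W) P
    · intro D hD P
      rw [Divisor.correspondence_apply]
      exact pushforwardAlong_eq_ord _ _ (finite_alphaC (kk A) M q) (nf_alphaC hMq) _ _
        hβu (fun W => pullbackAlong_eq_ord _ _ D u hD W) P
  · intro P R
    rw [Divisor.correspondence_apply]
    exact pushforwardAlong_nonneg _ _ (pullbackAlong_nonneg _ _ (single_nonneg P)) R
  · refine ⟨((q + 1 : ℕ) : ℤ), fun P => ?_, fun P => ?_⟩
    · rw [Divisor.degree_correspondence _ _ _ _ (fundamentalIdentityAlong_of _ _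
        (finiteAlong_beta Qb M q)), Igusa.finrank_beta Qb M q hqM', Divisor.degree_single,
        deg_eq_one_bc Qb M P, Nat.cast_one, mul_one, mul_one]
    · rw [Divisor.degree_correspondence _ _ _ _ (fi_betaC hw hMq), finrank_betaC hw hMq,
        Divisor.degree_single, FF.deg_eq_one P, Nat.cast_one, mul_one, mul_one]
  · intro R
    exact finite_corr _ _ (integral_betaC (kk A) M q) (integral_alphaC (kk A) M q) R

end Mod

end Fermat.Agent.H12
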