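import Mathlib
import Fermat.Agent.H12.HeckeStab
import Fermat.Agent.H05.HeckeComm
import Fermat.Agent.Q.Galois

set_option autoImplicit false
set_option linter.style.haveILetI false
set_option linter.unusedSectionVars false
set_option maxSynthPendingDepth 3
set_option synthInstance.maxHeartbeats 400000

/-!
# The Hecke operators preserve the kernel of the reduction
-/

noncomputable section

namespace Fermat.Agent.H12

open AlgebraicCurve ModularCurve IntermediateField Fermat.Agent.H05 Fermat.Agent.Q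

local notation "kk" => IsLocalRing.ResidueField
local notation "Qb" => AlgebraicClosure ℚ

section Mod

attribute [local instance] isAlgClosed_kk

variable {N s : ℕ} [NeZero N] [hs : Fact s.Prime] {A : ValuationSubring Qb}
  {hsN : Nat.Coprime s N}

theorem wBar_alpha (x : modularFunctionFieldBar N) :
    wBar N s hsN (heckeAlphaBar Qb N s x) = heckeBetaBar Qb N s x := by
  apply Subtype.ext
  rw [coe_wBar, coe_heckeBetaBar]
  have h3 : (⟨(heckeAlphaBar Qb N s x : LaurentSeries Qb), mem_full_of_bar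
      (heckeAlphaBar Qb N s x).2⟩ : modularFunctionFieldFullC Qb (N * s)) =
      ⟨(x : LaurentSeries Qb), Q.mem_of_mem Qb (x : LaurentSeries Qb)
        (mem_full_of_bar x.2)⟩ :=
    Subtype.ext (by rw [coe_heckeAlphaBar])
  rw [h3]
  exact Q.coe_wQ_of_mem Qb hsN (x : LaurentSeries Qb) (mem_full_of_bar x.2)

/-- the correspondence `α^* α_* w^*` at level `N s`. -/
def corrS (N s : ℕ) [NeZero N] [Fact s.Prime] (hsN : Nat.Coprime s N) :
    Divisor Qb (modularFunctionFieldBar (N * s)) →+ Divisor Qb (modularFunctionFieldBar (N * s)) :=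
  corr' (heckeAlphaBar Qb N s) (wBar N s hsN : modularFunctionFieldBar (N * s) →ₐ[Qb]
    modularFunctionFieldBar (N * s)) (heckeAlphaBarIntegral Qb N s)
    (integral_equiv (wBar N s hsN))

/-- the same correspondence on the special fibre -/
def corrSb (A : ValuationSubring Qb) (N s : ℕ) [NeZero N] [Fact s.Prime]
    (wb : modularFunctionFieldFullC (kk A) (N * s) ≃ₐ[kk A]
      modularFunctionFieldFullC (kk A) (N * s)) :
    Divisor (kk A) (modularFunctionFieldFullC (kk A) (N * s)) →+
      Divisor (kk A) (modularFunctionFieldFullC (kk A) (N * s)) :=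
  corr' (Q.incl (kk A) N s) (wb : modularFunctionFieldFullC (kk A) (N * s) →ₐ[kk A]
    modularFunctionFieldFullC (kk A) (N * s)) (integral_alphaC (kk A) N s) (integral_equiv wb)

theorem corrS_eq_ord {z : modularFunctionFieldBar (N * s)} (hz : z ≠ 0)
    (D : Divisor Qb (modularFunctionFieldBar (N * s))) (hD : ∀ P, D P = P.ord z)
    (P : Place Qb (modularFunctionFieldBar (N * s))) :
    corrS N s hsN D P =
      P.ord (heckeAlphaBar Qb N s (normAlong (heckeAlphaBar Qb N s) (wBar N s hsN z))) := by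
  have hwz : wBar N s hsN z ≠ 0 := by simpa using hz
  exact corr'_eq_ord (heckeAlphaBar Qb N s) (wBar N s hsN : modularFunctionFieldBar (N * s) →ₐ[Qb]
    modularFunctionFieldBar (N * s)) (heckeAlphaBarIntegral Qb N s)
    (integral_equiv (wBar N s hsN)) (finiteAlong_alpha Qb N s) (normFormulaAlong_of _ _)
    (z := z) hwz hD P

theorem corrSb_eq_ord (hNs : ((N * s : ℕ) : kk A) ≠ 0)
    (wb : modularFunctionFieldFullC (kk A) (N * s) ≃ₐ[kk A]
      modularFunctionFieldFullC (kk A) (N * s))
    {u : modularFunctionFieldFullC (kk A) (N * s)} (hu : u ≠ 0)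
    (D : Divisor (kk A) (modularFunctionFieldFullC (kk A) (N * s))) (hD : ∀ P, D P = P.ord u)
    (P : Place (kk A) (modularFunctionFieldFullC (kk A) (N * s))) :
    corrSb A N s wb D P =
      P.ord (Q.incl (kk A) N s (normAlong (Q.incl (kk A) N s) (wb u))) := by
  have hwu : wb u ≠ 0 := by simpa using hu
  exact corr'_eq_ord (Q.incl (kk A) N s)
    (wb : modularFunctionFieldFullC (kk A) (N * s) →ₐ[kk A]
    modularFunctionFieldFullC (kk A) (N * s)) (integral_alphaC (kk A) N s) (integral_equiv wb)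
    (finite_alphaC (kk A) N s) (nf_alphaC hNs) (z := u) hwu hD P

theorem degree_corrS (P : Place Qb (modularFunctionFieldBar (N * s))) :
    Divisor.degree (corrS N s hsN (Finsupp.single P 1)) = ((s + 1 : ℕ) : ℤ) := by
  have hsN' : ¬ s ∣ N := hs.out.coprime_iff_not_dvd.mp hsN
  have h := degree_corr' (heckeAlphaBar Qb N s)
    (wBar N s hsN : modularFunctionFieldBar (N * s) →ₐ[Qb]
    modularFunctionFieldBar (N * s)) (heckeAlphaBarIntegral Qb N s)
    (integral_equiv (wBar N s hsN)) (fundamentalIdentityAlong_of _ _ (finiteAlong_alpha Qb N s))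
    (fundamentalIdentityAlong_of _ _ (finite_equiv (wBar N s hsN))) (Finsupp.single P 1)
  rw [finrankAlong_equiv, finrank_alphaBar hsN', Divisor.degree_single,
    deg_eq_one_bc Qb (N * s) P] at h
  rw [corrS, h]
  push_cast
  ring

theorem degree_corrSb (hsN : Nat.Coprime s N) (hNs : ((N * s : ℕ) : kk A) ≠ 0)
    (wb : modularFunctionFieldFullC (kk A) (N * s) ≃ₐ[kk A]
      modularFunctionFieldFullC (kk A) (N * s))
    (P : Place (kk A) (modularFunctionFieldFullC (kk A) (N * s))) :
    Divisor.degree (corrSb A N s wb (Finsupp.single P 1)) = ((s + 1 : ℕ) : ℤ) := by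
  have hsN' : ¬ s ∣ N := hs.out.coprime_iff_not_dvd.mp hsN
  have h := degree_corr' (Q.incl (kk A) N s)
    (wb : modularFunctionFieldFullC (kk A) (N * s) →ₐ[kk A]
    modularFunctionFieldFullC (kk A) (N * s)) (integral_alphaC (kk A) N s) (integral_equiv wb)
    (fi_alphaC hNs) (fundamentalIdentityAlong_of_sep _ _ (finite_equiv wb) (separable_equiv wb))
    (Finsupp.single P 1)
  rw [finrankAlong_equiv, finrank_alphaC (kk A) N s hNs hsN', Divisor.degree_single,
    FF.deg_eq_one P] at h
  rw [corrSb, h]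
  push_cast
  ring

theorem goodCorr_s {ℓ : ℕ} (hℓ : ℓ.Prime) (hA : A.LiesOverPrime ℓ)
    (hNs : ((N * s : ℕ) : kk A) ≠ 0)
    (wb : modularFunctionFieldFullC (kk A) (N * s) ≃ₐ[kk A]
      modularFunctionFieldFullC (kk A) (N * s))
    (hwb : ∀ (z : modularFunctionFieldFullC Qb (N * s))
      (u : modularFunctionFieldFullC (kk A) (N * s)),
      Red A (z : LaurentSeries Qb) (u : LaurentSeries (kk A)) →
      Red A (wQ Qb hsN z : LaurentSeries Qb) (wb u : LaurentSeries (kk A))) :
    GoodCorr A (N * s) (corrS N s hsN) (corrSb A N s wb) where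
  princ := by
    have hsN' : ¬ s ∣ N := hs.out.coprime_iff_not_dvd.mp hsN
    intro z u hu hzu
    have huv : (u : LaurentSeries (kk A)) ≠ 0 := fun h => hu (Subtype.ext h)
    have hz0 : z ≠ 0 := by
      intro h
      apply hzu.ne_zero huv
      rw [h]; rfl
    have h1 : Red A ((wBar N s hsN z : modularFunctionFieldBar (N * s)) : LaurentSeries Qb)
        ((wb u : modularFunctionFieldFullC (kk A) (N * s)) : LaurentSeries (kk A)) := by
      rw [coe_wBar]
      exact hwb _ u hzu
    have hwu : wb u ≠ 0 := by simpa using hu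
    have h2 := red_norm_alpha hℓ hA hNs hsN' h1
    have hn2 := normAlong_ne_zero' (Q.incl (kk A) N s) (finite_alphaC (kk A) N s) hwu
    refine ⟨heckeAlphaBar Qb N s (normAlong (heckeAlphaBar Qb N s) (wBar N s hsN z)),
      Q.incl (kk A) N s (normAlong (Q.incl (kk A) N s) (wb u)), ?_, ?_, ?_, ?_⟩
    · exact (map_ne_zero_iff _ (Q.incl (kk A) N s).toRingHom.injective).mpr hn2
    · rw [coe_heckeAlphaBar, Q.coe_incl]
      exact h2
    · exact corrS_eq_ord hz0
    · exact corrSb_eq_ord hNs wb hu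
  eff P R := corr'_nonneg _ _ _ _ P R
  deg := ⟨((s + 1 : ℕ) : ℤ), degree_corrS, degree_corrSb hsN hNs wb⟩
  fin R := finite_corr'' _ _ _ _ R

end Mod

section Stab

attribute [local instance] isAlgClosed_kk

variable {A : ValuationSubring Qb}

theorem heckeOperatorBar_mk {M q : ℕ} [NeZero M] (hq : q.Prime)
    (E : Divisor.degZero (K := Qb) (F := modularFunctionFieldBar M)) :
    haveI : NeZero q := ⟨hq.ne_zero⟩
    ∃ E' : Divisor.degZero (K := Qb) (F := modularFunctionFieldBar M),
      heckeOperatorBar M ⟨q, hq⟩ (Pic0.mk E) = Pic0.mk E' ∧ (E' : Divisor Qb _) =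
        Divisor.correspondence (heckeBetaBar Qb M q) (heckeAlphaBar Qb M q)
          (heckeBetaBarIntegral Qb M q) (heckeAlphaBarIntegral Qb M q) (E : Divisor Qb _) := by
  haveI : NeZero q := ⟨hq.ne_zero⟩
  refine ⟨Pic0.degZeroCorrespondence (heckeBetaBar Qb M q) (heckeAlphaBar Qb M q)
    (heckeBetaBarIntegral Qb M q) (heckeAlphaBarIntegral Qb M q)
    (fundamentalIdentityAlong_of _ _ (finiteAlong_beta Qb M q)) E, ?_, rfl⟩
  change heckeOperatorAlong Qb M q (Pic0.mk E) = _
  rw [heckeOperatorAlong_eq (heckeAlphaBarIntegral Qb M q) (heckeBetaBarIntegral Qb M q)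
    (fundamentalIdentityAlong_of _ _ (finiteAlong_beta Qb M q)) (finiteAlong_alpha Qb M q)
    (normFormulaAlong_of _ _)]
  rfl

variable {M : ℕ} [NeZero M]

/-- `T_q`, `q` prime to `M ℓ`, preserves the kernel of the reduction. -/
theorem hecke_stable {ℓ : ℕ} (hℓ : ℓ.Prime) (hA : A.LiesOverPrime ℓ)
    {r : Place Qb (modularFunctionFieldBar M) →
      Place (kk A) (modularFunctionFieldFullC (kk A) M)}
    (hr : IsPlaceReductionModL A M r)
    (hgen : PrincipalGeneratedByIntegral A (IsLocalRing.residue A) M)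
    {𝒦 : AddSubgroup (JZero M)}
    (hker : ∀ E : Divisor.degZero (K := Qb) (F := modularFunctionFieldBar M),
      Pic0.mk E ∈ 𝒦 ↔ (Finsupp.mapDomain r (E : Divisor Qb _) :
        Divisor (kk A) (modularFunctionFieldFullC (kk A) M)) ∈
        Divisor.principal (K := kk A) (F := modularFunctionFieldFullC (kk A) M))
    {q : ℕ} [hq : Fact q.Prime] (hMq : ((M * q : ℕ) : kk A) ≠ 0) (hqM : Nat.Coprime q M)
    (hw : WBar A M q hqM) {x : JZero M} (hx : x ∈ 𝒦) :
    heckeOperatorBar M ⟨q, hq.out⟩ x ∈ 𝒦 := by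
  have hM : (M : kk A) ≠ 0 := Igusa.natCast_ne_zero_of_dvd (dvd_mul_right M q) hMq
  obtain ⟨E, rfl⟩ := Pic0.mk_surjective x
  obtain ⟨E', hE', hE''⟩ := heckeOperatorBar_mk hq.out E
  rw [hE', hker, hE'']
  exact (goodCorr_hecke hℓ hA hMq hw).principal hℓ hA hM hr hgen ((hker E).mp hx)

/-- `T_s` preserves the preimage at level `N` of the kernel of the reduction at level `N s`. -/
theorem hecke_stable_s {N s : ℕ} [NeZero N] [hs : Fact s.Prime] [NeZero (N * s)]
    {ℓ : ℕ} (hℓ : ℓ.Prime) (hA : A.LiesOverPrime ℓ)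
    {r : Place Qb (modularFunctionFieldBar (N * s)) →
      Place (kk A) (modularFunctionFieldFullC (kk A) (N * s))}
    (hr : IsPlaceReductionModL A (N * s) r)
    (hgen : PrincipalGeneratedByIntegral A (IsLocalRing.residue A) (N * s))
    {𝒦 : AddSubgroup (JZero (N * s))}
    (hker : ∀ E : Divisor.degZero (K := Qb) (F := modularFunctionFieldBar (N * s)),
      Pic0.mk E ∈ 𝒦 ↔ (Finsupp.mapDomain r (E : Divisor Qb _) :
        Divisor (kk A) (modularFunctionFieldFullC (kk A) (N * s))) ∈
        Divisor.principal (K := kk A) (F := modularFunctionFieldFullC (kk A) (N * s)))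
    (pull : JZero N →+ JZero (N * s))
    (hpull : ∀ E : Divisor.degZero (K := Qb) (F := modularFunctionFieldBar N),
      ∃ E' : Divisor.degZero (K := Qb) (F := modularFunctionFieldBar (N * s)),
        pull (Pic0.mk E) = Pic0.mk E' ∧ (E' : Divisor Qb _) =
          Divisor.pullbackAlong (heckeAlphaBar Qb N s) (heckeAlphaBarIntegral Qb N s)
            (E : Divisor Qb _))
    (hNs : ((N * s : ℕ) : kk A) ≠ 0) (hsN : Nat.Coprime s N)
    (hw : WBar A N s hsN) {x : JZero N} (hx : pull x ∈ 𝒦) :
    pull (heckeOperatorBar N ⟨s, hs.out⟩ x) ∈ 𝒦 := by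
  obtain ⟨E, rfl⟩ := Pic0.mk_surjective x
  obtain ⟨wb, hwb, -⟩ := hw
  obtain ⟨E', hE', hE''⟩ := heckeOperatorBar_mk hs.out E
  obtain ⟨E₁, h1, h1'⟩ := hpull E
  obtain ⟨E₂, h2, h2'⟩ := hpull E'
  rw [hE', h2, hker, h2', hE'']
  rw [h1, hker, h1'] at hx
  have key := (goodCorr_s hℓ hA hNs wb hwb).principal hℓ hA hNs hr hgen hx
  have h3 : corrS N s hsN (Divisor.pullbackAlong (heckeAlphaBar Qb N s)
      (heckeAlphaBarIntegral Qb N s) (E : Divisor Qb _)) =
      Divisor.pullbackAlong (heckeAlphaBar Qb N s) (heckeAlphaBarIntegral Qb N s)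
        (Divisor.correspondence (heckeBetaBar Qb N s) (heckeAlphaBar Qb N s)
          (heckeBetaBarIntegral Qb N s) (heckeAlphaBarIntegral Qb N s) (E : Divisor Qb _)) := by
    have hcomp : ((wBar N s hsN : modularFunctionFieldBar (N * s) →ₐ[Qb]
        modularFunctionFieldBar (N * s)).comp (heckeAlphaBar Qb N s)) = heckeBetaBar Qb N s :=
      AlgHom.ext fun x => wBar_alpha (hsN := hsN) x
    have hint : ((wBar N s hsN : modularFunctionFieldBar (N * s) →ₐ[Qb]
        modularFunctionFieldBar (N * s)).comp (heckeAlphaBar Qb N s)).toRingHom.IsIntegral := by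
      rw [hcomp]; exact heckeBetaBarIntegral Qb N s
    have h4 := pullbackAlong_comp (heckeAlphaBar Qb N s)
      (wBar N s hsN : modularFunctionFieldBar (N * s) →ₐ[Qb] modularFunctionFieldBar (N * s))
      (heckeAlphaBarIntegral Qb N s) (integral_equiv (wBar N s hsN)) hint (E : Divisor Qb _)
    rw [pullbackAlong_congr hcomp hint (heckeBetaBarIntegral Qb N s)] at h4
    rw [Divisor.correspondence_apply, h4]
    rfl
  rw [← h3]
  exact key

end Stab

end Fermat.Agent.H12
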