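import Mathlib
import Fermat.Agent.H28.PullPic
import Fermat.Agent.Q.Transfer
import Fermat.Agent.H01.P.PullInj

set_option autoImplicit false
set_option linter.style.haveILetI false
set_option linter.unusedSectionVars false
set_option maxSynthPendingDepth 3

/-!
# The pull-back `J₀(N) → J₀(N s)` along the inclusion commutes with the Hecke operators
-/

noncomputable section

namespace Fermat.Agent.H12

open ModularCurve AlgebraicCurve Fermat.Agent.H05 Fermat.Agent.H28

local notation "Qb" => AlgebraicClosure ℚ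

section Gen

variable (L : Type*) [Field L] [Algebra ℚ L]

/-- Generation: the field of level `Mℓr` is generated by the fields of level `Mℓ` and `Mr`. -/
theorem gen_inc {M r ℓ M₁ M₂ M' : ℕ} [NeZero M] [NeZero M₁] [NeZero M₂] [NeZero M'] [NeZero ℓ]
    (hr : r.Prime) (hℓ : ℓ.Prime) (hrℓ : r ≠ ℓ) (h₁ : M₁ = M * ℓ) (h₂ : M₂ = M * r)
    (h' : M' = M * ℓ * r) (hu : M₁ ∣ M') (hv : M₂ ∣ M')
    (S : Subfield (laurentBaseChange L (modularFunctionFieldFull M')))
    (hS₁ : ∀ x, inc L hu x ∈ S) (hS₂ : ∀ y, inc L hv y ∈ S) : S = ⊤ := by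
  haveI : CharZero L := charZero_of_injective_algebraMap (algebraMap ℚ L).injective
  haveI : Fact r.Prime := ⟨hr⟩
  haveI : Fact ℓ.Prime := ⟨hℓ⟩
  subst h₁ h₂ h'
  -- the image of `S` in Laurent series
  let A : IntermediateField L (LaurentSeries L) :=
    { S.map (laurentBaseChange L (modularFunctionFieldFull (M * ℓ * r))).val.toRingHom with
      algebraMap_mem' := fun a => ⟨algebraMap L _ a, by
        have := hS₁ (algebraMap L _ a)
        rwa [AlgHom.commutes] at this, rfl⟩ }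
  have hAmem : ∀ z : laurentBaseChange L (modularFunctionFieldFull (M * ℓ * r)),
      (z : LaurentSeries L) ∈ A ↔ z ∈ S := by
    intro z
    constructor
    · rintro ⟨z', hz', he⟩
      have : z' = z := Subtype.ext he
      rwa [← this]
    · intro hz
      exact ⟨z, hz, rfl⟩
  have hA₁ : modularFunctionFieldFullC L (M * ℓ) ≤ A := by
    intro x hx
    rw [← laurentBaseChange_full] at hx
    have h1 := (hAmem _).mpr (hS₁ ⟨x, hx⟩)
    rwa [coe_inc] at h1
  have hA₂ : ∀ x ∈ modularFunctionFieldFullC L (M * r), x ∈ A := by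
    intro x hx
    rw [← laurentBaseChange_full] at hx
    have h1 := (hAmem _).mpr (hS₂ ⟨x, hx⟩)
    rwa [coe_inc] at h1
  obtain ⟨a, M₀, hM₀, hM⟩ := Nat.exists_eq_pow_mul_and_not_dvd (NeZero.ne M) r hr.ne_one
  haveI : NeZero M₀ := ⟨fun h => NeZero.ne M (by rw [hM, h, mul_zero])⟩
  have hrL : (r : L) ≠ 0 := by exact_mod_cast hr.ne_zero
  have hj3 : Igusa.jd L (r ^ a * r) ∈ A :=
    hA₂ _ (Igusa.jd_mem_full (by rw [hM]; exact mul_dvd_mul_right (dvd_mul_right _ _) r))
  have hcop : ¬ r ∣ M₀ * ℓ := by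
    intro h
    rcases (Nat.Prime.dvd_mul hr).mp h with h | h
    · exact hM₀ h
    · exact hrℓ ((Nat.prime_dvd_prime_iff_eq hr hℓ).mp h)
  have hfull : modularFunctionFieldFullC L (M * ℓ * r) ≤ A := by
    have h1 := Igusa.full_le_adj (k := L) r a (M₀ * ℓ) hcop hrL
      (by exact_mod_cast NeZero.ne (M₀ * ℓ))
    have h2 : M * ℓ * r = r ^ a * (M₀ * ℓ) * r := by rw [hM]; ring
    have h3 : M * ℓ = r ^ a * (M₀ * ℓ) := by rw [hM]; ring
    have h4 : modularFunctionFieldFullC L (M * ℓ * r) =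
        modularFunctionFieldFullC L (r ^ a * (M₀ * ℓ) * r) := by rw [h2]
    have h5 : modularFunctionFieldFullC L (M * ℓ) =
        modularFunctionFieldFullC L (r ^ a * (M₀ * ℓ)) := by rw [h3]
    rw [h4]
    refine h1.trans (Igusa.adj_le (by rw [← h5]; exact hA₁) ?_)
    rwa [Igusa.jd_congr L (show r ^ (a + 1) = r ^ a * r by ring)]
  rw [eq_top_iff]
  intro z _
  rw [← hAmem]
  apply hfull
  rw [← laurentBaseChange_full]
  exact z.2

end Gen

section Mod

variable (N r : ℕ) [NeZero N] [NeZero r]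

/-- pullback along the inclusion -/
def pullA : JZero N →+ JZero (N * r) :=
  pullAlong (heckeAlphaBar Qb N r) (heckeAlphaBarIntegral Qb N r)
    (fundamentalIdentityAlong_of _ _ (finiteAlong_alpha Qb N r))

theorem pullA_mk (E : Divisor.degZero (K := Qb) (F := modularFunctionFieldBar N)) :
    pullA N r (Pic0.mk E) = Pic0.mk ⟨Divisor.pullbackAlong (heckeAlphaBar Qb N r)
      (heckeAlphaBarIntegral Qb N r) (E : Divisor Qb (modularFunctionFieldBar N)),
      Divisor.pullbackAlong_mem_degZero _ _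
        (fundamentalIdentityAlong_of _ _ (finiteAlong_alpha Qb N r)) E.2⟩ := rfl

theorem pullA_smul (σ : Qb ≃ₐ[ℚ] Qb) (x : JZero N) : pullA N r (σ • x) = σ • pullA N r x := by
  rw [galois_smul_pic0_def, galois_smul_pic0_def]
  exact pullAlong_smul _ _ _ (intertwines_alpha Qb N r σ) x

theorem pullN_eq [Fact r.Prime] (x : JZero N) :
    Q.pullN rfl (dvd_mul_right N r) x = pullA N r x := rfl

/-- the pullback commutes with Hecke correspondences, on divisors -/
theorem pullbackA_heckeDiv {ℓ : ℕ} [NeZero ℓ] (hr : r.Prime) (hℓ : ℓ.Prime) (hrℓ : r ≠ ℓ)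
    (E : Divisor Qb (modularFunctionFieldBar N)) :
    Divisor.pullbackAlong (heckeAlphaBar Qb N r) (heckeAlphaBarIntegral Qb N r)
      (heckeDivBar (heckeAlphaBarIntegral Qb N ℓ) (heckeBetaBarIntegral Qb N ℓ) E) =
    heckeDivBar (heckeAlphaBarIntegral Qb (N * r) ℓ) (heckeBetaBarIntegral Qb (N * r) ℓ)
      (Divisor.pullbackAlong (heckeAlphaBar Qb N r) (heckeAlphaBarIntegral Qb N r) E) := by
  have hu : N * r ∣ N * r * ℓ := dvd_mul_right _ _
  have hv : N * ℓ ∣ N * r * ℓ := ⟨r, by ring⟩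
  have hbc := baseChange_formula (heckeAlphaBar Qb N r) (heckeAlphaBar Qb N ℓ)
    (heckeAlphaBar Qb (N * r) ℓ) (inc Qb hv) (heckeAlphaBarIntegral Qb N r)
    (heckeAlphaBarIntegral Qb N ℓ) (heckeAlphaBarIntegral Qb (N * r) ℓ) (inc_isIntegral Qb hv)
    (by
      rw [heckeAlphaBar_eq, heckeAlphaBar_eq, heckeAlphaBar_eq, inc_comp_inc, inc_comp_inc])
    (finiteAlong_alpha Qb N ℓ) (finiteAlong_alpha Qb (N * r) ℓ)
    (normFormulaAlong_of _ _) (normFormulaAlong_of _ _)
    (gen_inc Qb hℓ hr hrℓ.symm rfl rfl rfl hu hv)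
    (by
      rw [heckeAlphaBar_eq, heckeAlphaBar_eq,
        finrankAlong_inc_prime Qb hℓ (dvd_mul_right (N * r) ℓ) rfl,
        finrankAlong_inc_prime Qb hℓ (dvd_mul_right N ℓ) rfl]
      have h3 : ℓ ∣ N * r ↔ ℓ ∣ N := by
        constructor
        · intro h
          rcases (Nat.Prime.dvd_mul hℓ).mp h with h | h
          · exact h
          · exact absurd ((Nat.prime_dvd_prime_iff_eq hℓ hr).mp h) hrℓ.symm
        · exact fun h => h.mul_right r
      simp only [h3])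
    (Divisor.pullbackAlong (heckeBetaBar Qb N ℓ) (heckeBetaBarIntegral Qb N ℓ) E)
  have e1 : (inc Qb hv).comp (heckeBetaBar Qb N ℓ) =
      (heckeBetaBar Qb (N * r) ℓ).comp (heckeAlphaBar Qb N r) :=
    comp_comm Qb (dvd_refl (N * ℓ)) (dvd_mul_right N r) hv (dvd_refl (N * r * ℓ))
  have i1 : ((inc Qb hv).comp (heckeBetaBar Qb N ℓ)).toRingHom.IsIntegral :=
    RingHom.IsIntegral.trans _ _ (heckeBetaBarIntegral Qb N ℓ) (inc_isIntegral Qb hv)
  have i2 : ((heckeBetaBar Qb (N * r) ℓ).comp (heckeAlphaBar Qb N r)).toRingHom.IsIntegral :=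
    RingHom.IsIntegral.trans _ _ (heckeAlphaBarIntegral Qb N r) (heckeBetaBarIntegral Qb (N * r) ℓ)
  change Divisor.pullbackAlong (heckeAlphaBar Qb N r) (heckeAlphaBarIntegral Qb N r)
    (Divisor.pushforwardAlong (heckeAlphaBar Qb N ℓ) (heckeAlphaBarIntegral Qb N ℓ)
      (Divisor.pullbackAlong (heckeBetaBar Qb N ℓ) (heckeBetaBarIntegral Qb N ℓ) E)) =
    Divisor.pushforwardAlong (heckeAlphaBar Qb (N * r) ℓ) (heckeAlphaBarIntegral Qb (N * r) ℓ)
      (Divisor.pullbackAlong (heckeBetaBar Qb (N * r) ℓ) (heckeBetaBarIntegral Qb (N * r) ℓ)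
        (Divisor.pullbackAlong (heckeAlphaBar Qb N r) (heckeAlphaBarIntegral Qb N r) E))
  rw [hbc, ← pullbackAlong_comp _ _ _ (inc_isIntegral Qb hv) i1, pullbackAlong_congr e1 i1 i2,
    pullbackAlong_comp _ _ (heckeAlphaBarIntegral Qb N r) (heckeBetaBarIntegral Qb (N * r) ℓ) i2]

theorem pullA_hecke {ℓ : ℕ} (hr : r.Prime) (hℓ : ℓ.Prime) (hrℓ : r ≠ ℓ) (x : JZero N) :
    pullA N r (heckeOperatorBar N ⟨ℓ, hℓ⟩ x) =
      heckeOperatorBar (N * r) ⟨ℓ, hℓ⟩ (pullA N r x) := by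
  haveI : NeZero ℓ := ⟨hℓ.ne_zero⟩
  rw [heckeOperatorBar_apply, heckeOperatorBar_apply]
  obtain ⟨E, rfl⟩ := Pic0.mk_surjective x
  obtain ⟨h1, e1⟩ := heckeOperatorAlong_mk N ℓ E
  change pullA N r (heckeOperatorAlong Qb N ℓ (Pic0.mk E)) =
    heckeOperatorAlong Qb (N * r) ℓ (pullA N r (Pic0.mk E))
  rw [e1, pullA_mk, pullA_mk]
  obtain ⟨h2, e2⟩ := heckeOperatorAlong_mk (N * r) ℓ
    ⟨Divisor.pullbackAlong (heckeAlphaBar Qb N r)
      (heckeAlphaBarIntegral Qb N r) (E : Divisor Qb (modularFunctionFieldBar N)),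
      Divisor.pullbackAlong_mem_degZero _ _
        (fundamentalIdentityAlong_of _ _ (finiteAlong_alpha Qb N r)) E.2⟩
  rw [e2]
  congr 1
  apply Subtype.ext
  exact pullbackA_heckeDiv N r hr hℓ hrℓ _

end Mod

end Fermat.Agent.H12
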