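import Mathlib
import Fermat.Agent.H12.PullAl
import Fermat.Agent.H12.FinCls
import Fermat.Agent.H12.HeckeStab2
import Fermat.Agent.H12.Assembly
import Fermat.Agent.H28.AllLevels
import Fermat.Agent.H01.P.PullInj
import Fermat.Agent.H29.GR
import Fermat.Agent.H27.KeyH28
import Fermat.Agent.H27.HauptEx

set_option autoImplicit false
set_option linter.style.haveILetI false
set_option linter.unusedSectionVars false

/-!
# The reduction package for Mazur's descent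
-/

noncomputable section

namespace Fermat.Agent.H12

open AlgebraicCurve ModularCurve IsLocalRing Fermat.Agent.H28

local notation "Qb" => AlgebraicClosure ℚ
local notation "Γq" => AlgebraicClosure ℚ ≃ₐ[ℚ] AlgebraicClosure ℚ

theorem goodLevel {M : ℕ} [NeZero M] {A : ValuationSubring Qb} {ℓ : ℕ} (hℓ : ℓ.Prime)
    (hA : A.LiesOverPrime ℓ) (hyp : ¬ ℓ ∣ M ∧ ((2 ∣ M ∧ ℓ ≠ 2) ∨ (3 ∣ M ∧ ℓ ≠ 3))) :
    GoodLevel M ℓ A where
  h₁ := H29.isChart_j hℓ hA hyp
  h₂ := H29.isChart_jinv hℓ hA hyp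
  key m hm := by
    obtain ⟨H⟩ := H27.hauptLevel_exists hℓ hA hyp
    exact H27.keyLemma_of_haupt hℓ hA H _ hm

/-- The auxiliary prime. -/
def sAux (r ℓ : ℕ) : ℕ :=
  if r = 2 ∨ r = 3 then (if ℓ = r then 5 - r else r) else (if ℓ = 2 then 3 else 2)

theorem sAux_eq (r ℓ : ℕ) : sAux r ℓ = 2 ∨ sAux r ℓ = 3 := by
  unfold sAux
  split_ifs <;> omega

theorem sAux_ne (r ℓ : ℕ) : sAux r ℓ ≠ ℓ := by
  unfold sAux
  split_ifs <;> omega

theorem sAux_of {r ℓ : ℕ} (h : r = 2 ∨ r = 3) (hℓ : ℓ ≠ r) : sAux r ℓ = r := by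
  unfold sAux
  rw [if_pos h, if_neg hℓ]

theorem prime_sAux (r ℓ : ℕ) : (sAux r ℓ).Prime := by
  rcases sAux_eq r ℓ with h | h <;> rw [h] <;> norm_num

instance (r ℓ : ℕ) : Fact (sAux r ℓ).Prime := ⟨prime_sAux r ℓ⟩

instance (r ℓ : ℕ) : NeZero (sAux r ℓ) := ⟨(prime_sAux r ℓ).ne_zero⟩

open Classical in
/-- The kernel of the reduction at level `M`. -/
def kerM (M : ℕ) [NeZero M] (A : ValuationSubring Qb) : AddSubgroup (JZero M) :=
  if h : (modRed M A).IsChart (jZ M A) ∧ (modRed M A).IsChart (jinvZ M A) then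
    (modCharts M A h.1 h.2).kernel else ⊤

theorem kerM_eq {M : ℕ} [NeZero M] {A : ValuationSubring Qb}
    (h₁ : (modRed M A).IsChart (jZ M A)) (h₂ : (modRed M A).IsChart (jinvZ M A)) :
    kerM M A = (modCharts M A h₁ h₂).kernel := dif_pos ⟨h₁, h₂⟩

/-- The kernel of the reduction for the descent. -/
def kerJ (N : ℕ) [NeZero N] (r ℓ : ℕ) (A : ValuationSubring Qb) : AddSubgroup (JZero N) :=
  (kerM (N * sAux r ℓ) A).comap (pullA N (sAux r ℓ))

section Pkg

variable {N r ℓ : ℕ} [NeZero N] {A : ValuationSubring Qb}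

theorem hyp_aux (hN : N.Prime) (hℓ : ℓ.Prime) (hℓN : ℓ ≠ N) (r : ℕ) :
    ¬ ℓ ∣ N * sAux r ℓ ∧ ((2 ∣ N * sAux r ℓ ∧ ℓ ≠ 2) ∨ (3 ∣ N * sAux r ℓ ∧ ℓ ≠ 3)) := by
  refine ⟨?_, ?_⟩
  · intro h
    rcases (Nat.Prime.dvd_mul hℓ).mp h with h | h
    · exact hℓN ((Nat.prime_dvd_prime_iff_eq hℓ hN).mp h)
    · exact sAux_ne r ℓ ((Nat.prime_dvd_prime_iff_eq hℓ (prime_sAux r ℓ)).mp h).symm
  · have h := sAux_ne r ℓ
    rcases sAux_eq r ℓ with h1 | h1
    · left
      rw [h1] at h ⊢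
      exact ⟨dvd_mul_left _ _, h.symm⟩
    · right
      rw [h1] at h ⊢
      exact ⟨dvd_mul_left _ _, h.symm⟩

theorem natCast_kk_ne {M : ℕ} (hℓ : ℓ.Prime) (hA : A.LiesOverPrime ℓ) (h : ¬ ℓ ∣ M) :
    (M : ResidueField A) ≠ 0 := H27.natCast_residue_ne_zero hℓ hA h

theorem sAux_not_dvd (hN : N.Prime) (h2 : N ≠ 2) (h3 : N ≠ 3) (r ℓ : ℕ) : ¬ sAux r ℓ ∣ N := by
  intro h
  have := (Nat.prime_dvd_prime_iff_eq (prime_sAux r ℓ) hN).mp h
  rcases sAux_eq r ℓ with h1 | h1 <;> omega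

/-- The reduction package. -/
theorem redPkg (hN : N.Prime) (h2 : N ≠ 2) (h3 : N ≠ 3) (hr : r.Prime) (hrN : r ≠ N)
    (hℓ : ℓ.Prime) (hℓN : ℓ ≠ N) (hA : A.LiesOverPrime ℓ)
    (hW : ∀ (M q : ℕ) [NeZero M] [Fact q.Prime] (hqM : Nat.Coprime q M), ¬ ℓ ∣ M * q →
      WBar A M q hqM) : RedPkg N r ℓ A (kerJ N r ℓ A) := by
  have hyp := hyp_aux hN hℓ hℓN r
  have hg := goodLevel (M := N * sAux r ℓ) hℓ hA hyp
  have hker := redKernel_of_goodLevel hℓ hyp.1 hA hg
  have hsN := sAux_not_dvd hN h2 h3 r ℓ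
  have hNs0 := natCast_kk_ne hℓ hA hyp.1
  have hK : kerJ N r ℓ A = (modCharts (N * sAux r ℓ) A hg.h₁ hg.h₂).kernel.comap
      (pullA N (sAux r ℓ)) := by
    rw [kerJ, kerM_eq hg.h₁ hg.h₂]
  set s := sAux r ℓ with hs
  rw [hK]
  have hsp : s.Prime := prime_sAux r ℓ
  have hstab : ∀ σ ∈ A.decompositionSubgroup ℚ, ∀ x ∈
      (modCharts (N * s) A hg.h₁ hg.h₂).kernel.comap (pullA N s), σ • x ∈
      (modCharts (N * s) A hg.h₁ hg.h₂).kernel.comap (pullA N s) := by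
    intro σ hσ x hx
    rw [AddSubgroup.mem_comap] at hx ⊢
    rw [pullA_smul]
    exact hker.stable σ hσ _ hx
  have hes : ∀ (φ : Γq), A.IsFrobeniusAt φ ℓ → ∀ (x : JZero N),
      φ • φ • x - heckeOperatorBar N ⟨ℓ, hℓ⟩ (φ • x) + ℓ • x ∈
        (modCharts (N * s) A hg.h₁ hg.h₂).kernel.comap (pullA N s) := by
    intro φ hφ x
    rw [AddSubgroup.mem_comap, map_add, map_sub, map_nsmul, pullA_smul, pullA_smul,
      pullA_hecke N s hsp hℓ (sAux_ne r ℓ), pullA_smul]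
    exact hker.relation φ hφ _
  have hfin : ∀ (σ : Γq) (hσ : σ ∈ A.decompositionSubgroup ℚ) (q : ℕ), 1 < q →
      (∀ x, decRes hσ x = x ^ q) →
      Finite (fixedClasses ((modCharts (N * s) A hg.h₁ hg.h₂).kernel.comap (pullA N s)) σ) := by
    intro σ hσ q hq hres
    haveI := finite_fixed_mod hq hg.h₁ hg.h₂ hσ hres
    exact fixedClasses_comap (pullA N s) (pullA_smul N s) _ σ
  refine
    { inertia := ?_
      es := ?_
      fin1 := ?_
      fin2 := ?_
      hecke := ?_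
      tors := ?_ }
  · intro σ hσ x
    rw [AddSubgroup.mem_comap, map_sub, pullA_smul]
    exact hker.inertia σ hσ _
  · intro hℓ' φ hφ k x _
    exact hes φ hφ x
  · rintro φ ⟨hσ, hres⟩
    exact hfin φ hσ ℓ hℓ.one_lt hres
  · rintro φ ⟨hσ, hres⟩
    refine hfin (φ * φ) (mul_mem hσ hσ) (ℓ ^ 2) (Nat.one_lt_pow two_ne_zero hℓ.one_lt) fun x => ?_
    have h1 : decRes (mul_mem hσ hσ) x = decRes hσ (decRes hσ x) := by
      change (⟨φ * φ, _⟩ : A.decompositionSubgroup ℚ) • x = (⟨φ, hσ⟩ : A.decompositionSubgroup ℚ) •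
        (⟨φ, hσ⟩ : A.decompositionSubgroup ℚ) • x
      rw [← mul_smul]
      rfl
    have h2 : ∀ y, decRes hσ y = y ^ ℓ := hres
    rw [h1, h2, h2, ← pow_mul, ← sq]
  · -- Hecke stability
    intro hℓr q x hx
    have hr' := isPlaceReduction_redPl (modCharts (N * s) A hg.h₁ hg.h₂)
    have hgen := principalGenerated (modCharts (N * s) A hg.h₁ hg.h₂)
    have hk : ∀ E : Divisor.degZero (K := Qb) (F := modularFunctionFieldBar (N * s)),
        Pic0.mk E ∈ (modCharts (N * s) A hg.h₁ hg.h₂).kernel ↔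
          (Finsupp.mapDomain (modCharts (N * s) A hg.h₁ hg.h₂).redPl (E : Divisor Qb _) :
            Divisor (ResidueField A) (modularFunctionFieldFullC (ResidueField A) (N * s))) ∈
          Divisor.principal (K := ResidueField A)
            (F := modularFunctionFieldFullC (ResidueField A) (N * s)) := by
      intro E
      rw [TwoCharts.mk_mem_kernel, TwoCharts.mem_KDiv_iff]
    obtain ⟨⟨q, hq⟩, hq'⟩ := q
    haveI : Fact q.Prime := ⟨hq⟩
    change heckeOperatorBar N ⟨q, hq⟩ x ∈ _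
    by_cases hqℓ : q = ℓ
    · -- `q = ℓ`
      subst hqℓ
      obtain ⟨φ, hφ⟩ : ∃ φ : Γq, A.IsFrobeniusAt φ q := H05.exists_isFrobeniusAt hq hA
      have h1 := hes φ hφ (φ⁻¹ • x)
      rw [smul_inv_smul] at h1
      have hd := hφ.mem_decompositionSubgroup
      have h2 := hstab φ hd x hx
      have h3 := AddSubgroup.nsmul_mem _ (hstab φ⁻¹ (inv_mem hd) x hx) q
      have h4 : heckeOperatorBar N ⟨q, hq⟩ x = φ • x + q • φ⁻¹ • x -
          (φ • x - heckeOperatorBar N ⟨q, hq⟩ x + q • φ⁻¹ • x) := by abel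
      rw [h4]
      exact sub_mem (add_mem h2 h3) h1
    by_cases hqs : q = s
    · subst hqs
      have hsN' : Nat.Coprime s N := hsp.coprime_iff_not_dvd.mpr hsN
      refine hecke_stable_s (r := (modCharts (N * s) A hg.h₁ hg.h₂).redPl) hℓ hA hr' hgen hk
        (pullA N s) (fun E => ⟨_, pullA_mk N s E, rfl⟩) hNs0 hsN'
        (hW N s hsN' hyp.1) hx
    · -- `q` is prime to `N s ℓ`
      have hqN : q ≠ N := by
        rcases hq' with h | h
        · change q = r at h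
          rw [h]; exact hrN
        · rintro rfl
          exact h (dvd_mul_left _ _)
      rw [AddSubgroup.mem_comap] at hx ⊢
      rw [pullA_hecke N s hsp hq (Ne.symm hqs)]
      have hqNs : ¬ q ∣ N * s := by
        intro h
        rcases (Nat.Prime.dvd_mul hq).mp h with h | h
        · exact hqN ((Nat.prime_dvd_prime_iff_eq hq hN).mp h)
        · exact hqs ((Nat.prime_dvd_prime_iff_eq hq hsp).mp h)
      have hℓ4 : ¬ ℓ ∣ N * s * q := by
        intro h
        rcases (Nat.Prime.dvd_mul hℓ).mp h with h | h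
        · exact hyp.1 h
        · exact hqℓ ((Nat.prime_dvd_prime_iff_eq hℓ hq).mp h).symm
      exact hecke_stable hℓ hA hr' hgen hk (natCast_kk_ne hℓ hA hℓ4)
        (hq.coprime_iff_not_dvd.mpr hqNs) (hW (N * s) q _ hℓ4) hx
  · intro hℓr k x hx hxJ
    rw [AddSubgroup.mem_comap] at hxJ
    have h1 : pullA N s x = 0 := by
      refine hker.torsion (r ^ k) ?_ _ hxJ ?_
      · intro h
        exact hℓr ((Nat.prime_dvd_prime_iff_eq hℓ hr).mp (hℓ.dvd_of_dvd_pow h))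
      · rw [← map_nsmul, hx, map_zero]
    exact Fermat.Agent.P.eq_zero_of_pullN rfl hsN (dvd_mul_right N s) (pow_ne_zero k hr.ne_zero) hx h1

end Pkg

end Fermat.Agent.H12
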