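import Mathlib
import Fermat.Agent.Q.ToricAll
import Fermat.Agent.H11Q.Packs

set_option autoImplicit false
set_option linter.style.haveILetI false
set_option linter.unusedSectionVars false
set_option maxSynthPendingDepth 3

/-!
# Inertia at `N` acts unipotently on the torsion of `J₀(N)` prime to `N`
-/

noncomputable section

namespace Fermat.Agent.H12

open ModularCurve AlgebraicCurve Fermat.Agent.H11Q Fermat.Agent.Q

local notation "Qb" => AlgebraicClosure ℚ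

theorem uni_aux {p : ℕ} [hp : Fact p.Prime] (h2 : p ≠ 2) (h3 : p ≠ 3)
    {A : ValuationSubring Qb} (hA : A.LiesOverPrime p) {m ℓ : ℕ} (hm : ¬ p ∣ m)
    (hℓ : ℓ = 2 ∨ ℓ = 3) (hcop : Nat.Coprime m (ℓ + 1))
    {x : JZero (1 * p)} (hx : m • x = 0) {σ τ : Qb ≃ₐ[ℚ] Qb}
    (hσ : σ ∈ A.inertiaSubgroupIn ℚ) (hτ : τ ∈ A.inertiaSubgroupIn ℚ) :
    σ • (τ • x - x) = τ • x - x := by
  have hm0 : m ≠ 0 := by rintro rfl; exact hm (dvd_zero p)
  have hℓp : ℓ.Prime := by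
    rcases hℓ with rfl | rfl
    · exact Nat.prime_two
    · exact Nat.prime_three
  haveI : Fact ℓ.Prime := ⟨hℓp⟩
  haveI : NeZero (1 * ℓ) := ⟨mul_ne_zero one_ne_zero hℓp.ne_zero⟩
  have hne : p ≠ ℓ := by rcases hℓ with rfl | rfl <;> assumption
  have h1 : ¬ ℓ ∣ 1 * p := by
    rw [one_mul]
    intro h
    exact hne ((Nat.prime_dvd_prime_iff_eq hℓp hp.out).mp h).symm
  have hc1 : Nat.Coprime p 1 := Nat.coprime_one_right p
  have h3' : Nat.Coprime p (1 * ℓ) := by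
    rw [one_mul]
    exact (Nat.coprime_primes hp.out hℓp).mpr hne
  have h2' : 2 ∣ 1 * ℓ ∨ 3 ∣ 1 * ℓ := by
    rcases hℓ with rfl | rfl
    · left; norm_num
    · right; norm_num
  obtain ⟨lp⟩ := hasPacks hp.out hA (1 * ℓ) h3' h2'
  exact inertia_transfer hc1 h3' rfl h1 hm0 hcop σ
    (fun y hy => inertia_smul_of_mem_TSub h3' hA lp hm hy hσ) (inertia_mem_TSub hA hc1 τ hτ hx)

theorem uni_aux' {p N : ℕ} [NeZero N] (hN : N = 1 * p) (hp : p.Prime) (h2 : p ≠ 2) (h3 : p ≠ 3)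
    {A : ValuationSubring Qb} (hA : A.LiesOverPrime p) {m ℓ : ℕ} (hm : ¬ p ∣ m)
    (hℓ : ℓ = 2 ∨ ℓ = 3) (hcop : Nat.Coprime m (ℓ + 1))
    {x : JZero N} (hx : m • x = 0) {σ τ : Qb ≃ₐ[ℚ] Qb}
    (hσ : σ ∈ A.inertiaSubgroupIn ℚ) (hτ : τ ∈ A.inertiaSubgroupIn ℚ) :
    σ • (τ • x - x) = τ • x - x := by
  haveI : Fact p.Prime := ⟨hp⟩
  subst hN
  exact uni_aux h2 h3 hA hm hℓ hcop hx hσ hτ

/-- **Inertia at `N` acts unipotently on `J₀(N)[r^k]`**. -/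
theorem uniN {N : ℕ} [NeZero N] (hN : N.Prime) (h2 : N ≠ 2) (h3 : N ≠ 3) {r : ℕ} (hr : r.Prime)
    (hrN : r ≠ N) {A : ValuationSubring Qb} (hA : A.LiesOverPrime N) {σ τ : Qb ≃ₐ[ℚ] Qb}
    (hσ : σ ∈ A.inertiaSubgroupIn ℚ) (hτ : τ ∈ A.inertiaSubgroupIn ℚ) (k : ℕ) (x : JZero N)
    (hx : (r ^ k) • x = 0) : σ • (τ • x - x) = τ • x - x := by
  have hm : ¬ N ∣ r ^ k := fun h =>
    hrN ((Nat.prime_dvd_prime_iff_eq hN hr).mp (hN.dvd_of_dvd_pow h)).symm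
  by_cases h : r = 3
  · subst h
    refine uni_aux' (one_mul N).symm hN h2 h3 hA hm (Or.inr rfl) ?_ hx hσ hτ
    exact Nat.Coprime.pow_left k (by norm_num)
  · refine uni_aux' (one_mul N).symm hN h2 h3 hA hm (Or.inl rfl) ?_ hx hσ hτ
    exact Nat.Coprime.pow_left k ((Nat.coprime_primes hr Nat.prime_three).mpr h)

end Fermat.Agent.H12
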