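import Mathlib
import Fermat.Agent.H12.RPkg
import Fermat.Agent.H12.UniN
import Fermat.Agent.WP.Adj

set_option autoImplicit false
set_option linter.style.haveILetI false
set_option linter.unusedSectionVars false

/-!
# Isotropy at `r`, transfer from level `N s` to level `N`
-/

noncomputable section

namespace Fermat.Agent.H12

open AlgebraicCurve ModularCurve IsLocalRing MvPolynomial Fermat.Agent.H28

local notation "Qb" => AlgebraicClosure ℚ
local notation "Γq" => AlgebraicClosure ℚ ≃ₐ[ℚ] AlgebraicClosure ℚ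

section Pull

theorem hasDiv_smul {K F : Type*} [Field K] [Field F] [Algebra K F] {m : ℤ} {D : Divisor K F}
    {h : F} (hD : WP.HasDiv m D h) (n : ℕ) : WP.HasDiv m (n • D) (h ^ n) := by
  refine ⟨pow_ne_zero n hD.1, fun v => ?_⟩
  rw [Finsupp.smul_apply, nsmul_eq_mul]
  induction n with
  | zero => rw [pow_zero, Place.ord_one, Nat.cast_zero, zero_mul, mul_zero]
  | succ n ih =>
    rw [pow_succ, v.ord_mul (pow_ne_zero n hD.1) hD.1, ih, hD.2]
    push_cast
    ring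

theorem isRep_smul {K F : Type*} [Field K] [Field F] [Algebra K F] {m : ℕ} {x : Pic0 K F}
    {D : Divisor K F} {h : F} (hD : WP.IsRep m x D h) (n : ℕ) :
    WP.IsRep m (n • x) (n • D) (h ^ n) := by
  obtain ⟨h1, h2, rfl⟩ := hD
  exact ⟨hasDiv_smul h1 n, AddSubgroup.nsmul_mem _ h2 n, rfl⟩

theorem weilPairing_nsmul_right {K F : Type*} [Field K] [Field F] [Algebra K F]
    [IsAlgClosed K] [CharZero K] [FF.FunField K F] {m : ℕ} {x y : Pic0 K F} (hx : m • x = 0)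
    (hy : m • y = 0) (n : ℕ) : WP.weilPairing m x (n • y) = WP.weilPairing m x y ^ n := by
  induction n with
  | zero =>
    rw [zero_nsmul, pow_zero, WP.weilPairing_symm, WP.weilPairing_zero_left, inv_one]
  | succ n ih =>
    rw [succ_nsmul, pow_succ, WP.weilPairing_add_right hx (by rw [smul_comm, hy, smul_zero]) hy, ih]

variable {N s : ℕ} [NeZero N] [hs : Fact s.Prime]

theorem weilPairing_pullA (hsN : ¬ s ∣ N) {m : ℕ} {x y : JZero N} (hx : m • x = 0)
    (hy : m • y = 0) : WP.weilPairing m (pullA N s x) (pullA N s y) =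
      WP.weilPairing m x y ^ (s + 1) := by
  obtain ⟨D, h, hD⟩ := WP.exists_isRep hx
  obtain ⟨E, k, hE⟩ := WP.exists_isRep hy
  have hfin := H05.finiteAlong_alpha Qb N s
  have hint := H05.heckeAlphaBarIntegral Qb N s
  have hpD : WP.IsRep m (pullA N s x) (Divisor.pullbackAlong (heckeAlphaBar Qb N s) hint D)
      (heckeAlphaBar Qb N s h) := by
    obtain ⟨h1, h2, rfl⟩ := hD
    exact ⟨h1.pullbackAlong _ hint hfin, _, rfl⟩
  have hpE : WP.IsRep m (pullA N s y) (Divisor.pullbackAlong (heckeAlphaBar Qb N s) hint E)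
      (heckeAlphaBar Qb N s k) := by
    obtain ⟨h1, h2, rfl⟩ := hE
    exact ⟨h1.pullbackAlong _ hint hfin, _, rfl⟩
  rw [← weilPairing_nsmul_right hx hy, WP.weilPairing_eq hpD hpE,
    WP.weilPairing_eq hD (isRep_smul hE (s + 1)),
    WP.pair_adj_along (heckeAlphaBar Qb N s) hint hfin hD.1 hpE.1]
  have h1 := push_pull (heckeAlphaBar Qb N s) hint
    (H05.fundamentalIdentityAlong_of _ _ hfin) (H05.deg_eq_one_bc Qb N)
    (H05.deg_eq_one_bc Qb (N * s)) E
  have h2 : finrankAlong Qb (heckeAlphaBar Qb N s) = s + 1 := M5.finrankAlong_alpha Qb N s hsN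
  rw [Divisor.correspondence_apply, h2] at h1
  have h3 := Q.normAlong_self (heckeAlphaBar Qb N s) k
  rw [h2] at h3
  rw [h1]
  congr 1

end Pull

section Ker

variable {N r ℓ : ℕ} [NeZero N] {A : ValuationSubring Qb}

/-- `T_ℓ` preserves the kernel of the reduction modulo `ℓ`. -/
theorem kerJ_hecke_self (hN : N.Prime) (hℓ : ℓ.Prime) (hℓN : ℓ ≠ N)
    (hA : A.LiesOverPrime ℓ) {x : JZero N} (hx : x ∈ kerJ N r ℓ A) :
    heckeOperatorBar N ⟨ℓ, hℓ⟩ x ∈ kerJ N r ℓ A := by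
  have hyp := hyp_aux hN hℓ hℓN r
  have hg := goodLevel (M := N * sAux r ℓ) hℓ hA hyp
  have hker := redKernel_of_goodLevel hℓ hyp.1 hA hg
  have hK : kerJ N r ℓ A = (modCharts (N * sAux r ℓ) A hg.h₁ hg.h₂).kernel.comap
      (pullA N (sAux r ℓ)) := by
    rw [kerJ, kerM_eq hg.h₁ hg.h₂]
  rw [hK] at hx ⊢
  rw [AddSubgroup.mem_comap] at hx ⊢
  rw [pullA_hecke N _ (prime_sAux r ℓ) hℓ (sAux_ne r ℓ)]
  obtain ⟨φ, hφ⟩ : ∃ φ : Γq, A.IsFrobeniusAt φ ℓ := H05.exists_isFrobeniusAt hℓ hA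
  set y := pullA N (sAux r ℓ) x with hy
  have h1 := hker.relation φ hφ (φ⁻¹ • y)
  rw [smul_inv_smul] at h1
  have hd := hφ.mem_decompositionSubgroup
  have h2 := hker.stable φ hd y hx
  have h3 := AddSubgroup.nsmul_mem _ (hker.stable φ⁻¹ (inv_mem hd) y hx) ℓ
  have h4 : heckeOperatorBar (N * sAux r ℓ) ⟨ℓ, hℓ⟩ y = φ • y + ℓ • φ⁻¹ • y -
      (φ • y - heckeOperatorBar (N * sAux r ℓ) ⟨ℓ, hℓ⟩ y + ℓ • φ⁻¹ • y) := by abel
  rw [h4]
  exact sub_mem (add_mem h2 h3) h1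

end Ker

/-- The isotropy statement at level `M`. -/
def IsoAt (M r : ℕ) [NeZero M] (hr : r.Prime) : Prop :=
  ∀ (A : ValuationSubring Qb), A.LiesOverPrime r →
  ∀ (h₁ : (modRed M A).IsChart (jZ M A)) (h₂ : (modRed M A).IsChart (jinvZ M A)) (k : ℕ)
    (X : AddSubgroup (JZero M)), Finite X → X ≤ (modCharts M A h₁ h₂).kernel →
    (∀ x ∈ X, (r ^ k) • x = 0) → (∀ x ∈ X, heckeOperatorBar M ⟨r, hr⟩ x ∈ X) →
    (∀ x ∈ X, heckeOperatorBar M ⟨r, hr⟩ x = 0 → x = 0) →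
    ∀ x ∈ X, ∀ y ∈ X, WP.weilPairing (r ^ k) x y = 1

theorem iso_of {N r : ℕ} [NeZero N] (hN : N.Prime) (h2 : N ≠ 2) (h3 : N ≠ 3) (hr : r.Prime)
    (hrN : r ≠ N) (hiso : IsoAt (N * sAux r r) r hr) :
    ∀ A : ValuationSubring Qb, A.LiesOverPrime r → ∀ (k : ℕ) (x y : JZero N),
    (letI := ttModule N r; x ∈ primaryPart (PP N r) (mulBy (JZero N) (r ^ k)).ker) →
    (letI := ttModule N r; y ∈ primaryPart (PP N r) (mulBy (JZero N) (r ^ k)).ker) →
    x ∈ kerJ N r r A → y ∈ kerJ N r r A → WP.weilPairing (r ^ k) x y ^ (r ^ 2) = 1 := by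
  intro A hA k x y hx hy hxJ hyJ
  letI := ttModule N r
  have hyp := hyp_aux hN hr hrN r
  have hg := goodLevel (M := N * sAux r r) hr hA hyp
  have hsN := sAux_not_dvd hN h2 h3 r r
  have hsr : sAux r r ≠ r := sAux_ne r r
  have hsp : (sAux r r).Prime := prime_sAux r r
  haveI : Finite (mulBy (JZero N) (r ^ k)).ker := finite_ker_mulBy N (pow_ne_zero k hr.ne_zero)
  set G : AddSubgroup (JZero N) := primaryPart (PP N r) (mulBy (JZero N) (r ^ k)).ker ⊓
    kerJ N r r A with hG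
  haveI : Finite G := Finite.of_injective
    (AddSubgroup.inclusion (inf_le_left.trans (primaryPart_le _ _)))
    (AddSubgroup.inclusion_injective _)
  have hkill : ∀ g ∈ G, (r ^ k) • g = 0 := fun g hg => hg.1.1
  let q : Idx N r := ⟨⟨r, hr⟩, Or.inl rfl⟩
  have hTG : ∀ g ∈ G, heckeOperatorBar N ⟨r, hr⟩ g ∈ G := by
    intro g hg'
    refine ⟨?_, kerJ_hecke_self hN hr hrN hA hg'.2⟩
    have h1 := primaryPart_smul_mem (PP N r) (mulBy (JZero N) (r ^ k)).ker
      (fun t z hz => by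
        change (r ^ k) • (t • z) = 0
        have hz' : (r ^ k) • z = 0 := hz
        rw [smul_comm, hz', smul_zero]) (X q : TT N r) g hg'.1
    rwa [show (X q : TT N r) • g = heckeOperatorBar N q.1 g from tt_X_smul N r q g] at h1
  have hinjG : ∀ g ∈ G, heckeOperatorBar N ⟨r, hr⟩ g = 0 → g = 0 := by
    intro g hg' h0
    have hX : (X q : TT N r) - 1 ∈ PP N r := by
      have h4 := X_sub_mem_PP q
      have h5 : (X q : TT N r) - 1 = ((X q : TT N r) - (1 + ((q.1 : ℕ) : TT N r))) +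
          ((r : ℕ) : TT N r) := by
        change _ = ((X q : TT N r) - (1 + ((r : ℕ) : TT N r))) + ((r : ℕ) : TT N r)
        ring
      rw [h5]
      exact add_mem h4 r_mem_PP
    refine eq_zero_of_smul_eq_zero (PP N r) (mulBy (JZero N) (r ^ k)).ker (X q : TT N r) hX g
      hg'.1 ?_
    rw [show (X q : TT N r) • g = heckeOperatorBar N q.1 g from tt_X_smul N r q g]
    exact h0
  have hpinj : ∀ g : JZero N, (r ^ k) • g = 0 → pullA N (sAux r r) g = 0 → g = 0 := by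
    intro g hg' h0
    exact Fermat.Agent.P.eq_zero_of_pullN rfl hsN (dvd_mul_right N _) (pow_ne_zero k hr.ne_zero)
      hg' h0
  have key := hiso A hA hg.h₁ hg.h₂ k (G.map (pullA N (sAux r r))) ?_ ?_ ?_ ?_ ?_
    (pullA N _ x) ⟨x, ⟨hx, hxJ⟩, rfl⟩ (pullA N _ y) ⟨y, ⟨hy, hyJ⟩, rfl⟩
  · have hx0 : (r ^ k) • x = 0 := hx.1
    have hy0 : (r ^ k) • y = 0 := hy.1
    rw [weilPairing_pullA hsN hx0 hy0] at key
    have hpow := WP.weilPairing_pow (r ^ k) x y
    by_cases hr2 : r = 2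
    · subst hr2
      exact key
    by_cases hr3 : r = 3
    · subst hr3
      have : (3 : ℕ) ^ 2 = (sAux 3 3 + 1) * 3 := rfl
      rw [this, pow_mul, key, one_pow]
    · have h4 : sAux r r = 2 := by
        unfold sAux
        rw [if_neg (by omega), if_neg hr2]
      rw [h4] at key
      have h5 : orderOf (WP.weilPairing (r ^ k) x y) ∣ 1 := by
        have h6 := Nat.dvd_gcd (orderOf_dvd_of_pow_eq_one key) (orderOf_dvd_of_pow_eq_one hpow)
        have h7 : Nat.Coprime (2 + 1) (r ^ k) :=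
          Nat.Coprime.pow_right k ((Nat.coprime_primes Nat.prime_three hr).mpr (Ne.symm hr3))
        rwa [h7] at h6
      rw [Nat.dvd_one, orderOf_eq_one_iff] at h5
      rw [h5, one_pow]
  · exact Set.Finite.to_subtype ((Set.toFinite (G : Set (JZero N))).image (pullA N (sAux r r)))
  · rintro _ ⟨g, hg', rfl⟩
    have h4 : g ∈ kerJ N r r A := hg'.2
    rw [kerJ, AddSubgroup.mem_comap, kerM_eq hg.h₁ hg.h₂] at h4
    exact h4
  · rintro _ ⟨g, hg', rfl⟩
    rw [← map_nsmul, hkill g hg', map_zero]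
  · rintro _ ⟨g, hg', rfl⟩
    rw [← pullA_hecke N _ hsp hr hsr]
    exact ⟨_, hTG g hg', rfl⟩
  · rintro _ ⟨g, hg', rfl⟩ h0
    rw [← pullA_hecke N _ hsp hr hsr] at h0
    rw [hinjG g hg' (hpinj _ (hkill _ (hTG g hg')) h0), map_zero]

/-- All the inputs of the descent. -/
theorem mazurInputs {N r : ℕ} [NeZero N] (hN : N.Prime) (h2 : N ≠ 2) (h3 : N ≠ 3) (hr : r.Prime)
    (hrN : r ≠ N) (hiso : IsoAt (N * sAux r r) r hr)
    (hW : ∀ (ℓ : ℕ), ℓ.Prime → ∀ A : ValuationSubring Qb, A.LiesOverPrime ℓ →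
      ∀ (M q : ℕ) [NeZero M] [Fact q.Prime] (hqM : Nat.Coprime q M), ¬ ℓ ∣ M * q →
      WBar A M q hqM) : MazurInputs N r (kerJ N r) where
  hN := hN
  hr := hr
  hrN := hrN
  pkg ℓ hℓ hℓN A hA := redPkg hN h2 h3 hr hrN hℓ hℓN hA (hW ℓ hℓ A hA)
  uN A hA σ hσ τ hτ k x hx := uniN hN h2 h3 hr hrN hA hσ hτ k x hx
  iso := ⟨2, iso_of hN h2 h3 hr hrN hiso⟩

end Fermat.Agent.H12
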