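import Mathlib
import Fermat.Agent.H12.Iso
import Fermat.Agent.H01.P.Ascent
import Fermat.Agent.H01.P.GeoNew
import Fermat.Agent.M2B.Final

set_option autoImplicit false
set_option linter.style.haveILetI false
set_option linter.unusedSectionVars false

/-!
# Step A: classes in the kernel of the reduction on which `T_r` is invertible have high level
-/

noncomputable section

namespace Fermat.Agent.H12

open AlgebraicCurve ModularCurve IsLocalRing Fermat.Agent.H28 Fermat.Agent.Q Fermat.Agent.P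

local notation "kk" => IsLocalRing.ResidueField
local notation "Qb" => AlgebraicClosure ℚ

attribute [local instance] isAlgClosed_kk

section One

variable {M : ℕ} [NeZero M] {A : ValuationSubring Qb}

/-- Classes in the kernel of the reduction have Kummer functions with reduction one. -/
theorem exists_kum_red_one' {ℓ : ℕ} (hℓ : ℓ.Prime) (hA : A.LiesOverPrime ℓ) (hM : (M : kk A) ≠ 0)
    (h₁ : (modRed M A).IsChart (jZ M A)) (h₂ : (modRed M A).IsChart (jinvZ M A))
    {m : ℕ} {x : JZero M} (hx : x ∈ (modCharts M A h₁ h₂).kernel) (hmx : m • x = 0) :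
    ∃ f : modularFunctionFieldBar M, H05.Kum m x f ∧ Red A (f : LaurentSeries Qb) 1 := by
  have hr := isPlaceReduction_redPl (modCharts M A h₁ h₂)
  have hgen := principalGenerated (modCharts M A h₁ h₂)
  obtain ⟨E, rfl⟩ := Pic0.mk_surjective x
  rw [TwoCharts.mk_mem_kernel, TwoCharts.mem_KDiv_iff] at hx
  obtain ⟨g, hg, hEg⟩ := hx
  obtain ⟨z, hz, hzg⟩ := exists_lift (K := Qb) (A := A) M g.2
  set z₀ : modularFunctionFieldBar M := ⟨z, mem_bar_of_full hz⟩ with hz₀
  have hz0 : z₀ ≠ 0 := by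
    intro h0
    apply hzg.ne_zero (fun h => hg (Subtype.ext h))
    exact congrArg Subtype.val h0
  obtain ⟨Dz, hDz, -⟩ := HasPrincipalDivisors.exists_divisor (K := Qb) z₀ hz0
  obtain ⟨f₀, hf₀⟩ := H05.exists_kum hmx
  obtain ⟨hf₀0, D', hD'x, hD'⟩ := id hf₀
  -- `D' - E` is principal
  have hprin : (D' : Divisor Qb (modularFunctionFieldBar M)) - (E : Divisor Qb _) ∈
      Divisor.principal (K := Qb) (F := modularFunctionFieldBar M) :=
    H18.FixedClasses.mk_eq_mk_iff.mp hD'x
  obtain ⟨t, ht, hDt⟩ := hprin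
  have htz : t * z₀ ≠ 0 := mul_ne_zero ht hz0
  set f₁ : modularFunctionFieldBar M := f₀ * ((t * z₀)⁻¹) ^ m with hf₁
  have hk1 : H05.Kum m (Pic0.mk E : JZero M) f₁ := by
    have h1 := hf₀.mul (H05.kum_zero_pow (K := Qb) m (inv_ne_zero htz))
    rwa [add_zero] at h1
  have hf₁0 : f₁ ≠ 0 := hk1.1
  have hord : ∀ P : Place Qb (modularFunctionFieldBar M),
      P.ord f₁ = (m : ℤ) * ((E : Divisor Qb _) P - Dz P) := by
    intro P
    have h1 : P.ord (((t * z₀)⁻¹) ^ m) = (m : ℤ) * P.ord ((t * z₀)⁻¹) := H18.ord_pow P _ _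
    rw [hf₁, P.ord_mul hf₀0 (pow_ne_zero m (inv_ne_zero htz)), h1, P.ord_inv,
      P.ord_mul ht hz0, ← hD', ← hDt, ← hDz, Finsupp.sub_apply]
    ring
  obtain ⟨c, u, hc, hu, hred⟩ := exists_scale_bar hℓ hA hM hf₁0
  have hu1 : ∀ Q : Place (kk A) (modularFunctionFieldFullC (kk A) M), Q.ord u = Q.ord 1 := by
    intro Q
    have h1 := mapDomain_of_red hr hgen hu hred (D := m • ((E : Divisor Qb _) - Dz)) (by
      intro P
      rw [ord_const_mul P hc hf₁0, hord, Finsupp.smul_apply, Finsupp.sub_apply, nsmul_eq_mul]) Q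
    have h2 := mapDomain_of_red hr hgen (z := z₀) (u := g) hg hzg hDz Q
    have h3 : (Finsupp.mapDomain (modCharts M A h₁ h₂).redPl
        (m • ((E : Divisor Qb (modularFunctionFieldBar M)) - Dz)) :
        Divisor (kk A) (modularFunctionFieldFullC (kk A) M)) =
        m • (Finsupp.mapDomain (modCharts M A h₁ h₂).redPl (E : Divisor Qb _) -
          Finsupp.mapDomain (modCharts M A h₁ h₂).redPl Dz) := by
      have h4 := map_nsmul (Finsupp.mapDomain.addMonoidHom (M := ℤ)
        (modCharts M A h₁ h₂).redPl) m ((E : Divisor Qb (modularFunctionFieldBar M)) - Dz)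
      rw [map_sub] at h4
      exact h4
    rw [← h1, h3, Finsupp.smul_apply, Finsupp.sub_apply, hEg, h2, sub_self, smul_zero, Q.ord_one]
  obtain ⟨cb, hcb, hucb⟩ := exists_const_of_ord_eq hu one_ne_zero hu1
  rw [mul_one] at hucb
  obtain ⟨a, ha⟩ := IsLocalRing.residue_surjective (R := A) cb⁻¹
  have ha0 : (a : Qb) ≠ 0 := by
    intro h0
    have : a = 0 := Subtype.ext h0
    rw [this, map_zero] at ha
    exact inv_ne_zero hcb ha.symm
  refine ⟨algebraMap Qb (modularFunctionFieldBar M) (a : Qb) *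
    (algebraMap Qb (modularFunctionFieldBar M) c * f₁), ?_, ?_⟩
  · have h1 := (H05.kum_zero_algebraMap (F := modularFunctionFieldBar M) m ha0).mul
      ((H05.kum_zero_algebraMap (F := modularFunctionFieldBar M) m hc).mul hk1)
    rwa [zero_add, zero_add] at h1
  · have h1 : ((algebraMap Qb (modularFunctionFieldBar M) (a : Qb) *
        (algebraMap Qb (modularFunctionFieldBar M) c * f₁) : modularFunctionFieldBar M) :
        LaurentSeries Qb) = HahnSeries.C (a : Qb) *
          ((algebraMap Qb (modularFunctionFieldBar M) c * f₁ : modularFunctionFieldBar M) :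
            LaurentSeries Qb) := by
      rw [← algebraMap_eq_C]; rfl
    rw [h1]
    have h2 := (Red.C (A := A) a.2).mul hred
    have h3 : (HahnSeries.C (IsLocalRing.residue A ⟨(a : Qb), a.2⟩) * (u : LaurentSeries (kk A)) :
        LaurentSeries (kk A)) = 1 := by
      have h4 : IsLocalRing.residue A ⟨(a : Qb), a.2⟩ = cb⁻¹ := ha
      have h5 : (u : LaurentSeries (kk A)) = HahnSeries.C cb := by
        rw [hucb, ← algebraMap_eq_C]; rfl
      rw [h4, h5, ← map_mul, inv_mul_cancel₀ hcb, map_one]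
    rwa [h3] at h2

/-- The Kummer function of `T_p x`. -/
theorem kum_tP {p : ℕ} [hp : Fact p.Prime] (hpM : Nat.Coprime p M) {ζ : Qbˣ}
    (hζ : IsPrimitiveRoot ζ p) {m : ℕ} {x : JZero M} {f : modularFunctionFieldBar M}
    (hf : H05.Kum m x f) : ∃ f' : modularFunctionFieldBar M,
      H05.Kum m (heckeOperatorBar M ⟨p, hp.out⟩ x) f' ∧ (f' : LaurentSeries Qb) = tP ζ p f := by
  haveI : NeZero p := ⟨hp.out.ne_zero⟩
  refine ⟨H05.normAlong (heckeAlphaBar Qb M p) (heckeBetaBar Qb M p f), ?_, ?_⟩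
  · have h1 := hf.correspondence (heckeBetaBar Qb M p) (heckeAlphaBar Qb M p)
      (H05.heckeBetaBarIntegral Qb M p) (H05.heckeAlphaBarIntegral Qb M p)
      (H05.fundamentalIdentityAlong_of _ _ (H05.finiteAlong_beta Qb M p))
      (H05.finiteAlong_alpha Qb M p) (H05.normFormulaAlong_of _ _)
    rw [heckeOperatorBar_apply]
    change H05.Kum m (heckeOperatorAlong Qb M p x) _
    rw [heckeOperatorAlong_eq (H05.heckeAlphaBarIntegral Qb M p) (H05.heckeBetaBarIntegral Qb M p)
      (H05.fundamentalIdentityAlong_of _ _ (H05.finiteAlong_beta Qb M p))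
      (H05.finiteAlong_alpha Qb M p) (H05.normFormulaAlong_of _ _)]
    exact h1
  · rw [tP_eq_norm hpM hζ (mem_full_of_bar f.2)]
    exact coe_normAlong_alpha (M := M) (r := p) (heckeBetaBar Qb M p f)

end One

section NF

variable {M : ℕ} [NeZero M] {A : ValuationSubring Qb} {p : ℕ} [hp : Fact p.Prime] {ζ u w : Qb}

/-- the ring homomorphism to the big field -/
abbrev toQb (E : IntermediateField ℚ Qb) : E →+* Qb := algebraMap E Qb

theorem toQb_coe {E : IntermediateField ℚ Qb} (x : E) : toQb E x = (x : Qb) := rfl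

/-- **Ascent of levels over `ℚ̄`.** -/
theorem ascent_Qb (hA : A.LiesOverPrime p) (hw : Varpi A p ζ u w) (hpM : Nat.Coprime p M)
    (k : ℕ) {X : Type*} [Finite X] (y : X → X) (x : X → JZero M)
    (f : X → modularFunctionFieldBar M) (hf : ∀ i, H05.Kum (p ^ k) (x i) (f i))
    (hred : ∀ i, Red A (f i : LaurentSeries Qb) 1)
    (hT : ∀ i, heckeOperatorBar M ⟨p, hp.out⟩ (x (y i)) = x i) :
    ∀ i, x i ∈ lvl A M (p ^ k) (w ^ p) := by
  classical
  have hpk : p ^ k ≠ 0 := pow_ne_zero _ hp.out.ne_zero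
  have hζ0 : ζ ≠ 0 := hw.prim.ne_zero hp.out.ne_zero
  have hζ : IsPrimitiveRoot (Units.mk0 ζ hζ0) p := by
    rw [← IsPrimitiveRoot.coe_units_iff]
    exact hw.prim
  -- the relation
  have hrel : ∀ i, ∃ h : modularFunctionFieldBar M, h ≠ 0 ∧
      tP (Units.mk0 ζ hζ0) p (f (y i) : LaurentSeries Qb) =
        (f i : LaurentSeries Qb) * (h : LaurentSeries Qb) ^ p ^ k := by
    intro i
    obtain ⟨f', hf', he⟩ := kum_tP hpM hζ (hf (y i))
    rw [hT i] at hf'
    obtain ⟨h, hh, hfh⟩ := exists_kum_eq_mul_pow hpk hf' (hf i)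
    refine ⟨h, hh, ?_⟩
    rw [← he, hfh]
    rfl
  choose h hh0 hh using hrel
  -- the number field
  obtain ⟨E₁, hE₁, hfE₁⟩ := exists_NFm_forall (K := Qb) M (fun i => (f i : LaurentSeries Qb))
    (fun i => mem_full_of_bar (f i).2)
  obtain ⟨E₂, hE₂, hfE₂⟩ := exists_NFm_forall (K := Qb) M (fun i => (h i : LaurentSeries Qb))
    (fun i => mem_full_of_bar (h i).2)
  set E₃ : IntermediateField ℚ Qb := IntermediateField.adjoin ℚ {ζ} with hE₃
  haveI : FiniteDimensional ℚ E₃ := IntermediateField.finiteDimensional_adjoin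
    fun x _ => (Algebra.IsAlgebraic.isAlgebraic (R := ℚ) x).isIntegral
  set E : IntermediateField ℚ Qb := E₁ ⊔ E₂ ⊔ E₃ with hE
  haveI : FiniteDimensional ℚ (E₁ ⊔ E₂ : IntermediateField ℚ Qb) :=
    IntermediateField.finiteDimensional_sup E₁ E₂
  haveI : FiniteDimensional ℚ E := IntermediateField.finiteDimensional_sup (E₁ ⊔ E₂) E₃
  have hζE : ζ ∈ E := (le_sup_right : E₃ ≤ E)
    (IntermediateField.subset_adjoin ℚ _ (Set.mem_singleton ζ))
  have hfE : ∀ i, (f i : LaurentSeries Qb) ∈ NFm E M := fun i =>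
    NFm_mono (le_sup_left.trans le_sup_left) M (hfE₁ i)
  have hhE : ∀ i, (h i : LaurentSeries Qb) ∈ NFm E M := fun i =>
    NFm_mono (le_sup_right.trans le_sup_left) M (hfE₂ i)
  choose F hF hFf using fun i => mem_NFm.mp (hfE i)
  choose H hH hHh using fun i => mem_NFm.mp (hhE i)
  have hinj : Function.Injective (coeffMap (algebraMap E Qb)) :=
    coeffMap_injective _ (algebraMap E Qb).injective
  -- the root of unity
  set ζE : E := ⟨ζ, hζE⟩ with hζEdef
  have hζE0 : ζE ≠ 0 := fun h0 => hζ0 (congrArg Subtype.val h0)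
  have hprimE : IsPrimitiveRoot ζE p := by
    refine IsPrimitiveRoot.of_map_of_injective (f := algebraMap E Qb) ?_ (algebraMap E Qb).injective
    exact hw.prim
  have hζE' : IsPrimitiveRoot (Units.mk0 ζE hζE0) p := by
    rw [← IsPrimitiveRoot.coe_units_iff]
    exact hprimE
  have hmapζ : Units.map (algebraMap E Qb).toMonoidHom (Units.mk0 ζE hζE0) = Units.mk0 ζ hζ0 :=
    Units.ext rfl
  have hA' := lies_AE (E := E) hp.out hA
  haveI hchar : CharP (kk (AE A E)) p := H05.charP_residueField hp.out hA'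
  haveI := perfectRing_AE (E := E) hA
  obtain ⟨π, hπ⟩ := exists_unif_AE (E := E) hA
  obtain ⟨uE, hwE⟩ := exists_varpi (A := AE A E) hA' hprimE
  obtain ⟨e', he', hram, v, hv, hv', hwv⟩ := ram_of_varpi hπ hwE
  -- the relation over `E`
  have hrelE : ∀ i, Eqv E M (p ^ k) (tP (Units.mk0 ζE hζE0) p (F (y i))) (F i) := by
    intro i
    refine ⟨1, one_ne_zero, H i, hH i, ?_, ?_⟩
    · intro h0
      have h1 := hHh i
      rw [h0, map_zero] at h1
      exact hh0 i (Subtype.ext h1.symm)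
    · apply hinj
      rw [coeffMap_tP, hmapζ, hFf, hh i, map_one, one_mul, map_mul, map_pow, hFf, hHh, mul_comm]
  have hlv1 : ∀ i, HasLv (AE A E) π M (p ^ k) 1 (F i) := by
    intro i
    refine ⟨F i, hF i, Eqv.refl _, ?_⟩
    rw [pow_one]
    have h1 : Red (AE A E) (F i) 1 := red_down_one hp.out hA (full_le_FL M (hF i)) (by
      rw [hFf]
      exact hred i)
    apply hπ.mem_cg hp.out hA' (sub_mem (full_le_FL M (hF i)) (one_mem _))
    have h2 := h1.sub Red.one
    rwa [sub_self] at h2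
  have hlv := ascent (K := E) hπ he' hram hA' hζE' hpM k y F hrelE hlv1
    (i := p * e') (by
      have := hp.out.pos
      exact Nat.mul_pos this he') le_rfl
  -- going up
  intro i
  obtain ⟨g, hg, ⟨c, hc, U, hU, hU0, hFg⟩, hgcg⟩ := hlv i
  have hg' : coeffMap (algebraMap E Qb) g ∈ modularFunctionFieldFullC Qb M :=
    coeffMap_mem_full' (algebraMap E Qb) M hg
  have hU' : coeffMap (algebraMap E Qb) U ∈ modularFunctionFieldFullC Qb M :=
    coeffMap_mem_full' (algebraMap E Qb) M hU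
  have hU'0 : coeffMap (algebraMap E Qb) U ≠ 0 := by
    rw [Ne, map_eq_zero_iff _ hinj]
    exact hU0
  set G : modularFunctionFieldBar M := ⟨_, mem_bar_of_full hg'⟩ with hGdef
  set V : modularFunctionFieldBar M := ⟨_, mem_bar_of_full hU'⟩ with hVdef
  have hV0 : V ≠ 0 := fun h0 => hU'0 (congrArg Subtype.val h0)
  have hcQ : (c : Qb) ≠ 0 := fun h0 => hc (Subtype.ext h0)
  have hfi : f i = algebraMap Qb (modularFunctionFieldBar M) (c : Qb) * V ^ p ^ k * G := by
    apply Subtype.ext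
    have h1 := congrArg (coeffMap (algebraMap E Qb)) hFg
    rw [hFf, map_mul, map_mul, map_pow, coeffMap_C_eq] at h1
    rw [h1, ← algebraMap_eq_C]
    rfl
  refine ⟨G, ?_, ?_⟩
  · have hc0 : (algebraMap Qb (modularFunctionFieldBar M) (c : Qb)) ≠ 0 := by simpa using hcQ
    have hG : G = f i * (algebraMap Qb (modularFunctionFieldBar M) (c : Qb)⁻¹ * (V⁻¹) ^ p ^ k) := by
      rw [hfi, map_inv₀, inv_pow]
      field_simp
    have h2 := (hf i).mul ((H05.kum_zero_algebraMap (F := modularFunctionFieldBar M) (p ^ k)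
      (inv_ne_zero hcQ)).mul (H05.kum_zero_pow (K := Qb) (p ^ k) (inv_ne_zero hV0)))
    rw [add_zero, add_zero, ← hG] at h2
    exact h2
  · have h3 := cg_up (E := E) hgcg
    rw [map_sub, map_one] at h3
    have hwE' : w = ((ζE - 1 : E) : Qb) := by
      rw [hw.eq]
      rfl
    refine cg_mono ⟨((v⁻¹ : E) : Qb) ^ p, ?_, ?_⟩ h3
    · exact pow_mem (show ((v⁻¹ : E) : Qb) ∈ A from hv') p
    · rw [hwE', hwv]
      have hv0 : v ≠ 0 := by
        rintro rfl
        rw [zero_mul] at hwv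
        exact hwE.ne hwv
      have hv0' : (v : Qb) ≠ 0 := fun h0 => hv0 (Subtype.ext h0)
      have h5 : (v : Qb) ^ p * ((v⁻¹ : E) : Qb) ^ p = 1 := by
        rw [← mul_pow]
        have h6 : (v : Qb) * ((v⁻¹ : E) : Qb) = 1 := by
          have := congrArg (fun t : E => (t : Qb)) (mul_inv_cancel₀ hv0)
          exact this
        rw [h6, one_pow]
      have h7 : ((v * π ^ e' : E) : Qb) ^ p * ((v⁻¹ : E) : Qb) ^ p =
          ((v : Qb) ^ p * ((v⁻¹ : E) : Qb) ^ p) * ((π : Qb) ^ e') ^ p := by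
        rw [show ((v * π ^ e' : E) : Qb) = (v : Qb) * (π : Qb) ^ e' from rfl]
        ring
      rw [h7, h5, one_mul, ← pow_mul, mul_comm e' p]
      rfl

end NF

section Final

variable {M : ℕ} [NeZero M]

/-- **The isotropy at `r`.** -/
theorem isoAt {r : ℕ} (hr : r.Prime) (hrM : ¬ r ∣ M) : IsoAt M r hr := by
  intro A hA h₁ h₂ k X hX hXker hkill hTX hTinj x hx y hy
  haveI : Fact r.Prime := ⟨hr⟩
  have hcop : Nat.Coprime r M := hr.coprime_iff_not_dvd.mpr hrM
  have hM : (M : kk A) ≠ 0 := natCast_kk_ne hr hA hrM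
  obtain ⟨ζ, hζ⟩ := HasEnoughRootsOfUnity.exists_primitiveRoot Qb r
  obtain ⟨u, hw⟩ := exists_varpi hA hζ
  haveI : Finite X := hX
  -- the inverse of `T_r`
  let T : X → X := fun z => ⟨heckeOperatorBar M ⟨r, hr⟩ z, hTX z z.2⟩
  have hTinj' : Function.Injective T := by
    intro a b hab
    have h1 : heckeOperatorBar M ⟨r, hr⟩ ((a : JZero M) - b) = 0 := by
      rw [map_sub, sub_eq_zero]
      exact congrArg Subtype.val hab
    have h2 := hTinj _ (sub_mem a.2 b.2) h1
    exact Subtype.ext (sub_eq_zero.mp h2)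
  have hTsurj : Function.Surjective T := Finite.surjective_of_injective hTinj'
  choose S hS using hTsurj
  choose f hf hred using fun z : X => exists_kum_red_one' hr hA hM h₁ h₂ (hXker z.2) (hkill z z.2)
  have hlv := ascent_Qb hA hw hcop k S (fun z : X => (z : JZero M)) f hf hred
    (fun z => congrArg Subtype.val (hS z))
  have hw0 : (ζ - 1) ^ r ≠ 0 := pow_ne_zero _ hw.ne
  refine M2B.weilPairing_eq_one_of_lvl (modCharts M A h₁ h₂) hr hA hw0 ?_ (hlv ⟨x, hx⟩)
    (hlv ⟨y, hy⟩)
  have h1 : ((ζ - 1) ^ r) ^ (r - 1) / (r : Qb) = u⁻¹ * (ζ - 1) ^ ((r - 1) * (r - 1)) := by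
    have hw1 := hw.ne
    have hu0 := hw.u_ne
    have h2 : ((ζ - 1) ^ r) ^ (r - 1) = (ζ - 1) ^ ((r - 1) * (r - 1)) * (ζ - 1) ^ (r - 1) := by
      rw [← pow_mul, ← pow_add]
      congr 1
      obtain ⟨j, hj⟩ := Nat.exists_eq_add_of_le hr.one_le
      rw [hj]
      have : 1 + j - 1 = j := by omega
      rw [this]
      ring
    rw [h2, hw.p_eq]
    field_simp
  rw [h1, ValuationSubring.mem_nonunits_iff, map_mul, map_pow]
  have h3 : A.valuation u⁻¹ ≤ 1 := (A.valuation_le_one_iff _).mpr hw.u_inv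
  have h4 : A.valuation (ζ - 1) < 1 := by
    rw [← ValuationSubring.mem_nonunits_iff,
      ValuationSubring.mem_nonunits_iff_exists_mem_maximalIdeal]
    refine ⟨hw.mem, ?_⟩
    have h5 := hw.res
    rw [H11Q.resid_of_mem A hw.mem, IsLocalRing.residue_eq_zero_iff] at h5
    exact h5
  have h6 : (r - 1) * (r - 1) ≠ 0 := by
    have := hr.two_le
    exact Nat.mul_ne_zero (by omega) (by omega)
  have h7 : A.valuation (ζ - 1) ^ ((r - 1) * (r - 1)) < 1 := pow_lt_one₀ zero_le' h4 h6
  exact lt_of_le_of_lt (mul_le_of_le_one_left' h3) h7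

end Final

end Fermat.Agent.H12
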