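import Mathlib
import Fermat.Agent.H12.StepA
import Fermat.Agent.H12.Wire
import Fermat.Agent.H09.Dict
import Fermat.Agent.H09.WBar2

set_option autoImplicit false
set_option linter.style.haveILetI false
set_option linter.unusedSectionVars false

/-!
# Mazur's descent: all inputs
-/

noncomputable section

namespace Fermat.Agent.H12

open AlgebraicCurve ModularCurve IsLocalRing Fermat.Agent.H28

local notation "Qb" => AlgebraicClosure ℚ

theorem wBar_all {ℓ : ℕ} (hℓ : ℓ.Prime) {A : ValuationSubring Qb} (hA : A.LiesOverPrime ℓ)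
    (M q : ℕ) [NeZero M] [hq : Fact q.Prime] (hqM : Nat.Coprime q M) (h : ¬ ℓ ∣ M * q) :
    WBar A M q hqM := by
  haveI : NeZero q := ⟨hq.out.ne_zero⟩
  obtain ⟨wb, h1, -, h2, -⟩ := H09.exists_wBar (K := Qb) hℓ hA hqM (natCast_kk_ne hℓ hA h)
  refine ⟨wb, h1, fun x => ?_⟩
  exact h2 (x : LaurentSeries (ResidueField A)) x.2 (Q.incl (ResidueField A) M q x).2

theorem allInputs {N : ℕ} [NeZero N] (hN : N.Prime) (h2 : N ≠ 2) (h3 : N ≠ 3) :
    AllInputs N (fun r ℓ A => kerJ N r ℓ A) where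
  inputs r hr hrN := by
    have hne : r ≠ N := by
      rintro rfl
      have := Nat.le_of_dvd (by have := hr.two_le; omega) hrN
      have := hr.two_le
      omega
    refine mazurInputs hN h2 h3 hr hne (isoAt hr (hyp_aux hN hr hne r).1) ?_
    intro ℓ hℓ A hA M q _ _ hqM h
    exact wBar_all hℓ hA M q hqM h
  dict := by
    refine H09.dictionary_of hN h2 ?_
    intro r hr hrN ℓ hℓ hℓN A hA x y hxy
    have hyp := hyp_aux hN hℓ hℓN r
    have hg := goodLevel (M := N * sAux r ℓ) hℓ hA hyp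
    have h := H09.SameRed.mem_comap_pullN (N := N) (N' := N * sAux r ℓ) (s := sAux r ℓ) rfl
      (dvd_mul_right N _) hg.h₁ hg.h₂ hxy
    change _ ∈ kerJ N r ℓ A
    rw [kerJ, kerM_eq hg.h₁ hg.h₂]
    exact h

end Fermat.Agent.H12
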